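import Mathlib
import Fermat.Prelude.Def_ExtCitation_AdmissibleExtension_v2
import Fermat.Prelude.Def_ClassGroup_GaloisAction

set_option autoImplicit false

open NumberField IsDedekindDomain
open scoped nonZeroDivisors

namespace Fermat.Agent.S14

/-- The Kummer datum attached to a non-split admissible extension: an element `α` of the
`p`-th cyclotomic field `K` (with chosen primitive root `ζ`) which is not a `p`-th power, lies in
the `ω²`-eigenspace of `K^× / K^{× p}`, has all valuations divisible by `p`, and satisfies a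
local condition at the prime `(1 - ζ)`. -/
structure KummerDatum (p : ℕ) {K : Type} [Field K] [NumberField K] (ζ α : K) : Prop where
  ne_zero : α ≠ 0
  not_pow : ∀ c : K, α ≠ c ^ p
  eigen : ∀ (σ : K ≃ₐ[ℚ] K) (a : ℕ), σ ζ = ζ ^ a → ∃ γ : K, σ α = α ^ (a ^ 2) * γ ^ p
  val : ∀ v : HeightOneSpectrum (𝓞 K),
    (p : ℤ) ∣ FractionalIdeal.count K v (FractionalIdeal.spanSingleton (𝓞 K)⁰ α)
  loc : ∀ (η : (𝓞 K)ˣ) (γ : K), α = ((η : 𝓞 K) : K) * γ ^ p →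
    ∃ (n : ℤ) (w : 𝓞 K), ((η : 𝓞 K) : K) - (n : K) = (1 - ζ) ^ 3 * (w : K)

/-- The exponents `c_b ∈ [0, p-1]`, `c_b ≡ b⁻² mod p`. -/
def cexp (p b : ℕ) : ℕ := (((b : ZMod p)⁻¹) ^ 2).val

/-- The cyclotomic unit `E₂ = ∏_{b=1}^{p-1} ((1 - ζ^b)/(1 - ζ))^{c_b}`, written with
`(1 - ζ^b)/(1 - ζ) = ∑_{i<b} ζ^i`. -/
def E2 (p : ℕ) {K : Type} [Field K] (ζ : K) : K :=
  ∏ b ∈ Finset.Ico 1 p, (∑ i ∈ Finset.range b, ζ ^ i) ^ cexp p b

/-- The action of a field automorphism on the class group. -/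
noncomputable def clMap {K : Type} [Field K] [NumberField K] (σ : K ≃ₐ[ℚ] K) :
    ClassGroup (𝓞 K) ≃* ClassGroup (𝓞 K) :=
  ClassGroup.mulEquiv (RingOfIntegers.mapRingEquiv σ.toRingEquiv)

/-- A functional on the class group of type `ω²`. -/
def IsOmegaSq (p : ℕ) {K : Type} [Field K] [NumberField K] (ζ : K)
    (ψ : ClassGroup (𝓞 K) →* Multiplicative (ZMod p)) : Prop :=
  ∀ (σ : K ≃ₐ[ℚ] K) (a : ℕ), σ ζ = ζ ^ a → ∀ c : ClassGroup (𝓞 K), ψ (clMap σ c) = ψ c ^ (a ^ 2)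

/-- The class of a nonzero prime ideal. -/
noncomputable def primeClass {K : Type} [Field K] [NumberField K]
    (v : HeightOneSpectrum (𝓞 K)) : ClassGroup (𝓞 K) :=
  ClassGroup.mk0 ⟨v.asIdeal, mem_nonZeroDivisors_of_ne_zero v.ne_bot⟩

/-- The sum `∑_{v ∈ S} N(v)^{-s}` over a set of nonzero primes. -/
noncomputable def primeSum {F : Type} [Field F] [NumberField F]
    (S : Set (HeightOneSpectrum (𝓞 F))) (s : ℝ) : ℝ :=
  ∑' v : S, (Ideal.absNorm v.1.asIdeal : ℝ) ^ (-s)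

/-- The partial zeta function of an ideal class (real argument). -/
noncomputable def classZeta (F : Type) [Field F] [NumberField F] (c : ClassGroup (𝓞 F))
    (s : ℝ) : ℝ :=
  ∑' I : {I : (Ideal (𝓞 F))⁰ // ClassGroup.mk0 I = c},
    (Ideal.absNorm (I.1 : Ideal (𝓞 F)) : ℝ) ^ (-s)

/-- The Dedekind zeta function as a sum over nonzero ideals (real argument). -/
noncomputable def idealZeta (F : Type) [Field F] [NumberField F] (s : ℝ) : ℝ :=
  ∑' I : (Ideal (𝓞 F))⁰, (Ideal.absNorm (I : Ideal (𝓞 F)) : ℝ) ^ (-s)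

/-- Local shorthand: the resolvent datum extracted from a non-split admissible extension,
living inside `AlgebraicClosure ℚ`. -/
structure ResolventDatum (p : ℕ) (ζ₀ A : AlgebraicClosure ℚ) : Prop where
  prim : IsPrimitiveRoot ζ₀ p
  ne_zero : A ≠ 0
  exists_move : ∃ h : AlgebraicClosure ℚ ≃ₐ[ℚ] AlgebraicClosure ℚ, h ζ₀ = ζ₀ ∧ h A = ζ₀ * A
  fix_pow : ∀ σ : AlgebraicClosure ℚ ≃ₐ[ℚ] AlgebraicClosure ℚ, σ ζ₀ = ζ₀ →
    ∃ j : ℕ, σ A = ζ₀ ^ j * A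
  eigen : ∀ (σ : AlgebraicClosure ℚ ≃ₐ[ℚ] AlgebraicClosure ℚ) (a : ℕ), σ ζ₀ = ζ₀ ^ a →
    ∀ τ : AlgebraicClosure ℚ ≃ₐ[ℚ] AlgebraicClosure ℚ, τ ζ₀ = ζ₀ →
      τ (σ A / A ^ (a ^ 2)) = σ A / A ^ (a ^ 2)
  unram : ∀ ℓ : ℕ, ℓ.Prime → ℓ ≠ p →
    ∀ B : ValuationSubring (AlgebraicClosure ℚ), B.LiesOverPrime ℓ →
      ∀ σ ∈ B.inertiaSubgroupIn ℚ, σ A = A
  split : ∀ B : ValuationSubring (AlgebraicClosure ℚ), B.LiesOverPrime p →
    ∀ σ ∈ B.decompositionSubgroup ℚ, σ ζ₀ = ζ₀ → σ A = A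

end Fermat.Agent.S14
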