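import Mathlib

set_option autoImplicit false

open IsDedekindDomain
open scoped nonZeroDivisors

namespace Fermat.Agent.S14

/-- Adapter between the adic valuation and `FractionalIdeal.count`:
`v(x) = exp (- count_v (x))`. -/
theorem valuation_eq_exp_neg_count {R : Type*} [CommRing R] [IsDedekindDomain R] {K : Type*}
    [Field K] [Algebra R K] [IsFractionRing R K] (v : HeightOneSpectrum R) (x : K) (hx : x ≠ 0) :
    v.valuation K x =
      WithZero.exp (-(FractionalIdeal.count K v (FractionalIdeal.spanSingleton R⁰ x))) := by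
  have key : ∀ t : R, t ≠ 0 → v.valuation K (algebraMap R K t) = WithZero.exp
      (-(FractionalIdeal.count K v (FractionalIdeal.spanSingleton R⁰ (algebraMap R K t)))) := by
    intro t ht
    have hspan : (Ideal.span {t} : Ideal R) ≠ 0 := by
      rw [Ideal.zero_eq_bot, Ne, Ideal.span_singleton_eq_bot]
      exact ht
    rw [HeightOneSpectrum.valuation_of_algebraMap, HeightOneSpectrum.intValuation_if_neg v ht,
      ← FractionalIdeal.coeIdeal_span_singleton, FractionalIdeal.count_coe K v hspan]
  obtain ⟨r, s, hs, rfl⟩ := IsFractionRing.div_surjective (A := R) x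
  have hs0 : s ≠ 0 := nonZeroDivisors.ne_zero hs
  have hs0' : algebraMap R K s ≠ 0 := by
    simpa using hs0
  have hr0' : algebraMap R K r ≠ 0 := by
    rintro h
    rw [h, zero_div] at hx
    exact hx rfl
  have hr0 : r ≠ 0 := by
    rintro rfl
    exact hr0' (map_zero _)
  have hsplit : FractionalIdeal.spanSingleton R⁰ (algebraMap R K r / algebraMap R K s) =
      FractionalIdeal.spanSingleton R⁰ (algebraMap R K r) *
        (FractionalIdeal.spanSingleton R⁰ (algebraMap R K s))⁻¹ := by
    rw [FractionalIdeal.spanSingleton_inv, FractionalIdeal.spanSingleton_mul_spanSingleton,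
      div_eq_mul_inv]
  rw [map_div₀, key r hr0, key s hs0, hsplit, FractionalIdeal.count_mul, FractionalIdeal.count_inv,
    ← WithZero.exp_sub]
  · congr 1
    ring
  · exact FractionalIdeal.spanSingleton_ne_zero_iff.mpr hr0'
  · exact inv_ne_zero (FractionalIdeal.spanSingleton_ne_zero_iff.mpr hs0')

/-- `p ∣ count_v (x)` from `v(x) = c ^ p`. -/
theorem dvd_count_of_valuation_eq_pow {R : Type*} [CommRing R] [IsDedekindDomain R] {K : Type*}
    [Field K] [Algebra R K] [IsFractionRing R K] (v : HeightOneSpectrum R) (x : K) (hx : x ≠ 0)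
    (p : ℕ) (c : WithZero (Multiplicative ℤ)) (h : v.valuation K x = c ^ p) :
    (p : ℤ) ∣ FractionalIdeal.count K v (FractionalIdeal.spanSingleton R⁰ x) := by
  rw [valuation_eq_exp_neg_count v x hx] at h
  by_cases hc0 : c = 0
  · subst hc0
    rcases Nat.eq_zero_or_pos p with hp | hp
    · subst hp
      simp at h
      rw [h]
      simp
    · rw [zero_pow hp.ne'] at h
      exact absurd h WithZero.exp_ne_zero
  · have hc' : c = WithZero.exp (WithZero.log c) := (WithZero.exp_log hc0).symm
    rw [hc', ← WithZero.exp_nsmul, WithZero.exp_inj] at h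
    refine ⟨-WithZero.log c, ?_⟩
    have : FractionalIdeal.count K v (FractionalIdeal.spanSingleton R⁰ x) =
        -(p • WithZero.log c) := by rw [← h]; ring
    rw [this]
    simp

end Fermat.Agent.S14
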