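import Mathlib
import Fermat.Prelude.Def_ExtCitation_AdmissibleExtension_v2
import Fermat.Agent.S14.Defs
import Fermat.Agent.S14.ValCount

/-!
# S14, piece BR3: the final assembly.

From the Kummer generator (`kummer_data`), the two local statements (`bridge_hc`, `bridge_hd`)
and the non-existence of Kummer data (`no_kummerDatum`), all taken as hypotheses, we deduce
`ExtCitation.ExtVanishingCts p`.
-/

set_option autoImplicit false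

namespace Fermat.Agent.S14

open NumberField
open scoped Pointwise

local notation "Qb" => AlgebraicClosure ℚ
local notation "Γ" => (AlgebraicClosure ℚ ≃ₐ[ℚ] AlgebraicClosure ℚ)

theorem asm_isAlgebraic : Algebra.IsAlgebraic ℚ Qb := AlgebraicClosure.isAlgebraic ℚ

theorem asm_isAlgClosure : IsAlgClosure ℚ Qb := ⟨inferInstance, asm_isAlgebraic⟩

theorem asm_isGalois : IsGalois ℚ Qb := @IsAlgClosure.isGalois ℚ Qb _ _ _ asm_isAlgClosure _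

theorem asm_normal : Normal ℚ Qb := asm_isGalois.to_normal

/-- The field `ℚ(ζ) ⊆ ℚ̄` is a number field. -/
theorem asm_numberField {p : ℕ} [Fact p.Prime] {ζ : Qb} (hζ : IsPrimitiveRoot ζ p) :
    NumberField (IntermediateField.adjoin ℚ {ζ}) := by
  have hint : IsIntegral ℚ ζ := (hζ.isIntegral (Fact.out : p.Prime).pos).tower_top
  have : FiniteDimensional ℚ (IntermediateField.adjoin ℚ {ζ}) :=
    IntermediateField.adjoin.finiteDimensional hint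
  exact ⟨⟩

/-- The field `ℚ(ζ) ⊆ ℚ̄` is the `p`-th cyclotomic extension of `ℚ`. -/
theorem asm_isCyclotomicExtension {p : ℕ} [Fact p.Prime] {ζ : Qb} (hζ : IsPrimitiveRoot ζ p) :
    IsCyclotomicExtension {p} ℚ (IntermediateField.adjoin ℚ {ζ}) := by
  have : NeZero p := ⟨(Fact.out : p.Prime).ne_zero⟩
  have := asm_isAlgebraic
  exact hζ.intermediateField_adjoin_isCyclotomicExtension ℚ

/-- An automorphism fixing `ζ` fixes `ℚ(ζ)` pointwise. -/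
theorem asm_fix_adjoin {ζ : Qb} (σ : Γ) (hσ : σ ζ = ζ) (x : Qb)
    (hx : x ∈ IntermediateField.adjoin ℚ {ζ}) : σ x = x := by
  induction hx using IntermediateField.adjoin_induction with
  | mem y hy =>
    rw [Set.mem_singleton_iff] at hy
    rw [hy, hσ]
  | algebraMap y => exact σ.commutes y
  | add y z _ _ hy hz => rw [map_add, hy, hz]
  | inv y _ hy => rw [map_inv₀, hy]
  | mul y z _ _ hy hz => rw [map_mul, hy, hz]

/-! ## Construction of the Kummer datum -/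

section Datum

variable {p : ℕ} [Fact p.Prime] (E : IntermediateField ℚ Qb) (ζ A : Qb)

theorem asm_not_pow (hζE : ζ ∈ E) (hEfix : ∀ σ : Γ, σ ζ = ζ → ∀ x ∈ E, σ x = x)
    (hζ : IsPrimitiveRoot ζ p) (hA0 : A ≠ 0) (hAp : A ^ p ∈ E)
    (h₀ : Γ) (h₀ζ : h₀ ζ = ζ) (h₀A : h₀ A = ζ * A) (c : E) :
    (⟨A ^ p, hAp⟩ : E) ≠ c ^ p := by
  have hp : p.Prime := Fact.out
  have : NeZero p := ⟨hp.ne_zero⟩
  intro h
  have h1 : A ^ p = (c : Qb) ^ p := by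
    have := congrArg (fun x : E => (x : Qb)) h
    simpa using this
  have hc0 : (c : Qb) ≠ 0 := by
    intro hc
    rw [hc, zero_pow hp.ne_zero] at h1
    exact hA0 (pow_eq_zero_iff hp.ne_zero |>.mp h1)
  have h2 : (A / (c : Qb)) ^ p = 1 := by
    rw [div_pow, h1, div_self (pow_ne_zero _ hc0)]
  obtain ⟨i, _, hi⟩ := hζ.eq_pow_of_pow_eq_one h2
  have hAE : A ∈ E := by
    have h3 : A = ζ ^ i * (c : Qb) := by
      rw [hi, div_mul_cancel₀ _ hc0]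
    rw [h3]
    exact E.mul_mem (pow_mem hζE i) c.2
  have h4 := hEfix h₀ h₀ζ A hAE
  rw [h₀A] at h4
  have h5 : ζ = 1 := by
    have h6 : ζ * A = 1 * A := by rw [h4, one_mul]
    exact mul_right_cancel₀ hA0 h6
  exact hζ.ne_one hp.one_lt h5

theorem asm_eigen (hζE : ζ ∈ E) (hζ : IsPrimitiveRoot ζ p)
    (hcyc : ∀ σ : Γ, σ ζ = ζ ^ ExtCitation.cycloExp p σ) (hA0 : A ≠ 0) (hAp : A ^ p ∈ E)
    (heig : ∀ σ : Γ, ∃ γ ∈ E, σ A = A ^ (ExtCitation.cycloExp p σ ^ 2) * γ)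
    (σ : E ≃ₐ[ℚ] E) (a : ℕ) (hσ : σ (⟨ζ, hζE⟩ : E) = (⟨ζ, hζE⟩ : E) ^ a) :
    ∃ γ : E, σ (⟨A ^ p, hAp⟩ : E) = (⟨A ^ p, hAp⟩ : E) ^ (a ^ 2) * γ ^ p := by
  have hp : p.Prime := Fact.out
  have := asm_normal
  have hσ' : ∀ x : E, σ.liftNormal Qb (x : Qb) = ((σ x : E) : Qb) :=
    fun x => σ.liftNormal_commutes Qb x
  have h1 : σ.liftNormal Qb ζ = ζ ^ a := by
    have h2 := hσ' ⟨ζ, hζE⟩
    rw [hσ] at h2
    simpa using h2
  have h3 : ζ ^ a = ζ ^ ExtCitation.cycloExp p (σ.liftNormal Qb) := by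
    rw [← h1, hcyc]
  have h4 : a ≡ ExtCitation.cycloExp p (σ.liftNormal Qb) [MOD p] := by
    have h5 : ζ ^ (a % p) = ζ ^ (ExtCitation.cycloExp p (σ.liftNormal Qb) % p) := by
      rw [← pow_eq_pow_mod a hζ.pow_eq_one, ← pow_eq_pow_mod _ hζ.pow_eq_one]
      exact h3
    exact hζ.pow_inj (Nat.mod_lt _ hp.pos) (Nat.mod_lt _ hp.pos) h5
  obtain ⟨γ₀, hγ₀E, hγ₀⟩ := heig (σ.liftNormal Qb)
  set e := ExtCitation.cycloExp p (σ.liftNormal Qb) with he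
  have h6 : ((a ^ 2 : ℕ) : ℤ) ≡ ((e ^ 2 : ℕ) : ℤ) [ZMOD p] :=
    Int.natCast_modEq_iff.mpr (h4.pow 2)
  obtain ⟨k, hk⟩ := h6.dvd
  have hX : A ^ p ≠ 0 := pow_ne_zero _ hA0
  refine ⟨(⟨A ^ p, hAp⟩ : E) ^ k * ⟨γ₀, hγ₀E⟩, ?_⟩
  apply Subtype.ext
  have h7 : ((σ (⟨A ^ p, hAp⟩ : E) : E) : Qb) = (A ^ (e ^ 2) * γ₀) ^ p := by
    rw [← hσ' ⟨A ^ p, hAp⟩, map_pow, hγ₀]
  rw [h7]
  have h8 : (((⟨A ^ p, hAp⟩ : E) ^ (a ^ 2) * ((⟨A ^ p, hAp⟩ : E) ^ k * ⟨γ₀, hγ₀E⟩) ^ p : E) : Qb)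
      = (A ^ p) ^ (a ^ 2) * ((A ^ p) ^ k * γ₀) ^ p := by
    push_cast
    rfl
  rw [h8]
  have h9 : (A ^ p) ^ (a ^ 2) * ((A ^ p) ^ k) ^ p = (A ^ p) ^ (e ^ 2) := by
    rw [← zpow_natCast ((A ^ p) ^ k) p, ← zpow_mul, ← zpow_natCast (A ^ p) (a ^ 2),
      ← zpow_add₀ hX, ← zpow_natCast (A ^ p) (e ^ 2)]
    congr 1
    linarith
  rw [mul_pow ((A ^ p) ^ k), ← mul_assoc, h9, mul_pow, ← pow_mul, ← pow_mul, mul_comm p]

theorem asm_loc [NumberField E] (hζE : ζ ∈ E) (hζ : IsPrimitiveRoot ζ p) (hAp : A ^ p ∈ E)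
    (hd : ∀ η γ : Qb, η ∈ E → γ ∈ E → IsIntegral ℤ η → IsIntegral ℤ η⁻¹ → A ^ p = η * γ ^ p →
      ∃ n : ℤ, IsIntegral ℤ ((η - n) / (ζ - 1) ^ 3))
    (η : (𝓞 E)ˣ) (γ : E) (hα : (⟨A ^ p, hAp⟩ : E) = ((η : 𝓞 E) : E) * γ ^ p) :
    ∃ (n : ℤ) (w : 𝓞 E), ((η : 𝓞 E) : E) - (n : E) = (1 - (⟨ζ, hζE⟩ : E)) ^ 3 * (w : E) := by
  have hp : p.Prime := Fact.out
  have hint : IsIntegral ℤ ((((η : 𝓞 E) : E)) : Qb) :=
    map_isIntegral_int E.val (RingOfIntegers.isIntegral_coe (η : 𝓞 E))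
  have hinv : ((((η⁻¹ : (𝓞 E)ˣ) : 𝓞 E) : E) : Qb) = ((((η : 𝓞 E) : E)) : Qb)⁻¹ := by
    have h1 : ((η : 𝓞 E) : E) * (((η⁻¹ : (𝓞 E)ˣ) : 𝓞 E) : E) = 1 := by
      rw [← map_mul, ← Units.val_mul, mul_inv_cancel, Units.val_one, map_one]
    have h2 : ((((η : 𝓞 E) : E)) : Qb) * ((((η⁻¹ : (𝓞 E)ˣ) : 𝓞 E) : E) : Qb) = 1 := by
      rw [← E.coe_mul, h1, E.coe_one]
    exact eq_inv_of_mul_eq_one_right h2
  have hinvint : IsIntegral ℤ ((((η : 𝓞 E) : E)) : Qb)⁻¹ := by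
    rw [← hinv]
    exact map_isIntegral_int E.val (RingOfIntegers.isIntegral_coe ((η⁻¹ : (𝓞 E)ˣ) : 𝓞 E))
  have hA : A ^ p = ((((η : 𝓞 E) : E)) : Qb) * (γ : Qb) ^ p := by
    have := congrArg (fun x : E => (x : Qb)) hα
    simpa using this
  obtain ⟨n, hn⟩ := hd _ _ (((η : 𝓞 E) : E)).2 γ.2 hint hinvint hA
  have hζ1 : (⟨ζ, hζE⟩ : E) - 1 ≠ 0 := by
    intro h
    have h1 : ζ - 1 = 0 := by
      have := congrArg (fun x : E => (x : Qb)) h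
      simpa using this
    exact hζ.ne_one hp.one_lt (sub_eq_zero.mp h1)
  have hxint : IsIntegral ℤ ((((η : 𝓞 E) : E) - (n : E)) / ((⟨ζ, hζE⟩ : E) - 1) ^ 3) := by
    rw [← isIntegral_algebraMap_iff (FaithfulSMul.algebraMap_injective E Qb)]
    convert hn using 1
    simp [IntermediateField.algebraMap_apply]
  obtain ⟨w, hw⟩ := (IsIntegralClosure.isIntegral_iff (A := 𝓞 E)).mp hxint
  refine ⟨n, -w, ?_⟩
  have hw' : ((-w : 𝓞 E) : E) =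
      -((((η : 𝓞 E) : E) - (n : E)) / ((⟨ζ, hζE⟩ : E) - 1) ^ 3) := by
    rw [← hw]
    exact map_neg (algebraMap (𝓞 E) E) w
  rw [hw']
  field_simp
  ring

theorem asm_kummerDatum [NumberField E] (hζE : ζ ∈ E)
    (hEfix : ∀ σ : Γ, σ ζ = ζ → ∀ x ∈ E, σ x = x)
    (hζ : IsPrimitiveRoot ζ p)
    (hcyc : ∀ σ : Γ, σ ζ = ζ ^ ExtCitation.cycloExp p σ) (hA0 : A ≠ 0) (hAp : A ^ p ∈ E)
    (h₀ : Γ) (h₀ζ : h₀ ζ = ζ) (h₀A : h₀ A = ζ * A)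
    (heig : ∀ σ : Γ, ∃ γ ∈ E, σ A = A ^ (ExtCitation.cycloExp p σ ^ 2) * γ)
    (hc : ∀ v : IsDedekindDomain.HeightOneSpectrum (𝓞 E),
      ∃ c : WithZero (Multiplicative ℤ), v.valuation E ⟨A ^ p, hAp⟩ = c ^ p)
    (hd : ∀ η γ : Qb, η ∈ E → γ ∈ E → IsIntegral ℤ η → IsIntegral ℤ η⁻¹ → A ^ p = η * γ ^ p →
      ∃ n : ℤ, IsIntegral ℤ ((η - n) / (ζ - 1) ^ 3)) :
    KummerDatum p (⟨ζ, hζE⟩ : E) (⟨A ^ p, hAp⟩ : E) := by
  have hα0 : (⟨A ^ p, hAp⟩ : E) ≠ 0 := by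
    intro h
    have h1 : A ^ p = 0 := by
      have := congrArg (fun x : E => (x : Qb)) h
      simpa using this
    exact pow_ne_zero _ hA0 h1
  refine ⟨hα0, ?_, ?_, ?_, ?_⟩
  · exact asm_not_pow E ζ A hζE hEfix hζ hA0 hAp h₀ h₀ζ h₀A
  · exact asm_eigen E ζ A hζE hζ hcyc hA0 hAp heig
  · intro v
    obtain ⟨c, hc'⟩ := hc v
    exact dvd_count_of_valuation_eq_pow v _ hα0 p c hc'
  · exact asm_loc E ζ A hζE hζ hAp hd

end Datum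

/-! ## The assembly -/

/-- **BR3**. `ExtVanishingCts p` from the Kummer generator `H1` (`kummer_data`), the local
statements `H2` (`bridge_hc`) and `H3` (`bridge_hd`), and the non-existence of Kummer data `H4`
(`no_kummerDatum`). -/
theorem extVanishing_of {p : ℕ} [Fact p.Prime]
    (H1 : ∀ (V : Type) [AddCommGroup V] [Module (ZMod p) V] [DistribMulAction Γ V]
      [SMulCommClass Γ (ZMod p) V] (C : Submodule (ZMod p) V),
      ExtCitation.IsAdmissibleExtensionCts p V C → ¬ ExtCitation.SplitsGlobally C →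
      ∃ ζ A : Qb, IsPrimitiveRoot ζ p ∧ (∀ σ : Γ, σ ζ = ζ ^ ExtCitation.cycloExp p σ) ∧ A ≠ 0 ∧
        A ^ p ∈ IntermediateField.adjoin ℚ {ζ} ∧
        (∃ h₀ : Γ, h₀ ζ = ζ ∧ h₀ A = ζ * A) ∧
        (∀ σ : Γ, (∀ v : V, σ • v = v) ↔ (σ ζ = ζ ∧ σ A = A)) ∧
        (∀ σ : Γ, ∃ γ ∈ IntermediateField.adjoin ℚ {ζ},
          σ A = A ^ (ExtCitation.cycloExp p σ ^ 2) * γ))
    (H2 : ∀ (V : Type) [AddCommGroup V] [Module (ZMod p) V] [DistribMulAction Γ V]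
      [SMulCommClass Γ (ZMod p) V] (C : Submodule (ZMod p) V),
      ExtCitation.IsAdmissibleExtensionCts p V C →
      ∀ (ζ A : Qb), IsPrimitiveRoot ζ p → A ≠ 0 →
      ∀ (hAp : A ^ p ∈ IntermediateField.adjoin ℚ {ζ}) (h₀ : Γ), h₀ ζ = ζ → h₀ A = ζ * A →
      (∀ σ : Γ, (∀ v : V, σ • v = v) ↔ (σ ζ = ζ ∧ σ A = A)) →
      (∀ σ : Γ, σ ζ = ζ ^ ExtCitation.cycloExp p σ) →
      ∀ [NumberField (IntermediateField.adjoin ℚ {ζ})]
        (v : IsDedekindDomain.HeightOneSpectrum (𝓞 (IntermediateField.adjoin ℚ {ζ}))),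
        ∃ c : WithZero (Multiplicative ℤ),
          v.valuation (IntermediateField.adjoin ℚ {ζ}) ⟨A ^ p, hAp⟩ = c ^ p)
    (H3 : ∀ (V : Type) [AddCommGroup V] [Module (ZMod p) V] [DistribMulAction Γ V]
      [SMulCommClass Γ (ZMod p) V] (C : Submodule (ZMod p) V),
      ExtCitation.IsAdmissibleExtensionCts p V C →
      ∀ (ζ A : Qb), IsPrimitiveRoot ζ p → A ≠ 0 →
      A ^ p ∈ IntermediateField.adjoin ℚ {ζ} → ∀ (h₀ : Γ), h₀ ζ = ζ → h₀ A = ζ * A →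
      (∀ σ : Γ, (∀ v : V, σ • v = v) ↔ (σ ζ = ζ ∧ σ A = A)) →
      (∀ σ : Γ, σ ζ = ζ ^ ExtCitation.cycloExp p σ) →
      ∀ (η γ : Qb), η ∈ IntermediateField.adjoin ℚ {ζ} → γ ∈ IntermediateField.adjoin ℚ {ζ} →
      IsIntegral ℤ η → IsIntegral ℤ η⁻¹ → A ^ p = η * γ ^ p →
      ∃ n : ℤ, IsIntegral ℤ ((η - n) / (ζ - 1) ^ 3))
    (H4 : ∀ (K : Type) [Field K] [NumberField K] [IsCyclotomicExtension {p} ℚ K] (ζ : K),
      IsPrimitiveRoot ζ p → ∀ α : K, ¬ KummerDatum p ζ α) :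
    ExtCitation.ExtVanishingCts p := by
  intro V _ _ _ _ C hadm
  by_contra hns
  obtain ⟨ζ, A, hζ, hcyc, hA0, hAp, ⟨h₀, h₀ζ, h₀A⟩, hker, heig⟩ := H1 V C hadm hns
  have hNF := asm_numberField hζ
  have hCE := asm_isCyclotomicExtension hζ
  have hK := asm_kummerDatum (IntermediateField.adjoin ℚ {ζ}) ζ A
    (IntermediateField.mem_adjoin_simple_self ℚ ζ)
    (fun σ hσ x hx => asm_fix_adjoin σ hσ x hx) hζ hcyc hA0 hAp h₀ h₀ζ h₀A heig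
    (fun v => H2 V C hadm ζ A hζ hA0 hAp h₀ h₀ζ h₀A hker hcyc v)
    (fun η γ hη hγ hηint hηinv hA =>
      H3 V C hadm ζ A hζ hA0 hAp h₀ h₀ζ h₀A hker hcyc η γ hη hγ hηint hηinv hA)
  exact H4 (IntermediateField.adjoin ℚ {ζ}) ⟨ζ, IntermediateField.mem_adjoin_simple_self ℚ ζ⟩
    (IsPrimitiveRoot.coe_submonoidClass_iff.mp hζ) ⟨A ^ p, hAp⟩ hK

end Fermat.Agent.S14
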