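import Mathlib
import Fermat.Prelude.Def_ExtCitation_AdmissibleExtension_v2
import Fermat.Prelude.Def_ExtCitation_KummerBridge

/-!
# S14 bridge piece BR1: cocycle, split case, Kummer generator

From a non-split admissible extension `0 → C → V → V/C → 0` (`C` trivial, `V/C` cyclotomic) we
extract a primitive `p`-th root of unity `ζ` and a Kummer generator `A` over `ℚ(ζ)`.
-/

set_option autoImplicit false

namespace Fermat.Agent.S14

open scoped Pointwise

local notation "Qb" => AlgebraicClosure ℚ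
local notation "Γ" => (AlgebraicClosure ℚ ≃ₐ[ℚ] AlgebraicClosure ℚ)

theorem br1_isAlgebraic : Algebra.IsAlgebraic ℚ Qb := AlgebraicClosure.isAlgebraic ℚ

attribute [local instance] br1_isAlgebraic

theorem br1_isAlgClosure : IsAlgClosure ℚ Qb := ⟨inferInstance, inferInstance⟩

attribute [local instance] br1_isAlgClosure

theorem br1_isGalois : IsGalois ℚ Qb := inferInstance

attribute [local instance] br1_isGalois

section Module

variable {p : ℕ} [Fact p.Prime] {V : Type} [AddCommGroup V] [Module (ZMod p) V]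
  [DistribMulAction Γ V] [SMulCommClass Γ (ZMod p) V] {C : Submodule (ZMod p) V}

/-- The mod `p` cyclotomic character with values in `ZMod p`. -/
noncomputable def br1Om (p : ℕ) [Fact p.Prime] (σ : Γ) : ZMod p := (ExtCitation.cycloExp p σ : ZMod p)

theorem br1Om_mul (σ τ : Γ) : br1Om p (σ * τ) = br1Om p σ * br1Om p τ := by
  unfold br1Om
  rw [← ExtCitation.coe_cycloChar, ← ExtCitation.coe_cycloChar, ← ExtCitation.coe_cycloChar,
    map_mul, Units.val_mul]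

theorem br1Om_one : br1Om p (1 : Γ) = 1 := by
  unfold br1Om
  rw [← ExtCitation.coe_cycloChar, map_one, Units.val_one]

theorem br1Om_ne_zero (σ : Γ) : br1Om p σ ≠ 0 := by
  unfold br1Om
  rw [← ExtCitation.coe_cycloChar]
  exact Units.ne_zero _

/-- The cocycle package: a basis `v₀, c₀` adapted to `C` and the cocycle `b`. -/
structure Br1Cocycle (p : ℕ) [Fact p.Prime] (V : Type) [AddCommGroup V] [Module (ZMod p) V]
    [DistribMulAction Γ V] [SMulCommClass Γ (ZMod p) V] (C : Submodule (ZMod p) V)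
    (c₀ v₀ : V) (b : Γ → ZMod p) : Prop where
  c_mem : c₀ ∈ C
  c_ne : c₀ ≠ 0
  v_not : v₀ ∉ C
  span_V : ∀ v : V, ∃ s t : ZMod p, v = s • v₀ + t • c₀
  fixed : ∀ σ : Γ, σ • c₀ = c₀
  act : ∀ σ : Γ, σ • v₀ = br1Om p σ • v₀ + b σ • c₀

omit [DistribMulAction Γ V] [SMulCommClass Γ (ZMod p) V] in
/-- Uniqueness of coordinates. -/
theorem br1_unique {c₀ v₀ : V} (hc : c₀ ∈ C) (hc0 : c₀ ≠ 0) (hv : v₀ ∉ C) {s t s' t' : ZMod p}
    (h : s • v₀ + t • c₀ = s' • v₀ + t' • c₀) : s = s' ∧ t = t' := by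
  have h1 : (s - s') • v₀ = (t' - t) • c₀ := by
    rw [sub_smul, sub_smul, sub_eq_sub_iff_add_eq_add]
    rw [add_comm (t' • c₀), ← h, add_comm]
  have hs : s = s' := by
    by_contra hne
    have hne' : s - s' ≠ 0 := sub_ne_zero.mpr hne
    apply hv
    have h2 : v₀ = (s - s')⁻¹ • ((t' - t) • c₀) := by
      rw [← h1, smul_smul, inv_mul_cancel₀ hne', one_smul]
    rw [h2]
    exact C.smul_mem _ (C.smul_mem _ hc)
  refine ⟨hs, ?_⟩
  subst hs
  rw [sub_self, zero_smul] at h1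
  have h3 := (smul_eq_zero.mp h1.symm).resolve_right hc0
  exact (sub_eq_zero.mp h3).symm

theorem br1_exists_cocycle (hadm : ExtCitation.IsAdmissibleExtensionCts p V C) :
    ∃ (c₀ v₀ : V) (b : Γ → ZMod p), Br1Cocycle p V C c₀ v₀ b := by
  have hp : p.Prime := Fact.out
  have hfinC : Finite C := Nat.finite_of_card_ne_zero (by rw [hadm.card_sub]; exact hp.ne_zero)
  have hfinV : Finite V := Nat.finite_of_card_ne_zero (by
    rw [hadm.card_total]; exact pow_ne_zero _ hp.ne_zero)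
  -- `c₀`
  have hntC : Nontrivial C := by
    rw [← Finite.one_lt_card_iff_nontrivial, hadm.card_sub]
    exact hp.one_lt
  obtain ⟨⟨c₀, hc⟩, hc0'⟩ := exists_ne (0 : C)
  have hc0 : c₀ ≠ 0 := fun h => hc0' (Subtype.ext h)
  -- `v₀`
  have hv : ∃ v₀ : V, v₀ ∉ C := by
    by_contra hall
    push Not at hall
    have h1 : Nat.card C = Nat.card V := Nat.card_congr (Equiv.subtypeUnivEquiv hall)
    rw [hadm.card_sub, hadm.card_total] at h1
    have h2 : p ^ 1 = p ^ 2 := by rw [pow_one]; exact h1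
    exact absurd (Nat.pow_right_injective hp.two_le h2) (by norm_num)
  obtain ⟨v₀, hv⟩ := hv
  -- spanning
  have hspanV : ∀ v : V, ∃ s t : ZMod p, v = s • v₀ + t • c₀ := by
    let g : ZMod p × ZMod p → V := fun x => x.1 • v₀ + x.2 • c₀
    have hg : Function.Injective g := by
      rintro ⟨s, t⟩ ⟨s', t'⟩ h
      obtain ⟨h1, h2⟩ := br1_unique hc hc0 hv h
      exact Prod.ext h1 h2
    have hcard : Nat.card V ≤ Nat.card (ZMod p × ZMod p) := by
      rw [hadm.card_total, Nat.card_prod, Nat.card_zmod, sq]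
    have hbij := hg.bijective_of_nat_card_le hcard
    intro v
    obtain ⟨⟨s, t⟩, hst⟩ := hbij.2 v
    exact ⟨s, t, hst.symm⟩
  have hspanC : ∀ x ∈ C, ∃ t : ZMod p, x = t • c₀ := by
    intro x hx
    obtain ⟨s, t, hst⟩ := hspanV x
    have hs : s = 0 := by
      by_contra hne
      apply hv
      have h2 : v₀ = s⁻¹ • (x - t • c₀) := by
        rw [hst, add_sub_cancel_right, smul_smul, inv_mul_cancel₀ hne, one_smul]
      rw [h2]
      exact C.smul_mem _ (C.sub_mem hx (C.smul_mem _ hc))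
    exact ⟨t, by rw [hst, hs, zero_smul, zero_add]⟩
  -- the cocycle
  have hb : ∀ σ : Γ, ∃ t : ZMod p, σ • v₀ = br1Om p σ • v₀ + t • c₀ := by
    intro σ
    obtain ⟨t, ht⟩ := hspanC _ (hadm.cyclo_quot σ v₀)
    exact ⟨t, by rw [← ht, br1Om]; abel⟩
  choose b hb using hb
  exact ⟨c₀, v₀, b, hc, hc0, hv, hspanV, fun σ => hadm.fixed_sub σ c₀ hc, hb⟩

variable {c₀ v₀ : V} {b : Γ → ZMod p}

/-- The cocycle relation. -/
theorem Br1Cocycle.mul (h : Br1Cocycle p V C c₀ v₀ b) (σ τ : Γ) :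
    b (σ * τ) = br1Om p τ * b σ + b τ := by
  have h1 : (σ * τ) • v₀ = (br1Om p σ * br1Om p τ) • v₀ + (br1Om p τ * b σ + b τ) • c₀ := by
    rw [mul_smul, h.act τ, smul_add, smul_comm σ (br1Om p τ) v₀, smul_comm σ (b τ) c₀, h.fixed σ,
      h.act σ, smul_add, smul_smul, smul_smul, add_smul, mul_comm (br1Om p τ) (br1Om p σ)]
    abel
  rw [h.act (σ * τ), br1Om_mul] at h1
  exact (br1_unique h.c_mem h.c_ne h.v_not h1).2

/-- The kernel of the action. -/
theorem Br1Cocycle.trivial_iff (h : Br1Cocycle p V C c₀ v₀ b) (σ : Γ) :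
    (∀ v : V, σ • v = v) ↔ (br1Om p σ = 1 ∧ b σ = 0) := by
  constructor
  · intro hσ
    have h1 : br1Om p σ • v₀ + b σ • c₀ = (1 : ZMod p) • v₀ + (0 : ZMod p) • c₀ := by
      rw [← h.act σ, hσ v₀, one_smul, zero_smul, add_zero]
    exact br1_unique h.c_mem h.c_ne h.v_not h1
  · rintro ⟨h1, h2⟩ v
    obtain ⟨s, t, rfl⟩ := h.span_V v
    rw [smul_add, smul_comm σ s v₀, smul_comm σ t c₀, h.fixed σ, h.act σ, h1, h2, one_smul,
      zero_smul, add_zero]

theorem Br1Cocycle.one (h : Br1Cocycle p V C c₀ v₀ b) : b 1 = 0 :=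
  ((h.trivial_iff 1).mp (fun v => one_smul _ v)).2

/-- Additivity of `b` when the second factor lies in the kernel of the character. -/
theorem Br1Cocycle.mul_of_om (h : Br1Cocycle p V C c₀ v₀ b) (σ τ : Γ) (hτ : br1Om p τ = 1) :
    b (σ * τ) = b σ + b τ := by
  rw [h.mul, hτ, one_mul]

theorem Br1Cocycle.pow_of_om (h : Br1Cocycle p V C c₀ v₀ b) (σ : Γ) (hσ : br1Om p σ = 1)
    (n : ℕ) : br1Om p (σ ^ n) = 1 ∧ b (σ ^ n) = n * b σ := by
  induction n with
  | zero => simp [br1Om_one, h.one]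
  | succ n ih =>
    refine ⟨by rw [pow_succ, br1Om_mul, ih.1, hσ, one_mul], ?_⟩
    rw [pow_succ, h.mul_of_om _ _ hσ, ih.2]
    push_cast
    ring

/-- Conjugation: `b (σ⁻¹ g σ) = ω(σ) b(g)` for `g` in the kernel of the character. -/
theorem Br1Cocycle.conj (h : Br1Cocycle p V C c₀ v₀ b) (σ g : Γ) (hg : br1Om p g = 1) :
    br1Om p (σ⁻¹ * g * σ) = 1 ∧ b (σ⁻¹ * g * σ) = br1Om p σ * b g := by
  have hom : br1Om p (σ⁻¹ * g * σ) = 1 := by
    have h1 : br1Om p σ * br1Om p (σ⁻¹ * g * σ) = br1Om p σ * 1 := by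
      rw [← br1Om_mul, mul_one]
      have : σ * (σ⁻¹ * g * σ) = g * σ := by group
      rw [this, br1Om_mul, hg, one_mul]
    exact mul_left_cancel₀ (br1Om_ne_zero σ) h1
  refine ⟨hom, ?_⟩
  have h2 : b (σ * (σ⁻¹ * g * σ)) = b (g * σ) := by
    congr 1
    group
  have h3 : b (σ * (σ⁻¹ * g * σ)) = b σ + b (σ⁻¹ * g * σ) := h.mul_of_om σ _ hom
  have h4 : b (g * σ) = br1Om p σ * b g + b σ := h.mul g σ
  rw [h3, h4] at h2
  linear_combination h2

/-- Case A: if `b` vanishes on the kernel of the character (and the character is nontrivial),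
the extension splits. -/
theorem Br1Cocycle.splits (h : Br1Cocycle p V C c₀ v₀ b)
    (hb : ∀ σ : Γ, br1Om p σ = 1 → b σ = 0) (s₀ : Γ) (hs₀ : br1Om p s₀ ≠ 1) :
    ExtCitation.SplitsGlobally C := by
  have hcomm : ∀ σ τ : Γ, (br1Om p τ - 1) * b σ = (br1Om p σ - 1) * b τ := by
    intro σ τ
    have hom : br1Om p ((τ * σ)⁻¹ * (σ * τ)) = 1 := by
      have h1 : br1Om p (τ * σ) * br1Om p ((τ * σ)⁻¹ * (σ * τ)) = br1Om p (τ * σ) * 1 := by
        rw [← br1Om_mul, mul_one, mul_inv_cancel_left, br1Om_mul, br1Om_mul, mul_comm]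
      exact mul_left_cancel₀ (br1Om_ne_zero _) h1
    have h2 : b ((τ * σ) * ((τ * σ)⁻¹ * (σ * τ))) = b (σ * τ) := by
      rw [mul_inv_cancel_left]
    rw [h.mul_of_om _ _ hom, hb _ hom, add_zero, h.mul, h.mul] at h2
    linear_combination -h2
  have hs₀' : br1Om p s₀ - 1 ≠ 0 := sub_ne_zero.mpr hs₀
  set t : ZMod p := b s₀ / (br1Om p s₀ - 1) with ht
  have hbt : ∀ σ : Γ, b σ = (br1Om p σ - 1) * t := by
    intro σ
    rw [ht, mul_div_assoc', eq_div_iff hs₀']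
    linear_combination hcomm σ s₀
  set v₁ : V := v₀ + t • c₀ with hv₁
  have hact : ∀ σ : Γ, σ • v₁ = br1Om p σ • v₁ := by
    intro σ
    rw [hv₁, smul_add, smul_comm σ t c₀, h.fixed σ, h.act σ, hbt σ, smul_add, smul_smul,
      add_assoc, ← add_smul]
    congr 2
    ring
  refine ⟨Submodule.span (ZMod p) {v₁}, ?_, ?_⟩
  · intro σ x hx
    obtain ⟨a, rfl⟩ := Submodule.mem_span_singleton.mp hx
    rw [smul_comm σ a v₁, hact σ, smul_smul]
    exact Submodule.mem_span_singleton.mpr ⟨_, rfl⟩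
  · rw [isCompl_iff]
    constructor
    · rw [Submodule.disjoint_def]
      intro x hxC hx
      obtain ⟨a, rfl⟩ := Submodule.mem_span_singleton.mp hx
      have ha : a = 0 := by
        by_contra hne
        apply h.v_not
        have h2 : v₀ = a⁻¹ • (a • v₁) - t • c₀ := by
          rw [smul_smul, inv_mul_cancel₀ hne, one_smul, hv₁, add_sub_cancel_right]
        rw [h2]
        exact C.sub_mem (C.smul_mem _ hxC) (C.smul_mem _ h.c_mem)
      rw [ha, zero_smul]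
    · rw [codisjoint_iff, Submodule.eq_top_iff']
      intro v
      obtain ⟨s, u, rfl⟩ := h.span_V v
      rw [Submodule.mem_sup]
      refine ⟨(u - s * t) • c₀, C.smul_mem _ h.c_mem, s • v₁,
        Submodule.mem_span_singleton.mpr ⟨_, rfl⟩, ?_⟩
      rw [hv₁, smul_add, smul_smul, sub_smul]
      abel

end Module

section Galois

variable {p : ℕ} [Fact p.Prime]

/-- `z x = ζ ^ x.val`: powers of `ζ` with exponents in `ZMod p`. -/
noncomputable def br1Z (ζ : Qb) (x : ZMod p) : Qb := ζ ^ x.val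

theorem br1Z_natCast {ζ : Qb} (hζ : IsPrimitiveRoot ζ p) (n : ℕ) :
    br1Z ζ (n : ZMod p) = ζ ^ n := by
  unfold br1Z
  rw [ZMod.val_natCast, ← pow_eq_pow_mod n hζ.pow_eq_one]

theorem br1Z_add {ζ : Qb} (hζ : IsPrimitiveRoot ζ p) (x y : ZMod p) :
    br1Z ζ (x + y) = br1Z ζ x * br1Z ζ y := by
  unfold br1Z
  rw [ZMod.val_add, ← pow_eq_pow_mod _ hζ.pow_eq_one, pow_add]

theorem br1Z_zero (ζ : Qb) : br1Z ζ (0 : ZMod p) = 1 := by
  unfold br1Z
  rw [ZMod.val_zero, pow_zero]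

theorem br1Z_one {ζ : Qb} (hζ : IsPrimitiveRoot ζ p) : br1Z ζ (1 : ZMod p) = ζ := by
  have h := br1Z_natCast hζ 1
  rwa [Nat.cast_one, pow_one] at h

theorem br1Z_ne_zero {ζ : Qb} (hζ : IsPrimitiveRoot ζ p) (x : ZMod p) : br1Z ζ x ≠ 0 :=
  pow_ne_zero _ (hζ.ne_zero (Fact.out : p.Prime).ne_zero)

theorem br1Z_eq_one_iff {ζ : Qb} (hζ : IsPrimitiveRoot ζ p) (x : ZMod p) :
    br1Z ζ x = 1 ↔ x = 0 := by
  unfold br1Z
  rw [hζ.pow_eq_one_iff_dvd]
  constructor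
  · intro h
    have h1 := Nat.eq_zero_of_dvd_of_lt h (ZMod.val_lt x)
    exact (ZMod.val_eq_zero x).mp h1
  · rintro rfl
    simp

theorem br1Z_eq_iff {ζ : Qb} (hζ : IsPrimitiveRoot ζ p) (x y : ZMod p) :
    br1Z ζ x = br1Z ζ y ↔ x = y := by
  constructor
  · intro h
    have h1 : br1Z ζ (x - y) * br1Z ζ y = 1 * br1Z ζ y := by
      rw [← br1Z_add hζ, sub_add_cancel, one_mul, h]
    have h2 := mul_right_cancel₀ (br1Z_ne_zero hζ y) h1
    exact sub_eq_zero.mp ((br1Z_eq_one_iff hζ _).mp h2)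
  · rintro rfl
    rfl

theorem br1Z_pow {ζ : Qb} (hζ : IsPrimitiveRoot ζ p) (x : ZMod p) (n : ℕ) :
    br1Z ζ x ^ n = br1Z ζ (x * (n : ZMod p)) := by
  have h1 : x * (n : ZMod p) = ((x.val * n : ℕ) : ZMod p) := by
    rw [Nat.cast_mul, ZMod.natCast_zmod_val]
  rw [h1, br1Z_natCast hζ, pow_mul]
  rfl

/-- Galois acts on `ζ` through the cyclotomic character. -/
theorem br1_apply_zeta {ζ : Qb} (hζ : IsPrimitiveRoot ζ p) (σ : Γ) :
    σ ζ = ζ ^ ExtCitation.cycloExp p σ := by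
  have : NeZero p := ⟨(Fact.out : p.Prime).ne_zero⟩
  have h := modularCyclotomicCharacter.spec Qb (ExtCitation.card_rootsOfUnity_eq_self p)
    (σ : Qb ≃+* Qb) (t := (rootsOfUnity.mkOfPowEq ζ hζ.pow_eq_one : Qbˣ)) (SetLike.coe_mem _)
  simpa [ExtCitation.cycloExp] using h

theorem br1_apply_Z {ζ : Qb} (hζ : IsPrimitiveRoot ζ p) (σ : Γ) (x : ZMod p) :
    σ (br1Z ζ x) = br1Z ζ (br1Om p σ * x) := by
  have h1 : σ (br1Z ζ x) = (ζ ^ ExtCitation.cycloExp p σ) ^ x.val := by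
    unfold br1Z
    rw [map_pow, br1_apply_zeta hζ]
  rw [h1, ← br1Z_natCast hζ, br1Z_pow hζ, ZMod.natCast_zmod_val]
  rfl

theorem br1Om_eq_one_iff {ζ : Qb} (hζ : IsPrimitiveRoot ζ p) (σ : Γ) :
    br1Om p σ = 1 ↔ σ ζ = ζ := by
  have h1 : σ ζ = br1Z ζ (br1Om p σ) := by
    rw [br1_apply_zeta hζ, ← br1Z_natCast hζ]
    rfl
  rw [h1]
  constructor
  · intro h
    rw [h, br1Z_one hζ]
  · intro h
    have h' : br1Z ζ (br1Om p σ) = br1Z ζ (1 : ZMod p) := by rw [h, br1Z_one hζ]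
    exact (br1Z_eq_iff hζ _ _).mp h'

/-- Some automorphism moves `ζ`. -/
theorem br1_exists_moving {ζ : Qb} (hζ : IsPrimitiveRoot ζ p) (hp3 : 3 ≤ p) :
    ∃ s₀ : Γ, s₀ ζ ≠ ζ := by
  by_contra hall
  push Not at hall
  have h1 : ζ ∈ Set.range (algebraMap ℚ Qb) :=
    (InfiniteGalois.mem_range_algebraMap_iff_fixed ζ).mpr hall
  obtain ⟨q, hq⟩ := h1
  have hp : p.Prime := Fact.out
  have hodd : Odd p := hp.odd_of_ne_two (by omega)
  have hq1 : q ^ p = 1 := by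
    have h2 : algebraMap ℚ Qb (q ^ p) = algebraMap ℚ Qb 1 := by
      rw [map_pow, hq, hζ.pow_eq_one, map_one]
    exact (algebraMap ℚ Qb).injective h2
  have hq' : q = 1 := hodd.strictMono_pow.injective (by simpa using hq1)
  rw [hq', map_one] at hq
  exact hζ.ne_one (by omega) hq.symm

/-- Elements fixed by the stabiliser of `ζ` lie in `ℚ(ζ)`. -/
theorem br1_mem_adjoin_of_fixed (ζ x : Qb) (hx : ∀ g : Γ, g ζ = ζ → g x = x) :
    x ∈ IntermediateField.adjoin ℚ {ζ} := by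
  rw [← InfiniteGalois.fixedField_fixingSubgroup (IntermediateField.adjoin ℚ {ζ}),
    IntermediateField.mem_fixedField_iff]
  intro g hg
  exact hx g ((IntermediateField.mem_fixingSubgroup_iff _ g).mp hg ζ
    (IntermediateField.mem_adjoin_simple_self ℚ ζ))

variable {V : Type} [AddCommGroup V] [Module (ZMod p) V]
  [DistribMulAction Γ V] [SMulCommClass Γ (ZMod p) V] {C : Submodule (ZMod p) V}
  {c₀ v₀ : V} {b : Γ → ZMod p}

/-- The kernel of the action, as a subgroup. -/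
def br1Ker (V : Type) [AddCommGroup V] [DistribMulAction Γ V] : Subgroup Γ where
  carrier := {σ | ∀ v : V, σ • v = v}
  mul_mem' := fun {a c} ha hc v => by rw [mul_smul, hc v, ha v]
  one_mem' := fun v => one_smul _ v
  inv_mem' := fun {a} ha v => by rw [inv_smul_eq_iff, ha v]

/-- Case B: the Kummer generator. -/
theorem Br1Cocycle.kummer (h : Br1Cocycle p V C c₀ v₀ b)
    (hopen : IsOpen {σ : Γ | ∀ v : V, σ • v = v}) {ζ : Qb} (hζ : IsPrimitiveRoot ζ p)
    (h₀ : Γ) (hom0 : br1Om p h₀ = 1) (hb0 : b h₀ = 1) :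
    ∃ A : Qb, A ≠ 0 ∧ ∀ g : Γ, br1Om p g = 1 → g A = br1Z ζ (b g) * A := by
  have : NeZero p := ⟨(Fact.out : p.Prime).ne_zero⟩
  have hclosed : IsClosed ((br1Ker V : Subgroup Γ) : Set Γ) :=
    (br1Ker V).isClosed_of_isOpen hopen
  have hfix : (IntermediateField.fixedField (br1Ker V)).fixingSubgroup = br1Ker V :=
    InfiniteGalois.fixingSubgroup_fixedField ⟨br1Ker V, hclosed⟩
  set F : IntermediateField ℚ Qb := IntermediateField.fixedField (br1Ker V) with hF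
  have K0 : ∀ g ∈ br1Ker V, ∀ x ∈ F, g x = x := fun g hg x hx =>
    (IntermediateField.mem_fixedField_iff (br1Ker V) x).mp hx g hg
  have K1 : ∀ g : Γ, (∀ x ∈ F, g x = x) → g ∈ br1Ker V := by
    intro g hg
    rw [← hfix]
    exact (IntermediateField.mem_fixingSubgroup_iff F g).mpr hg
  have hN : ∀ g : Γ, g ∈ br1Ker V ↔ (br1Om p g = 1 ∧ b g = 0) := fun g => h.trivial_iff g
  have hpow : ∀ k : ℕ, br1Om p (h₀ ^ k) = 1 ∧ b (h₀ ^ k) = (k : ZMod p) := by
    intro k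
    have h1 := h.pow_of_om h₀ hom0 k
    rw [hb0, mul_one] at h1
    exact h1
  have K2 : ∀ g : Γ, br1Om p g = 1 → ∀ x ∈ F, g x = (h₀ ^ (b g).val) x := by
    intro g hg x hx
    obtain ⟨hk1, hk2⟩ := hpow (b g).val
    rw [ZMod.natCast_zmod_val] at hk2
    set n : Γ := (h₀ ^ (b g).val)⁻¹ * g with hn
    have hgn : g = h₀ ^ (b g).val * n := by rw [hn, mul_inv_cancel_left]
    have hn1 : br1Om p n = 1 := by
      have h1 : br1Om p (h₀ ^ (b g).val * n) = 1 := by rw [← hgn]; exact hg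
      rwa [br1Om_mul, hk1, one_mul] at h1
    have hn2 : b n = 0 := by
      have h1 : b (h₀ ^ (b g).val * n) = b g := by rw [← hgn]
      rw [h.mul_of_om _ _ hn1, hk2] at h1
      exact add_eq_left.mp h1
    have hnN : n ∈ br1Ker V := (hN n).mpr ⟨hn1, hn2⟩
    conv_lhs => rw [hgn]
    rw [AlgEquiv.mul_apply, K0 n hnN x hx]
  -- the restrictions of the powers of `h₀` to `F`
  let Φ : ZMod p → (F →* Qb) := fun j =>
    { toFun := fun x => (h₀ ^ j.val) (x : Qb)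
      map_one' := by simp
      map_mul' := fun x y => by simp }
  have hΦ : Function.Injective Φ := by
    intro i j hij
    have h1 : ∀ x ∈ F, (h₀ ^ i.val) x = (h₀ ^ j.val) x := fun x hx =>
      DFunLike.congr_fun hij ⟨x, hx⟩
    set g : Γ := (h₀ ^ i.val)⁻¹ * h₀ ^ j.val with hg
    have hgF : ∀ x ∈ F, g x = x := by
      intro x hx
      rw [hg, AlgEquiv.mul_apply, ← h1 x hx]
      exact (AlgEquiv.symm_apply_apply (h₀ ^ i.val) x)
    obtain ⟨hg1, hg2⟩ := (hN g).mp (K1 g hgF)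
    have h2 : b (h₀ ^ i.val * g) = b (h₀ ^ j.val) := by rw [hg, mul_inv_cancel_left]
    rw [h.mul_of_om _ _ hg1, hg2, add_zero, (hpow _).2, (hpow _).2, ZMod.natCast_zmod_val,
      ZMod.natCast_zmod_val] at h2
    exact h2
  have lin := (linearIndependent_monoidHom F Qb).comp Φ hΦ
  have hne : ∑ j : ZMod p, br1Z ζ (-j) • ((fun f : F →* Qb => (f : F → Qb)) ∘ Φ) j ≠ 0 := by
    intro h0
    exact br1Z_ne_zero hζ _ (Fintype.linearIndependent_iff.mp lin (fun j => br1Z ζ (-j)) h0 0)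
  obtain ⟨θ, hθ⟩ : ∃ θ : F,
      (∑ j : ZMod p, br1Z ζ (-j) • ((fun f : F →* Qb => (f : F → Qb)) ∘ Φ) j) θ ≠ 0 := by
    by_contra hall
    push Not at hall
    exact hne (funext hall)
  refine ⟨∑ j : ZMod p, br1Z ζ (-j) * (h₀ ^ j.val) (θ : Qb), ?_, ?_⟩
  · simpa [Finset.sum_apply, Φ] using hθ
  · intro g hg
    have hterm : ∀ j : ZMod p, g (br1Z ζ (-j) * (h₀ ^ j.val) (θ : Qb)) =
        br1Z ζ (-j) * (h₀ ^ (b g + j).val) (θ : Qb) := by
      intro j
      rw [map_mul, br1_apply_Z hζ, hg, one_mul]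
      congr 1
      have h1 : br1Om p (g * h₀ ^ j.val) = 1 := by rw [br1Om_mul, hg, (hpow _).1, one_mul]
      have h2 : b (g * h₀ ^ j.val) = b g + j := by
        rw [h.mul_of_om _ _ (hpow _).1, (hpow _).2, ZMod.natCast_zmod_val]
      have h3 := K2 (g * h₀ ^ j.val) h1 θ θ.2
      rw [h2, AlgEquiv.mul_apply] at h3
      exact h3
    rw [map_sum, Finset.sum_congr rfl (fun j _ => hterm j), Finset.mul_sum]
    refine Fintype.sum_equiv (Equiv.addLeft (b g)) _ _ (fun j => ?_)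
    simp only [Equiv.coe_addLeft]
    rw [← mul_assoc, ← br1Z_add hζ]
    congr 2
    ring

end Galois

/-- **BR1**. If the admissible extension does not split globally, there is a Kummer generator `A`
over `ℚ(ζ)`: `A ≠ 0`, `A^p ∈ ℚ(ζ)`, the kernel of the action on `V` is exactly the subgroup fixing
`ζ` and `A`, some `h₀` fixes `ζ` and multiplies `A` by `ζ`, and `A` is an `ω²`-eigenvector modulo
`ℚ(ζ)ˣ`. -/
theorem kummer_data {p : ℕ} [Fact p.Prime] (hp3 : 3 ≤ p) (V : Type) [AddCommGroup V]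
    [Module (ZMod p) V] [DistribMulAction Γ V] [SMulCommClass Γ (ZMod p) V]
    (C : Submodule (ZMod p) V) (hadm : ExtCitation.IsAdmissibleExtensionCts p V C)
    (hns : ¬ ExtCitation.SplitsGlobally C) :
    ∃ ζ A : Qb, IsPrimitiveRoot ζ p ∧ (∀ σ : Γ, σ ζ = ζ ^ ExtCitation.cycloExp p σ) ∧ A ≠ 0 ∧
      A ^ p ∈ IntermediateField.adjoin ℚ {ζ} ∧
      (∃ h₀ : Γ, h₀ ζ = ζ ∧ h₀ A = ζ * A) ∧
      (∀ σ : Γ, (∀ v : V, σ • v = v) ↔ (σ ζ = ζ ∧ σ A = A)) ∧
      (∀ σ : Γ, ∃ γ ∈ IntermediateField.adjoin ℚ {ζ},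
        σ A = A ^ (ExtCitation.cycloExp p σ ^ 2) * γ) := by
  have : NeZero p := ⟨(Fact.out : p.Prime).ne_zero⟩
  have : NeZero ((p : ℕ) : Qb) := ⟨Nat.cast_ne_zero.mpr (NeZero.ne p)⟩
  obtain ⟨ζ, hζ⟩ := HasEnoughRootsOfUnity.exists_primitiveRoot Qb p
  obtain ⟨c₀, v₀, b, h⟩ := br1_exists_cocycle hadm
  obtain ⟨s₀, hs₀⟩ := br1_exists_moving hζ hp3
  have hs₀' : br1Om p s₀ ≠ 1 := fun h1 => hs₀ ((br1Om_eq_one_iff hζ s₀).mp h1)
  have hB : ∃ h₁ : Γ, br1Om p h₁ = 1 ∧ b h₁ ≠ 0 := by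
    by_contra hno
    push Not at hno
    exact hns (h.splits hno s₀ hs₀')
  obtain ⟨h₁, hh₁, hb₁⟩ := hB
  obtain ⟨hom0, hb0⟩ := h.pow_of_om h₁ hh₁ ((b h₁)⁻¹).val
  rw [ZMod.natCast_zmod_val, inv_mul_cancel₀ hb₁] at hb0
  obtain ⟨A, hA0, hA⟩ := h.kummer hadm.open_kernel hζ _ hom0 hb0
  refine ⟨ζ, A, hζ, br1_apply_zeta hζ, hA0, ?_, ?_, ?_, ?_⟩
  · apply br1_mem_adjoin_of_fixed
    intro g hg
    rw [map_pow, hA g ((br1Om_eq_one_iff hζ g).mpr hg), mul_pow, br1Z_pow hζ,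
      ZMod.natCast_self, mul_zero, br1Z_zero, one_mul]
  · refine ⟨_, (br1Om_eq_one_iff hζ _).mp hom0, ?_⟩
    rw [hA _ hom0, hb0, br1Z_one hζ]
  · intro σ
    rw [h.trivial_iff]
    constructor
    · rintro ⟨h1, h2⟩
      exact ⟨(br1Om_eq_one_iff hζ σ).mp h1, by rw [hA σ h1, h2, br1Z_zero, one_mul]⟩
    · rintro ⟨h1, h2⟩
      have h1' := (br1Om_eq_one_iff hζ σ).mpr h1
      refine ⟨h1', ?_⟩
      rw [hA σ h1'] at h2
      have h3 : br1Z ζ (b σ) = 1 := by
        have h4 : br1Z ζ (b σ) * A = 1 * A := by rw [h2, one_mul]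
        exact mul_right_cancel₀ hA0 h4
      exact (br1Z_eq_one_iff hζ _).mp h3
  · intro σ
    have hApow : A ^ (ExtCitation.cycloExp p σ ^ 2) ≠ 0 := pow_ne_zero _ hA0
    refine ⟨σ A / A ^ (ExtCitation.cycloExp p σ ^ 2), ?_, ?_⟩
    · apply br1_mem_adjoin_of_fixed
      intro g hg
      have hg' := (br1Om_eq_one_iff hζ g).mpr hg
      obtain ⟨hc1, hc2⟩ := h.conj σ g hg'
      have e1 : g (σ A) = σ ((σ⁻¹ * g * σ) A) := by
        simp [AlgEquiv.mul_apply]
      rw [map_div₀, map_pow, e1, hA _ hc1, hc2, map_mul, br1_apply_Z hζ, hA g hg', mul_pow,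
        br1Z_pow hζ]
      have e2 : b g * ((ExtCitation.cycloExp p σ ^ 2 : ℕ) : ZMod p) =
          br1Om p σ * (br1Om p σ * b g) := by
        push_cast
        unfold br1Om
        ring
      rw [e2, mul_div_mul_left _ _ (br1Z_ne_zero hζ _)]
    · rw [mul_div_cancel₀ _ hApow]

end Fermat.Agent.S14
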