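import Mathlib
import Fermat.Agent.S54.Frobenius
import Fermat.Agent.S13.InertiaLift

/-!
# S14, piece PF: relative profinite lifting lemmas

For an intermediate field `E` of `ℚ̄/ℚ`, the closed subgroup `Gal(ℚ̄/E)` acts on the ring of
algebraic integers with invariants contained in `E`; hence

* `exists_fixing_smul_eq` : two valuation subrings of `ℚ̄` with the same trace on `E` are
  conjugate under `Gal(ℚ̄/E)`;
* `exists_fixing_inertia` : an element of the decomposition group of `𝒜` which acts trivially on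
  the residue classes of `E ∩ 𝒜` can be corrected by an element of `Gal(ℚ̄/E)` to lie in the
  inertia group.
-/

set_option autoImplicit false

open scoped Pointwise

namespace Fermat.Agent.S14

noncomputable section

local notation "Qb" => AlgebraicClosure ℚ
local notation "Γ" => (AlgebraicClosure ℚ ≃ₐ[ℚ] AlgebraicClosure ℚ)
local notation "Zb" => integralClosure ℤ (AlgebraicClosure ℚ)

open Fermat.Agent.S54

attribute [local instance] qbar_isAlgebraic qbar_isAlgClosure qbar_isGalois zbar_isInvariant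
  zbarTopology zbar_discrete zbar_continuousSMul

/-- The maximal ideal of a valuation subring in terms of membership of inverses. -/
theorem lift_mem_nonunits_iff (A : ValuationSubring Qb) (x : Qb) :
    x ∈ A.nonunits ↔ x = 0 ∨ x⁻¹ ∉ A := by
  rw [A.mem_nonunits_iff]
  by_cases hx : x = 0
  · simp [hx]
  · have hv : 0 < A.valuation x := by
      rw [Valuation.pos_iff]
      exact hx
    rw [← A.valuation_le_one_iff, map_inv₀, inv_le_one₀ hv, not_le]
    simp [hx]

/-- A valuation subring of `ℚ̄` is determined by its centre on the algebraic integers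
(one inclusion). -/
theorem lift_le_of_centerIdeal_eq (A A' : ValuationSubring Qb)
    (h : centerIdeal A = centerIdeal A') : A ≤ A' := by
  intro x hx
  obtain ⟨b, s, hs, hxs⟩ := exists_mul_eq A x hx
  rw [h, not_mem_centerIdeal_iff_val] at hs
  have hb : A'.valuation (b : Qb) ≤ 1 := (A'.valuation_le_one_iff _).mpr (zbar_mem A' b)
  rw [← A'.valuation_le_one_iff]
  calc A'.valuation x = A'.valuation x * A'.valuation (s : Qb) := by rw [hs, mul_one]
    _ = A'.valuation (b : Qb) := by rw [← map_mul, hxs]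
    _ ≤ 1 := hb

/-- A valuation subring of `ℚ̄` is determined by its centre on the algebraic integers. -/
theorem lift_eq_of_centerIdeal_eq (A A' : ValuationSubring Qb)
    (h : centerIdeal A = centerIdeal A') : A = A' :=
  le_antisymm (lift_le_of_centerIdeal_eq A A' h) (lift_le_of_centerIdeal_eq A' A h.symm)

/-- The centre of a conjugate valuation subring. -/
theorem lift_centerIdeal_smul (ρ : Γ) (A : ValuationSubring Qb) :
    centerIdeal (ρ • A) = ρ • centerIdeal A := by
  ext b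
  rw [Ideal.mem_pointwise_smul_iff_inv_smul_mem, mem_centerIdeal, mem_centerIdeal,
    lift_mem_nonunits_iff, lift_mem_nonunits_iff,
    ValuationSubring.mem_pointwise_smul_iff_inv_smul_mem, coe_smul_zbar]
  have h1 : ρ⁻¹ • ((b : Qb)⁻¹) = (ρ⁻¹ (b : Qb))⁻¹ := by
    show ρ⁻¹ ((b : Qb)⁻¹) = _
    rw [map_inv₀]
  rw [h1]
  have h2 : (ρ⁻¹ (b : Qb) = 0) ↔ (b : Qb) = 0 := by
    constructor
    · intro h
      exact (map_eq_zero_iff _ (ρ⁻¹).injective).mp h
    · intro h
      rw [h, map_zero]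
  rw [h2]

/-- The fixed points of `Gal(ℚ̄/E)` on the algebraic integers lie in `E`. -/
theorem lift_fixed_mem (E : IntermediateField ℚ Qb) (b : Zb)
    (hb : b ∈ FixedPoints.subring Zb E.fixingSubgroup) : (b : Qb) ∈ E := by
  refine S13.mem_of_fixed E _ fun g => ?_
  exact congrArg (fun z : Zb => (z : Qb)) (hb g)

set_option synthInstance.maxHeartbeats 400000 in
set_option maxHeartbeats 1600000 in
/-- **PF1**. Two valuation subrings of `ℚ̄` with the same trace on an intermediate field `E` are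
conjugate under `Gal(ℚ̄/E)`. -/
theorem exists_fixing_smul_eq (E : IntermediateField ℚ Qb) (𝒜 𝒜' : ValuationSubring Qb)
    (h : ∀ x ∈ E, x ∈ 𝒜 ↔ x ∈ 𝒜') :
    ∃ ρ ∈ E.fixingSubgroup, ρ • 𝒜' = 𝒜 := by
  classical
  have hQprime : (centerIdeal 𝒜).IsPrime := centerIdeal_isPrime 𝒜
  have hQ'prime : (centerIdeal 𝒜').IsPrime := centerIdeal_isPrime 𝒜'
  have hHclosed : IsClosed (E.fixingSubgroup : Set Γ) :=
    InfiniteGalois.fixingSubgroup_isClosed E
  have : CompactSpace E.fixingSubgroup := isCompact_iff_compactSpace.mp hHclosed.isCompact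
  have hinv : Algebra.IsInvariant (FixedPoints.subring Zb E.fixingSubgroup) Zb E.fixingSubgroup :=
    ⟨fun b hb => ⟨⟨b, hb⟩, rfl⟩⟩
  have hunder : (centerIdeal 𝒜').under (FixedPoints.subring Zb E.fixingSubgroup) =
      (centerIdeal 𝒜).under (FixedPoints.subring Zb E.fixingSubgroup) := by
    ext ⟨b, hb⟩
    simp only [Ideal.under_def, Ideal.mem_comap]
    show b ∈ centerIdeal 𝒜' ↔ b ∈ centerIdeal 𝒜
    rw [mem_centerIdeal, mem_centerIdeal, lift_mem_nonunits_iff, lift_mem_nonunits_iff,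
      h _ (E.inv_mem (lift_fixed_mem E b hb))]
  obtain ⟨g, hg⟩ := Algebra.IsInvariant.exists_smul_of_under_eq_of_profinite
    (A := FixedPoints.subring Zb E.fixingSubgroup) (G := E.fixingSubgroup)
    (centerIdeal 𝒜') (centerIdeal 𝒜) hunder
  refine ⟨(g : Γ), g.2, ?_⟩
  apply lift_eq_of_centerIdeal_eq
  rw [lift_centerIdeal_smul]
  exact hg.symm

set_option synthInstance.maxHeartbeats 400000 in
set_option maxHeartbeats 1600000 in
/-- **PF2**. An element of the decomposition group of `𝒜` acting trivially on the residue classes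
of `E ∩ 𝒜` can be corrected by an element of `Gal(ℚ̄/E)` to lie in the inertia group. -/
theorem exists_fixing_inertia (E : IntermediateField ℚ Qb) (𝒜 : ValuationSubring Qb) (τ : Γ)
    (hτ : τ • 𝒜 = 𝒜) (hres : ∀ x ∈ E, x ∈ 𝒜 → τ x - x ∈ 𝒜.nonunits) :
    ∃ ρ ∈ E.fixingSubgroup, ρ * τ ∈ 𝒜.inertiaSubgroupIn ℚ := by
  classical
  have hQprime : (centerIdeal 𝒜).IsPrime := centerIdeal_isPrime 𝒜
  have hHclosed : IsClosed (E.fixingSubgroup : Set Γ) :=
    InfiniteGalois.fixingSubgroup_isClosed E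
  have : CompactSpace E.fixingSubgroup := isCompact_iff_compactSpace.mp hHclosed.isCompact
  have hinv : Algebra.IsInvariant (FixedPoints.subring Zb E.fixingSubgroup) Zb E.fixingSubgroup :=
    ⟨fun b hb => ⟨⟨b, hb⟩, rfl⟩⟩
  have hτQ : τ • centerIdeal 𝒜 = centerIdeal 𝒜 := by
    rw [← lift_centerIdeal_smul, hτ]
  have hcong : ∀ b : Zb, b ∈ FixedPoints.subring Zb E.fixingSubgroup →
      τ • b - b ∈ centerIdeal 𝒜 := by
    intro b hb
    rw [mem_centerIdeal]
    exact hres _ (lift_fixed_mem E b hb) (zbar_mem 𝒜 b)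
  have hlies : (centerIdeal 𝒜).LiesOver
      ((centerIdeal 𝒜).under (FixedPoints.subring Zb E.fixingSubgroup)) := ⟨rfl⟩
  have hliesZ : (centerIdeal 𝒜).LiesOver ((centerIdeal 𝒜).under ℤ) := ⟨rfl⟩
  let φ₀ := Ideal.Quotient.stabilizerHom (centerIdeal 𝒜) ((centerIdeal 𝒜).under ℤ) Γ ⟨τ, hτQ⟩
  have hφ₀ : ∀ b : Zb, φ₀ (Ideal.Quotient.mk _ b) = Ideal.Quotient.mk _ (τ • b) := by
    intro b
    exact Ideal.Quotient.stabilizerHom_apply _ _ _ _ _
  let φ : (Zb ⧸ centerIdeal 𝒜) ≃ₐ[(FixedPoints.subring Zb E.fixingSubgroup) ⧸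
      (centerIdeal 𝒜).under (FixedPoints.subring Zb E.fixingSubgroup)] (Zb ⧸ centerIdeal 𝒜) :=
    AlgEquiv.ofRingEquiv (f := φ₀.toRingEquiv) (by
      intro r
      obtain ⟨⟨a, ha⟩, rfl⟩ := Ideal.Quotient.mk_surjective r
      show φ₀ (Ideal.Quotient.mk _ a) = Ideal.Quotient.mk _ a
      rw [hφ₀, Ideal.Quotient.eq]
      exact hcong a ha)
  obtain ⟨⟨h', hh'⟩, hφ⟩ := Ideal.Quotient.stabilizerHom_surjective_of_profinite
    (G := E.fixingSubgroup)
    ((centerIdeal 𝒜).under (FixedPoints.subring Zb E.fixingSubgroup)) (centerIdeal 𝒜) φ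
  have hh'Q : (h' : Γ) • centerIdeal 𝒜 = centerIdeal 𝒜 := hh'
  have hφ' : ∀ b : Zb, Ideal.Quotient.mk (centerIdeal 𝒜) ((h' : Γ) • b) =
      Ideal.Quotient.mk (centerIdeal 𝒜) (τ • b) := by
    intro b
    have h1 := congrArg (fun f => f (Ideal.Quotient.mk (centerIdeal 𝒜) b)) hφ
    simp only [Ideal.Quotient.stabilizerHom_apply] at h1
    rw [← hφ₀ b]
    exact h1
  refine ⟨(h' : Γ)⁻¹, inv_mem h'.2, ?_⟩
  refine S13.mem_inertiaSubgroupIn_of_zbar 𝒜 _ ?_ ?_
  · rw [mul_smul, hτQ]
    conv_lhs => rw [← hh'Q]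
    rw [inv_smul_smul]
  · intro b
    have h1 := hφ' (((h' : Γ)⁻¹ * τ) • b)
    have h2 : (h' : Γ) • (((h' : Γ)⁻¹ * τ) • b) = τ • b := by
      rw [mul_smul, smul_inv_smul]
    rw [h2] at h1
    have h4 : τ • ((((h' : Γ)⁻¹ * τ) • b) - b) ∈ centerIdeal 𝒜 := by
      rw [smul_sub, ← Ideal.Quotient.eq]
      exact h1.symm
    rw [← hτQ] at h4
    exact Ideal.smul_mem_pointwise_smul_iff.mp h4

end

end Fermat.Agent.S14
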