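import Mathlib
import Fermat.Prelude.Def_ExtCitation_AdmissibleExtension_v2
import Fermat.Agent.S14.Lift

/-!
# S14 bridge, part BR2 (a): the local contradiction lemma

`br2_loc`: let `A` be the Kummer generator over `K₀ = ℚ(ζ)` of the kernel field of an admissible
extension, and let `𝒜` be a valuation subring of `ℚ̄` over a prime `ℓ`.  If some `T = u A + u'`
(`u, u' ∈ K₀`, `u ≠ 0`) has `w(T)^i ∉ w(K₀ˣ)` for `0 < i < p` and `w(h₀ T) = w(T)`, we get a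
contradiction with the local conditions of the admissible extension.
-/

set_option autoImplicit false

namespace Fermat.Agent.S14

open NumberField
open scoped Pointwise

local notation "Qb" => AlgebraicClosure ℚ
local notation "Γ" => (AlgebraicClosure ℚ ≃ₐ[ℚ] AlgebraicClosure ℚ)

/-- A finite sum whose nonzero terms have pairwise distinct valuations has the valuation of its
largest term. -/
theorem br2_val_sum {R : Type*} [CommRing R] {Γ₀ : Type*} [LinearOrderedCommGroupWithZero Γ₀]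
    (v : Valuation R Γ₀) {ι : Type*} (s : Finset ι) (hs : s.Nonempty) (y : ι → R)
    (hd : ∀ i ∈ s, ∀ j ∈ s, i ≠ j → v (y i) = v (y j) → v (y i) = 0) :
    ∃ j ∈ s, v (∑ i ∈ s, y i) = v (y j) ∧ ∀ i ∈ s, v (y i) ≤ v (y j) := by
  classical
  obtain ⟨j, hj, hmax⟩ := s.exists_max_image (fun i => v (y i)) hs
  refine ⟨j, hj, ?_, hmax⟩
  by_cases h0 : v (y j) = 0
  · rw [h0]
    refine le_antisymm ?_ zero_le
    refine v.map_sum_le (fun i hi => ?_)
    rw [← h0]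
    exact hmax i hi
  · refine v.map_sum_eq_of_lt hj (fun i hi => ?_)
    rw [Finset.mem_sdiff, Finset.mem_singleton] at hi
    refine lt_of_le_of_ne (hmax i hi.1) (fun h => h0 ?_)
    rw [← h]
    exact hd i hi.1 j hj hi.2 h

/-- Distinctness of the valuations of the terms `c i * T ^ i`. -/
theorem br2_term_distinct (𝒜 : ValuationSubring Qb) (K₀ : IntermediateField ℚ Qb) (p : ℕ)
    (T : Qb)
    (hT2 : ∀ i, 0 < i → i < p → ∀ x ∈ K₀, x ≠ 0 → 𝒜.valuation T ^ i ≠ 𝒜.valuation x)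
    (c : ℕ → Qb) (hc : ∀ i, c i ∈ K₀) (i j : ℕ) (hij : i < j) (hj : j < p)
    (h : 𝒜.valuation (c i * T ^ i) = 𝒜.valuation (c j * T ^ j)) :
    𝒜.valuation (c i * T ^ i) = 0 := by
  by_contra h0
  have h0' : 𝒜.valuation (c j * T ^ j) ≠ 0 := by rwa [← h]
  simp only [map_mul, map_pow] at h h0 h0'
  have hci : 𝒜.valuation (c i) ≠ 0 := left_ne_zero_of_mul h0
  have hcj : 𝒜.valuation (c j) ≠ 0 := left_ne_zero_of_mul h0'
  have hTi : 𝒜.valuation T ^ i ≠ 0 := right_ne_zero_of_mul h0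
  have hci0 : c i ≠ 0 := fun h => hci (by rw [h, map_zero])
  have hcj0 : c j ≠ 0 := fun h => hcj (by rw [h, map_zero])
  have hji : j = i + (j - i) := by omega
  refine hT2 (j - i) (by omega) (by omega) (c i / c j) (K₀.div_mem (hc i) (hc j))
    (div_ne_zero hci0 hcj0) ?_
  rw [map_div₀, eq_div_iff hcj]
  have h2 : 𝒜.valuation (c i) * 𝒜.valuation T ^ i
      = (𝒜.valuation T ^ (j - i) * 𝒜.valuation (c j)) * 𝒜.valuation T ^ i := by
    rw [h, mul_comm (𝒜.valuation T ^ (j - i)), mul_assoc, ← pow_add, Nat.sub_add_cancel hij.le]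
  exact (mul_right_cancel₀ hTi h2).symm

/-- **Rigidity**: the valuation of `∑ i < p, c i T^i` (`c i ∈ K₀`) is the largest valuation of a
term. -/
theorem br2_rigid (𝒜 : ValuationSubring Qb) (K₀ : IntermediateField ℚ Qb) (p : ℕ) (hp : 0 < p)
    (T : Qb)
    (hT2 : ∀ i, 0 < i → i < p → ∀ x ∈ K₀, x ≠ 0 → 𝒜.valuation T ^ i ≠ 𝒜.valuation x)
    (c : ℕ → Qb) (hc : ∀ i, c i ∈ K₀) :
    ∃ j ∈ Finset.range p,
      𝒜.valuation (∑ i ∈ Finset.range p, c i * T ^ i) = 𝒜.valuation (c j * T ^ j) ∧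
      ∀ i ∈ Finset.range p, 𝒜.valuation (c i * T ^ i) ≤ 𝒜.valuation (c j * T ^ j) := by
  refine br2_val_sum 𝒜.valuation (Finset.range p) ⟨0, Finset.mem_range.mpr hp⟩
    (fun i => c i * T ^ i) ?_
  intro i hi j hj hij h
  rw [Finset.mem_range] at hi hj
  rcases Nat.lt_or_gt_of_ne hij with hlt | hgt
  · exact br2_term_distinct 𝒜 K₀ p T hT2 c hc i j hlt hj h
  · rw [h]
    exact br2_term_distinct 𝒜 K₀ p T hT2 c hc j i hgt hi h.symm

/-- Rigidity, invariance form: replacing `T` by an element of the same valuation does not change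
the valuation of `∑ i < p, c i T^i`. -/
theorem br2_rigid_eq (𝒜 : ValuationSubring Qb) (K₀ : IntermediateField ℚ Qb) (p : ℕ)
    (hp : 0 < p) (T T' : Qb)
    (hT2 : ∀ i, 0 < i → i < p → ∀ x ∈ K₀, x ≠ 0 → 𝒜.valuation T ^ i ≠ 𝒜.valuation x)
    (hTT' : 𝒜.valuation T' = 𝒜.valuation T)
    (c : ℕ → Qb) (hc : ∀ i, c i ∈ K₀) :
    𝒜.valuation (∑ i ∈ Finset.range p, c i * T' ^ i)
      = 𝒜.valuation (∑ i ∈ Finset.range p, c i * T ^ i) := by
  have hT2' : ∀ i, 0 < i → i < p → ∀ x ∈ K₀, x ≠ 0 → 𝒜.valuation T' ^ i ≠ 𝒜.valuation x := by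
    rw [hTT']; exact hT2
  have hterm : ∀ i, 𝒜.valuation (c i * T' ^ i) = 𝒜.valuation (c i * T ^ i) := by
    intro i
    rw [map_mul, map_mul, map_pow, map_pow, hTT']
  obtain ⟨j, hj, hj1, hj2⟩ := br2_rigid 𝒜 K₀ p hp T hT2 c hc
  obtain ⟨j', hj', hj'1, hj'2⟩ := br2_rigid 𝒜 K₀ p hp T' hT2' c hc
  rw [hj1, hj'1]
  refine le_antisymm ?_ ?_
  · rw [hterm j']; exact hj2 j' hj'
  · rw [← hterm j]; exact hj'2 j hj

/-- Rigidity, integrality form: if `∑ i < p, c i T^i` is in `𝒜`, the terms with `i ≥ 1` are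
nonunits. -/
theorem br2_rigid_lt (𝒜 : ValuationSubring Qb) (K₀ : IntermediateField ℚ Qb) (p : ℕ)
    (hp : 0 < p) (T : Qb)
    (hT2 : ∀ i, 0 < i → i < p → ∀ x ∈ K₀, x ≠ 0 → 𝒜.valuation T ^ i ≠ 𝒜.valuation x)
    (c : ℕ → Qb) (hc : ∀ i, c i ∈ K₀)
    (hx : 𝒜.valuation (∑ i ∈ Finset.range p, c i * T ^ i) ≤ 1) (i : ℕ) (hi0 : 0 < i)
    (hi : i < p) : 𝒜.valuation (c i * T ^ i) < 1 := by
  obtain ⟨j, hj, hj1, hj2⟩ := br2_rigid 𝒜 K₀ p hp T hT2 c hc
  have hle : 𝒜.valuation (c i * T ^ i) ≤ 1 := by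
    refine (hj2 i (Finset.mem_range.mpr hi)).trans ?_
    rw [← hj1]; exact hx
  refine lt_of_le_of_ne hle (fun h => ?_)
  rw [map_mul, map_pow] at h
  have hci : 𝒜.valuation (c i) ≠ 0 := by
    intro h'; rw [h', zero_mul] at h; exact zero_ne_one h
  have hci0 : c i ≠ 0 := fun h => hci (by rw [h, map_zero])
  refine hT2 i hi0 hi (c i)⁻¹ (K₀.inv_mem (hc i)) (inv_ne_zero hci0) ?_
  rw [map_inv₀]
  exact eq_inv_of_mul_eq_one_right h

/-- An automorphism fixing `ζ` fixes `ℚ(ζ)` pointwise. -/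
theorem br2_fix_adjoin (ζ : Qb) (σ : Γ) (hσ : σ ζ = ζ) (x : Qb)
    (hx : x ∈ IntermediateField.adjoin ℚ {ζ}) : σ x = x := by
  induction hx using IntermediateField.adjoin_induction with
  | mem y hy => rw [Set.mem_singleton_iff] at hy; rw [hy, hσ]
  | algebraMap r => exact σ.commutes r
  | add y z _ _ hy hz => rw [map_add, hy, hz]
  | inv y _ hy => rw [map_inv₀, hy]
  | mul y z _ _ hy hz => rw [map_mul, hy, hz]

open Polynomial in
/-- Elements of `K₀(T)` are polynomials of degree `< p` in `T` when `T` is a root of a monic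
polynomial of degree `p` over `K₀`. -/
theorem br2_exists_coeffs (K₀ : IntermediateField ℚ Qb) (p : ℕ) (hp : 0 < p) (T : Qb)
    (g : Polynomial K₀) (hg : g.Monic) (hgdeg : g.natDegree = p)
    (hgT : Polynomial.aeval T g = 0) (x : Qb) (hx : x ∈ IntermediateField.adjoin K₀ {T}) :
    ∃ c : ℕ → Qb, (∀ i, c i ∈ K₀) ∧ x = ∑ i ∈ Finset.range p, c i * T ^ i := by
  have hint : IsIntegral K₀ T := ⟨g, hg, hgT⟩
  have hx' : x ∈ (IntermediateField.adjoin K₀ {T}).toSubalgebra := hx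
  rw [IntermediateField.adjoin_simple_toSubalgebra_of_isAlgebraic hint.isAlgebraic,
    Algebra.adjoin_singleton_eq_range_aeval] at hx'
  obtain ⟨f, rfl⟩ := hx'
  have hg1 : g ≠ 1 := by
    intro h; rw [h, natDegree_one] at hgdeg; omega
  refine ⟨fun i => ((f %ₘ g).coeff i : Qb), fun i => ((f %ₘ g).coeff i).2, ?_⟩
  have h1 : aeval T (f %ₘ g) = aeval T f := aeval_modByMonic_eq_self_of_root hgT
  have h2 : (f %ₘ g).natDegree < p := by
    rw [← hgdeg]; exact natDegree_modByMonic_lt f hg hg1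
  show aeval T f = _
  rw [← h1, aeval_eq_sum_range' h2]
  refine Finset.sum_congr rfl (fun i _ => ?_)
  rw [Algebra.smul_def]; rfl

theorem br2_map_mem_of_smul_eq (𝒜 : ValuationSubring Qb) (τ : Γ) (hτ : τ • 𝒜 = 𝒜) (y : Qb) :
    τ y ∈ 𝒜 ↔ y ∈ 𝒜 := by
  conv_lhs => rw [← hτ]
  exact ValuationSubring.smul_mem_pointwise_smul_iff

theorem br2_map_nonunits_of_smul_eq (𝒜 : ValuationSubring Qb) (τ : Γ) (hτ : τ • 𝒜 = 𝒜)
    (y : Qb) : τ y ∈ 𝒜.nonunits ↔ y ∈ 𝒜.nonunits := by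
  rw [ValuationSubring.mem_nonunits_iff_or, ValuationSubring.mem_nonunits_iff_or, ← map_inv₀,
    br2_map_mem_of_smul_eq 𝒜 τ hτ, EmbeddingLike.map_eq_zero_iff]

/-- **Local contradiction lemma.** -/
theorem br2_loc {p : ℕ} [Fact p.Prime] (V : Type) [AddCommGroup V]
    [Module (ZMod p) V] [DistribMulAction Γ V] [SMulCommClass Γ (ZMod p) V]
    (C : Submodule (ZMod p) V) (hadm : ExtCitation.IsAdmissibleExtensionCts p V C)
    (ζ A : Qb) (hζ : IsPrimitiveRoot ζ p) (hA0 : A ≠ 0)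
    (hAp : A ^ p ∈ IntermediateField.adjoin ℚ {ζ})
    (h₀ : Γ) (h₀ζ : h₀ ζ = ζ) (h₀A : h₀ A = ζ * A)
    (hker : ∀ σ : Γ, (∀ v : V, σ • v = v) ↔ (σ ζ = ζ ∧ σ A = A))
    (hcyc : ∀ σ : Γ, σ ζ = ζ ^ ExtCitation.cycloExp p σ)
    (𝒜 : ValuationSubring Qb) (ℓ : ℕ) (hℓ : ℓ.Prime) (h𝒜 : 𝒜.LiesOverPrime ℓ)
    (T u u' : Qb) (hu : u ∈ IntermediateField.adjoin ℚ {ζ}) (hu0 : u ≠ 0)
    (hu' : u' ∈ IntermediateField.adjoin ℚ {ζ}) (hT : T = u * A + u')
    (hT2 : ∀ i, 0 < i → i < p → ∀ x ∈ IntermediateField.adjoin ℚ {ζ}, x ≠ 0 →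
      𝒜.valuation T ^ i ≠ 𝒜.valuation x)
    (hT3 : 𝒜.valuation (h₀ T) = 𝒜.valuation T) : False := by
  have hp : p.Prime := Fact.out
  set K₀ : IntermediateField ℚ Qb := IntermediateField.adjoin ℚ {ζ} with hK₀
  have hζK : ζ ∈ K₀ := IntermediateField.mem_adjoin_simple_self ℚ ζ
  -- the polynomial of `T` over `K₀`
  let g : Polynomial K₀ := (Polynomial.X - Polynomial.C ⟨u', hu'⟩) ^ p
    - Polynomial.C (⟨u, hu⟩ ^ p * ⟨A ^ p, hAp⟩)
  have hg0 : ((Polynomial.X - Polynomial.C (⟨u', hu'⟩ : K₀)) ^ p).Monic :=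
    (Polynomial.monic_X_sub_C _).pow p
  have hg0deg : ((Polynomial.X - Polynomial.C (⟨u', hu'⟩ : K₀)) ^ p).natDegree = p := by
    rw [Polynomial.natDegree_pow, Polynomial.natDegree_X_sub_C, mul_one]
  have hCdeg : (Polynomial.C ((⟨u, hu⟩ : K₀) ^ p * ⟨A ^ p, hAp⟩)).degree
      < ((Polynomial.X - Polynomial.C (⟨u', hu'⟩ : K₀)) ^ p).degree := by
    refine lt_of_le_of_lt Polynomial.degree_C_le ?_
    rw [Polynomial.degree_eq_natDegree hg0.ne_zero, hg0deg]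
    exact_mod_cast hp.pos
  have hg : g.Monic := hg0.sub_of_left hCdeg
  have hgdeg : g.natDegree = p := by
    rw [← hg0deg]
    exact Polynomial.natDegree_sub_eq_left_of_natDegree_lt
      (by rw [Polynomial.natDegree_C, hg0deg]; exact hp.pos)
  have hgT : Polynomial.aeval T g = 0 := by
    simp only [g, map_sub, map_pow, Polynomial.aeval_X, Polynomial.aeval_C]
    show (T - u') ^ p - u ^ p * A ^ p = 0
    rw [hT]; ring
  let E : IntermediateField ℚ Qb := (IntermediateField.adjoin K₀ {T}).restrictScalars ℚ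
  have hrep : ∀ x ∈ E, ∃ c : ℕ → Qb, (∀ i, c i ∈ K₀) ∧
      x = ∑ i ∈ Finset.range p, c i * T ^ i :=
    fun x hx => br2_exists_coeffs K₀ p hp.pos T g hg hgdeg hgT x hx
  have hK₀E : ∀ x ∈ K₀, x ∈ E :=
    fun x hx => (IntermediateField.adjoin K₀ {T}).algebraMap_mem ⟨x, hx⟩
  have hTE : T ∈ E := IntermediateField.mem_adjoin_simple_self K₀ T
  have hAE : A ∈ E := by
    have : A = (T - u') / u := by rw [hT, add_sub_cancel_right, mul_div_cancel_left₀ _ hu0]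
    rw [this]
    exact E.div_mem (E.sub_mem hTE (hK₀E _ hu')) (hK₀E _ hu)
  have hfix₀ : ∀ x ∈ K₀, h₀ x = x := br2_fix_adjoin ζ h₀ h₀ζ
  -- `h₀` preserves the valuation on `E`
  have hinv : ∀ x ∈ E, 𝒜.valuation (h₀ x) = 𝒜.valuation x := by
    intro x hx
    obtain ⟨c, hc, rfl⟩ := hrep x hx
    have : h₀ (∑ i ∈ Finset.range p, c i * T ^ i)
        = ∑ i ∈ Finset.range p, c i * (h₀ T) ^ i := by
      rw [map_sum]
      refine Finset.sum_congr rfl (fun i _ => ?_)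
      rw [map_mul, map_pow, hfix₀ _ (hc i)]
    rw [this]
    exact br2_rigid_eq 𝒜 K₀ p hp.pos T (h₀ T) hT2 hT3 c hc
  -- PF1: a conjugate of `h₀⁻¹` lies in the decomposition group
  obtain ⟨ρ, hρ, hρ𝒜⟩ := exists_fixing_smul_eq E 𝒜 (h₀⁻¹ • 𝒜) (by
    intro x hx
    rw [ValuationSubring.mem_pointwise_smul_iff_inv_smul_mem, inv_inv]
    show x ∈ 𝒜 ↔ h₀ x ∈ 𝒜
    rw [← 𝒜.valuation_le_one_iff, ← 𝒜.valuation_le_one_iff, hinv x hx])
  set τ : Γ := ρ * h₀⁻¹ with hτdef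
  have hτ𝒜 : τ • 𝒜 = 𝒜 := by rw [hτdef, mul_smul]; exact hρ𝒜
  have hρfix : ∀ (ρ : Γ), ρ ∈ E.fixingSubgroup → ∀ x ∈ E, ρ x = x :=
    fun ρ hρ x hx => hρ ⟨x, hx⟩
  have h₀invζ : h₀⁻¹ ζ = ζ := by
    conv_lhs => rw [← h₀ζ]
    exact h₀.symm_apply_apply ζ
  have hτζ : τ ζ = ζ := by
    rw [hτdef, AlgEquiv.mul_apply, h₀invζ, hρfix ρ hρ ζ (hK₀E ζ hζK)]
  have hζ0 : ζ ≠ 0 := hζ.ne_zero hp.ne_zero
  have h₀invA : h₀⁻¹ A = ζ⁻¹ * A := by
    have h1 : h₀ (ζ⁻¹ * A) = A := by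
      rw [map_mul, map_inv₀, h₀ζ, h₀A, inv_mul_cancel_left₀ hζ0]
    conv_lhs => rw [← h1]
    exact h₀.symm_apply_apply _
  have hζAE : ζ⁻¹ * A ∈ E := E.mul_mem (E.inv_mem (hK₀E ζ hζK)) hAE
  have hτA : τ A = ζ⁻¹ * A := by
    rw [hτdef, AlgEquiv.mul_apply, h₀invA, hρfix ρ hρ _ hζAE]
  have hζ1 : ζ ≠ 1 := hζ.ne_one hp.one_lt
  have hne : ζ⁻¹ * A ≠ A := by
    intro h
    have h2 : ζ⁻¹ * A = 1 * A := by rw [h, one_mul]
    exact hζ1 (inv_eq_one.mp (mul_right_cancel₀ hA0 h2))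
  by_cases hℓp : ℓ = p
  · subst hℓp
    obtain ⟨C', hC', hcompl⟩ := hadm.locally_split 𝒜 h𝒜
    have hτD : τ ∈ 𝒜.decompositionSubgroup ℚ := hτ𝒜
    have hexp : (ExtCitation.cycloExp ℓ τ : ZMod ℓ) = 1 := by
      have h1 := hcyc τ
      rw [hτζ] at h1
      have h2 : ζ ^ (ExtCitation.cycloExp ℓ τ) = ζ ^ 1 := by rw [pow_one]; exact h1.symm
      have hfin : IsOfFinOrder ζ := isOfFinOrder_iff_pow_eq_one.mpr ⟨ℓ, hp.pos, hζ.pow_eq_one⟩
      have h3 := hfin.pow_eq_pow_iff_modEq.mp h2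
      rw [← hζ.eq_orderOf] at h3
      have h4 := (ZMod.natCast_eq_natCast_iff _ _ _).mpr h3
      simpa using h4
    have htriv : ∀ x : V, τ • x = x := by
      intro x
      have hx : x ∈ C ⊔ C' := by rw [hcompl.sup_eq_top]; trivial
      obtain ⟨c, hc, c', hc', rfl⟩ := Submodule.mem_sup.mp hx
      have h1 : τ • c = c := hadm.fixed_sub τ c hc
      have h2 : τ • c' - c' ∈ C := by
        have := hadm.cyclo_quot τ c'
        rwa [hexp, one_smul] at this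
      have h3 : τ • c' - c' ∈ C' := C'.sub_mem (hC' τ hτD c' hc') hc'
      have h4 : τ • c' - c' = 0 := by
        have : τ • c' - c' ∈ C ⊓ C' := ⟨h2, h3⟩
        rw [hcompl.inf_eq_bot] at this
        exact (Submodule.mem_bot _).mp this
      rw [smul_add, h1, sub_eq_zero.mp h4]
    have h5 : τ A = A := ((hker τ).mp htriv).2
    rw [hτA] at h5
    exact hne h5
  · obtain ⟨ρ', hρ', hmem⟩ := exists_fixing_inertia E 𝒜 τ hτ𝒜 (by
      intro x hx hx𝒜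
      obtain ⟨c, hc, rfl⟩ := hrep x hx
      rw [𝒜.mem_nonunits_iff, map_sum, ← Finset.sum_sub_distrib]
      refine 𝒜.valuation.map_sum_lt one_ne_zero (fun i hi => ?_)
      rcases Nat.eq_zero_or_pos i with rfl | hi0
      · rw [pow_zero, mul_one, br2_fix_adjoin ζ τ hτζ _ (hc 0), sub_self, map_zero]
        exact zero_lt_one
      · have h1 : 𝒜.valuation (c i * T ^ i) < 1 :=
          br2_rigid_lt 𝒜 K₀ p hp.pos T hT2 c hc ((𝒜.valuation_le_one_iff _).mpr hx𝒜) i hi0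
            (Finset.mem_range.mp hi)
        have h2 : 𝒜.valuation (τ (c i * T ^ i)) < 1 :=
          𝒜.mem_nonunits_iff.mp
            ((br2_map_nonunits_of_smul_eq 𝒜 τ hτ𝒜 _).mpr (𝒜.mem_nonunits_iff.mpr h1))
        exact lt_of_le_of_lt (𝒜.valuation.map_sub _ _) (max_lt h2 h1))
    have htriv := hadm.unramified_outside ℓ hℓ hℓp 𝒜 h𝒜 (ρ' * τ) hmem
    have h5 : (ρ' * τ) A = A := ((hker _).mp htriv).2
    rw [AlgEquiv.mul_apply, hτA, hρfix ρ' hρ' _ hζAE] at h5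
    exact hne h5

end Fermat.Agent.S14
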