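import Mathlib
import Fermat.Prelude.Def_ExtCitation_AdmissibleExtension_v2
import Fermat.Agent.S14.Bridge2a

/-!
# S14 bridge, part BR2 (b): valuation subrings of `ℚ̄` above a prime of a number field, and the
local condition `hc` (`bridge_hc`).
-/

set_option autoImplicit false

namespace Fermat.Agent.S14

open NumberField
open scoped Pointwise

local notation "Qb" => AlgebraicClosure ℚ
local notation "Γ" => (AlgebraicClosure ℚ ≃ₐ[ℚ] AlgebraicClosure ℚ)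

/-- A valuation subring of `ℚ̄` inducing the `v`-adic valuation ring on the number field `K₀`. -/
theorem br2_exists_valuationSubring (K₀ : IntermediateField ℚ Qb) [NumberField K₀]
    (v : IsDedekindDomain.HeightOneSpectrum (𝓞 K₀)) :
    ∃ 𝒜 : ValuationSubring Qb, ∀ x : K₀, (x : Qb) ∈ 𝒜 ↔ v.valuation K₀ x ≤ 1 := by
  let S : Subring Qb := (v.valuation K₀).integer.map (algebraMap K₀ Qb)
  let I : Ideal S := Ideal.span {s : S | ∃ x : K₀, v.valuation K₀ x < 1 ∧ (x : Qb) = (s : Qb)}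
  have key : ∀ s ∈ I, ∃ x : K₀, v.valuation K₀ x < 1 ∧ (x : Qb) = (s : Qb) := by
    intro s hs
    induction hs using Submodule.span_induction with
    | mem s hs => exact hs
    | zero => exact ⟨0, by simp, rfl⟩
    | add s t _ _ hs ht =>
      obtain ⟨x, hx, hxs⟩ := hs
      obtain ⟨y, hy, hyt⟩ := ht
      refine ⟨x + y, lt_of_le_of_lt ((v.valuation K₀).map_add x y) (max_lt hx hy), ?_⟩
      push_cast
      rw [hxs, hyt]
    | smul a s _ hs =>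
      obtain ⟨x, hx, hxs⟩ := hs
      obtain ⟨y, hy, hya⟩ := a.2
      refine ⟨y * x, ?_, ?_⟩
      · rw [map_mul]
        calc v.valuation K₀ y * v.valuation K₀ x ≤ 1 * v.valuation K₀ x :=
              mul_le_mul' hy le_rfl
          _ = v.valuation K₀ x := one_mul _
          _ < 1 := hx
      · push_cast
        rw [hxs]
        show (algebraMap K₀ Qb y) * (s : Qb) = (a : Qb) * (s : Qb)
        rw [hya]
  have hI : I ≠ ⊤ := by
    intro h
    have h1 : (1 : S) ∈ I := by rw [h]; trivial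
    obtain ⟨x, hx, hx1⟩ := key 1 h1
    have hx1' : x = 1 := by
      have : (x : Qb) = ((1 : K₀) : Qb) := by rw [hx1]; rfl
      exact_mod_cast this
    rw [hx1', map_one] at hx
    exact lt_irrefl _ hx
  obtain ⟨𝒜, hS, hI𝒜⟩ := Ideal.image_subset_nonunits_valuationSubring I hI
  refine ⟨𝒜, fun x => ⟨fun hx => ?_, fun hx => hS ⟨x, hx, rfl⟩⟩⟩
  by_contra hcon
  rw [not_le] at hcon
  have hx0 : x ≠ 0 := by
    rintro rfl
    simp at hcon
  have hinv : v.valuation K₀ x⁻¹ < 1 := by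
    rw [map_inv₀]; exact inv_lt_one_of_one_lt₀ hcon
  have hmemS : ((x⁻¹ : K₀) : Qb) ∈ S := ⟨x⁻¹, hinv.le, rfl⟩
  have h2 : ((x⁻¹ : K₀) : Qb) ∈ 𝒜.nonunits :=
    hI𝒜 ⟨⟨_, hmemS⟩, Ideal.subset_span ⟨x⁻¹, hinv, rfl⟩, rfl⟩
  rw [ValuationSubring.mem_nonunits_iff_or] at h2
  rcases h2 with h2 | h2
  · have : (x⁻¹ : K₀) = 0 := by exact_mod_cast h2
    exact inv_ne_zero hx0 this
  · apply h2
    push_cast
    rw [inv_inv]
    exact hx

theorem br2_val_lt_one_iff (K₀ : IntermediateField ℚ Qb) [NumberField K₀]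
    (v : IsDedekindDomain.HeightOneSpectrum (𝓞 K₀)) (𝒜 : ValuationSubring Qb)
    (h𝒜 : ∀ x : K₀, (x : Qb) ∈ 𝒜 ↔ v.valuation K₀ x ≤ 1) (x : K₀) :
    𝒜.valuation (x : Qb) < 1 ↔ v.valuation K₀ x < 1 := by
  rcases eq_or_ne x 0 with rfl | hx
  · simp
  have hx' : (x : Qb) ≠ 0 := by exact_mod_cast hx
  have h1 := h𝒜 x⁻¹
  rw [← 𝒜.valuation_le_one_iff] at h1
  push_cast at h1
  rw [map_inv₀, map_inv₀, inv_le_one₀ (zero_lt_iff.mpr ((map_ne_zero _).mpr hx')),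
    inv_le_one₀ (zero_lt_iff.mpr ((map_ne_zero _).mpr hx))] at h1
  rw [← not_le, ← not_le, h1]

theorem br2_val_eq_one_iff (K₀ : IntermediateField ℚ Qb) [NumberField K₀]
    (v : IsDedekindDomain.HeightOneSpectrum (𝓞 K₀)) (𝒜 : ValuationSubring Qb)
    (h𝒜 : ∀ x : K₀, (x : Qb) ∈ 𝒜 ↔ v.valuation K₀ x ≤ 1) (x : K₀) :
    𝒜.valuation (x : Qb) = 1 ↔ v.valuation K₀ x = 1 := by
  have h1 := br2_val_lt_one_iff K₀ v 𝒜 h𝒜 x
  have h2 := h𝒜 x
  rw [← 𝒜.valuation_le_one_iff] at h2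
  constructor
  · intro h
    exact le_antisymm (h2.mp h.le) (not_lt.mp (fun h' => absurd (h1.mpr h') (by rw [h]; exact lt_irrefl _)))
  · intro h
    exact le_antisymm (h2.mpr h.le) (not_lt.mp (fun h' => absurd (h1.mp h') (by rw [h]; exact lt_irrefl _)))

/-- A valuation subring of `ℚ̄` in which some positive integer is a nonunit lies over a prime. -/
theorem br2_exists_prime_of_nat (𝒜 : ValuationSubring Qb) (n : ℕ) (hn0 : 0 < n)
    (hn : (n : Qb) ∈ 𝒜.nonunits) : ∃ ℓ : ℕ, ℓ.Prime ∧ 𝒜.LiesOverPrime ℓ := by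
  classical
  have hex : ∃ n : ℕ, 0 < n ∧ (n : Qb) ∈ 𝒜.nonunits := ⟨n, hn0, hn⟩
  obtain ⟨hm0, hm⟩ := Nat.find_spec hex
  set m := Nat.find hex with hmdef
  have hm1 : m ≠ 1 := by
    intro h
    rw [h, Nat.cast_one, 𝒜.mem_nonunits_iff, map_one] at hm
    exact lt_irrefl _ hm
  have hprime : m.minFac.Prime := Nat.minFac_prime hm1
  refine ⟨m.minFac, hprime, ?_⟩
  show (m.minFac : Qb) ∈ 𝒜.nonunits
  by_contra hcon
  have hdvd : m.minFac ∣ m := Nat.minFac_dvd m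
  obtain ⟨k, hk⟩ := hdvd
  have hk0 : 0 < k := by
    rcases Nat.eq_zero_or_pos k with h | h
    · rw [h, mul_zero] at hk; omega
    · exact h
  have hklt : k < m := by
    have := hprime.two_le
    nlinarith
  have hkmem : (k : Qb) ∈ 𝒜.nonunits := by
    rw [𝒜.mem_nonunits_iff] at hm hcon ⊢
    have h1 : 𝒜.valuation (m.minFac : Qb) = 1 :=
      le_antisymm ((𝒜.valuation_le_one_iff _).mpr (natCast_mem 𝒜 _)) (not_lt.mp hcon)
    have h2 : (m : Qb) = (m.minFac : Qb) * (k : Qb) := by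
      conv_lhs => rw [hk]
      push_cast; rfl
    rw [h2, map_mul, h1, one_mul] at hm
    exact hm
  exact Nat.find_min hex hklt ⟨hk0, hkmem⟩

theorem br2_exists_liesOver (K₀ : IntermediateField ℚ Qb) [NumberField K₀]
    (v : IsDedekindDomain.HeightOneSpectrum (𝓞 K₀)) (𝒜 : ValuationSubring Qb)
    (h𝒜 : ∀ x : K₀, (x : Qb) ∈ 𝒜 ↔ v.valuation K₀ x ≤ 1) :
    ∃ ℓ : ℕ, ℓ.Prime ∧ 𝒜.LiesOverPrime ℓ := by
  have hN : (Ideal.absNorm v.asIdeal : 𝓞 K₀) ∈ v.asIdeal := Ideal.absNorm_mem _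
  have hN0 : 0 < Ideal.absNorm v.asIdeal := by
    rw [Nat.pos_iff_ne_zero, Ne, Ideal.absNorm_eq_zero_iff]
    exact v.ne_bot
  refine br2_exists_prime_of_nat 𝒜 _ hN0 ?_
  rw [𝒜.mem_nonunits_iff]
  have h1 : v.valuation K₀ (algebraMap (𝓞 K₀) K₀ (Ideal.absNorm v.asIdeal : 𝓞 K₀)) < 1 :=
    (v.valuation_lt_one_iff_mem _).mpr hN
  have h2 := (br2_val_lt_one_iff K₀ v 𝒜 h𝒜 _).mpr h1
  simpa using h2

theorem br2_withZero_pow (c₁ c₂ : WithZero (Multiplicative ℤ)) (h1 : c₁ ≠ 0) (i p : ℕ)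
    (hip : Nat.Coprime p i) (h : c₁ ^ i = c₂ ^ p) :
    ∃ c : WithZero (Multiplicative ℤ), c₁ = c ^ p := by
  have h2 : (i : ℤ) * WithZero.log c₁ = p * WithZero.log c₂ := by
    have := congrArg WithZero.log h
    simpa [WithZero.log_pow] using this
  have h3 : (p : ℤ) ∣ WithZero.log c₁ :=
    (Nat.isCoprime_iff_coprime.mpr hip).dvd_of_dvd_mul_left ⟨_, h2⟩
  obtain ⟨m, hm⟩ := h3
  refine ⟨WithZero.exp m, ?_⟩
  rw [← WithZero.exp_nsmul, nsmul_eq_mul, ← hm, WithZero.exp_log h1]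

/-- The valuation of a root of unity is `1`. -/
theorem br2_val_root (𝒜 : ValuationSubring Qb) (ζ : Qb) (n : ℕ) (hn : n ≠ 0) (h : ζ ^ n = 1) :
    𝒜.valuation ζ = 1 := by
  have h1 : 𝒜.valuation ζ ^ n = 1 := by rw [← map_pow, h, map_one]
  exact (pow_eq_one_iff.mp h1).resolve_right hn

section BR2

variable {p : ℕ} [Fact p.Prime] (V : Type) [AddCommGroup V]
    [Module (ZMod p) V] [DistribMulAction Γ V] [SMulCommClass Γ (ZMod p) V]
    (C : Submodule (ZMod p) V)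

/-- Abstract form of the unramifiedness statements: if some `T = u A + u'` has
`w(T)^p = w(β)` with `β ∈ K₀ˣ` and `w(h₀ T) = w(T)`, then `v(β)` is a `p`-th power. -/
theorem br2_unr (hadm : ExtCitation.IsAdmissibleExtensionCts p V C)
    (ζ A : Qb) (hζ : IsPrimitiveRoot ζ p) (hA0 : A ≠ 0)
    (hAp : A ^ p ∈ IntermediateField.adjoin ℚ {ζ})
    (h₀ : Γ) (h₀ζ : h₀ ζ = ζ) (h₀A : h₀ A = ζ * A)
    (hker : ∀ σ : Γ, (∀ v : V, σ • v = v) ↔ (σ ζ = ζ ∧ σ A = A))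
    (hcyc : ∀ σ : Γ, σ ζ = ζ ^ ExtCitation.cycloExp p σ)
    [NumberField (IntermediateField.adjoin ℚ {ζ})]
    (v : IsDedekindDomain.HeightOneSpectrum (𝓞 (IntermediateField.adjoin ℚ {ζ})))
    (𝒜 : ValuationSubring Qb)
    (h𝒜 : ∀ x : IntermediateField.adjoin ℚ {ζ},
      (x : Qb) ∈ 𝒜 ↔ v.valuation (IntermediateField.adjoin ℚ {ζ}) x ≤ 1)
    (β : IntermediateField.adjoin ℚ {ζ}) (hβ : β ≠ 0)
    (T u u' : Qb) (hu : u ∈ IntermediateField.adjoin ℚ {ζ}) (hu0 : u ≠ 0)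
    (hu' : u' ∈ IntermediateField.adjoin ℚ {ζ}) (hT : T = u * A + u')
    (hTβ : 𝒜.valuation T ^ p = 𝒜.valuation (β : Qb))
    (hT3 : 𝒜.valuation (h₀ T) = 𝒜.valuation T) :
    ∃ c : WithZero (Multiplicative ℤ),
      v.valuation (IntermediateField.adjoin ℚ {ζ}) β = c ^ p := by
  have hp : p.Prime := Fact.out
  by_contra hcon
  obtain ⟨ℓ, hℓ, hℓ𝒜⟩ := br2_exists_liesOver _ v 𝒜 h𝒜
  refine br2_loc V C hadm ζ A hζ hA0 hAp h₀ h₀ζ h₀A hker hcyc 𝒜 ℓ hℓ hℓ𝒜 T u u' hu hu0 hu' hT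
    ?_ hT3
  intro i hi0 hip x hx hx0 h
  apply hcon
  have hβ' : (β : Qb) ≠ 0 := by exact_mod_cast hβ
  have hx0' : (⟨x, hx⟩ : IntermediateField.adjoin ℚ {ζ}) ≠ 0 := by
    intro h'; exact hx0 (congrArg Subtype.val h')
  have hwx : 𝒜.valuation x ≠ 0 := (map_ne_zero _).mpr hx0
  have h1 : 𝒜.valuation (((β ^ i / (⟨x, hx⟩ : IntermediateField.adjoin ℚ {ζ}) ^ p :
      IntermediateField.adjoin ℚ {ζ}) : Qb)) = 1 := by
    push_cast
    rw [map_div₀, map_pow, map_pow, ← hTβ, ← h, ← pow_mul, ← pow_mul, mul_comm]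
    refine div_self (pow_ne_zero _ ?_)
    intro h0
    rw [h0, zero_pow hi0.ne'] at h
    exact hwx h.symm
  have h2 := (br2_val_eq_one_iff _ v 𝒜 h𝒜 _).mp h1
  rw [map_div₀, map_pow, map_pow,
    div_eq_one_iff_eq (pow_ne_zero _ ((map_ne_zero _).mpr hx0'))] at h2
  exact br2_withZero_pow _ _ ((map_ne_zero _).mpr hβ) i p
    ((Nat.Prime.coprime_iff_not_dvd hp).mpr (Nat.not_dvd_of_pos_of_lt hi0 hip)) h2

end BR2

end Fermat.Agent.S14
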