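import Mathlib
import Fermat.Prelude.Def_ExtCitation_AdmissibleExtension_v2
import Fermat.Agent.S14.Bridge2b

/-!
# S14 bridge, part BR2 (c): arithmetic of `λ = ζ - 1` needed for the local condition `hd`.
-/

set_option autoImplicit false

namespace Fermat.Agent.S14

open NumberField
open scoped Pointwise

local notation "Qb" => AlgebraicClosure ℚ
local notation "Γ" => (AlgebraicClosure ℚ ≃ₐ[ℚ] AlgebraicClosure ℚ)

/-- Every integer of `ℚ(ζ_p)` is congruent to a rational integer modulo `λ = ζ - 1`. -/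
theorem br2_exists_int_sub_dvd {p : ℕ} [Fact p.Prime] {K : Type*} [Field K] [NumberField K]
    [IsCyclotomicExtension {p} ℚ K] {ζ : K} (hζ : IsPrimitiveRoot ζ p) (x : 𝓞 K) :
    ∃ n : ℤ, (hζ.toInteger - 1) ∣ x - n := by
  have hadj : Algebra.adjoin ℤ {hζ.toInteger} = ⊤ := by
    have := hζ.integralPowerBasis.adjoin_gen_eq_top
    rwa [hζ.integralPowerBasis_gen] at this
  have hx : x ∈ Algebra.adjoin ℤ {hζ.toInteger} := hadj ▸ Algebra.mem_top
  induction hx using Algebra.adjoin_induction with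
  | mem y hy =>
    rw [Set.mem_singleton_iff] at hy
    subst hy
    exact ⟨1, by simp⟩
  | algebraMap r => exact ⟨r, by simp⟩
  | add y z _ _ hy hz =>
    obtain ⟨n, hn⟩ := hy
    obtain ⟨m, hm⟩ := hz
    refine ⟨n + m, ?_⟩
    have key : y + z - ((n + m : ℤ) : 𝓞 K) = (y - n) + (z - m) := by push_cast; ring
    rw [key]
    exact dvd_add hn hm
  | mul y z _ _ hy hz =>
    obtain ⟨n, hn⟩ := hy
    obtain ⟨m, hm⟩ := hz
    refine ⟨n * m, ?_⟩
    have key : y * z - ((n * m : ℤ) : 𝓞 K) = (y - n) * z + n * (z - m) := by push_cast; ring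
    rw [key]
    exact dvd_add (Dvd.dvd.mul_right hn _) (Dvd.dvd.mul_left hm _)

/-- Arithmetic normal form of a unit modulo powers of `λ`. -/
theorem br2_unit_normal_form {p : ℕ} [Fact p.Prime] {K : Type*} [Field K] [NumberField K]
    [IsCyclotomicExtension {p} ℚ K] {ζ : K} (hζ : IsPrimitiveRoot ζ p) (η : 𝓞 K)
    (hη : IsUnit η) :
    ∃ n₀ : ℤ, ¬ (hζ.toInteger - 1) ∣ (n₀ : 𝓞 K) ∧
      (η - (n₀ : 𝓞 K) ^ p = 0 ∨ ∃ (k : ℕ) (x' : 𝓞 K), 0 < k ∧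
        η - (n₀ : 𝓞 K) ^ p = (hζ.toInteger - 1) ^ k * x' ∧ ¬ (hζ.toInteger - 1) ∣ x') := by
  have hp : p.Prime := Fact.out
  have hprime : Prime (hζ.toInteger - 1) := hζ.zeta_sub_one_prime'
  obtain ⟨n₀, hn₀⟩ := br2_exists_int_sub_dvd hζ η
  have hn₀' : ¬ (hζ.toInteger - 1) ∣ (n₀ : 𝓞 K) := by
    intro h
    have h1 : (hζ.toInteger - 1) ∣ η := by
      have := dvd_add hn₀ h
      rwa [sub_add_cancel] at this
    exact hprime.not_isUnit (isUnit_of_dvd_unit h1 hη)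
  refine ⟨n₀, hn₀', ?_⟩
  have hdvd : (hζ.toInteger - 1) ∣ η - (n₀ : 𝓞 K) ^ p := by
    have h1 : (p : ℤ) ∣ n₀ ^ p - n₀ := by
      rw [← ZMod.intCast_eq_intCast_iff_dvd_sub]
      push_cast
      exact (ZMod.pow_card _).symm
    obtain ⟨m, hm⟩ := h1
    have h2 : (hζ.toInteger - 1) ∣ ((n₀ : 𝓞 K) ^ p - n₀) := by
      have h3 : ((n₀ : 𝓞 K) ^ p - n₀) = (p : 𝓞 K) * (m : 𝓞 K) := by
        have := congrArg (Int.cast : ℤ → 𝓞 K) hm
        push_cast at this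
        exact this
      rw [h3]
      exact Dvd.dvd.mul_right hζ.toInteger_sub_one_dvd_prime' _
    have key : η - (n₀ : 𝓞 K) ^ p = (η - n₀) - ((n₀ : 𝓞 K) ^ p - n₀) := by ring
    rw [key]
    exact dvd_sub hn₀ h2
  by_cases hx : η - (n₀ : 𝓞 K) ^ p = 0
  · exact Or.inl hx
  · right
    have hfin : FiniteMultiplicity (hζ.toInteger - 1) (η - (n₀ : 𝓞 K) ^ p) :=
      FiniteMultiplicity.of_prime_left hprime hx
    obtain ⟨x', hx'1, hx'2⟩ := hfin.exists_eq_pow_mul_and_not_dvd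
    refine ⟨multiplicity (hζ.toInteger - 1) (η - (n₀ : 𝓞 K) ^ p), x', ?_, hx'1, hx'2⟩
    rw [Nat.pos_iff_ne_zero]
    intro h0
    rw [h0, pow_zero, one_mul] at hx'1
    rw [hx'1] at hdvd
    exact hx'2 hdvd

/-- Valuation computation: if `B^p - n^p` has valuation `w(ζ-1)^k` with `k < p`, then
`w(B - n)^p = w(ζ - 1)^k` and `w(ζ - 1) < w(B - n)`. -/
theorem br2_val_root_sub (𝒜 : ValuationSubring Qb) {p : ℕ} (hp : p.Prime) (ζ : Qb)
    (hζ : IsPrimitiveRoot ζ p) (B n₀ : Qb) (hn₀ : 𝒜.valuation n₀ ≤ 1) (k : ℕ) (hk : k < p)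
    (hlam : 𝒜.valuation (ζ - 1) < 1)
    (hX : 𝒜.valuation (B ^ p - n₀ ^ p) = 𝒜.valuation (ζ - 1) ^ k) :
    𝒜.valuation (B - n₀) ^ p = 𝒜.valuation (ζ - 1) ^ k ∧
      𝒜.valuation (ζ - 1) < 𝒜.valuation (B - n₀) := by
  have : NeZero p := ⟨hp.ne_zero⟩
  have hprod : B ^ p - n₀ ^ p = ∏ μ ∈ Polynomial.nthRootsFinset p (1 : Qb), (B - μ * n₀) :=
    hζ.pow_sub_pow_eq_prod_sub_mul B n₀ hp.pos
  have hcard : (Polynomial.nthRootsFinset p (1 : Qb)).card = p := hζ.card_nthRootsFinset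
  have hζ1 : ζ - 1 ≠ 0 := sub_ne_zero.mpr (hζ.ne_one hp.one_lt)
  have hlam0 : 0 < 𝒜.valuation (ζ - 1) := zero_lt_iff.mpr ((map_ne_zero _).mpr hζ1)
  have hμ : ∀ μ ∈ Polynomial.nthRootsFinset p (1 : Qb),
      𝒜.valuation (n₀ * (1 - μ)) ≤ 𝒜.valuation (ζ - 1) := by
    intro μ hμ
    rw [Polynomial.mem_nthRootsFinset hp.pos] at hμ
    obtain ⟨j, -, rfl⟩ := hζ.eq_pow_of_pow_eq_one hμ
    have h1 : 1 - ζ ^ j = -((∑ i ∈ Finset.range j, ζ ^ i) * (ζ - 1)) := by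
      rw [geom_sum_mul]; ring
    have h2 : 𝒜.valuation (∑ i ∈ Finset.range j, ζ ^ i) ≤ 1 := by
      refine 𝒜.valuation.map_sum_le (fun i _ => ?_)
      rw [map_pow, br2_val_root 𝒜 ζ p hp.ne_zero hζ.pow_eq_one, one_pow]
    rw [h1, map_mul, Valuation.map_neg, map_mul]
    calc 𝒜.valuation n₀ * (𝒜.valuation (∑ i ∈ Finset.range j, ζ ^ i) * 𝒜.valuation (ζ - 1))
        ≤ 1 * (1 * 𝒜.valuation (ζ - 1)) := mul_le_mul' hn₀ (mul_le_mul' h2 le_rfl)
      _ = 𝒜.valuation (ζ - 1) := by rw [one_mul, one_mul]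
  have hfac : ∀ μ : Qb, B - μ * n₀ = (B - n₀) + n₀ * (1 - μ) := fun μ => by ring
  by_cases ht : 𝒜.valuation (B - n₀) ≤ 𝒜.valuation (ζ - 1)
  · exfalso
    have h1 : 𝒜.valuation (B ^ p - n₀ ^ p) ≤ 𝒜.valuation (ζ - 1) ^ p := by
      rw [hprod, map_prod]
      have h2 := Finset.prod_le_pow_card (Polynomial.nthRootsFinset p (1 : Qb))
        (fun μ => 𝒜.valuation (B - μ * n₀)) (𝒜.valuation (ζ - 1)) (fun μ hμ' => by
          rw [hfac μ]
          exact (𝒜.valuation.map_add _ _).trans (max_le ht (hμ μ hμ')))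
      rwa [hcard] at h2
    rw [hX] at h1
    exact absurd h1 (not_le.mpr (pow_lt_pow_right_of_lt_one₀ hlam0 hlam hk))
  · rw [not_le] at ht
    refine ⟨?_, ht⟩
    rw [← hX, hprod, map_prod]
    have h2 : ∏ μ ∈ Polynomial.nthRootsFinset p (1 : Qb), 𝒜.valuation (B - μ * n₀)
        = 𝒜.valuation (B - n₀) ^ (Polynomial.nthRootsFinset p (1 : Qb)).card :=
      Finset.prod_eq_pow_card (fun μ hμ' => by
        rw [hfac μ]
        exact 𝒜.valuation.map_add_eq_of_lt_left (lt_of_le_of_lt (hμ μ hμ') ht))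
    rw [h2, hcard]

end Fermat.Agent.S14
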