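import Mathlib
import Fermat.Prelude.Def_ExtCitation_AdmissibleExtension_v2
import Fermat.Agent.S14.Bridge2c

/-!
# S14 bridge, part BR2: the local conditions `hc` (`bridge_hc`) and `hd` (`bridge_hd`) satisfied
by the Kummer generator of a non-split admissible extension.
-/

set_option autoImplicit false

namespace Fermat.Agent.S14

open NumberField
open scoped Pointwise

local notation "Qb" => AlgebraicClosure ℚ
local notation "Γ" => (AlgebraicClosure ℚ ≃ₐ[ℚ] AlgebraicClosure ℚ)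

section BR2

variable {p : ℕ} [Fact p.Prime] (V : Type) [AddCommGroup V]
    [Module (ZMod p) V] [DistribMulAction Γ V] [SMulCommClass Γ (ZMod p) V]
    (C : Submodule (ZMod p) V)

/-- **BR2-c**: `L = K(A)` is unramified over `K = ℚ(ζ)` at every prime, hence `p ∣ v(A^p)`. -/
theorem bridge_hc (hp3 : 3 ≤ p) (hadm : ExtCitation.IsAdmissibleExtensionCts p V C)
    (ζ A : Qb) (hζ : IsPrimitiveRoot ζ p) (hA0 : A ≠ 0)
    (hAp : A ^ p ∈ IntermediateField.adjoin ℚ {ζ})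
    (h₀ : Γ) (h₀ζ : h₀ ζ = ζ) (h₀A : h₀ A = ζ * A)
    (hker : ∀ σ : Γ, (∀ v : V, σ • v = v) ↔ (σ ζ = ζ ∧ σ A = A))
    (hcyc : ∀ σ : Γ, σ ζ = ζ ^ ExtCitation.cycloExp p σ)
    [NumberField (IntermediateField.adjoin ℚ {ζ})]
    (v : IsDedekindDomain.HeightOneSpectrum (𝓞 (IntermediateField.adjoin ℚ {ζ}))) :
    ∃ c : WithZero (Multiplicative ℤ),
      v.valuation (IntermediateField.adjoin ℚ {ζ}) ⟨A ^ p, hAp⟩ = c ^ p := by
  have hp : p.Prime := Fact.out
  have _ := hp3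
  obtain ⟨𝒜, h𝒜⟩ := br2_exists_valuationSubring _ v
  refine br2_unr V C hadm ζ A hζ hA0 hAp h₀ h₀ζ h₀A hker hcyc v 𝒜 h𝒜 ⟨A ^ p, hAp⟩ ?_ A 1 0
    (one_mem _) one_ne_zero (zero_mem _) (by ring) ?_ ?_
  · intro h
    exact pow_ne_zero p hA0 (congrArg Subtype.val h)
  · rw [map_pow]
  · rw [h₀A, map_mul, br2_val_root 𝒜 ζ p hp.ne_zero hζ.pow_eq_one, one_mul]

/-- **BR2-d**: `L/K` is split at `λ`; a unit `η` with `A^p = η γ^p` is an integer mod `λ^3`
(in fact `≡ n^p mod λ^p`).  Stated in `ℚ̄`: `(η - n) / (ζ - 1)^3` is an algebraic integer. -/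
theorem bridge_hd (hp3 : 3 ≤ p) (hadm : ExtCitation.IsAdmissibleExtensionCts p V C)
    (ζ A : Qb) (hζ : IsPrimitiveRoot ζ p) (hA0 : A ≠ 0)
    (hAp : A ^ p ∈ IntermediateField.adjoin ℚ {ζ})
    (h₀ : Γ) (h₀ζ : h₀ ζ = ζ) (h₀A : h₀ A = ζ * A)
    (hker : ∀ σ : Γ, (∀ v : V, σ • v = v) ↔ (σ ζ = ζ ∧ σ A = A))
    (hcyc : ∀ σ : Γ, σ ζ = ζ ^ ExtCitation.cycloExp p σ)
    (η γ : Qb) (hη : η ∈ IntermediateField.adjoin ℚ {ζ}) (hγ : γ ∈ IntermediateField.adjoin ℚ {ζ})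
    (hηint : IsIntegral ℤ η) (hηinv : IsIntegral ℤ η⁻¹) (hA : A ^ p = η * γ ^ p) :
    ∃ n : ℤ, IsIntegral ℤ ((η - n) / (ζ - 1) ^ 3) := by
  have hp : p.Prime := Fact.out
  have : NeZero p := ⟨hp.ne_zero⟩
  have hζint : IsIntegral ℚ ζ := (hζ.isIntegral hp.pos).tower_top
  have : FiniteDimensional ℚ (IntermediateField.adjoin ℚ {ζ}) :=
    IntermediateField.adjoin.finiteDimensional hζint
  have : NumberField (IntermediateField.adjoin ℚ {ζ}) := ⟨⟩
  have halg : Algebra.IsAlgebraic ℚ Qb := AlgebraicClosure.isAlgebraic ℚ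
  have : Algebra.IsIntegral ℚ Qb := Algebra.IsAlgebraic.isIntegral
  have : IsCyclotomicExtension {p} ℚ (IntermediateField.adjoin ℚ {ζ}) :=
    hζ.intermediateField_adjoin_isCyclotomicExtension ℚ
  have hζ' : IsPrimitiveRoot (IntermediateField.AdjoinSimple.gen ℚ ζ) p :=
    IsPrimitiveRoot.coe_submonoidClass_iff.mp hζ
  have hlamprime : Prime (hζ'.toInteger - 1) := hζ'.zeta_sub_one_prime'
  have hlam0 : hζ'.toInteger - 1 ≠ 0 := hlamprime.ne_zero
  let v : IsDedekindDomain.HeightOneSpectrum (𝓞 (IntermediateField.adjoin ℚ {ζ})) :=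
    ⟨Ideal.span {hζ'.toInteger - 1}, (Ideal.span_singleton_prime hlam0).mpr hlamprime,
      by rw [Ne, Ideal.span_singleton_eq_bot]; exact hlam0⟩
  obtain ⟨𝒜, h𝒜⟩ := br2_exists_valuationSubring _ v
  -- the coercion `𝓞 K₀ → ℚ̄`
  let φ : 𝓞 (IntermediateField.adjoin ℚ {ζ}) →+* Qb :=
    (algebraMap (IntermediateField.adjoin ℚ {ζ}) Qb).comp
      (algebraMap (𝓞 (IntermediateField.adjoin ℚ {ζ})) (IntermediateField.adjoin ℚ {ζ}))
  have hφint : ∀ y, IsIntegral ℤ (φ y) := fun y =>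
    (RingOfIntegers.isIntegral_coe y).map
      (IsScalarTower.toAlgHom ℤ (IntermediateField.adjoin ℚ {ζ}) Qb)
  have hφlam : φ (hζ'.toInteger - 1) = ζ - 1 := by
    rw [map_sub, map_one]; rfl
  have hφval1 : ∀ y, ¬ (hζ'.toInteger - 1) ∣ y → 𝒜.valuation (φ y) = 1 := fun y hy =>
    (br2_val_eq_one_iff _ v 𝒜 h𝒜 _).mpr
      (v.valuation_eq_one_iff_notMem.mpr (fun h => hy (Ideal.mem_span_singleton.mp h)))
  have hwlam : 𝒜.valuation (ζ - 1) < 1 := by
    rw [← hφlam]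
    exact (br2_val_lt_one_iff _ v 𝒜 h𝒜 _).mpr
      ((v.valuation_lt_one_iff_mem _).mpr (Ideal.mem_span_singleton_self _))
  -- `η` as a unit of `𝓞 K₀`
  have hA0p : A ^ p ≠ 0 := pow_ne_zero p hA0
  have hη0 : η ≠ 0 := by
    rintro rfl
    rw [zero_mul] at hA
    exact hA0p hA
  have hγ0 : γ ≠ 0 := by
    rintro rfl
    rw [zero_pow hp.ne_zero, mul_zero] at hA
    exact hA0p hA
  have hinj : Function.Injective (algebraMap (IntermediateField.adjoin ℚ {ζ}) Qb) :=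
    (algebraMap (IntermediateField.adjoin ℚ {ζ}) Qb).injective
  have hηK : IsIntegral ℤ (⟨η, hη⟩ : IntermediateField.adjoin ℚ {ζ}) :=
    (isIntegral_algebraMap_iff hinj).mp hηint
  have hηinvK : IsIntegral ℤ (⟨η, hη⟩ : IntermediateField.adjoin ℚ {ζ})⁻¹ :=
    (isIntegral_algebraMap_iff hinj).mp (by rw [map_inv₀]; exact hηinv)
  let ηₒ : 𝓞 (IntermediateField.adjoin ℚ {ζ}) := ⟨⟨η, hη⟩, hηK⟩
  let ηi : 𝓞 (IntermediateField.adjoin ℚ {ζ}) := ⟨(⟨η, hη⟩ : IntermediateField.adjoin ℚ {ζ})⁻¹, hηinvK⟩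
  have hφη : φ ηₒ = η := rfl
  have hφinj : Function.Injective φ :=
    hinj.comp (FaithfulSMul.algebraMap_injective _ _)
  have hunit : IsUnit ηₒ := by
    refine IsUnit.of_mul_eq_one ηi (hφinj ?_)
    rw [map_mul, map_one, hφη]
    show η * η⁻¹ = 1
    exact mul_inv_cancel₀ hη0
  obtain ⟨n₀, hn₀, hcase⟩ := br2_unit_normal_form hζ' ηₒ hunit
  have hζ1 : ζ - 1 ≠ 0 := sub_ne_zero.mpr (hζ.ne_one hp.one_lt)
  have hφn₀ : φ (n₀ : 𝓞 (IntermediateField.adjoin ℚ {ζ})) = (n₀ : Qb) := map_intCast φ n₀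
  refine ⟨n₀ ^ p, ?_⟩
  rcases hcase with h0 | ⟨k, x', hk0, hx, hx'⟩
  · have h1 := congrArg φ h0
    rw [map_sub, map_pow, hφη, hφn₀, map_zero] at h1
    push_cast
    rw [h1, zero_div]
    exact isIntegral_zero
  · have hxφ : η - (n₀ : Qb) ^ p = (ζ - 1) ^ k * φ x' := by
      have h1 := congrArg φ hx
      rwa [map_sub, map_pow, hφη, hφn₀, map_mul, map_pow, hφlam] at h1
    by_cases hk3 : 3 ≤ k
    · have h2 : (η - ((n₀ ^ p : ℤ) : Qb)) / (ζ - 1) ^ 3
          = φ ((hζ'.toInteger - 1) ^ (k - 3) * x') := by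
        push_cast
        rw [hxφ, map_mul, map_pow, hφlam, div_eq_iff (pow_ne_zero 3 hζ1)]
        have hk : k = (k - 3) + 3 := by omega
        conv_lhs => rw [hk, pow_add]
        ring
      rw [h2]
      exact hφint _
    · exfalso
      have hkp : k < p := by omega
      -- valuations
      have hwn₀ : 𝒜.valuation (n₀ : Qb) = 1 := by rw [← hφn₀]; exact hφval1 _ hn₀
      have hn₀ne : (n₀ : Qb) ≠ 0 := by
        intro h; rw [h, map_zero] at hwn₀; exact zero_ne_one hwn₀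
      have hwx' : 𝒜.valuation (φ x') = 1 := hφval1 _ hx'
      have hwη : 𝒜.valuation η = 1 := by
        rw [← hφη]
        exact hφval1 _ (fun h => hlamprime.not_isUnit (isUnit_of_dvd_unit h hunit))
      have hB : (A / γ) ^ p = η := by
        rw [div_pow, hA, mul_div_cancel_right₀ _ (pow_ne_zero p hγ0)]
      have hwB : 𝒜.valuation (A / γ) = 1 := by
        have h1 : 𝒜.valuation (A / γ) ^ p = 1 := by rw [← map_pow, hB, hwη]
        exact (pow_eq_one_iff.mp h1).resolve_right hp.ne_zero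
      have hX : 𝒜.valuation ((A / γ) ^ p - (n₀ : Qb) ^ p) = 𝒜.valuation (ζ - 1) ^ k := by
        rw [hB, hxφ, map_mul, map_pow, hwx', mul_one]
      obtain ⟨ht1, ht2⟩ := br2_val_root_sub 𝒜 hp ζ hζ (A / γ) (n₀ : Qb) hwn₀.le k hkp hwlam hX
      -- the element `T`
      have hTeq : (γ * (n₀ : Qb))⁻¹ * A + (-1) = (A / γ - (n₀ : Qb)) / (n₀ : Qb) := by
        field_simp
        ring
      have hwT : 𝒜.valuation ((γ * (n₀ : Qb))⁻¹ * A + (-1)) = 𝒜.valuation (A / γ - (n₀ : Qb)) := by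
        rw [hTeq, map_div₀, hwn₀, div_one]
      have hfixγ : h₀ γ = γ := br2_fix_adjoin ζ h₀ h₀ζ γ hγ
      have hT3 : 𝒜.valuation (h₀ ((γ * (n₀ : Qb))⁻¹ * A + (-1)))
          = 𝒜.valuation ((γ * (n₀ : Qb))⁻¹ * A + (-1)) := by
        have h1 : h₀ ((γ * (n₀ : Qb))⁻¹ * A + (-1))
            = ((γ * (n₀ : Qb))⁻¹ * A + (-1)) + (ζ - 1) * (A / γ) / (n₀ : Qb) := by
          rw [map_add, map_mul, map_inv₀, map_mul, hfixγ, map_intCast, h₀A, map_neg, map_one]
          field_simp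
          ring
        rw [h1]
        refine 𝒜.valuation.map_add_eq_of_lt_left ?_
        rw [hwT, map_div₀, map_mul, hwB, hwn₀, mul_one, div_one]
        exact ht2
      have hβ0 : (algebraMap (𝓞 (IntermediateField.adjoin ℚ {ζ})) (IntermediateField.adjoin ℚ {ζ})
          (hζ'.toInteger - 1)) ^ k ≠ 0 :=
        pow_ne_zero k (fun h => hlam0 ((FaithfulSMul.algebraMap_injective _ _)
          (by rw [h, map_zero])))
      obtain ⟨c, hc⟩ := br2_unr V C hadm ζ A hζ hA0 hAp h₀ h₀ζ h₀A hker hcyc v 𝒜 h𝒜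
        ((algebraMap (𝓞 (IntermediateField.adjoin ℚ {ζ})) (IntermediateField.adjoin ℚ {ζ})
          (hζ'.toInteger - 1)) ^ k) hβ0
        ((γ * (n₀ : Qb))⁻¹ * A + (-1)) (γ * (n₀ : Qb))⁻¹ (-1)
        (inv_mem (mul_mem hγ (intCast_mem _ n₀))) (inv_ne_zero (mul_ne_zero hγ0 hn₀ne))
        (neg_mem (one_mem _)) rfl
        (by
          rw [hwT, ht1]
          push_cast
          rw [map_pow]
          exact congrArg (fun t => 𝒜.valuation t ^ k) hφlam.symm)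
        hT3
      rw [map_pow, v.valuation_of_algebraMap, v.intValuation_singleton hlam0 rfl] at hc
      have h3 := congrArg WithZero.log hc
      rw [WithZero.log_pow, WithZero.log_pow, WithZero.log_exp] at h3
      have h4 : (p : ℤ) ∣ (k : ℤ) := ⟨-WithZero.log c, by simp only [nsmul_eq_mul] at h3; linarith⟩
      have h5 : p ∣ k := by exact_mod_cast h4
      exact absurd (Nat.le_of_dvd hk0 h5) (by omega)

end BR2

end Fermat.Agent.S14
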