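import Fermat.Agent.S14.Defs

/-!
# S14, piece ALG-2: an `ω²`-functional on the class group

If a nontrivial class `x` of order `p` in the class group of `K = ℚ(ζ_p)` is an `ω²`-eigenvector
(`σ x = x ^ (a²)` whenever `σ ζ = ζ ^ a`), then there is a nontrivial homomorphism
`ψ : Cl(K) → ℤ/p` of type `ω²`.

Proof: for every `f : Cl → ℤ/p` the average `ψ_f = ∏_τ (f ∘ τ) ^ (a(τ)⁻²)` is of type `ω²`.  If all
of them vanish, the endomorphism `u = ∏_τ τ ^ (a(τ)⁻²)` of `Cl` has image in `Cl ^ p`, while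
`u x = x⁻¹`; hence `x = u (u x) ∈ Cl ^ (p ^ k)` for all `k`, so `x = 1`.
-/

set_option autoImplicit false

open NumberField IsDedekindDomain
open scoped nonZeroDivisors

namespace Fermat.Agent.S14

section clfun

variable {K : Type} [Field K] [NumberField K]

lemma clfun_clMap_one (c : ClassGroup (𝓞 K)) : clMap (1 : K ≃ₐ[ℚ] K) c = c := by
  unfold clMap
  have h : RingOfIntegers.mapRingEquiv (1 : K ≃ₐ[ℚ] K).toRingEquiv = RingEquiv.refl (𝓞 K) := by
    ext x; rfl
  rw [h, ClassGroup.mulEquiv_refl_apply]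

lemma clfun_clMap_mul (σ τ : K ≃ₐ[ℚ] K) (c : ClassGroup (𝓞 K)) :
    clMap (σ * τ) c = clMap σ (clMap τ c) := by
  unfold clMap
  have h : RingOfIntegers.mapRingEquiv (σ * τ).toRingEquiv
      = (RingOfIntegers.mapRingEquiv τ.toRingEquiv).trans
          (RingOfIntegers.mapRingEquiv σ.toRingEquiv) := by
    ext x; rfl
  rw [h, ClassGroup.mulEquiv_trans_apply]

/-- Powers in `Multiplicative (ZMod p)` only depend on the exponent modulo `p`. -/
lemma clfun_pow_congr {p : ℕ} (y : Multiplicative (ZMod p)) {k l : ℕ}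
    (h : (k : ZMod p) = l) : y ^ k = y ^ l := by
  apply Multiplicative.toAdd.injective
  rw [toAdd_pow, toAdd_pow, nsmul_eq_mul, nsmul_eq_mul, h]

/-- Powers of an element killed by `p` only depend on the exponent modulo `p`. -/
lemma clfun_pow_congr' {G : Type*} [Monoid G] {p : ℕ} {x : G} (hx : x ^ p = 1) {k l : ℕ}
    (h : (k : ZMod p) = l) : x ^ k = x ^ l := by
  rw [ZMod.natCast_eq_natCast_iff'] at h
  rw [← Nat.mod_add_div k p, ← Nat.mod_add_div l p, pow_add, pow_add, pow_mul, pow_mul, hx,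
    one_pow, one_pow, h]

/-- A nonzero element of an elementary abelian `p`-group is detected by a homomorphism to
`ℤ/p`. -/
lemma clfun_exists_addHom {V : Type*} [AddCommGroup V] {p : ℕ} [Fact p.Prime]
    (hkill : ∀ v : V, p • v = 0) (v : V) (hv : v ≠ 0) : ∃ φ : V →+ ZMod p, φ v ≠ 0 := by
  let inst : Module (ZMod p) V := AddCommGroup.zmodModule hkill
  have hfree : Module.Free (ZMod p) V := Module.Free.of_divisionRing (ZMod p) V
  have hproj : Module.Projective (ZMod p) V :=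
    @Module.Projective.of_free (ZMod p) _ V _ inst hfree
  have h := (@Module.forall_dual_apply_eq_zero_iff V _ (ZMod p) _ inst hproj v).not.mpr hv
  push Not at h
  obtain ⟨φ, hφ⟩ := h
  exact ⟨φ.toAddMonoidHom, hφ⟩

/-- In a finite commutative group, an element killed by all homomorphisms to `ℤ/p` is a
`p`-th power. -/
lemma clfun_exists_pow_of_forall_hom {G : Type*} [CommGroup G] {p : ℕ} [Fact p.Prime]
    (y : G) (h : ∀ f : G →* Multiplicative (ZMod p), f y = 1) : ∃ z : G, y = z ^ p := by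
  classical
  let H : Subgroup G := (powMonoidHom p : G →* G).range
  by_contra hcon
  have hy : y ∉ H := by
    rintro ⟨z, hz⟩
    exact hcon ⟨z, hz.symm⟩
  have hkill : ∀ v : Additive (G ⧸ H), p • v = 0 := by
    intro v
    induction v using Additive.rec with
    | ofMul q =>
      induction q using QuotientGroup.induction_on with
      | H c =>
        rw [← ofMul_pow, ← QuotientGroup.mk_pow]
        have : ((c ^ p : G) : G ⧸ H) = 1 := (QuotientGroup.eq_one_iff _).mpr ⟨c, rfl⟩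
        rw [this]; rfl
  have hv : (Additive.ofMul ((y : G) : G ⧸ H)) ≠ (0 : Additive (G ⧸ H)) := by
    intro h0
    have : ((y : G) : G ⧸ H) = 1 := h0
    exact hy ((QuotientGroup.eq_one_iff _).mp this)
  obtain ⟨φ, hφ⟩ := clfun_exists_addHom hkill _ hv
  let f : G →* Multiplicative (ZMod p) :=
    AddMonoidHom.toMultiplicativeRight
      (φ.comp (MonoidHom.toAdditive (QuotientGroup.mk' H)))
  have hf : f y = Multiplicative.ofAdd (φ (Additive.ofMul ((y : G) : G ⧸ H))) := rfl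
  have := h f
  rw [hf] at this
  exact hφ (Multiplicative.ofAdd.injective this)

end clfun

section main

variable {p : ℕ} [Fact p.Prime] {K : Type} [Field K] [NumberField K]
  [IsCyclotomicExtension {p} ℚ K] {ζ : K}

/-- **ALG-2** -/
theorem exists_omegaSq (hζ : IsPrimitiveRoot ζ p) (x : ClassGroup (𝓞 K)) (hx : x ≠ 1)
    (hxp : x ^ p = 1)
    (hxσ : ∀ (σ : K ≃ₐ[ℚ] K) (a : ℕ), σ ζ = ζ ^ a → clMap σ x = x ^ (a ^ 2)) :
    ∃ ψ : ClassGroup (𝓞 K) →* Multiplicative (ZMod p), ψ ≠ 1 ∧ IsOmegaSq p ζ ψ := by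
  classical
  have hp : p.Prime := Fact.out
  have : NeZero p := ⟨hp.ne_zero⟩
  have hζ0 : ζ ≠ 0 := hζ.ne_zero hp.ne_zero
  -- the exponent of `σ` on `ζ`
  have hex : ∀ σ : K ≃ₐ[ℚ] K, ∃ n : ℕ, σ ζ = ζ ^ n := by
    intro σ
    have h1 : (σ ζ) ^ p = 1 := by rw [← map_pow, hζ.pow_eq_one, map_one]
    obtain ⟨i, -, hi⟩ := hζ.eq_pow_of_pow_eq_one h1
    exact ⟨i, hi.symm⟩
  choose n hn using hex
  have hpow : ∀ i j : ℕ, ζ ^ i = ζ ^ j → (i : ZMod p) = j := by
    have key : ∀ i d : ℕ, ζ ^ i = ζ ^ (i + d) → (i : ZMod p) = ((i + d : ℕ) : ZMod p) := by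
      intro i d h
      rw [pow_add] at h
      have h1 : ζ ^ d = 1 := by
        have h2 : ζ ^ i * 1 = ζ ^ i * ζ ^ d := by rw [mul_one]; exact h
        exact (mul_left_cancel₀ (pow_ne_zero i hζ0) h2).symm
      have h3 : (d : ZMod p) = 0 := (ZMod.natCast_eq_zero_iff d p).mpr (hζ.dvd_of_pow_eq_one d h1)
      push_cast
      rw [h3, add_zero]
    intro i j h
    rcases le_total i j with hij | hij
    · obtain ⟨d, rfl⟩ := Nat.exists_eq_add_of_le hij
      exact key i d h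
    · obtain ⟨d, rfl⟩ := Nat.exists_eq_add_of_le hij
      exact (key j d h.symm).symm
  have hnp : ∀ σ, ((n σ : ℕ) : ZMod p) ≠ 0 := by
    intro σ h0
    rw [ZMod.natCast_eq_zero_iff] at h0
    obtain ⟨t, ht⟩ := h0
    have h1 : σ ζ = 1 := by rw [hn σ, ht, pow_mul, hζ.pow_eq_one, one_pow]
    have h2 : ζ = 1 := by
      have := congrArg σ.symm h1
      simpa using this
    exact hζ.ne_one hp.one_lt h2
  have hmul : ∀ σ τ, ((n (σ * τ) : ℕ) : ZMod p) = (n σ : ZMod p) * (n τ : ZMod p) := by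
    intro σ τ
    have h : ζ ^ n (σ * τ) = ζ ^ (n σ * n τ) := by
      rw [← hn, AlgEquiv.mul_apply, hn τ, map_pow, hn σ, ← pow_mul]
    have := hpow _ _ h
    push_cast at this
    exact this
  have hcons : ∀ σ (a : ℕ), σ ζ = ζ ^ a → (a : ZMod p) = (n σ : ZMod p) := by
    intro σ a h
    exact hpow _ _ (by rw [← h, hn])
  -- the weights `m τ ≡ n(τ)⁻²`
  let m : (K ≃ₐ[ℚ] K) → ℕ := fun τ => (((n τ : ZMod p))⁻¹ ^ 2).val
  have hm : ∀ τ, ((m τ : ℕ) : ZMod p) = ((n τ : ZMod p))⁻¹ ^ 2 := fun τ =>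
    ZMod.natCast_zmod_val _
  -- the averaged functionals
  let Ψ : (ClassGroup (𝓞 K) →* Multiplicative (ZMod p)) →
      (ClassGroup (𝓞 K) →* Multiplicative (ZMod p)) := fun f =>
    ∏ τ : K ≃ₐ[ℚ] K, (f.comp (clMap τ).toMonoidHom) ^ (m τ)
  have hΨ : ∀ f c, Ψ f c = ∏ τ : K ≃ₐ[ℚ] K, f (clMap τ c) ^ (m τ) := by
    intro f c
    simp only [Ψ, MonoidHom.finsetProd_apply, MonoidHom.pow_apply, MonoidHom.comp_apply]
    rfl
  have hΨω : ∀ f, IsOmegaSq p ζ (Ψ f) := by
    intro f σ a hσ c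
    rw [hΨ, hΨ, ← Finset.prod_pow]
    refine Fintype.prod_equiv (Equiv.mulRight σ) _ _ fun τ => ?_
    rw [Equiv.coe_mulRight, ← clfun_clMap_mul, ← pow_mul]
    apply clfun_pow_congr
    push_cast
    rw [hm, hm, hmul, hcons σ a hσ]
    have h1 := hnp σ
    have h2 := hnp τ
    field_simp
  by_contra hcon
  push Not at hcon
  have hΨ1 : ∀ f, Ψ f = 1 := by
    intro f
    by_contra h
    exact hcon (Ψ f) h (hΨω f)
  -- the endomorphism `u`
  let u : ClassGroup (𝓞 K) →* ClassGroup (𝓞 K) :=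
    ∏ τ : K ≃ₐ[ℚ] K, ((clMap τ).toMonoidHom) ^ (m τ)
  have hu : ∀ c, u c = ∏ τ : K ≃ₐ[ℚ] K, (clMap τ c) ^ (m τ) := by
    intro c
    simp only [u, MonoidHom.finsetProd_apply, MonoidHom.pow_apply]
    rfl
  have hup : ∀ c, ∃ z, u c = z ^ p := by
    intro c
    apply clfun_exists_pow_of_forall_hom
    intro f
    have := congrArg (fun g => g c) (hΨ1 f)
    simp only [MonoidHom.one_apply] at this
    rw [hΨ] at this
    rw [hu, map_prod]
    simp only [map_pow]
    exact this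
  -- `u x = x⁻¹`
  have hcard : Fintype.card (K ≃ₐ[ℚ] K) = p - 1 := by
    rw [Fintype.card_congr (IsCyclotomicExtension.autEquivPow K
      (Polynomial.cyclotomic.irreducible_rat hp.pos)).toEquiv, ZMod.card_units]
  have hux : u x = x⁻¹ := by
    rw [hu]
    have h1 : ∀ τ : K ≃ₐ[ℚ] K, (clMap τ x) ^ (m τ) = x := by
      intro τ
      rw [hxσ τ (n τ) (hn τ), ← pow_mul]
      have : x ^ (n τ ^ 2 * m τ) = x ^ 1 := by
        apply clfun_pow_congr' hxp
        push_cast
        rw [hm]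
        have h2 := hnp τ
        field_simp
      rw [this, pow_one]
    rw [Finset.prod_congr rfl (fun τ _ => h1 τ), Finset.prod_const, Finset.card_univ, hcard]
    rw [eq_inv_iff_mul_eq_one, ← pow_succ, Nat.sub_add_cancel hp.one_le, hxp]
  have huux : u (u x) = x := by rw [hux, map_inv, hux, inv_inv]
  -- `x` is a `p ^ j`-th power for all `j`
  have hxpow : ∀ j : ℕ, ∃ z, x = z ^ (p ^ j) := by
    intro j
    induction j with
    | zero => exact ⟨x, by simp⟩
    | succ j ih =>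
      obtain ⟨z, hz⟩ := ih
      obtain ⟨w, hw⟩ := hup (u z)
      refine ⟨w, ?_⟩
      rw [← huux, hz, map_pow, map_pow, hw, ← pow_mul, pow_succ, mul_comm]
  -- conclusion
  have hM : Nat.card (ClassGroup (𝓞 K)) ≠ 0 := Nat.card_pos.ne'
  obtain ⟨e, m', hm', hMe⟩ := Nat.exists_eq_pow_mul_and_not_dvd hM p hp.ne_one
  obtain ⟨z, hz⟩ := hxpow e
  have hxm : x ^ m' = 1 := by
    rw [hz, ← pow_mul, ← hMe, pow_card_eq_one']
  have hgcd : Nat.gcd m' p = 1 := by
    rw [Nat.gcd_comm]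
    exact (Nat.Prime.coprime_iff_not_dvd hp).mpr hm'
  have := pow_gcd_eq_one.mpr ⟨hxm, hxp⟩
  rw [hgcd, pow_one] at this
  exact hx this

end main

end Fermat.Agent.S14
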