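import Fermat.Agent.S14.Defs

/-!
# S14, piece EP: Euler product for completely multiplicative functions on ideals

For a completely multiplicative `f` on the ideals of `𝓞 F` with `∑ ‖f I‖ < ∞` (sum over nonzero
ideals), `∏_v (1 - f v)⁻¹ = ∑_I f I`.  Proof by the sieve identity
`∑_{I coprime to s} f I = (∑_I f I) * ∏_{v ∈ s} (1 - f v)` and dominated convergence.
-/

set_option autoImplicit false

open NumberField IsDedekindDomain Filter Topology
open scoped nonZeroDivisors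

namespace Fermat.Agent.S14

variable (F : Type) [Field F] [NumberField F]

/-- A nonzero prime as a nonzero ideal. -/
noncomputable def epPrime (v : HeightOneSpectrum (𝓞 F)) : (Ideal (𝓞 F))⁰ :=
  ⟨v.asIdeal, mem_nonZeroDivisors_of_ne_zero v.ne_bot⟩

/-- Nonzero ideals with no prime factor in `s`. -/
def epCop (s : Finset (HeightOneSpectrum (𝓞 F))) (I : (Ideal (𝓞 F))⁰) : Prop :=
  ∀ v ∈ s, ¬ v.asIdeal ∣ (I : Ideal (𝓞 F))

open Classical in
/-- The sieved function: `f` on the ideals coprime to `s`, zero elsewhere. -/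
noncomputable def epSieve (f : Ideal (𝓞 F) → ℂ) (s : Finset (HeightOneSpectrum (𝓞 F)))
    (I : (Ideal (𝓞 F))⁰) : ℂ :=
  if epCop F s I then f I else 0

variable {F}

theorem ep_norm_sieve_le (f : Ideal (𝓞 F) → ℂ) (s : Finset (HeightOneSpectrum (𝓞 F)))
    (I : (Ideal (𝓞 F))⁰) : ‖epSieve F f s I‖ ≤ ‖f I‖ := by
  unfold epSieve
  split_ifs
  · exact le_rfl
  · rw [norm_zero]; exact norm_nonneg _

theorem ep_summable_sieve (f : Ideal (𝓞 F) → ℂ)
    (hsum : Summable fun I : (Ideal (𝓞 F))⁰ ↦ ‖f I‖) (s : Finset (HeightOneSpectrum (𝓞 F))) :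
    Summable (epSieve F f s) :=
  hsum.of_norm_bounded (fun I => ep_norm_sieve_le f s I)

theorem ep_sieve_empty (f : Ideal (𝓞 F) → ℂ) (I : (Ideal (𝓞 F))⁰) :
    epSieve F f ∅ I = f I := by
  unfold epSieve
  rw [if_pos]
  intro v hv
  simp at hv

/-- distinct height one primes do not divide each other -/
theorem ep_not_dvd_of_ne {v w : HeightOneSpectrum (𝓞 F)} (h : v ≠ w) :
    ¬ v.asIdeal ∣ w.asIdeal := by
  intro hdvd
  apply h
  have hle : w.asIdeal ≤ v.asIdeal := Ideal.le_of_dvd hdvd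
  have hmax : w.asIdeal.IsMaximal := w.isMaximal
  have hv : v.asIdeal ≠ ⊤ := v.isPrime.ne_top
  exact HeightOneSpectrum.ext (hmax.eq_of_le hv hle).symm

theorem ep_cop_mul {s : Finset (HeightOneSpectrum (𝓞 F))} {w : HeightOneSpectrum (𝓞 F)}
    (hw : w ∉ s) (J : (Ideal (𝓞 F))⁰) : epCop F s (epPrime F w * J) ↔ epCop F s J := by
  unfold epCop
  refine forall₂_congr fun v hv => ?_
  have hvw : v ≠ w := fun h => hw (h ▸ hv)
  have hcoe : ((epPrime F w * J : (Ideal (𝓞 F))⁰) : Ideal (𝓞 F)) = w.asIdeal * (J : Ideal (𝓞 F)) :=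
    rfl
  rw [hcoe, v.prime.dvd_mul, not_or]
  constructor
  · exact fun h => h.2
  · exact fun h => ⟨ep_not_dvd_of_ne hvw, h⟩

theorem ep_cop_insert [DecidableEq (HeightOneSpectrum (𝓞 F))]
    {s : Finset (HeightOneSpectrum (𝓞 F))} {w : HeightOneSpectrum (𝓞 F)}
    (I : (Ideal (𝓞 F))⁰) :
    epCop F (insert w s) I ↔ ¬ w.asIdeal ∣ (I : Ideal (𝓞 F)) ∧ epCop F s I := by
  unfold epCop
  rw [Finset.forall_mem_insert]

/-- The sieve step. -/
theorem ep_sieve_insert [DecidableEq (HeightOneSpectrum (𝓞 F))] (f : Ideal (𝓞 F) → ℂ)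
    (hmul : ∀ I J : Ideal (𝓞 F), f (I * J) = f I * f J)
    (hsum : Summable fun I : (Ideal (𝓞 F))⁰ ↦ ‖f I‖)
    {s : Finset (HeightOneSpectrum (𝓞 F))} {w : HeightOneSpectrum (𝓞 F)} (hw : w ∉ s) :
    ∑' I, epSieve F f (insert w s) I = (1 - f w.asIdeal) * ∑' I, epSieve F f s I := by
  classical
  -- the part of the `s`-sieve divisible by `w`
  set h : (Ideal (𝓞 F))⁰ → ℂ := fun I =>
    if epCop F s I ∧ w.asIdeal ∣ (I : Ideal (𝓞 F)) then f I else 0 with hh
  have hpt : ∀ I, epSieve F f (insert w s) I = epSieve F f s I - h I := by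
    intro I
    have hins := ep_cop_insert (s := s) (w := w) I
    simp only [epSieve, hh]
    by_cases h1 : epCop F s I <;> by_cases h2 : w.asIdeal ∣ (I : Ideal (𝓞 F)) <;>
      simp [h1, h2, hins]
  have hsummh : Summable h := by
    refine hsum.of_norm_bounded (fun I => ?_)
    simp only [hh]
    split_ifs
    · exact le_rfl
    · rw [norm_zero]; exact norm_nonneg _
  have hinj : Function.Injective (fun J : (Ideal (𝓞 F))⁰ => epPrime F w * J) :=
    mul_right_injective _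
  have hsupp : Function.support h ⊆ Set.range (fun J : (Ideal (𝓞 F))⁰ => epPrime F w * J) := by
    intro I hI
    have hI' : h I ≠ 0 := hI
    simp only [hh] at hI'
    have hdvd : w.asIdeal ∣ (I : Ideal (𝓞 F)) := by
      by_contra hnd
      exact hI' (by rw [if_neg (fun hc => hnd hc.2)])
    obtain ⟨J, hJ⟩ := hdvd
    have hJ0 : J ≠ ⊥ := by
      rintro rfl
      have hI0 : (I : Ideal (𝓞 F)) ≠ 0 := nonZeroDivisors.coe_ne_zero I
      exact hI0 (by rw [hJ]; simp)
    refine ⟨⟨J, mem_nonZeroDivisors_of_ne_zero hJ0⟩, ?_⟩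
    exact Subtype.ext hJ.symm
  have hcomp : ∀ J : (Ideal (𝓞 F))⁰, h (epPrime F w * J) = f w.asIdeal * epSieve F f s J := by
    intro J
    have hcoe : ((epPrime F w * J : (Ideal (𝓞 F))⁰) : Ideal (𝓞 F))
        = w.asIdeal * (J : Ideal (𝓞 F)) := rfl
    simp only [hh, epSieve, ep_cop_mul hw, hcoe, dvd_mul_right, and_true]
    split_ifs
    · exact hmul _ _
    · rw [mul_zero]
  have htsum : ∑' I, h I = f w.asIdeal * ∑' I, epSieve F f s I := by
    rw [← hinj.tsum_eq hsupp, ← tsum_mul_left]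
    exact tsum_congr hcomp
  rw [tsum_congr hpt, (ep_summable_sieve f hsum s).tsum_sub hsummh, htsum]
  ring

/-- The sieve identity. -/
theorem ep_sieve_eq (f : Ideal (𝓞 F) → ℂ)
    (hmul : ∀ I J : Ideal (𝓞 F), f (I * J) = f I * f J)
    (hsum : Summable fun I : (Ideal (𝓞 F))⁰ ↦ ‖f I‖)
    (s : Finset (HeightOneSpectrum (𝓞 F))) :
    ∑' I, epSieve F f s I
      = (∑' I : (Ideal (𝓞 F))⁰, f I) * ∏ v ∈ s, (1 - f v.asIdeal) := by
  classical
  induction s using Finset.induction_on with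
  | empty =>
    rw [Finset.prod_empty, mul_one]
    exact tsum_congr (fun I => ep_sieve_empty f I)
  | insert w s hw ih =>
    rw [ep_sieve_insert f hmul hsum hw, ih, Finset.prod_insert hw]
    ring

/-- Every nonzero ideal other than `1` has a prime divisor. -/
theorem ep_exists_prime_dvd (I : (Ideal (𝓞 F))⁰) (hI : I ≠ 1) :
    ∃ v : HeightOneSpectrum (𝓞 F), v.asIdeal ∣ (I : Ideal (𝓞 F)) := by
  have hI0 : (I : Ideal (𝓞 F)) ≠ ⊥ := nonZeroDivisors.coe_ne_zero I
  have hI1 : (I : Ideal (𝓞 F)) ≠ ⊤ := by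
    intro h
    apply hI
    apply Subtype.ext
    rw [h]
    exact Ideal.one_eq_top.symm
  obtain ⟨M, hM, hle⟩ := Ideal.exists_le_maximal _ hI1
  have hM0 : M ≠ ⊥ := by
    rintro rfl
    exact hI0 (le_bot_iff.mp hle)
  exact ⟨⟨M, hM.isPrime, hM0⟩, Ideal.dvd_iff_le.mpr hle⟩

/-- The sieved sums tend to `1`. -/
theorem ep_tendsto_sieve (f : Ideal (𝓞 F) → ℂ) (h1 : f ⊤ = 1)
    (hsum : Summable fun I : (Ideal (𝓞 F))⁰ ↦ ‖f I‖) :
    Tendsto (fun s : Finset (HeightOneSpectrum (𝓞 F)) => ∑' I, epSieve F f s I) atTop (𝓝 1) := by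
  classical
  have hg : ∑' I : (Ideal (𝓞 F))⁰, (if I = 1 then (1 : ℂ) else 0) = 1 := tsum_ite_eq 1 (fun _ => 1)
  rw [← hg]
  refine tendsto_tsum_of_dominated_convergence hsum (fun I => ?_)
    (Eventually.of_forall fun s I => ep_norm_sieve_le f s I)
  by_cases hI : I = 1
  · subst hI
    rw [if_pos rfl]
    refine tendsto_const_nhds.congr (fun s => ?_)
    unfold epSieve
    rw [if_pos]
    · have : ((1 : (Ideal (𝓞 F))⁰) : Ideal (𝓞 F)) = ⊤ := Ideal.one_eq_top
      rw [this, h1]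
    · intro v _ hdvd
      have hu : IsUnit v.asIdeal := isUnit_of_dvd_one hdvd
      exact v.isPrime.ne_top (Ideal.isUnit_iff.mp hu)
  · rw [if_neg hI]
    obtain ⟨v, hv⟩ := ep_exists_prime_dvd I hI
    refine tendsto_const_nhds.congr' ?_
    filter_upwards [eventually_ge_atTop ({v} : Finset (HeightOneSpectrum (𝓞 F)))] with s hs
    unfold epSieve
    rw [if_neg]
    intro hc
    exact hc v (hs (Finset.mem_singleton_self v)) hv

variable (F)

/-- EP: Euler product for completely multiplicative functions. -/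
theorem eulerProduct_ideal (f : Ideal (𝓞 F) → ℂ) (h1 : f ⊤ = 1)
    (hmul : ∀ I J : Ideal (𝓞 F), f (I * J) = f I * f J)
    (hsum : Summable fun I : (Ideal (𝓞 F))⁰ ↦ ‖f I‖) :
    HasProd (fun v : HeightOneSpectrum (𝓞 F) ↦ (1 - f v.asIdeal)⁻¹)
      (∑' I : (Ideal (𝓞 F))⁰, f I) := by
  set S : ℂ := ∑' I : (Ideal (𝓞 F))⁰, f I with hS
  have hlim : Tendsto (fun s : Finset (HeightOneSpectrum (𝓞 F)) =>
      S * ∏ v ∈ s, (1 - f v.asIdeal)) atTop (𝓝 1) := by
    refine (ep_tendsto_sieve f h1 hsum).congr (fun s => ?_)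
    exact ep_sieve_eq f hmul hsum s
  have hS0 : S ≠ 0 := by
    intro h0
    have hzero : Tendsto (fun s : Finset (HeightOneSpectrum (𝓞 F)) =>
        S * ∏ v ∈ s, (1 - f v.asIdeal)) atTop (𝓝 0) := by
      simp only [h0, zero_mul]
      exact tendsto_const_nhds
    exact zero_ne_one (tendsto_nhds_unique hzero hlim)
  have hP : Tendsto (fun s : Finset (HeightOneSpectrum (𝓞 F)) =>
      ∏ v ∈ s, (1 - f v.asIdeal)) atTop (𝓝 S⁻¹) := by
    have := hlim.const_mul S⁻¹
    rw [mul_one] at this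
    refine this.congr (fun s => ?_)
    rw [← mul_assoc, inv_mul_cancel₀ hS0, one_mul]
  have hfin : Tendsto (fun s : Finset (HeightOneSpectrum (𝓞 F)) =>
      ∏ v ∈ s, (1 - f v.asIdeal)⁻¹) atTop (𝓝 S) := by
    have := hP.inv₀ (inv_ne_zero hS0)
    rw [inv_inv] at this
    refine this.congr (fun s => ?_)
    rw [Finset.prod_inv_distrib]
  exact hfin

end Fermat.Agent.S14
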