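import Fermat.Agent.S14.Defs

/-!
# S14 piece ZB: elementary bounds for the Dedekind zeta function on the real axis

* `summable_idealZeta`: `∑ N(I)^{-s}` over nonzero ideals converges for real `s > 1`;
* `idealZeta_bounds`: `c / (s - 1) ≤ ζ_F(s) ≤ C / (s - 1)` for `s` close to `1` (from the
  class number formula `NumberField.tendsto_sub_one_mul_dedekindZeta_nhdsGT`);
* `summable_primeSum`: the sum over any set of primes converges.
-/

set_option autoImplicit false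

open NumberField IsDedekindDomain Filter Ideal Topology
open scoped nonZeroDivisors

namespace Fermat.Agent.S14

section general

variable (F : Type) [Field F] [NumberField F]

/-- Number of nonzero ideals of norm `n`. -/
noncomputable def zbCount (n : ℕ) : ℕ :=
  Nat.card {I : (Ideal (𝓞 F))⁰ // absNorm (I : Ideal (𝓞 F)) = n}

instance zb_finite_fiber (n : ℕ) :
    Finite {I : (Ideal (𝓞 F))⁰ // absNorm (I : Ideal (𝓞 F)) = n} :=
  (Ideal.finite_setOfPred_absNorm_le₀ (S := 𝓞 F) n).subset fun _ h => le_of_eq h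

theorem zbCount_eq {n : ℕ} (hn : n ≠ 0) :
    zbCount F n = Nat.card {I : Ideal (𝓞 F) // absNorm I = n} := by
  refine Nat.card_congr ⟨fun I => ⟨I.1.1, I.2⟩, fun J => ⟨⟨J.1, ?_⟩, J.2⟩, fun I => rfl,
    fun J => rfl⟩
  apply mem_nonZeroDivisors_of_ne_zero
  intro h
  have h2 := J.2
  rw [h, Ideal.zero_eq_bot, Ideal.absNorm_bot] at h2
  exact hn h2.symm

theorem zbCount_zero : zbCount F 0 = 0 := by
  unfold zbCount
  rw [Nat.card_eq_zero]
  left
  constructor
  rintro ⟨I, hI⟩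
  rw [Ideal.absNorm_eq_zero_iff] at hI
  exact nonZeroDivisors.ne_zero I.2 (by rw [Ideal.zero_eq_bot]; exact hI)

theorem zb_tendsto_sum :
    Tendsto (fun n : ℕ ↦
      (∑ k ∈ Finset.Icc 1 n, (Nat.card {I : Ideal (𝓞 F) // absNorm I = k} : ℝ)) / (n : ℝ))
      atTop (𝓝 (dedekindZeta_residue F)) := by
  refine ((Ideal.tendsto_norm_le_div_atTop₀ F).comp tendsto_natCast_atTop_atTop).congr fun n ↦ ?_
  simp only [Function.comp_apply, Nat.cast_le, ← Nat.cast_sum]
  congr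
  rw [← add_left_inj 1, ← card_norm_le_eq_card_norm_le_add_one,
    show Finset.Icc 1 n = Finset.Ioc 0 n from Finset.Icc_succ_left_eq_Ioc _ _,
    show 1 = Nat.card {I : Ideal (𝓞 F) // absNorm I = 0} by simp [Ideal.absNorm_eq_zero_iff],
    Finset.sum_Ioc_add_eq_sum_Icc (n.zero_le),
    ← Finset.card_preimage_eq_sum_card_image_eq (fun k _ ↦ finite_setOfPred_absNorm_eq k)]
  simp [Set.coe_eq_subtype]

theorem zb_lseriesSummable (s : ℝ) (hs : 1 < s) :
    LSeriesSummable (fun n ↦ (Nat.card {I : Ideal (𝓞 F) // absNorm I = n} : ℂ)) s := by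
  have h := LSeriesSummable_of_sum_norm_bigO_and_nonneg
    (f := fun n ↦ (Nat.card {I : Ideal (𝓞 F) // absNorm I = n} : ℝ)) (r := 1) (s := (s : ℂ))
    (Asymptotics.isBigO_atTop_natCast_rpow_of_tendsto_div_rpow (a := dedekindZeta_residue F)
      (by simpa using zb_tendsto_sum F))
    (fun _ => Nat.cast_nonneg _) zero_le_one (by simpa using hs)
  simpa using h

/-- The terms of the Dedekind zeta `L`-series at a real point. -/
theorem zb_term_eq (s : ℝ) (n : ℕ) :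
    LSeries.term (fun n ↦ (Nat.card {I : Ideal (𝓞 F) // absNorm I = n} : ℂ)) s n =
      (((zbCount F n : ℝ) * (n : ℝ) ^ (-s) : ℝ) : ℂ) := by
  rcases eq_or_ne n 0 with rfl | hn
  · simp [zbCount_zero]
  · rw [LSeries.term_of_ne_zero hn, zbCount_eq F hn, Real.rpow_neg (Nat.cast_nonneg n)]
    push_cast
    rw [Complex.ofReal_cpow (Nat.cast_nonneg n), div_eq_mul_inv]
    simp

theorem zb_summable_count (s : ℝ) (hs : 1 < s) :
    Summable fun n : ℕ ↦ (zbCount F n : ℝ) * (n : ℝ) ^ (-s) := by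
  have h := zb_lseriesSummable F s hs
  unfold LSeriesSummable at h
  rw [show LSeries.term (fun n ↦ (Nat.card {I : Ideal (𝓞 F) // absNorm I = n} : ℂ)) s =
    fun n => (((zbCount F n : ℝ) * (n : ℝ) ^ (-s) : ℝ) : ℂ) from funext (zb_term_eq F s)] at h
  exact Complex.summable_ofReal.mp h

/-- The fibre sums of `N(I)^{-s}` over the norm map. -/
theorem zb_fiber_tsum (s : ℝ) (n : ℕ) :
    ∑' I : {I : (Ideal (𝓞 F))⁰ // absNorm (I : Ideal (𝓞 F)) = n},
      (absNorm (I.1 : Ideal (𝓞 F)) : ℝ) ^ (-s) = (zbCount F n : ℝ) * (n : ℝ) ^ (-s) := by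
  have : Fintype {I : (Ideal (𝓞 F))⁰ // absNorm (I : Ideal (𝓞 F)) = n} := Fintype.ofFinite _
  rw [tsum_fintype, Finset.sum_congr rfl (fun I _ => by rw [I.2]), Finset.sum_const,
    Finset.card_univ, nsmul_eq_mul, zbCount, Nat.card_eq_fintype_card]

theorem zb_summable_sigma (s : ℝ) (hs : 1 < s) :
    Summable fun x : (Σ n : ℕ, {I : (Ideal (𝓞 F))⁰ // absNorm (I : Ideal (𝓞 F)) = n}) ↦
      (absNorm (x.2.1 : Ideal (𝓞 F)) : ℝ) ^ (-s) := by
  rw [summable_sigma_of_nonneg (fun x => Real.rpow_nonneg (Nat.cast_nonneg _) _)]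
  refine ⟨fun n => Summable.of_finite, ?_⟩
  simp only [zb_fiber_tsum]
  exact zb_summable_count F s hs

/-- ZB-1. -/
theorem summable_idealZeta (s : ℝ) (hs : 1 < s) :
    Summable fun I : (Ideal (𝓞 F))⁰ ↦ (Ideal.absNorm (I : Ideal (𝓞 F)) : ℝ) ^ (-s) := by
  have h : Summable ((fun I : (Ideal (𝓞 F))⁰ ↦ (Ideal.absNorm (I : Ideal (𝓞 F)) : ℝ) ^ (-s)) ∘
      (Equiv.sigmaFiberEquiv (fun I : (Ideal (𝓞 F))⁰ => absNorm (I : Ideal (𝓞 F))))) :=
    zb_summable_sigma F s hs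
  exact (Equiv.summable_iff _).mp h

theorem zb_idealZeta_eq_tsum (s : ℝ) (hs : 1 < s) :
    idealZeta F s = ∑' n : ℕ, (zbCount F n : ℝ) * (n : ℝ) ^ (-s) := by
  have h := zb_summable_sigma F s hs
  unfold idealZeta
  rw [← (Equiv.sigmaFiberEquiv (fun I : (Ideal (𝓞 F))⁰ => absNorm (I : Ideal (𝓞 F)))).tsum_eq]
  have h2 : ∑' x : (Σ n : ℕ, {I : (Ideal (𝓞 F))⁰ // absNorm (I : Ideal (𝓞 F)) = n}),
      (absNorm (x.2.1 : Ideal (𝓞 F)) : ℝ) ^ (-s) = ∑' n : ℕ, (zbCount F n : ℝ) * (n : ℝ) ^ (-s) := by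
    rw [h.tsum_sigma' (fun n => Summable.of_finite)]
    exact tsum_congr (zb_fiber_tsum F s)
  exact h2

theorem zb_dedekindZeta_eq (s : ℝ) (hs : 1 < s) :
    dedekindZeta F s = ((idealZeta F s : ℝ) : ℂ) := by
  rw [zb_idealZeta_eq_tsum F s hs, Complex.ofReal_tsum, dedekindZeta, LSeries]
  exact tsum_congr (zb_term_eq F s)

theorem zb_tendsto_real :
    Tendsto (fun s : ℝ ↦ (s - 1) * idealZeta F s) (𝓝[>] 1) (𝓝 (dedekindZeta_residue F)) := by
  have h := tendsto_sub_one_mul_dedekindZeta_nhdsGT F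
  rw [← tendsto_ofReal_iff]
  refine h.congr' ?_
  filter_upwards [self_mem_nhdsWithin] with s hs
  rw [zb_dedekindZeta_eq F s hs]
  push_cast
  ring

/-- ZB-2: from `NumberField.tendsto_sub_one_mul_dedekindZeta_nhdsGT`. -/
theorem idealZeta_bounds : ∃ c C δ : ℝ, 0 < c ∧ 0 < δ ∧ ∀ s : ℝ, 1 < s → s < 1 + δ →
    c / (s - 1) ≤ idealZeta F s ∧ idealZeta F s ≤ C / (s - 1) := by
  have hpos := dedekindZeta_residue_pos F
  set ρ := dedekindZeta_residue F with hρ
  have h := zb_tendsto_real F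
  have hev : ∀ᶠ s : ℝ in 𝓝[>] 1, ρ / 2 < (s - 1) * idealZeta F s ∧
      (s - 1) * idealZeta F s < 2 * ρ :=
    (h.eventually (lt_mem_nhds (by linarith : ρ / 2 < ρ))).and
      (h.eventually (gt_mem_nhds (by linarith : ρ < 2 * ρ)))
  rw [eventually_nhdsWithin_iff, Metric.eventually_nhds_iff] at hev
  obtain ⟨δ, hδ, hball⟩ := hev
  refine ⟨ρ / 2, 2 * ρ, δ, by linarith, hδ, fun s hs1 hs2 => ?_⟩
  have hs0 : 0 < s - 1 := by linarith
  have hd : dist s 1 < δ := by
    rw [Real.dist_eq, abs_of_pos hs0]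
    linarith
  obtain ⟨h1, h2⟩ := hball hd hs1
  constructor
  · rw [div_le_iff₀ hs0]
    linarith
  · rw [le_div_iff₀ hs0]
    linarith

theorem summable_primeSum (S : Set (HeightOneSpectrum (𝓞 F))) (s : ℝ) (hs : 1 < s) :
    Summable fun v : S ↦ (Ideal.absNorm v.1.asIdeal : ℝ) ^ (-s) := by
  let φ : S → (Ideal (𝓞 F))⁰ := fun v => ⟨v.1.asIdeal,
      mem_nonZeroDivisors_of_ne_zero v.1.ne_bot⟩
  have hinj : Function.Injective φ := by
    intro v w h
    have h1 : v.1.asIdeal = w.1.asIdeal := congrArg Subtype.val h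
    exact Subtype.ext (HeightOneSpectrum.ext h1)
  have h2 := (summable_idealZeta F s hs).comp_injective hinj
  exact h2

end general

end Fermat.Agent.S14
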