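import Fermat.Agent.S14.Defs
import Fermat.Agent.S14.EulerProd
import Fermat.Agent.S14.ZetaBounds

/-!
# S14, piece AN-a: the sum over the primes of degree one

`∑_{v : N(v) prime} N(v)^{-s} ≥ log (1/(s-1)) - C` for `s` close to `1`.
-/

set_option autoImplicit false

open NumberField IsDedekindDomain Filter Topology
open scoped nonZeroDivisors

namespace Fermat.Agent.S14

section general

variable {F : Type} [Field F] [NumberField F]

/-- The residue characteristic of a prime. -/
noncomputable def psChar (v : HeightOneSpectrum (𝓞 F)) : ℕ := ringChar (𝓞 F ⧸ v.asIdeal)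

theorem ps_absNorm_eq (v : HeightOneSpectrum (𝓞 F)) :
    ∃ f : ℕ, 0 < f ∧ (psChar v).Prime ∧ Ideal.absNorm v.asIdeal = psChar v ^ f := by
  haveI : v.asIdeal.IsMaximal := v.isMaximal
  letI : Field (𝓞 F ⧸ v.asIdeal) := Ideal.Quotient.field _
  haveI : Fintype (𝓞 F ⧸ v.asIdeal) := Fintype.ofFinite _
  obtain ⟨n, hp, hn⟩ := FiniteField.card (𝓞 F ⧸ v.asIdeal) (ringChar (𝓞 F ⧸ v.asIdeal))
  refine ⟨n, n.pos, hp, ?_⟩
  rw [Ideal.absNorm_apply, Submodule.cardQuot_apply, Nat.card_eq_fintype_card]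
  exact hn

theorem ps_char_mem (v : HeightOneSpectrum (𝓞 F)) : ((psChar v : ℕ) : 𝓞 F) ∈ v.asIdeal := by
  rw [← Ideal.Quotient.eq_zero_iff_mem, map_natCast]
  exact ringChar.Nat.cast_ringChar

theorem ps_char_le (v : HeightOneSpectrum (𝓞 F)) : psChar v ≤ Ideal.absNorm v.asIdeal := by
  obtain ⟨f, hf, hp, h⟩ := ps_absNorm_eq v
  rw [h]
  exact Nat.le_self_pow hf.ne' _

theorem ps_char_sq_le (v : HeightOneSpectrum (𝓞 F)) (hv : ¬ (Ideal.absNorm v.asIdeal).Prime) :
    psChar v ^ 2 ≤ Ideal.absNorm v.asIdeal := by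
  obtain ⟨f, hf, hp, h⟩ := ps_absNorm_eq v
  rw [h]
  have hf2 : 2 ≤ f := by
    by_contra hlt
    have hf1 : f = 1 := by omega
    apply hv
    rw [h, hf1, pow_one]
    exact hp
  exact Nat.pow_le_pow_right hp.pos hf2

/-- At most `[F : ℚ]` primes contain a given rational integer `k ≥ 2` and have norm `≥ k`. -/
theorem ps_card_le (k : ℕ) (hk : 2 ≤ k) (T : Finset (HeightOneSpectrum (𝓞 F)))
    (hT : ∀ v ∈ T, (k : 𝓞 F) ∈ v.asIdeal ∧ k ≤ Ideal.absNorm v.asIdeal) :
    T.card ≤ Module.finrank ℚ F := by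
  classical
  have hinj : Function.Injective (fun v : HeightOneSpectrum (𝓞 F) => v.asIdeal) :=
    fun v w h => HeightOneSpectrum.ext h
  have hdvd : ∏ v ∈ T, v.asIdeal ∣ Ideal.span {(k : 𝓞 F)} := by
    have h1 := Finset.prod_primes_dvd (s := T.image (fun v => v.asIdeal))
      (Ideal.span {(k : 𝓞 F)})
      (by
        intro a ha
        obtain ⟨v, -, rfl⟩ := Finset.mem_image.mp ha
        exact v.prime)
      (by
        intro a ha
        obtain ⟨v, hv, rfl⟩ := Finset.mem_image.mp ha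
        rw [Ideal.dvd_iff_le, Ideal.span_singleton_le_iff_mem]
        exact (hT v hv).1)
    rwa [Finset.prod_image (fun v _ w _ h => hinj h)] at h1
  have h2 := map_dvd Ideal.absNorm hdvd
  rw [map_prod, Ideal.absNorm_span_natCast, RingOfIntegers.rank] at h2
  have h3 : k ^ T.card ≤ ∏ v ∈ T, Ideal.absNorm v.asIdeal :=
    Finset.pow_card_le_prod T _ k (fun v hv => (hT v hv).2)
  have h4 : ∏ v ∈ T, Ideal.absNorm v.asIdeal ≤ k ^ Module.finrank ℚ F :=
    Nat.le_of_dvd (pow_pos (by omega) _) h2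
  exact (Nat.pow_le_pow_iff_right hk).mp (h3.trans h4)

theorem ps_char_two_le (v : HeightOneSpectrum (𝓞 F)) : 2 ≤ psChar v := by
  obtain ⟨f, hf, hp, h⟩ := ps_absNorm_eq v
  exact hp.two_le

/-- The primes of a given residue characteristic: a finite set with at most `[F : ℚ]` elements. -/
theorem ps_fiber_finite (k : ℕ) :
    {v : HeightOneSpectrum (𝓞 F) | psChar v = k}.Finite ∧
      {v : HeightOneSpectrum (𝓞 F) | psChar v = k}.ncard ≤ Module.finrank ℚ F := by
  have hbound : ∀ T : Finset (HeightOneSpectrum (𝓞 F)),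
      (↑T ⊆ {v : HeightOneSpectrum (𝓞 F) | psChar v = k}) → T.card ≤ Module.finrank ℚ F := by
    intro T hT
    rcases T.eq_empty_or_nonempty with rfl | ⟨v₀, hv₀⟩
    · simp
    have hk : 2 ≤ k := by
      have h0 : psChar v₀ = k := hT hv₀
      rw [← h0]
      exact ps_char_two_le v₀
    refine ps_card_le k hk T (fun v hv => ?_)
    have h0 : psChar v = k := hT hv
    rw [← h0]
    exact ⟨ps_char_mem v, ps_char_le v⟩
  have hfin : {v : HeightOneSpectrum (𝓞 F) | psChar v = k}.Finite := by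
    by_contra hinf
    obtain ⟨T, hT, hcard⟩ :=
      Set.Infinite.exists_subset_card_eq hinf (Module.finrank ℚ F + 1)
    have := hbound T hT
    omega
  refine ⟨hfin, ?_⟩
  rw [Set.ncard_eq_toFinset_card _ hfin]
  exact hbound _ (by simp)

/-- `∑_v char(v)^{-2}` converges. -/
theorem ps_summable_char :
    Summable (fun v : HeightOneSpectrum (𝓞 F) => ((psChar v : ℝ) ^ 2)⁻¹) := by
  have key : Summable ((fun v : HeightOneSpectrum (𝓞 F) => ((psChar v : ℝ) ^ 2)⁻¹) ∘
      (Equiv.sigmaFiberEquiv (psChar : HeightOneSpectrum (𝓞 F) → ℕ))) := by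
    rw [summable_sigma_of_nonneg (fun x => by simp only [Function.comp_apply]; positivity)]
    have hfin : ∀ k : ℕ, Finite {v : HeightOneSpectrum (𝓞 F) // psChar v = k} :=
      fun k => (ps_fiber_finite (F := F) k).1.to_subtype
    refine ⟨fun k => ?_, ?_⟩
    · haveI := hfin k
      exact Summable.of_finite
    · refine Summable.of_nonneg_of_le (fun k => tsum_nonneg (fun y => by
          simp only [Function.comp_apply]; positivity)) (fun k => ?_)
        ((Real.summable_nat_pow_inv (p := 2)).mpr (by norm_num) |>.mul_left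
          (Module.finrank ℚ F : ℝ))
      haveI := hfin k
      haveI : Fintype {v : HeightOneSpectrum (𝓞 F) // psChar v = k} := Fintype.ofFinite _
      rw [tsum_fintype]
      have hterm : ∀ y : {v : HeightOneSpectrum (𝓞 F) // psChar v = k},
          ((fun v : HeightOneSpectrum (𝓞 F) => ((psChar v : ℝ) ^ 2)⁻¹) ∘
            (Equiv.sigmaFiberEquiv (psChar : HeightOneSpectrum (𝓞 F) → ℕ))) ⟨k, y⟩
            = ((k : ℝ) ^ 2)⁻¹ := by
        intro y
        simp only [Function.comp_apply, Equiv.sigmaFiberEquiv_apply]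
        rw [y.2]
      rw [Finset.sum_congr rfl (fun y _ => hterm y), Finset.sum_const, nsmul_eq_mul]
      refine mul_le_mul_of_nonneg_right ?_ (by positivity)
      have hcard := (ps_fiber_finite (F := F) k).2
      have hcard' : Fintype.card {v : HeightOneSpectrum (𝓞 F) // psChar v = k}
          = {v : HeightOneSpectrum (𝓞 F) | psChar v = k}.ncard := by
        rw [← Nat.card_eq_fintype_card]
        rfl
      rw [Finset.card_univ, hcard']
      exact_mod_cast hcard
  exact (Equiv.summable_iff _).mp key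

theorem ps_two_le_absNorm (v : HeightOneSpectrum (𝓞 F)) : 2 ≤ Ideal.absNorm v.asIdeal :=
  (ps_char_two_le v).trans (ps_char_le v)

variable (F)

/-- the sum over all primes converges -/
theorem ps_summable_all (s : ℝ) (hs : 1 < s) :
    Summable (fun v : HeightOneSpectrum (𝓞 F) => (Ideal.absNorm v.asIdeal : ℝ) ^ (-s)) := by
  let φ : HeightOneSpectrum (𝓞 F) → (Ideal (𝓞 F))⁰ := fun v => ⟨v.asIdeal,
      mem_nonZeroDivisors_of_ne_zero v.ne_bot⟩
  have hinj : Function.Injective φ := by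
    intro v w h
    have h1 : v.asIdeal = w.asIdeal := congrArg Subtype.val h
    exact HeightOneSpectrum.ext h1
  have h2 := (summable_idealZeta F s hs).comp_injective hinj
  exact h2

/-- The Euler product of the Dedekind zeta function on the real axis. -/
theorem ps_tendsto_prod (s : ℝ) (hs : 1 < s) :
    Tendsto (fun T : Finset (HeightOneSpectrum (𝓞 F)) =>
      ∏ v ∈ T, (1 - (Ideal.absNorm v.asIdeal : ℝ) ^ (-s))⁻¹) atTop (𝓝 (idealZeta F s)) := by
  have hE := eulerProduct_ideal F (fun I => (((Ideal.absNorm I : ℝ) ^ (-s) : ℝ) : ℂ))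
    (by simp)
    (by
      intro I J
      rw [map_mul, Nat.cast_mul, Real.mul_rpow (Nat.cast_nonneg _) (Nat.cast_nonneg _)]
      push_cast
      ring)
    (by
      have h := summable_idealZeta F s hs
      refine h.congr (fun I => ?_)
      rw [Complex.norm_real, Real.norm_of_nonneg (by positivity)])
  have hsum : (∑' I : (Ideal (𝓞 F))⁰, (((Ideal.absNorm (I : Ideal (𝓞 F)) : ℝ) ^ (-s) : ℝ) : ℂ))
      = ((idealZeta F s : ℝ) : ℂ) := by
    rw [idealZeta, Complex.ofReal_tsum]
  rw [hsum] at hE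
  have hE' : Tendsto (fun T : Finset (HeightOneSpectrum (𝓞 F)) =>
      ∏ v ∈ T, (1 - (((Ideal.absNorm v.asIdeal : ℝ) ^ (-s) : ℝ) : ℂ))⁻¹) atTop
      (𝓝 ((idealZeta F s : ℝ) : ℂ)) := hE
  have hre := (Complex.continuous_re.tendsto _).comp hE'
  rw [Complex.ofReal_re] at hre
  refine hre.congr (fun T => ?_)
  simp only [Function.comp_apply]
  rw [← Complex.ofReal_re (∏ v ∈ T, (1 - (Ideal.absNorm v.asIdeal : ℝ) ^ (-s))⁻¹)]
  congr 1
  push_cast
  rfl

/-- AN-a: lower bound for the sum over the primes of degree one. -/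
theorem primeSum_ge : ∃ C δ : ℝ, 0 < δ ∧ ∀ s : ℝ, 1 < s → s < 1 + δ →
    Real.log (1 / (s - 1)) - C ≤
      primeSum {v : HeightOneSpectrum (𝓞 F) | (Ideal.absNorm v.asIdeal).Prime} s := by
  obtain ⟨c, C0, δ, hc, hδ, hb⟩ := idealZeta_bounds F
  set C1 : ℝ := ∑' v : HeightOneSpectrum (𝓞 F), (Ideal.absNorm v.asIdeal : ℝ) ^ (-(2 : ℝ))
    with hC1
  set C2 : ℝ := ∑' v : HeightOneSpectrum (𝓞 F), ((psChar v : ℝ) ^ 2)⁻¹ with hC2
  refine ⟨C2 + 2 * C1 - Real.log c, δ, hδ, fun s hs1 hs2 => ?_⟩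
  set D : Set (HeightOneSpectrum (𝓞 F)) := {v | (Ideal.absNorm v.asIdeal).Prime} with hD
  set x : HeightOneSpectrum (𝓞 F) → ℝ := fun v => (Ideal.absNorm v.asIdeal : ℝ) ^ (-s) with hx
  have hN1 : ∀ v : HeightOneSpectrum (𝓞 F), (1 : ℝ) ≤ (Ideal.absNorm v.asIdeal : ℝ) := by
    intro v
    have := ps_two_le_absNorm v
    exact_mod_cast (by omega : 1 ≤ Ideal.absNorm v.asIdeal)
  have hN2 : ∀ v : HeightOneSpectrum (𝓞 F), (2 : ℝ) ≤ (Ideal.absNorm v.asIdeal : ℝ) := by
    intro v
    exact_mod_cast ps_two_le_absNorm v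
  have hx0 : ∀ v, 0 ≤ x v := fun v => by positivity
  have hxinv : ∀ v, x v ≤ (Ideal.absNorm v.asIdeal : ℝ)⁻¹ := by
    intro v
    rw [← Real.rpow_neg_one]
    exact Real.rpow_le_rpow_of_exponent_le (hN1 v) (by linarith)
  have hxhalf : ∀ v, x v ≤ 1 / 2 := by
    intro v
    refine (hxinv v).trans ?_
    rw [one_div]
    exact inv_anti₀ (by norm_num) (hN2 v)
  have hsx : Summable x := ps_summable_all F s hs1
  have hsx2 : Summable (fun v => x v ^ 2) := by
    refine Summable.of_nonneg_of_le (fun v => by positivity) (fun v => ?_) hsx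
    have h1 := hx0 v
    have h2 := hxhalf v
    nlinarith
  -- the Euler product bound
  have hprod := ps_tendsto_prod F s hs1
  have hle : idealZeta F s ≤ Real.exp (∑' v, (x v + 2 * x v ^ 2)) := by
    refine le_of_tendsto' hprod (fun T => ?_)
    have hsumm : Summable (fun v => x v + 2 * x v ^ 2) := hsx.add (hsx2.mul_left 2)
    calc ∏ v ∈ T, (1 - (Ideal.absNorm v.asIdeal : ℝ) ^ (-s))⁻¹
        ≤ ∏ v ∈ T, Real.exp (x v + 2 * x v ^ 2) := by
          refine Finset.prod_le_prod (fun v _ => ?_) (fun v _ => ?_)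
          · have h2 := hxhalf v
            have : 0 < 1 - (Ideal.absNorm v.asIdeal : ℝ) ^ (-s) := by
              have : x v = (Ideal.absNorm v.asIdeal : ℝ) ^ (-s) := rfl
              linarith
            positivity
          · have h1 := hx0 v
            have h2 := hxhalf v
            have hxe : (Ideal.absNorm v.asIdeal : ℝ) ^ (-s) = x v := rfl
            rw [hxe]
            have hpos : 0 < 1 - x v := by linarith
            refine le_trans ?_ (Real.add_one_le_exp _)
            rw [inv_le_iff_one_le_mul₀ hpos]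
            nlinarith [mul_nonneg (mul_nonneg h1 h1) (by linarith : (0 : ℝ) ≤ 1 - 2 * x v)]
      _ = Real.exp (∑ v ∈ T, (x v + 2 * x v ^ 2)) := (Real.exp_sum T _).symm
      _ ≤ Real.exp (∑' v, (x v + 2 * x v ^ 2)) := by
          apply Real.exp_le_exp.mpr
          exact hsumm.sum_le_tsum T (fun v _ => by have := hx0 v; positivity)
  have hs0 : 0 < s - 1 := by linarith
  have hlow := (hb s hs1 hs2).1
  have hpos : 0 < c / (s - 1) := div_pos hc hs0
  have hlog : Real.log (c / (s - 1)) ≤ ∑' v, (x v + 2 * x v ^ 2) :=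
    (Real.log_le_iff_le_exp hpos).mpr (hlow.trans hle)
  have hlogeq : Real.log (c / (s - 1)) = Real.log c + Real.log (1 / (s - 1)) := by
    rw [div_eq_mul_one_div, Real.log_mul hc.ne' (one_div_pos.mpr hs0).ne']
  -- split the sums
  have hsplit : ∑' v, (x v + 2 * x v ^ 2) = ∑' v, x v + 2 * ∑' v, x v ^ 2 := by
    rw [hsx.tsum_add (hsx2.mul_left 2), hsx2.tsum_mul_left]
  have hD_split : ∑' v, x v = primeSum D s + ∑' v : ↑Dᶜ, x v := by
    rw [← hsx.tsum_subtype_add_tsum_subtype_compl D]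
    rfl
  have hsG : Summable (fun v : HeightOneSpectrum (𝓞 F) => ((psChar v : ℝ) ^ 2)⁻¹) :=
    ps_summable_char
  have hcompl : ∑' v : ↑Dᶜ, x v ≤ C2 := by
    have h1 : ∑' v : ↑Dᶜ, x v ≤ ∑' v : ↑Dᶜ, ((psChar (v : HeightOneSpectrum (𝓞 F)) : ℝ) ^ 2)⁻¹ := by
      refine Summable.tsum_le_tsum (fun v => ?_) (hsx.subtype _) (hsG.subtype _)
      have hv : ¬ (Ideal.absNorm (v : HeightOneSpectrum (𝓞 F)).asIdeal).Prime := v.2
      have hsq := ps_char_sq_le _ hv
      have hsq' : ((psChar (v : HeightOneSpectrum (𝓞 F)) : ℝ) ^ 2)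
          ≤ (Ideal.absNorm (v : HeightOneSpectrum (𝓞 F)).asIdeal : ℝ) := by exact_mod_cast hsq
      refine (hxinv _).trans ?_
      have hcpos : (0 : ℝ) < (psChar (v : HeightOneSpectrum (𝓞 F)) : ℝ) ^ 2 := by
        have := ps_char_two_le (v : HeightOneSpectrum (𝓞 F))
        positivity
      exact inv_anti₀ hcpos hsq'
    exact h1.trans (Summable.tsum_subtype_le _ _ (fun v => by positivity) hsG)
  have hsq_le : ∑' v, x v ^ 2 ≤ C1 := by
    refine Summable.tsum_le_tsum (fun v => ?_) hsx2 (ps_summable_all F 2 (by norm_num))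
    have h1 : x v ^ 2 = (Ideal.absNorm v.asIdeal : ℝ) ^ (-s * 2) := by
      rw [Real.rpow_mul (Nat.cast_nonneg _), Real.rpow_two]
    rw [h1]
    exact Real.rpow_le_rpow_of_exponent_le (hN1 v) (by linarith)
  rw [hsplit, hD_split, hlogeq] at hlog
  linarith

end general

end Fermat.Agent.S14

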