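import Mathlib

/-!
# S14 piece AN1a: comparison of a lattice sum with the sum over a sublattice of finite index

`latticeSum_sublattice_bound`: for lattices `L' ≤ L` of finite index `m` in a finite dimensional
real normed space and a nonnegative function `F`, bounded on `L` and Lipschitz with constant
`C * r ^ (-d - 1)` outside the ball of radius `r ≥ 1`, the difference
`∑_{x ∈ L} F x - m * ∑_{x ∈ L'} F x` is bounded by a constant depending only on
`L, L', d, B, C` (and not on `F`).
-/

namespace Fermat.Agent.S14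

/-- Shifting a lattice sum by a fixed vector `v ∈ L` changes it by a bounded amount,
uniformly in the function `F`. -/
theorem ls_shift_bound {E : Type*} [NormedAddCommGroup E] [NormedSpace ℝ E]
    [FiniteDimensional ℝ E] (L L' : Submodule ℤ E) [DiscreteTopology L']
    (hle : L' ≤ L) (d : ℕ) (hd : Module.finrank ℤ L' ≤ d) (B C : ℝ) (v : E) (hv : v ∈ L) :
    ∃ D : ℝ, ∀ F : E → ℝ, (∀ x, 0 ≤ F x) → (∀ x ∈ L, F x ≤ B) →
      (∀ (x y : E) (r : ℝ), 1 ≤ r → r ≤ ‖x‖ → r ≤ ‖y‖ →
        |F x - F y| ≤ C * ‖x - y‖ * r ^ (-(d : ℝ) - 1)) →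
      Summable (fun x : L' => F x) →
      Summable (fun x : L' => F ((x : E) + v)) ∧
        |∑' x : L', F ((x : E) + v) - ∑' x : L', F x| ≤ D := by
  classical
  have hsum : Summable (fun x : L' => ‖(x : E)‖ ^ (-(d : ℝ) - 1)) := by
    have := ZLattice.summable_norm_rpow L' (-(d : ℝ) - 1) (by
      have : (Module.finrank ℤ L' : ℝ) ≤ d := by exact_mod_cast hd
      linarith)
    simpa using this
  set R : ℝ := 2 * ‖v‖ + 2 with hR
  have hclosed : IsClosed (X := E) L' := @AddSubgroup.isClosed_of_discrete _ _ _ _ _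
    L'.toAddSubgroup (inferInstanceAs (DiscreteTopology L'))
  have hfin : Set.Finite {x : L' | ‖(x : E)‖ ≤ R} := by
    have h1 := Metric.finite_isBounded_inter_isClosed (α := E) (s := (L' : Set E))
      DiscreteTopology.isDiscrete
      (Metric.isBounded_closedBall (x := (0 : E)) (r := R)) hclosed
    refine (h1.preimage_embedding (.subtype _)).subset ?_
    intro x hx
    simp only [Set.mem_preimage, Function.Embedding.coe_subtype, Set.mem_inter_iff,
      Metric.mem_closedBall, dist_zero_right]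
    exact ⟨hx, x.2⟩
  set T : Finset L' := hfin.toFinset with hT
  set S : ℝ := ∑' x : L', ‖(x : E)‖ ^ (-(d : ℝ) - 1) with hS
  set c₁ : ℝ := |C| * ‖v‖ * 2 ^ ((d : ℝ) + 1) with hc₁
  have hc₁0 : 0 ≤ c₁ := by positivity
  refine ⟨c₁ * S + T.card * |B|, ?_⟩
  intro F hF0 hFB hFL hFs
  set b : L' → ℝ := fun x => c₁ * ‖(x : E)‖ ^ (-(d : ℝ) - 1) + (if x ∈ T then |B| else 0)
    with hb
  have hb2 : HasSum (fun x : L' => if x ∈ T then |B| else 0) (T.card * |B|) := by
    have h0 : HasSum (fun x : L' => if x ∈ T then |B| else 0)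
        (∑ x ∈ T, if x ∈ T then |B| else 0) :=
      hasSum_sum_of_ne_finset_zero (by intro x hx; simp [hx])
    convert h0 using 1
    rw [Finset.sum_ite_mem, Finset.inter_self, Finset.sum_const, nsmul_eq_mul]
  have hbsum : HasSum b (c₁ * S + T.card * |B|) := (hsum.hasSum.mul_left c₁).add hb2
  have hg : ∀ x : L', |F ((x : E) + v) - F x| ≤ b x := by
    intro x
    by_cases hx : x ∈ T
    · have h1 : F ((x : E) + v) ≤ B := hFB _ (L.add_mem (hle x.2) hv)
      have h2 : F (x : E) ≤ B := hFB _ (hle x.2)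
      have h3 := hF0 ((x : E) + v)
      have h4 := hF0 (x : E)
      have h5 : 0 ≤ c₁ * ‖(x : E)‖ ^ (-(d : ℝ) - 1) := by positivity
      have h6 : |F ((x : E) + v) - F x| ≤ |B| := by
        rw [abs_le]
        have := le_abs_self B
        constructor <;> linarith
      simp only [hb, hx, if_true]
      linarith
    · have hxR : R < ‖(x : E)‖ := by
        by_contra h
        exact hx (by simpa [hT] using not_lt.mp h)
      have hv0 := norm_nonneg v
      have hr1 : 1 ≤ ‖(x : E)‖ / 2 := by linarith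
      have hr2 : ‖(x : E)‖ / 2 ≤ ‖(x : E) + v‖ := by
        have h := norm_sub_le ((x : E) + v) v
        rw [add_sub_cancel_right] at h
        linarith
      have hr3 : ‖(x : E)‖ / 2 ≤ ‖(x : E)‖ := by linarith
      have h := hFL ((x : E) + v) x (‖(x : E)‖ / 2) hr1 hr2 hr3
      rw [add_sub_cancel_left] at h
      have hpow : (‖(x : E)‖ / 2) ^ (-(d : ℝ) - 1)
          = 2 ^ ((d : ℝ) + 1) * ‖(x : E)‖ ^ (-(d : ℝ) - 1) := by
        rw [Real.div_rpow (norm_nonneg _) (by norm_num), div_eq_mul_inv,
          ← Real.rpow_neg (by norm_num), mul_comm]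
        congr 2
        ring
      have hpos : 0 ≤ ‖v‖ * (‖(x : E)‖ / 2) ^ (-(d : ℝ) - 1) := by positivity
      have h' : |F ((x : E) + v) - F x| ≤ |C| * (‖v‖ * (‖(x : E)‖ / 2) ^ (-(d : ℝ) - 1)) := by
        refine h.trans ?_
        rw [mul_assoc]
        exact mul_le_mul_of_nonneg_right (le_abs_self C) hpos
      simp only [hb, hx, if_false, add_zero]
      rw [hpow] at h'
      calc |F ((x : E) + v) - F x|
          ≤ |C| * (‖v‖ * (2 ^ ((d : ℝ) + 1) * ‖(x : E)‖ ^ (-(d : ℝ) - 1))) := h'
        _ = c₁ * ‖(x : E)‖ ^ (-(d : ℝ) - 1) := by rw [hc₁]; ring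
  have hgs : Summable (fun x : L' => F ((x : E) + v) - F x) :=
    Summable.of_norm_bounded hbsum.summable (fun x => by simpa using hg x)
  have hs2 : Summable (fun x : L' => F ((x : E) + v)) := by
    have := hgs.add hFs
    simpa using this
  refine ⟨hs2, ?_⟩
  rw [← hs2.tsum_sub hFs]
  calc |∑' x : L', (F ((x : E) + v) - F x)|
      ≤ ∑' x : L', |F ((x : E) + v) - F x| := by
        have := norm_tsum_le_tsum_norm (f := fun x : L' => F ((x : E) + v) - F x)
          (by simpa using hgs.abs)
        simpa using this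
    _ ≤ ∑' x : L', b x := hgs.abs.tsum_le_tsum hg hbsum.summable
    _ = c₁ * S + T.card * |B| := hbsum.tsum_eq

theorem latticeSum_sublattice_bound {E : Type*} [NormedAddCommGroup E] [NormedSpace ℝ E]
    [FiniteDimensional ℝ E] (L L' : Submodule ℤ E) [DiscreteTopology L] [DiscreteTopology L']
    (hle : L' ≤ L) (m : ℕ) (hm : m ≠ 0)
    (hidx : L'.toAddSubgroup.relIndex L.toAddSubgroup = m)
    (d : ℕ) (hd : Module.finrank ℤ L' ≤ d) (B C : ℝ) :
    ∃ D : ℝ, ∀ F : E → ℝ, (∀ x, 0 ≤ F x) → (∀ x ∈ L, F x ≤ B) →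
      (∀ (x y : E) (r : ℝ), 1 ≤ r → r ≤ ‖x‖ → r ≤ ‖y‖ →
        |F x - F y| ≤ C * ‖x - y‖ * r ^ (-(d : ℝ) - 1)) →
      Summable (fun x : L' => F x) →
      Summable (fun x : L => F x) ∧ |∑' x : L, F x - m * ∑' x : L', F x| ≤ D := by
  classical
  set H : AddSubgroup L.toAddSubgroup := L'.toAddSubgroup.addSubgroupOf L.toAddSubgroup with hH
  have hcard : Nat.card (L.toAddSubgroup ⧸ H) = m := hidx
  have : Finite (L.toAddSubgroup ⧸ H) := Nat.finite_of_card_ne_zero (hcard ▸ hm)
  let : Fintype (L.toAddSubgroup ⧸ H) := Fintype.ofFinite _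
  let rep : (L.toAddSubgroup ⧸ H) → E := fun q => ((Quotient.out q : L.toAddSubgroup) : E)
  have hrep : ∀ q, rep q ∈ L := fun q => (Quotient.out q : L.toAddSubgroup).2
  choose Dv hDv using fun q => ls_shift_bound L L' hle d hd B C (rep q) (hrep q)
  refine ⟨∑ q, Dv q, ?_⟩
  intro F hF0 hFB hFL hFs
  have key := fun q => hDv q F hF0 hFB hFL hFs
  -- the bijection `(L / L') × L' ≃ L`
  let e : (L.toAddSubgroup ⧸ H) × L' → L :=
    fun p => ⟨(p.2 : E) + rep p.1, L.add_mem (hle p.2.2) (hrep p.1)⟩
  have he : Function.Bijective e := by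
    constructor
    · rintro ⟨q, x⟩ ⟨q', x'⟩ h
      have h' : (x : E) + rep q = (x' : E) + rep q' := congrArg Subtype.val h
      have hq : q = q' := by
        have hmem : -(Quotient.out q : L.toAddSubgroup) + Quotient.out q' ∈ H := by
          have : -rep q + rep q' = (x : E) - x' := by
            have := congrArg (fun t => t - (x' : E) - rep q) h'
            rw [eq_comm]
            calc (x : E) - x' = (x : E) + rep q - x' - rep q := by abel
              _ = (x' : E) + rep q' - x' - rep q := this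
              _ = -rep q + rep q' := by abel
          show ((-(Quotient.out q : L.toAddSubgroup) + Quotient.out q' : L.toAddSubgroup) : E)
            ∈ L'.toAddSubgroup
          rw [AddSubgroup.coe_add, AddSubgroup.coe_neg]
          show -rep q + rep q' ∈ L'
          rw [this]
          exact L'.sub_mem x.2 x'.2
        have h2 := (QuotientAddGroup.eq (s := H)).mpr hmem
        rwa [QuotientAddGroup.out_eq', QuotientAddGroup.out_eq'] at h2
      subst hq
      have hx : x = x' := Subtype.ext (add_right_cancel h')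
      rw [hx]
    · intro y
      let y' : L.toAddSubgroup := ⟨(y : E), y.2⟩
      have hmem : -(Quotient.out (QuotientAddGroup.mk y' : L.toAddSubgroup ⧸ H)) + y' ∈ H := by
        rw [← QuotientAddGroup.eq]
        exact QuotientAddGroup.out_eq' _
      have hmem' : (y : E) - rep (QuotientAddGroup.mk y') ∈ L' := by
        have : (y : E) - rep (QuotientAddGroup.mk y')
            = ((-(Quotient.out (QuotientAddGroup.mk y' : L.toAddSubgroup ⧸ H)) + y'
                : L.toAddSubgroup) : E) := by
          rw [AddSubgroup.coe_add, AddSubgroup.coe_neg]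
          show (y : E) - rep (QuotientAddGroup.mk y') = -rep (QuotientAddGroup.mk y') + (y : E)
          abel
        rw [this]
        exact hmem
      refine ⟨(QuotientAddGroup.mk y', ⟨(y : E) - rep (QuotientAddGroup.mk y'), hmem'⟩), ?_⟩
      apply Subtype.ext
      show (y : E) - rep (QuotientAddGroup.mk y') + rep (QuotientAddGroup.mk y') = (y : E)
      abel
  let ee : (L.toAddSubgroup ⧸ H) × L' ≃ L := Equiv.ofBijective e he
  have hsumprod : Summable (fun p : (L.toAddSubgroup ⧸ H) × L' => F (e p)) := by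
    rw [summable_prod_of_nonneg (fun p => hF0 _)]
    exact ⟨fun q => (key q).1, Summable.of_finite⟩
  have hsumL : Summable (fun y : L => F y) := (Equiv.summable_iff ee).mp hsumprod
  refine ⟨hsumL, ?_⟩
  have h1 : ∑' y : L, F y = ∑' p : (L.toAddSubgroup ⧸ H) × L', F (e p) :=
    (Equiv.tsum_eq ee (fun y : L => F y)).symm
  have h2 : ∑' p : (L.toAddSubgroup ⧸ H) × L', F (e p)
      = ∑ q, ∑' x : L', F ((x : E) + rep q) := by
    rw [Summable.tsum_prod' hsumprod (fun q => (key q).1), tsum_fintype]
  have h3 : (m : ℝ) * ∑' x : L', F x = ∑ _q : L.toAddSubgroup ⧸ H, ∑' x : L', F x := by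
    rw [Finset.sum_const, Finset.card_univ, nsmul_eq_mul, ← hcard, Nat.card_eq_fintype_card]
  rw [h1, h2, h3, ← Finset.sum_sub_distrib]
  exact (Finset.abs_sum_le_sum_abs _ _).trans (Finset.sum_le_sum fun q _ => (key q).2)

end Fermat.Agent.S14
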