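import Fermat.Agent.S14.CZUnfold
import Fermat.Agent.S14.LatticeSum

/-!
# S14 piece AN1 (assembly): partial zeta functions of two ideal classes differ by `O(1)`

`classZeta_diff_bounded_of`: from a Lipschitz partition of unity for the unit action on the mixed
space (the statement of `exists_unit_partition`, taken as a hypothesis), the unfolding
`classZeta_unfold` and the lattice comparison `latticeSum_sublattice_bound`.
-/

set_option autoImplicit false
set_option linter.unusedSectionVars false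

open NumberField NumberField.mixedEmbedding
open scoped nonZeroDivisors

namespace Fermat.Agent.S14

section cza

variable (F : Type) [Field F] [NumberField F]

/-- The `ℤ`-linear embedding of the ring of integers into the mixed space. -/
noncomputable def czaIota : 𝓞 F →ₗ[ℤ] mixedSpace F :=
  ((mixedEmbedding F).comp (algebraMap (𝓞 F) F)).toIntAlgHom.toLinearMap

theorem czaIota_apply (a : 𝓞 F) : czaIota F a = mixedEmbedding F (a : F) := rfl

theorem czaIota_injective : Function.Injective (czaIota F) := by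
  intro a b h
  rw [czaIota_apply, czaIota_apply] at h
  exact RingOfIntegers.coe_injective (mixedEmbedding_injective F h)

/-- The image of an ideal in the mixed space. -/
noncomputable def czaLat (J : Ideal (𝓞 F)) : Submodule ℤ (mixedSpace F) :=
  Submodule.map (czaIota F) (J.restrictScalars ℤ)

theorem czaLat_le (J : Ideal (𝓞 F)) : czaLat F J ≤ mixedEmbedding.integerLattice F := by
  rintro x ⟨a, -, rfl⟩
  exact ⟨a, rfl⟩

theorem cza_mem_integerLattice_iff (x : mixedSpace F) :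
    x ∈ mixedEmbedding.integerLattice F ↔ ∃ a : 𝓞 F, mixedEmbedding F (a : F) = x :=
  Iff.rfl

theorem czaLat_relIndex (J : Ideal (𝓞 F)) :
    (czaLat F J).toAddSubgroup.relIndex (mixedEmbedding.integerLattice F).toAddSubgroup =
      Ideal.absNorm J := by
  have h1 : (czaLat F J).toAddSubgroup =
      (Submodule.toAddSubgroup J).map (czaIota F).toAddMonoidHom := by
    ext x
    rfl
  have h2 : (mixedEmbedding.integerLattice F).toAddSubgroup =
      (⊤ : AddSubgroup (𝓞 F)).map (czaIota F).toAddMonoidHom := by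
    ext x
    constructor
    · rintro ⟨a, rfl⟩
      exact ⟨a, trivial, rfl⟩
    · rintro ⟨a, -, rfl⟩
      exact ⟨a, rfl⟩
  rw [h1, h2, AddSubgroup.relIndex_map_map_of_injective _ _ (czaIota_injective F),
    AddSubgroup.relIndex_top_right]
  rfl

theorem czaLat_discrete (J : Ideal (𝓞 F)) : DiscreteTopology (czaLat F J) :=
  DiscreteTopology.of_subset (s := (mixedEmbedding.integerLattice F : Set (mixedSpace F)))
    (inferInstanceAs (DiscreteTopology (mixedEmbedding.integerLattice F))) (czaLat_le F J)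

open scoped Classical in
theorem czaLat_finrank_le (J : Ideal (𝓞 F)) :
    Module.finrank ℤ (czaLat F J) ≤ Module.finrank ℚ F := by
  have hle := czaLat_le F J
  rw [← (Submodule.comapSubtypeEquivOfLe hle).finrank_eq]
  have h := Submodule.finrank_le (R := ℤ) (M := mixedEmbedding.integerLattice F)
    (Submodule.comap (mixedEmbedding.integerLattice F).subtype (czaLat F J))
  rw [ZLattice.rank ℝ (mixedEmbedding.integerLattice F), mixedEmbedding.finrank] at h
  exact h

/-- The bijection between an ideal and its image lattice. -/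
noncomputable def czaEquiv (J : Ideal (𝓞 F)) : J ≃ czaLat F J :=
  Equiv.ofBijective (fun a => ⟨czaIota F (a : 𝓞 F), ⟨(a : 𝓞 F), a.2, rfl⟩⟩) (by
    constructor
    · intro a b h
      exact Subtype.ext (czaIota_injective F (congrArg Subtype.val h))
    · rintro ⟨x, a, ha, rfl⟩
      exact ⟨⟨a, ha⟩, rfl⟩)

theorem czaEquiv_apply (J : Ideal (𝓞 F)) (a : J) :
    ((czaEquiv F J a : czaLat F J) : mixedSpace F) = mixedEmbedding F ((a : 𝓞 F) : F) := rfl

theorem cza_summable_iff (J : Ideal (𝓞 F)) (G : mixedSpace F → ℝ) :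
    Summable (fun a : J => G (mixedEmbedding F ((a : 𝓞 F) : F))) ↔
      Summable (fun x : czaLat F J => G x) :=
  (czaEquiv F J).summable_iff (f := fun x : czaLat F J => G x)

theorem cza_tsum_eq (J : Ideal (𝓞 F)) (G : mixedSpace F → ℝ) :
    ∑' a : J, G (mixedEmbedding F ((a : 𝓞 F) : F)) = ∑' x : czaLat F J, G x :=
  (czaEquiv F J).tsum_eq (fun x : czaLat F J => G x)

/-- Bound for the Dedekind zeta function on the whole interval `(1, 2]`. -/
theorem cza_idealZeta_le :
    ∃ K : ℝ, 0 ≤ K ∧ ∀ s : ℝ, 1 < s → s ≤ 2 → idealZeta F s ≤ K / (s - 1) := by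
  obtain ⟨c₁, C₁, δ, hc₁, hδ, hb⟩ := idealZeta_bounds F
  set s₀ : ℝ := 1 + min δ 1 / 2 with hs₀
  have hs₀1 : 1 < s₀ := by
    have := lt_min hδ one_pos
    linarith
  have hZ0 : 0 ≤ idealZeta F s₀ :=
    tsum_nonneg fun I => Real.rpow_nonneg (Nat.cast_nonneg _) _
  refine ⟨|C₁| + idealZeta F s₀, by positivity, fun s hs1 hs2 => ?_⟩
  have hs0 : 0 < s - 1 := by linarith
  by_cases h : s < 1 + δ
  · refine (hb s hs1 h).2.trans ?_
    exact div_le_div_of_nonneg_right (by linarith [le_abs_self C₁]) hs0.le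
  · have hs₀s : s₀ ≤ s := by
      have := min_le_left δ 1
      linarith
    have h1 : idealZeta F s ≤ idealZeta F s₀ := by
      refine (summable_idealZeta F s hs1).tsum_le_tsum (fun I => ?_)
        (summable_idealZeta F s₀ hs₀1)
      apply Real.rpow_le_rpow_of_exponent_le
      · have h0 : Ideal.absNorm (I : Ideal (𝓞 F)) ≠ 0 := by
          rw [Ne, Ideal.absNorm_eq_zero_iff]
          exact nonZeroDivisors.ne_zero I.2
        exact_mod_cast Nat.one_le_iff_ne_zero.mpr h0
      · linarith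
    rw [le_div_iff₀ hs0]
    have h2 : idealZeta F s₀ * (s - 1) ≤ idealZeta F s₀ := by nlinarith
    nlinarith [abs_nonneg C₁]

theorem cza_classZeta_le (c : ClassGroup (𝓞 F)) (s : ℝ) (hs : 1 < s) :
    classZeta F c s ≤ idealZeta F s := by
  have h := tsum_comp_le_tsum_of_inj (summable_idealZeta F s hs)
    (fun I => Real.rpow_nonneg (Nat.cast_nonneg _) _)
    (i := fun I : {I : (Ideal (𝓞 F))⁰ // ClassGroup.mk0 I = c} => (I : (Ideal (𝓞 F))⁰))
    Subtype.val_injective
  exact h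

open scoped Classical in
/-- **AN1**, from the statement of `exists_unit_partition` as a hypothesis. -/
theorem classZeta_diff_bounded_of
    (hφ : ∃ φ : mixedSpace F → ℝ,
      (∀ x, 0 ≤ φ x) ∧ (∀ x, mixedEmbedding.norm x = 0 → φ x = 0) ∧
      (∀ x, mixedEmbedding.norm x ≠ 0 →
        HasSum (fun u : (𝓞 F)ˣ ↦ φ (mixedEmbedding F ((u : 𝓞 F) : F) * x)) 1) ∧
      ∃ C : ℝ, ∀ s : ℝ, 1 ≤ s → s ≤ 2 → ∀ (x y : mixedSpace F) (r : ℝ), 1 ≤ r → r ≤ ‖x‖ →
        r ≤ ‖y‖ →
        |φ x * mixedEmbedding.norm x ^ (-s) - φ y * mixedEmbedding.norm y ^ (-s)| ≤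
          C * ‖x - y‖ * r ^ (-(Module.finrank ℚ F : ℝ) - 1)) :
    ∃ C : ℝ, ∀ (c c' : ClassGroup (𝓞 F)) (s : ℝ), 1 < s → s ≤ 2 →
      |classZeta F c s - classZeta F c' s| ≤ C := by
  obtain ⟨φ, hφ0, hφz, hφs, Cφ, hφL⟩ := hφ
  obtain ⟨K, hK0, hK⟩ := cza_idealZeta_le F
  choose J hJ using classZeta_unfold F
  have hJ0 : ∀ c, (J c : Ideal (𝓞 F)) ≠ ⊥ := fun c => nonZeroDivisors.ne_zero (J c).2
  have hm0 : ∀ c, Ideal.absNorm (J c : Ideal (𝓞 F)) ≠ 0 := fun c => by
    rw [Ne, Ideal.absNorm_eq_zero_iff]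
    exact hJ0 c
  have hm1 : ∀ c, (1 : ℝ) ≤ (Ideal.absNorm (J c : Ideal (𝓞 F)) : ℝ) := fun c => by
    exact_mod_cast Nat.one_le_iff_ne_zero.mpr (hm0 c)
  have hlat : ∀ c : ClassGroup (𝓞 F), ∃ D : ℝ, ∀ G : mixedSpace F → ℝ, (∀ x, 0 ≤ G x) →
      (∀ x ∈ mixedEmbedding.integerLattice F, G x ≤ 1) →
      (∀ (x y : mixedSpace F) (r : ℝ), 1 ≤ r → r ≤ ‖x‖ → r ≤ ‖y‖ →
        |G x - G y| ≤ Cφ * ‖x - y‖ * r ^ (-((Module.finrank ℚ F : ℕ) : ℝ) - 1)) →
      Summable (fun x : czaLat F (J c) => G x) →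
      Summable (fun x : mixedEmbedding.integerLattice F => G x) ∧
        |∑' x : mixedEmbedding.integerLattice F, G x -
          (Ideal.absNorm (J c : Ideal (𝓞 F)) : ℕ) * ∑' x : czaLat F (J c), G x| ≤ D := by
    intro c
    have : DiscreteTopology (czaLat F (J c : Ideal (𝓞 F))) := czaLat_discrete F _
    exact latticeSum_sublattice_bound (mixedEmbedding.integerLattice F) (czaLat F (J c))
      (czaLat_le F _) (Ideal.absNorm (J c : Ideal (𝓞 F))) (hm0 c) (czaLat_relIndex F _)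
      (Module.finrank ℚ F) (czaLat_finrank_le F _) 1 Cφ
  choose D hD using hlat
  -- the estimate for a pair of classes
  have key : ∀ (c c' : ClassGroup (𝓞 F)) (s : ℝ), 1 < s → s ≤ 2 →
      |classZeta F c s - classZeta F c' s| ≤
        (Ideal.absNorm (J c : Ideal (𝓞 F)) : ℝ) * K +
          (Ideal.absNorm (J c' : Ideal (𝓞 F)) : ℝ) * K + D c + D c' := by
    intro c c' s hs1 hs2
    have hs0 : 0 < s - 1 := by linarith
    set G : mixedSpace F → ℝ := fun x => φ x * mixedEmbedding.norm x ^ (-s) with hG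
    have hG0 : ∀ x, 0 ≤ G x := fun x =>
      mul_nonneg (hφ0 x) (Real.rpow_nonneg (mixedEmbedding.norm_nonneg x) _)
    have hG1 : ∀ x ∈ mixedEmbedding.integerLattice F, G x ≤ 1 := by
      rintro x ⟨a, rfl⟩
      show φ (mixedEmbedding F (a : F)) * mixedEmbedding.norm (mixedEmbedding F (a : F)) ^ (-s)
        ≤ 1
      by_cases hn : mixedEmbedding.norm (mixedEmbedding F (a : F)) = 0
      · rw [hφz _ hn, zero_mul]
        exact zero_le_one
      · have h1 : φ (mixedEmbedding F (a : F)) ≤ 1 := by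
          have h := le_hasSum (hφs _ hn) 1 (fun u _ => hφ0 _)
          simpa using h
        have h2 : (1 : ℝ) ≤ mixedEmbedding.norm (mixedEmbedding F (a : F)) := by
          rw [czu_norm_eq] at hn ⊢
          have : Ideal.absNorm (Ideal.span {a}) ≠ 0 := by exact_mod_cast hn
          exact_mod_cast Nat.one_le_iff_ne_zero.mpr this
        have h3 : mixedEmbedding.norm (mixedEmbedding F (a : F)) ^ (-s) ≤ 1 :=
          Real.rpow_le_one_of_one_le_of_nonpos h2 (by linarith)
        have h4 : 0 ≤ mixedEmbedding.norm (mixedEmbedding F (a : F)) ^ (-s) :=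
          Real.rpow_nonneg (mixedEmbedding.norm_nonneg _) _
        calc φ (mixedEmbedding F (a : F)) * mixedEmbedding.norm (mixedEmbedding F (a : F)) ^ (-s)
            ≤ 1 * 1 := mul_le_mul h1 h3 h4 zero_le_one
          _ = 1 := one_mul 1
    have hGL : ∀ (x y : mixedSpace F) (r : ℝ), 1 ≤ r → r ≤ ‖x‖ → r ≤ ‖y‖ →
        |G x - G y| ≤ Cφ * ‖x - y‖ * r ^ (-((Module.finrank ℚ F : ℕ) : ℝ) - 1) :=
      hφL s hs1.le hs2
    -- data for one class
    have one : ∀ c₀ : ClassGroup (𝓞 F), ∃ A : ℝ, 0 ≤ A ∧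
        classZeta F c₀ s = (Ideal.absNorm (J c₀ : Ideal (𝓞 F)) : ℝ) ^ (s - 1) * A ∧
        |∑' x : mixedEmbedding.integerLattice F, G x - A| ≤ D c₀ := by
      intro c₀
      have hu := hJ c₀ φ hφ0 hφs s hs1
      have hGS : Summable (fun x : czaLat F (J c₀) => G x) := (cza_summable_iff F _ G).mp hu.1
      have hGE : classZeta F c₀ s = (Ideal.absNorm (J c₀ : Ideal (𝓞 F)) : ℝ) ^ s *
          ∑' x : czaLat F (J c₀), G x := by
        rw [← cza_tsum_eq F _ G]
        exact hu.2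
      have hmpos : (0 : ℝ) < (Ideal.absNorm (J c₀ : Ideal (𝓞 F)) : ℝ) := by
        linarith [hm1 c₀]
      refine ⟨(Ideal.absNorm (J c₀ : Ideal (𝓞 F)) : ℝ) * ∑' x : czaLat F (J c₀), G x,
        mul_nonneg hmpos.le (tsum_nonneg fun x => hG0 _), ?_, ?_⟩
      · rw [hGE, ← mul_assoc]
        congr 1
        have : s = (s - 1) + 1 := by ring
        conv_lhs => rw [this]
        rw [Real.rpow_add hmpos, Real.rpow_one]
      · exact (hD c₀ G hG0 hG1 hGL hGS).2
    -- consequences for one class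
    have two : ∀ c₀ : ClassGroup (𝓞 F), ∃ A T : ℝ, 0 ≤ T ∧
        T ≤ (Ideal.absNorm (J c₀ : Ideal (𝓞 F)) : ℝ) * K ∧
        classZeta F c₀ s = T + A ∧
        |∑' x : mixedEmbedding.integerLattice F, G x - A| ≤ D c₀ := by
      intro c₀
      obtain ⟨A, hA0, hAe, hAD⟩ := one c₀
      set m : ℝ := (Ideal.absNorm (J c₀ : Ideal (𝓞 F)) : ℝ) with hm
      have hm1' : 1 ≤ m := hm1 c₀
      have hp1 : 1 ≤ m ^ (s - 1) := Real.one_le_rpow hm1' hs0.le
      have hp2 : m ^ (s - 1) ≤ 1 + (s - 1) * (m - 1) := by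
        have h := rpow_one_add_le_one_add_mul_self (s := m - 1) (by linarith)
          (p := s - 1) hs0.le (by linarith)
        simpa using h
      have hAle : A ≤ K / (s - 1) := by
        have h1 : A ≤ classZeta F c₀ s := by
          rw [hAe]
          nlinarith
        exact h1.trans ((cza_classZeta_le F c₀ s hs1).trans (hK s hs1 hs2))
      refine ⟨A, (m ^ (s - 1) - 1) * A, mul_nonneg (by linarith) hA0, ?_, by rw [hAe]; ring, hAD⟩
      have h3 : (m ^ (s - 1) - 1) * A ≤ ((s - 1) * (m - 1)) * (K / (s - 1)) := by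
        apply mul_le_mul (by linarith) hAle hA0
        nlinarith
      have h4 : ((s - 1) * (m - 1)) * (K / (s - 1)) = (m - 1) * K := by
        field_simp
      rw [h4] at h3
      nlinarith
    obtain ⟨A, T, hT0, hT, hζ, hAD⟩ := two c
    obtain ⟨A', T', hT0', hT', hζ', hAD'⟩ := two c'
    rw [hζ, hζ']
    have e1 := abs_le.mp hAD
    have e2 := abs_le.mp hAD'
    rw [abs_le]
    constructor <;> nlinarith
  -- the uniform constant
  refine ⟨∑ c : ClassGroup (𝓞 F), ∑ c' : ClassGroup (𝓞 F),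
    ((Ideal.absNorm (J c : Ideal (𝓞 F)) : ℝ) * K +
      (Ideal.absNorm (J c' : Ideal (𝓞 F)) : ℝ) * K + |D c| + |D c'|), ?_⟩
  intro c c' s hs1 hs2
  have hnn : ∀ c₁ c₂ : ClassGroup (𝓞 F), 0 ≤ (Ideal.absNorm (J c₁ : Ideal (𝓞 F)) : ℝ) * K +
      (Ideal.absNorm (J c₂ : Ideal (𝓞 F)) : ℝ) * K + |D c₁| + |D c₂| := by
    intro c₁ c₂
    positivity
  have h1 : (Ideal.absNorm (J c : Ideal (𝓞 F)) : ℝ) * K +
      (Ideal.absNorm (J c' : Ideal (𝓞 F)) : ℝ) * K + |D c| + |D c'| ≤
      ∑ c' : ClassGroup (𝓞 F), ((Ideal.absNorm (J c : Ideal (𝓞 F)) : ℝ) * K +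
        (Ideal.absNorm (J c' : Ideal (𝓞 F)) : ℝ) * K + |D c| + |D c'|) :=
    Finset.single_le_sum (f := fun c' : ClassGroup (𝓞 F) =>
      (Ideal.absNorm (J c : Ideal (𝓞 F)) : ℝ) * K +
        (Ideal.absNorm (J c' : Ideal (𝓞 F)) : ℝ) * K + |D c| + |D c'|)
      (fun c₂ _ => hnn c c₂) (Finset.mem_univ c')
  have h2 : ∑ c' : ClassGroup (𝓞 F), ((Ideal.absNorm (J c : Ideal (𝓞 F)) : ℝ) * K +
        (Ideal.absNorm (J c' : Ideal (𝓞 F)) : ℝ) * K + |D c| + |D c'|) ≤
      ∑ c : ClassGroup (𝓞 F), ∑ c' : ClassGroup (𝓞 F),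
        ((Ideal.absNorm (J c : Ideal (𝓞 F)) : ℝ) * K +
          (Ideal.absNorm (J c' : Ideal (𝓞 F)) : ℝ) * K + |D c| + |D c'|) :=
    Finset.single_le_sum (f := fun c : ClassGroup (𝓞 F) => ∑ c' : ClassGroup (𝓞 F),
      ((Ideal.absNorm (J c : Ideal (𝓞 F)) : ℝ) * K +
        (Ideal.absNorm (J c' : Ideal (𝓞 F)) : ℝ) * K + |D c| + |D c'|))
      (fun c₁ _ => Finset.sum_nonneg fun c₂ _ => hnn c₁ c₂) (Finset.mem_univ c)
  have h3 := key c c' s hs1 hs2
  have h4 := le_abs_self (D c)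
  have h5 := le_abs_self (D c')
  linarith

end cza

end Fermat.Agent.S14
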