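import Fermat.Agent.S14.UnitPartition
import Fermat.Agent.S14.CZAssemble

/-!
# S14 piece AN1: partial zeta functions of two ideal classes differ by `O(1)`
-/

set_option autoImplicit false

open NumberField

namespace Fermat.Agent.S14

/-- AN1: partial zeta functions of two ideal classes differ by `O(1)` on `(1, 2]`. -/
theorem classZeta_diff_bounded (F : Type) [Field F] [NumberField F] :
    ∃ C : ℝ, ∀ (c c' : ClassGroup (𝓞 F)) (s : ℝ), 1 < s → s ≤ 2 →
      |classZeta F c s - classZeta F c' s| ≤ C :=
  classZeta_diff_bounded_of F (exists_unit_partition F)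

end Fermat.Agent.S14
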