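import Fermat.Agent.S14.PrimeSumsKerCore
import Fermat.Agent.S14.ClassZeta

/-!
# S14, piece ANc: primes in the kernel of a class functional have density at most `1/p`
-/

set_option autoImplicit false

open NumberField IsDedekindDomain
open scoped nonZeroDivisors

namespace Fermat.Agent.S14

section general

variable (F : Type) [Field F] [NumberField F]

/-- AN-c. -/
theorem primeSum_ker_le (p : ℕ) [Fact p.Prime]
    (ψ : ClassGroup (𝓞 F) →* Multiplicative (ZMod p)) (hψ : ψ ≠ 1) :
    ∃ C δ : ℝ, 0 < δ ∧ ∀ s : ℝ, 1 < s → s < 1 + δ →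
      primeSum {v : HeightOneSpectrum (𝓞 F) | ψ (primeClass v) = 1} s ≤
        (1 / (p : ℝ)) * Real.log (1 / (s - 1)) + C :=
  primeSum_ker_le_of F p ψ hψ (classZeta_diff_bounded F)

end general

end Fermat.Agent.S14
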