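import Fermat.Agent.S14.Defs

/-!
# S14, piece ANb (algebraic part): primes of `F(e^{1/p})` above a prime where `e` is a `p`-th
power residue.
-/

set_option autoImplicit false
set_option linter.deprecated false
set_option linter.unusedSectionVars false
set_option linter.style.haveILetI false

open NumberField IsDedekindDomain Polynomial
open scoped nonZeroDivisors

namespace Fermat.Agent.S14

section alg

variable {F L : Type} [Field F] [NumberField F] [Field L] [NumberField L] [Algebra F L]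

/-- The minimal polynomial over `𝓞 F` of a `p`-th root of a non-`p`-th power `e`. -/
theorem psp_minpoly {p : ℕ} (hp : p.Prime) (e : 𝓞 F) (he : ∀ c : F, (e : F) ≠ c ^ p)
    (θ : 𝓞 L) (hθ : θ ^ p = algebraMap (𝓞 F) (𝓞 L) e) :
    minpoly (𝓞 F) θ = X ^ p - C e := by
  have hirr : Irreducible (X ^ p - C (e : F) : F[X]) :=
    X_pow_sub_C_irreducible_of_prime hp (fun b hb => he b hb.symm)
  have hmonic : (X ^ p - C (e : F) : F[X]).Monic := monic_X_pow_sub_C _ hp.ne_zero
  have hθ' : (θ : L) ^ p = algebraMap F L (e : F) := by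
    have h := congrArg (fun t : 𝓞 L => (t : L)) hθ
    simp only [map_pow] at h
    rw [h]
    rfl
  have hroot : aeval (θ : L) (X ^ p - C (e : F) : F[X]) = 0 := by
    rw [map_sub, map_pow, aeval_X, aeval_C, hθ', sub_self]
  have h1 : (X ^ p - C (e : F) : F[X]) = minpoly F (θ : L) :=
    minpoly.eq_of_irreducible_of_monic hirr hroot hmonic
  have hint : IsIntegral (𝓞 F) θ := Algebra.IsIntegral.isIntegral θ
  have hint' : IsIntegral (𝓞 F) (θ : L) := hint.algebraMap
  have h2 := minpoly.isIntegrallyClosed_eq_field_fractions' F hint'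
  have h3 : minpoly (𝓞 F) (θ : L) = minpoly (𝓞 F) θ :=
    minpoly.algebraMap_eq (RingOfIntegers.coe_injective) θ
  apply Polynomial.map_injective (algebraMap (𝓞 F) F) RingOfIntegers.coe_injective
  rw [← h3, ← h2, ← h1]
  simp

/-- `p` distinct maximal ideals of `𝓞 L` above a prime `v` of `𝓞 F` at which `e` is a `p`-th
power residue, `L ∋ θ`, `θ ^ p = e`. -/
theorem psp_exists_ideals {p : ℕ} [hpF : Fact p.Prime] (ζ : 𝓞 F) (hζ : IsPrimitiveRoot ζ p)
    (e : 𝓞 F) (he : ∀ c : F, (e : F) ≠ c ^ p)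
    (θ : 𝓞 L) (hθ : θ ^ p = algebraMap (𝓞 F) (𝓞 L) e)
    (v : Ideal (𝓞 F)) [hv : v.IsMaximal] (hpv : (p : 𝓞 F) ∉ v) (hev : e ∉ v)
    (x : 𝓞 F) (hx : e - x ^ p ∈ v) :
    ∃ W : Fin p → Ideal (𝓞 L), Function.Injective W ∧
      ∀ j, (W j).IsMaximal ∧ (W j).comap (algebraMap (𝓞 F) (𝓞 L)) = v := by
  classical
  have hp := hpF.out
  letI : Field (𝓞 F ⧸ v) := Ideal.Quotient.field v
  have hmin := psp_minpoly hp e he θ hθ
  have hint : IsIntegral (𝓞 F) θ := Algebra.IsIntegral.isIntegral θ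
  let pb := Algebra.adjoin.powerBasis' hint
  have hpbmin : minpoly (𝓞 F) pb.gen = X ^ p - C e := by
    rw [← Algebra.adjoin.powerBasis'_minpoly_gen hint, hmin]
  -- the reduction of `ζ` is still a primitive root
  have hζk : IsPrimitiveRoot (Ideal.Quotient.mk v ζ) p := by
    haveI : NeZero ((p : ℕ) : 𝓞 F ⧸ v) := ⟨by
      intro h
      apply hpv
      rw [← Ideal.Quotient.eq_zero_iff_mem]
      simpa using h⟩
    haveI : NeZero ((p : ℕ) : 𝓞 F) := ⟨by
      exact_mod_cast hp.ne_zero⟩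
    rw [← Polynomial.isRoot_cyclotomic_iff]
    have h1 : IsRoot (cyclotomic p (𝓞 F)) ζ := (Polynomial.isRoot_cyclotomic_iff).mpr hζ
    have h2 := h1.map (f := Ideal.Quotient.mk v)
    rwa [map_cyclotomic] at h2
  have hxk : Ideal.Quotient.mk v x ≠ 0 := by
    intro h
    rw [Ideal.Quotient.eq_zero_iff_mem] at h
    apply hev
    have h' : e = (e - x ^ p) + x ^ p := by ring
    rw [h']
    exact v.add_mem hx (v.pow_mem_of_mem h p hp.pos)
  let y : Fin p → 𝓞 F ⧸ v := fun j => Ideal.Quotient.mk v (x * ζ ^ (j : ℕ))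
  have hy : ∀ j, aeval (y j) (minpoly (𝓞 F) pb.gen) = 0 := by
    intro j
    rw [hpbmin, map_sub, map_pow, aeval_X, aeval_C]
    rw [Ideal.Quotient.algebraMap_eq, ← map_pow, ← map_sub, Ideal.Quotient.eq_zero_iff_mem]
    have h' : (x * ζ ^ (j : ℕ)) ^ p - e = -(e - x ^ p) := by
      rw [mul_pow, ← pow_mul, mul_comm (j : ℕ) p, pow_mul, hζ.pow_eq_one, one_pow]
      ring
    rw [h']
    exact v.neg_mem hx
  let φ : Fin p → (Algebra.adjoin (𝓞 F) ({θ} : Set (𝓞 L)) →ₐ[𝓞 F] 𝓞 F ⧸ v) :=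
    fun j => pb.lift (y j) (hy j)
  have hφgen : ∀ j, φ j pb.gen = y j := fun j => pb.lift_gen _ _
  have hφsurj : ∀ j, Function.Surjective (φ j) := by
    intro j z
    obtain ⟨r, rfl⟩ := Ideal.Quotient.mk_surjective z
    exact ⟨algebraMap (𝓞 F) _ r, by rw [AlgHom.commutes]; rfl⟩
  let m : Fin p → Ideal (Algebra.adjoin (𝓞 F) ({θ} : Set (𝓞 L))) :=
    fun j => RingHom.ker (φ j).toRingHom
  have hmmax : ∀ j, (m j).IsMaximal := fun j =>
    RingHom.ker_isMaximal_of_surjective _ (hφsurj j)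
  have hmem : ∀ j a, a ∈ m j ↔ φ j a = 0 := fun j a => Iff.rfl
  have hmR : ∀ j, (m j).comap (algebraMap (𝓞 F) _) = v := by
    intro j
    ext r
    rw [Ideal.mem_comap, hmem, AlgHom.commutes, Ideal.Quotient.algebraMap_eq,
      Ideal.Quotient.eq_zero_iff_mem]
  have hmne : ∀ i j, m i = m j → i = j := by
    intro i j hij
    have h1 : pb.gen - algebraMap (𝓞 F) _ (x * ζ ^ (i : ℕ)) ∈ m i := by
      rw [hmem, map_sub, hφgen i, AlgHom.commutes]
      exact sub_self _
    have h2 : pb.gen - algebraMap (𝓞 F) _ (x * ζ ^ (j : ℕ)) ∈ m i := by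
      rw [hij, hmem, map_sub, hφgen j, AlgHom.commutes]
      exact sub_self _
    have h3 : algebraMap (𝓞 F) _ (x * ζ ^ (i : ℕ) - x * ζ ^ (j : ℕ)) ∈ m i := by
      have h := (m i).sub_mem h2 h1
      have h' : algebraMap (𝓞 F) (Algebra.adjoin (𝓞 F) ({θ} : Set (𝓞 L)))
          (x * ζ ^ (i : ℕ) - x * ζ ^ (j : ℕ)) =
          (pb.gen - algebraMap (𝓞 F) _ (x * ζ ^ (j : ℕ))) -
            (pb.gen - algebraMap (𝓞 F) _ (x * ζ ^ (i : ℕ))) := by
        rw [map_sub]
        ring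
      rw [h']
      exact h
    have h4 : x * ζ ^ (i : ℕ) - x * ζ ^ (j : ℕ) ∈ v := by
      rw [← hmR i]
      exact h3
    have h5 : Ideal.Quotient.mk v x * ((Ideal.Quotient.mk v ζ) ^ (i : ℕ) -
        (Ideal.Quotient.mk v ζ) ^ (j : ℕ)) = 0 := by
      rw [← map_pow, ← map_pow, ← map_sub, ← map_mul, Ideal.Quotient.eq_zero_iff_mem, mul_sub]
      exact h4
    have h6 := (mul_eq_zero.mp h5).resolve_left hxk
    exact Fin.ext (hζk.pow_inj i.2 j.2 (sub_eq_zero.mp h6))
  -- lying over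
  haveI : Algebra.IsIntegral (Algebra.adjoin (𝓞 F) ({θ} : Set (𝓞 L))) (𝓞 L) :=
    Algebra.IsIntegral.tower_top (𝓞 F)
  have hex : ∀ j, ∃ Q : Ideal (𝓞 L), Q.IsMaximal ∧
      Q.comap (algebraMap (Algebra.adjoin (𝓞 F) ({θ} : Set (𝓞 L))) (𝓞 L)) = m j := by
    intro j
    haveI := hmmax j
    refine Ideal.exists_ideal_over_maximal_of_isIntegral (m j) ?_
    have h : RingHom.ker (algebraMap (Algebra.adjoin (𝓞 F) ({θ} : Set (𝓞 L))) (𝓞 L)) = ⊥ :=
      (RingHom.injective_iff_ker_eq_bot _).mp Subtype.val_injective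
    rw [h]
    exact bot_le
  choose W hWmax hWm using hex
  refine ⟨W, ?_, fun j => ⟨hWmax j, ?_⟩⟩
  · intro i j hij
    apply hmne
    rw [← hWm i, ← hWm j, hij]
  · rw [IsScalarTower.algebraMap_eq (𝓞 F) (Algebra.adjoin (𝓞 F) ({θ} : Set (𝓞 L))) (𝓞 L),
      ← Ideal.comap_comap, hWm j, hmR j]

/-- If there are `[L : F]` distinct primes above `v`, all of them have the same norm as `v`. -/
theorem psp_absNorm_eq {p : ℕ} (hdeg : Module.finrank F L = p)
    (v : Ideal (𝓞 F)) [hv : v.IsMaximal] (hv0 : v ≠ ⊥)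
    (W : Fin p → Ideal (𝓞 L)) (hW : Function.Injective W)
    (hW' : ∀ j, (W j).IsMaximal ∧ (W j).comap (algebraMap (𝓞 F) (𝓞 L)) = v) (j : Fin p) :
    Ideal.absNorm (W j) = Ideal.absNorm v := by
  classical
  have hsum := Ideal.sum_ramification_inertia (𝓞 L) F L hv0
  have hmem : ∀ i, W i ∈ IsDedekindDomain.primesOverFinset v (𝓞 L) := by
    intro i
    rw [IsDedekindDomain.mem_primesOverFinset_iff hv0]
    exact ⟨(hW' i).1.isPrime, ⟨(hW' i).2.symm⟩⟩
  have hpos : ∀ P ∈ IsDedekindDomain.primesOverFinset v (𝓞 L),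
      1 ≤ v.ramificationIdx' P * v.inertiaDeg' P := by
    intro P hP
    have : P.IsPrime := ((IsDedekindDomain.mem_primesOverFinset_iff hv0 _).mp hP).1
    have : P.LiesOver v := ((IsDedekindDomain.mem_primesOverFinset_iff hv0 _).mp hP).2
    exact Right.one_le_mul
      (Nat.pos_iff_ne_zero.mpr <| Ideal.IsDedekindDomain.ramificationIdx'_ne_zero_of_liesOver _ hv0)
      (Nat.pos_iff_ne_zero.mpr <| Ideal.inertiaDeg'_ne_zero v P)
  set T := Finset.univ.image W with hT
  have hTcard : T.card = p := by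
    rw [hT, Finset.card_image_of_injective _ hW]
    simp
  have hTsub : T ⊆ IsDedekindDomain.primesOverFinset v (𝓞 L) := by
    intro P hP
    obtain ⟨i, -, rfl⟩ := Finset.mem_image.mp hP
    exact hmem i
  have h1 : ∑ P ∈ T, v.ramificationIdx' P * v.inertiaDeg' P ≤ p := by
    rw [← hdeg, ← hsum]
    exact Finset.sum_le_sum_of_subset hTsub
  have hWj : W j ∈ T := Finset.mem_image_of_mem _ (Finset.mem_univ j)
  have h2 : v.ramificationIdx' (W j) * v.inertiaDeg' (W j) = 1 := by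
    by_contra hne
    have hge := hpos _ (hmem j)
    have h3 : (T.erase (W j)).card ≤
        ∑ P ∈ T.erase (W j), v.ramificationIdx' P * v.inertiaDeg' P := by
      rw [Finset.card_eq_sum_ones]
      exact Finset.sum_le_sum (fun P hP => hpos P (hTsub (Finset.mem_of_mem_erase hP)))
    rw [Finset.card_erase_of_mem hWj] at h3
    rw [← Finset.add_sum_erase _ _ hWj] at h1
    have hTpos : 0 < T.card := Finset.card_pos.mpr ⟨_, hWj⟩
    omega
  have hf : v.inertiaDeg' (W j) = 1 := Nat.eq_one_of_mul_eq_one_left h2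
  haveI : (W j).LiesOver v := ⟨(hW' j).2.symm⟩
  have h4 := Ideal.absNorm_eq_pow_inertiaDeg'_of_liesOver (W j) v hv.isPrime hv0
  rw [h4, hf, pow_one]

/-- **Splitting of power residue primes**: if `L ⊇ F` has degree `p` and contains a `p`-th root
`θ` of `e`, then above every prime `v` of `F` with `p, e ∉ v` at which `e` is a `p`-th power
residue there are `p` distinct primes of `L`, all of the same absolute norm as `v`. -/
theorem psp_exists_primes {p : ℕ} [hpF : Fact p.Prime] (hdeg : Module.finrank F L = p) {ζ : F}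
    (hζ : IsPrimitiveRoot ζ p) (e : 𝓞 F) (he : ∀ c : F, (e : F) ≠ c ^ p)
    (θ : L) (hθ : θ ^ p = algebraMap F L (e : F))
    (v : HeightOneSpectrum (𝓞 F)) (hpv : (p : 𝓞 F) ∉ v.asIdeal) (hev : e ∉ v.asIdeal)
    (x : 𝓞 F) (hx : e - x ^ p ∈ v.asIdeal) :
    ∃ f : Fin p → HeightOneSpectrum (𝓞 L), Function.Injective f ∧
      ∀ j, (f j).asIdeal.comap (algebraMap (𝓞 F) (𝓞 L)) = v.asIdeal ∧
        Ideal.absNorm (f j).asIdeal = Ideal.absNorm v.asIdeal := by
  have hp := hpF.out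
  haveI : NeZero p := ⟨hp.ne_zero⟩
  haveI := v.isMaximal
  have hθint : IsIntegral ℤ θ := by
    refine IsIntegral.of_pow hp.pos ?_
    rw [hθ]
    exact (RingOfIntegers.isIntegral_coe e).algebraMap
  obtain ⟨θ', hθ'c⟩ : ∃ θ' : 𝓞 L, (θ' : L) = θ := ⟨⟨θ, hθint⟩, rfl⟩
  have hθ' : θ' ^ p = algebraMap (𝓞 F) (𝓞 L) e := by
    apply RingOfIntegers.ext
    show (algebraMap (𝓞 L) L) (θ' ^ p) = algebraMap F L (e : F)
    rw [map_pow]
    show (θ' : L) ^ p = algebraMap F L (e : F)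
    rw [hθ'c]
    exact hθ
  obtain ⟨W, hWinj, hW⟩ := psp_exists_ideals hζ.toInteger hζ.toInteger_isPrimitiveRoot e he
    θ' hθ' v.asIdeal hpv hev x hx
  have hne : ∀ j, W j ≠ ⊥ := by
    intro j hj
    apply v.ne_bot
    rw [← (hW j).2, hj]
    exact (RingHom.injective_iff_ker_eq_bot _).mp
      (FaithfulSMul.algebraMap_injective (𝓞 F) (𝓞 L))
  refine ⟨fun j => ⟨W j, (hW j).1.isPrime, hne j⟩, ?_, fun j => ⟨(hW j).2, ?_⟩⟩
  · intro i j hij
    exact hWinj (congrArg HeightOneSpectrum.asIdeal hij)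
  · exact psp_absNorm_eq hdeg v.asIdeal v.ne_bot W hWinj hW j

end alg

/-- The Kummer extension `F(a^{1/p})` as a number field of degree `p` over `F`. -/
theorem psp_exists_field (F : Type) [Field F] [NumberField F] (p : ℕ) [hpF : Fact p.Prime]
    (a : F) (ha : ∀ c : F, a ≠ c ^ p) :
    ∃ (L : Type) (_ : Field L) (_ : NumberField L) (_ : Algebra F L),
      Module.finrank F L = p ∧ ∃ θ : L, θ ^ p = algebraMap F L a := by
  have hp := hpF.out
  have hirr : Irreducible (X ^ p - C a : F[X]) :=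
    X_pow_sub_C_irreducible_of_prime hp (fun b hb => ha b hb.symm)
  haveI : Fact (Irreducible (X ^ p - C a : F[X])) := ⟨hirr⟩
  have hne : (X ^ p - C a : F[X]) ≠ 0 := hirr.ne_zero
  haveI : CharZero (AdjoinRoot (X ^ p - C a : F[X])) :=
    charZero_of_injective_algebraMap (algebraMap F _).injective
  haveI : FiniteDimensional F (AdjoinRoot (X ^ p - C a : F[X])) :=
    (AdjoinRoot.powerBasis hne).finite
  haveI : FiniteDimensional ℚ (AdjoinRoot (X ^ p - C a : F[X])) := Module.Finite.trans F _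
  refine ⟨AdjoinRoot (X ^ p - C a : F[X]), inferInstance, NumberField.mk, inferInstance, ?_,
    AdjoinRoot.root _, ?_⟩
  · rw [(AdjoinRoot.powerBasis hne).finrank, AdjoinRoot.powerBasis_dim, natDegree_X_pow_sub_C]
  · exact root_X_pow_sub_C_pow p a

end Fermat.Agent.S14
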