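import Fermat.Agent.S14.Defs
import Fermat.Agent.S14.EulerProd
import Fermat.Agent.S14.ZetaBounds
import Fermat.Agent.S14.PowResAlg

/-!
# S14, piece ANb: the primes at which `e` is a `p`-th power residue have Dirichlet density at
most `1 / p`.
-/

set_option autoImplicit false

open NumberField IsDedekindDomain Polynomial
open scoped nonZeroDivisors

namespace Fermat.Agent.S14

/-- A finite sum of `N(w)^{-s}` over primes is at most `log ζ_L(s)`. -/
theorem psp_sum_le_log (L : Type) [Field L] [NumberField L] (s : ℝ) (hs : 1 < s)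
    (T : Finset (HeightOneSpectrum (𝓞 L))) :
    ∑ w ∈ T, (Ideal.absNorm w.asIdeal : ℝ) ^ (-s) ≤ Real.log (idealZeta L s) := by
  classical
  set f : Ideal (𝓞 L) → ℂ := fun I => (((Ideal.absNorm I : ℝ) ^ (-s) : ℝ) : ℂ) with hf
  have hmul : ∀ I J : Ideal (𝓞 L), f (I * J) = f I * f J := by
    intro I J
    simp only [hf]
    rw [map_mul, Nat.cast_mul, Real.mul_rpow (Nat.cast_nonneg _) (Nat.cast_nonneg _)]
    push_cast
    rfl
  have hnorm : ∀ I : Ideal (𝓞 L), ‖f I‖ = (Ideal.absNorm I : ℝ) ^ (-s) := by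
    intro I
    simp only [hf]
    rw [Complex.norm_real, Real.norm_of_nonneg (Real.rpow_nonneg (Nat.cast_nonneg _) _)]
  have hsum : Summable fun I : (Ideal (𝓞 L))⁰ ↦ ‖f I‖ := by
    refine (summable_idealZeta L s hs).congr (fun I => ?_)
    rw [hnorm]
  have key := ep_sieve_eq f hmul hsum T
  -- real version of the sieved function
  set g : (Ideal (𝓞 L))⁰ → ℝ := fun I =>
    if epCop L T I then (Ideal.absNorm (I : Ideal (𝓞 L)) : ℝ) ^ (-s) else 0 with hg
  have hg0 : ∀ I, 0 ≤ g I := by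
    intro I
    simp only [hg]
    split_ifs
    · exact Real.rpow_nonneg (Nat.cast_nonneg _) _
    · exact le_rfl
  have hgle : ∀ I : (Ideal (𝓞 L))⁰, g I ≤ (Ideal.absNorm (I : Ideal (𝓞 L)) : ℝ) ^ (-s) := by
    intro I
    simp only [hg]
    split_ifs
    · exact le_rfl
    · exact Real.rpow_nonneg (Nat.cast_nonneg _) _
  have hgsum : Summable g := Summable.of_nonneg_of_le hg0 hgle (summable_idealZeta L s hs)
  have hsieve : ∀ I, epSieve L f T I = ((g I : ℝ) : ℂ) := by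
    intro I
    simp only [epSieve, hg, hf]
    split_ifs <;> simp
  have hL : ∑' I, epSieve L f T I = ((∑' I, g I : ℝ) : ℂ) := by
    rw [Complex.ofReal_tsum]
    exact tsum_congr hsieve
  have hZ : ∑' I : (Ideal (𝓞 L))⁰, f I = ((idealZeta L s : ℝ) : ℂ) := by
    unfold idealZeta
    rw [Complex.ofReal_tsum]
  have hP : ∏ v ∈ T, (1 - f v.asIdeal) =
      ((∏ v ∈ T, (1 - (Ideal.absNorm v.asIdeal : ℝ) ^ (-s)) : ℝ) : ℂ) := by
    simp only [hf]
    push_cast
    rfl
  rw [hL, hZ, hP, ← Complex.ofReal_mul] at key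
  have key' : ∑' I, g I = idealZeta L s * ∏ v ∈ T, (1 - (Ideal.absNorm v.asIdeal : ℝ) ^ (-s)) :=
    Complex.ofReal_injective key
  -- the term of the unit ideal
  have hg1 : g 1 = 1 := by
    simp only [hg]
    rw [if_pos]
    · have h1 : ((1 : (Ideal (𝓞 L))⁰) : Ideal (𝓞 L)) = ⊤ := Ideal.one_eq_top
      rw [h1, Ideal.absNorm_top, Nat.cast_one, Real.one_rpow]
    · intro v _ hdvd
      have hu : IsUnit v.asIdeal := isUnit_of_dvd_one hdvd
      exact v.isPrime.ne_top (Ideal.isUnit_iff.mp hu)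
  have hge1 : 1 ≤ ∑' I, g I := by
    rw [← hg1]
    exact hgsum.le_tsum 1 (fun I _ => hg0 I)
  have hZ0 : 0 ≤ idealZeta L s := by
    unfold idealZeta
    exact tsum_nonneg (fun I => Real.rpow_nonneg (Nat.cast_nonneg _) _)
  -- bound the product by an exponential
  have hx1 : ∀ v : HeightOneSpectrum (𝓞 L), (Ideal.absNorm v.asIdeal : ℝ) ^ (-s) ≤ 1 := by
    intro v
    have hN : 1 ≤ Ideal.absNorm v.asIdeal := by
      rw [Nat.one_le_iff_ne_zero, Ne, Ideal.absNorm_eq_zero_iff]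
      exact v.ne_bot
    exact Real.rpow_le_one_of_one_le_of_nonpos (by exact_mod_cast hN) (by linarith)
  have hprod : ∏ v ∈ T, (1 - (Ideal.absNorm v.asIdeal : ℝ) ^ (-s)) ≤
      Real.exp (-∑ v ∈ T, (Ideal.absNorm v.asIdeal : ℝ) ^ (-s)) := by
    rw [← Finset.sum_neg_distrib, Real.exp_sum]
    exact Finset.prod_le_prod (fun v _ => sub_nonneg.mpr (hx1 v))
      (fun v _ => Real.one_sub_le_exp_neg _)
  have h2 : 1 ≤ idealZeta L s * Real.exp (-∑ v ∈ T, (Ideal.absNorm v.asIdeal : ℝ) ^ (-s)) :=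
    calc (1 : ℝ) ≤ ∑' I, g I := hge1
      _ = idealZeta L s * ∏ v ∈ T, (1 - (Ideal.absNorm v.asIdeal : ℝ) ^ (-s)) := key'
      _ ≤ _ := mul_le_mul_of_nonneg_left hprod hZ0
  have hZpos : 0 < idealZeta L s := by
    rcases hZ0.lt_or_eq with h | h
    · exact h
    · rw [← h, zero_mul] at h2
      linarith
  rw [Real.le_log_iff_exp_le hZpos]
  rw [Real.exp_neg, ← div_eq_mul_inv, le_div_iff₀ (Real.exp_pos _)] at h2
  linarith

section general

variable (F : Type) [Field F] [NumberField F]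

/-- AN-b: primes where `e` is a `p`-th power residue. -/
theorem primeSum_powRes_le (p : ℕ) [Fact p.Prime] {ζ : F} (hζ : IsPrimitiveRoot ζ p) (e : 𝓞 F)
    (he : ∀ c : F, (e : F) ≠ c ^ p) :
    ∃ C δ : ℝ, 0 < δ ∧ ∀ s : ℝ, 1 < s → s < 1 + δ →
      primeSum {v : HeightOneSpectrum (𝓞 F) | (p : 𝓞 F) ∉ v.asIdeal ∧ e ∉ v.asIdeal ∧
          ∃ x : 𝓞 F, e - x ^ p ∈ v.asIdeal} s ≤
        (1 / (p : ℝ)) * Real.log (1 / (s - 1)) + C := by
  classical
  have hp := (Fact.out : p.Prime)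
  obtain ⟨L, _, _, _, hdeg, θ, hθ⟩ := psp_exists_field F p (e : F) he
  set S : Set (HeightOneSpectrum (𝓞 F)) := {v | (p : 𝓞 F) ∉ v.asIdeal ∧ e ∉ v.asIdeal ∧
    ∃ x : 𝓞 F, e - x ^ p ∈ v.asIdeal} with hS
  have key : ∀ v : S, ∃ f : Fin p → HeightOneSpectrum (𝓞 L), Function.Injective f ∧
      ∀ j, (f j).asIdeal.comap (algebraMap (𝓞 F) (𝓞 L)) = v.1.asIdeal ∧
        Ideal.absNorm (f j).asIdeal = Ideal.absNorm v.1.asIdeal := by
    rintro ⟨v, hpv, hev, x, hx⟩
    exact psp_exists_primes hdeg hζ e he θ hθ v hpv hev x hx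
  choose g hginj hg using key
  have hGinj : Function.Injective (fun a : S × Fin p => g a.1 a.2) := by
    rintro ⟨v, i⟩ ⟨v', i'⟩ h
    have h1 : v.1.asIdeal = v'.1.asIdeal := by
      rw [← (hg v i).1, ← (hg v' i').1]
      exact congrArg
        (fun w : HeightOneSpectrum (𝓞 L) => w.asIdeal.comap (algebraMap (𝓞 F) (𝓞 L))) h
    have h2 : v = v' := Subtype.ext (HeightOneSpectrum.ext h1)
    subst h2
    exact Prod.ext rfl (hginj v h)
  have hp0 : (0 : ℝ) < p := by exact_mod_cast hp.pos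
  -- the bound for finite sets of primes
  have hfin : ∀ (s : ℝ), 1 < s → ∀ T : Finset S,
      ∑ v ∈ T, (Ideal.absNorm v.1.asIdeal : ℝ) ^ (-s) ≤
        (1 / (p : ℝ)) * Real.log (idealZeta L s) := by
    intro s hs T
    have h1 := psp_sum_le_log L s hs
      ((T ×ˢ (Finset.univ : Finset (Fin p))).image (fun a : S × Fin p => g a.1 a.2))
    rw [Finset.sum_image (fun a _ b _ h => hGinj h), Finset.sum_product] at h1
    have h2 : ∀ v ∈ T, ∑ j : Fin p, (Ideal.absNorm (g v j).asIdeal : ℝ) ^ (-s) =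
        (p : ℝ) * (Ideal.absNorm v.1.asIdeal : ℝ) ^ (-s) := by
      intro v _
      rw [Finset.sum_congr rfl (fun j _ => by rw [(hg v j).2]), Finset.sum_const,
        Finset.card_univ, Fintype.card_fin, nsmul_eq_mul]
    rw [Finset.sum_congr rfl h2, ← Finset.mul_sum] at h1
    rw [one_div, ← div_eq_inv_mul, le_div_iff₀ hp0]
    linarith
  obtain ⟨c, C, δ, hc, hδ, hb⟩ := idealZeta_bounds L
  refine ⟨(1 / (p : ℝ)) * Real.log (max C 1), δ, hδ, fun s hs1 hs2 => ?_⟩
  obtain ⟨hb1, hb2⟩ := hb s hs1 hs2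
  have hs0 : 0 < s - 1 := by linarith
  have hZpos : 0 < idealZeta L s := lt_of_lt_of_le (div_pos hc hs0) hb1
  have hmax : 0 < max C 1 := lt_of_lt_of_le one_pos (le_max_right _ _)
  have hlog : Real.log (idealZeta L s) ≤ Real.log (1 / (s - 1)) + Real.log (max C 1) := by
    rw [← Real.log_mul (one_div_pos.mpr hs0).ne' hmax.ne']
    apply Real.log_le_log hZpos
    calc idealZeta L s ≤ C / (s - 1) := hb2
      _ ≤ max C 1 / (s - 1) := div_le_div_of_nonneg_right (le_max_left _ _) hs0.le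
      _ = 1 / (s - 1) * max C 1 := by ring
  have hmain : primeSum S s ≤ (1 / (p : ℝ)) * Real.log (idealZeta L s) := by
    unfold primeSum
    exact Real.tsum_le_of_sum_le (fun v => Real.rpow_nonneg (Nat.cast_nonneg _) _) (hfin s hs1)
  calc primeSum S s ≤ (1 / (p : ℝ)) * Real.log (idealZeta L s) := hmain
    _ ≤ (1 / (p : ℝ)) * (Real.log (1 / (s - 1)) + Real.log (max C 1)) :=
        mul_le_mul_of_nonneg_left hlog (one_div_pos.mpr hp0).le
    _ = _ := by ring

end general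

end Fermat.Agent.S14
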