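import Fermat.Agent.S14.DensityCore
import Fermat.Agent.S14.PrimeSums
import Fermat.Agent.S14.PrimeSumsPow
import Fermat.Agent.S14.PrimeSumsKer

/-!
# S14 piece AN-fin: the density contradiction

`density_contra`: wrapper of `density_contra_of` with the three prime-sum bounds
`primeSum_ge`, `primeSum_ker_le`, `primeSum_powRes_le`.
-/

set_option autoImplicit false

open NumberField IsDedekindDomain
open scoped nonZeroDivisors

namespace Fermat.Agent.S14

/-- AN-fin: the density contradiction. -/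
theorem density_contra (F : Type) [Field F] [NumberField F] (p : ℕ) [Fact p.Prime] (h3 : 3 ≤ p)
    {ζ : F} (hζ : IsPrimitiveRoot ζ p)
    (ψ : ClassGroup (𝓞 F) →* Multiplicative (ZMod p)) (hψ : ψ ≠ 1)
    (e : (𝓞 F)ˣ) (he : ∀ c : F, ((e : 𝓞 F) : F) ≠ c ^ p)
    (h : ∀ v : HeightOneSpectrum (𝓞 F), (Ideal.absNorm v.asIdeal).Prime →
      (p : 𝓞 F) ∉ v.asIdeal → ψ (primeClass v) ≠ 1 → ∃ x : 𝓞 F, (e : 𝓞 F) - x ^ p ∈ v.asIdeal) :
    False :=
  density_contra_of F p h3 ψ e (primeSum_ge F) (primeSum_ker_le F p ψ hψ)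
    (primeSum_powRes_le F p hζ (e : 𝓞 F) he) h

end Fermat.Agent.S14
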