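import Fermat.Agent.S14.Defs

/-!
# S14 piece E2B: basic properties of the cyclotomic unit `E₂`

`E₂ = ∏_{b=1}^{p-1} u_b^{c_b}` with `u_b = (1 - ζ^b)/(1 - ζ)` and `c_b ≡ b⁻² mod p`:
it is a unit, and `σ_a E₂ ∈ E₂^{a²} · E^p` (for `p ≥ 5`).
-/

set_option autoImplicit false

open NumberField IsDedekindDomain
open scoped nonZeroDivisors

namespace Fermat.Agent.S14

/-! ### Geometric sums of a primitive root -/

section geom

variable {p : ℕ} {K : Type*} [Field K] {ζ : K}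

theorem e2b_geom_mul (ζ : K) (b : ℕ) :
    (∑ i ∈ Finset.range b, ζ ^ i) * (1 - ζ) = 1 - ζ ^ b := geom_sum_mul_neg ζ b

theorem e2b_one_sub_ne_zero (hp : p.Prime) (hζ : IsPrimitiveRoot ζ p) : (1 : K) - ζ ≠ 0 :=
  sub_ne_zero.mpr (hζ.ne_one hp.one_lt).symm

theorem e2b_pow_congr (hζ : IsPrimitiveRoot ζ p) {b b' : ℕ} (h : b % p = b' % p) :
    ζ ^ b = ζ ^ b' := by
  rw [← pow_mod_orderOf ζ b, ← pow_mod_orderOf ζ b', ← hζ.eq_orderOf, h]

theorem e2b_geom_congr (hp : p.Prime) (hζ : IsPrimitiveRoot ζ p) {b b' : ℕ}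
    (h : b % p = b' % p) :
    ∑ i ∈ Finset.range b, ζ ^ i = ∑ i ∈ Finset.range b', ζ ^ i := by
  apply mul_right_cancel₀ (e2b_one_sub_ne_zero hp hζ)
  rw [e2b_geom_mul, e2b_geom_mul, e2b_pow_congr hζ h]

theorem e2b_geom_ne_zero (hζ : IsPrimitiveRoot ζ p) {b : ℕ} (hb : ¬ p ∣ b) :
    ∑ i ∈ Finset.range b, ζ ^ i ≠ 0 := by
  intro h
  have h1 := e2b_geom_mul ζ b
  rw [h, zero_mul] at h1
  exact hb ((hζ.pow_eq_one_iff_dvd b).mp (sub_eq_zero.mp h1.symm).symm)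

theorem e2b_map_geom (hp : p.Prime) (hζ : IsPrimitiveRoot ζ p) (f : K →+* K) (a : ℕ)
    (hf : f ζ = ζ ^ a) (b : ℕ) :
    f (∑ i ∈ Finset.range b, ζ ^ i) * (∑ i ∈ Finset.range a, ζ ^ i)
      = ∑ i ∈ Finset.range (a * b), ζ ^ i := by
  apply mul_right_cancel₀ (e2b_one_sub_ne_zero hp hζ)
  rw [mul_assoc, e2b_geom_mul, e2b_geom_mul]
  have h1 : f (∑ i ∈ Finset.range b, ζ ^ i) * (1 - ζ ^ a)
      = f ((∑ i ∈ Finset.range b, ζ ^ i) * (1 - ζ)) := by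
    rw [map_mul, map_sub, map_one, hf]
  rw [h1, e2b_geom_mul, map_sub, map_one, map_pow, hf, ← pow_mul]

end geom

/-! ### The exponents -/

theorem e2b_cexp_cast (p : ℕ) [Fact p.Prime] (b : ℕ) :
    ((cexp p b : ℕ) : ZMod p) = ((b : ZMod p)⁻¹) ^ 2 := by
  rw [cexp, ZMod.natCast_zmod_val]

theorem dvd_sum_cexp {p : ℕ} [Fact p.Prime] (hp : 5 ≤ p) :
    p ∣ ∑ b ∈ Finset.Ico 1 p, cexp p b := by
  have hpp : p.Prime := Fact.out
  rw [← ZMod.natCast_eq_zero_iff, Nat.cast_sum]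
  have h1 : ∑ b ∈ Finset.Ico 1 p, ((cexp p b : ℕ) : ZMod p)
      = ∑ b ∈ Finset.range p, ((b : ZMod p)⁻¹) ^ 2 := by
    rw [Finset.sum_range_eq_add_Ico _ hpp.pos]
    simp only [Nat.cast_zero, inv_zero, ne_eq, OfNat.ofNat_ne_zero, not_false_eq_true, zero_pow,
      zero_add]
    exact Finset.sum_congr rfl fun b _ => e2b_cexp_cast p b
  have h2 : ∑ b ∈ Finset.range p, ((b : ZMod p)⁻¹) ^ 2 = ∑ x : ZMod p, (x⁻¹) ^ 2 := by
    refine Finset.sum_nbij' (fun b => (b : ZMod p)) ZMod.val ?_ ?_ ?_ ?_ ?_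
    · intro b _
      exact Finset.mem_univ _
    · intro x _
      exact Finset.mem_range.mpr (ZMod.val_lt x)
    · intro b hb
      exact ZMod.val_natCast_of_lt (Finset.mem_range.mp hb)
    · intro x _
      exact ZMod.natCast_zmod_val x
    · intro b _
      rfl
  have h3 : ∑ x : ZMod p, (x⁻¹) ^ 2 = ∑ x : ZMod p, x ^ 2 :=
    Fintype.sum_equiv (Equiv.inv (ZMod p)) _ _ (fun x => rfl)
  rw [h1, h2, h3]
  apply FiniteField.sum_pow_lt_card_sub_one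
  rw [ZMod.card]
  omega

/-! ### Units -/

section units

variable {K : Type} [Field K] [NumberField K]

/-- The units of `K` coming from units of `𝓞 K`. -/
def e2bU (K : Type) [Field K] [NumberField K] : Subgroup Kˣ :=
  (Units.map ((algebraMap (𝓞 K) K : 𝓞 K →+* K) : 𝓞 K →* K)).range

theorem e2b_mem_U {x : Kˣ} : x ∈ e2bU K ↔ ∃ u : (𝓞 K)ˣ, ((u : 𝓞 K) : K) = (x : K) := by
  constructor
  · rintro ⟨u, rfl⟩
    exact ⟨u, rfl⟩
  · rintro ⟨u, hu⟩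
    exact ⟨u, Units.ext hu⟩

open scoped Classical in
/-- Geometric sums as units of `K` (junk value `1` when the sum vanishes). -/
noncomputable def e2bG (ζ : K) (b : ℕ) : Kˣ :=
  if h : ∑ i ∈ Finset.range b, ζ ^ i = 0 then 1 else Units.mk0 _ h

variable {p : ℕ} [Fact p.Prime] {ζ : K}

theorem e2bG_val (hζ : IsPrimitiveRoot ζ p) {b : ℕ} (hb : ¬ p ∣ b) :
    (e2bG ζ b : K) = ∑ i ∈ Finset.range b, ζ ^ i := by
  rw [e2bG, dif_neg (e2b_geom_ne_zero hζ hb)]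
  rfl

theorem e2bG_congr (hζ : IsPrimitiveRoot ζ p) {b b' : ℕ} (h : b % p = b' % p) :
    e2bG ζ b = e2bG ζ b' := by
  have hsum := e2b_geom_congr (Fact.out : p.Prime) hζ h
  apply Units.ext
  unfold e2bG
  by_cases h0 : ∑ i ∈ Finset.range b, ζ ^ i = 0
  · have h0' : ∑ i ∈ Finset.range b', ζ ^ i = 0 := hsum ▸ h0
    rw [dif_pos h0, dif_pos h0']
  · have h0' : ¬ ∑ i ∈ Finset.range b', ζ ^ i = 0 := hsum ▸ h0
    rw [dif_neg h0, dif_neg h0']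
    exact hsum

theorem e2bG_mem (hζ : IsPrimitiveRoot ζ p) {b : ℕ} (hb : ¬ p ∣ b) : e2bG ζ b ∈ e2bU K := by
  have hp : p.Prime := Fact.out
  have hcop : b.Coprime p := (Nat.Prime.coprime_iff_not_dvd hp).mpr hb |>.symm
  have hu := hζ.toInteger_isPrimitiveRoot.geom_sum_isUnit hp.two_le hcop
  rw [e2b_mem_U]
  refine ⟨hu.unit, ?_⟩
  rw [IsUnit.unit_spec, e2bG_val hζ hb]
  show algebraMap (𝓞 K) K (∑ i ∈ Finset.range b, hζ.toInteger ^ i) = _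
  rw [map_sum]
  simp only [map_pow]
  rfl

omit [Fact p.Prime] in
theorem e2b_not_dvd_of_mem_Ico {b : ℕ} (hb : b ∈ Finset.Ico 1 p) : ¬ p ∣ b := by
  rw [Finset.mem_Ico] at hb
  exact Nat.not_dvd_of_pos_of_lt (by omega) hb.2

/-- `E₂` as a unit of `K`. -/
theorem e2b_E2_eq (hζ : IsPrimitiveRoot ζ p) :
    E2 p ζ = ((∏ b ∈ Finset.Ico 1 p, e2bG ζ b ^ cexp p b : Kˣ) : K) := by
  rw [E2, Units.coe_prod]
  refine Finset.prod_congr rfl fun b hb => ?_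
  rw [Units.val_pow_eq_pow_val, e2bG_val hζ (e2b_not_dvd_of_mem_Ico hb)]

theorem e2b_E2_mem (hζ : IsPrimitiveRoot ζ p) :
    (∏ b ∈ Finset.Ico 1 p, e2bG ζ b ^ cexp p b : Kˣ) ∈ e2bU K :=
  Subgroup.prod_mem _ fun b hb => Subgroup.pow_mem _ (e2bG_mem hζ (e2b_not_dvd_of_mem_Ico hb)) _

end units

section cyclo

variable {p : ℕ} [Fact p.Prime] {K : Type} [Field K] [NumberField K]
  [IsCyclotomicExtension {p} ℚ K] {ζ : K}

/-- E2B (file `E2Basic.lean`). -/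
theorem E2_isUnit (hζ : IsPrimitiveRoot ζ p) : ∃ u : (𝓞 K)ˣ, ((u : 𝓞 K) : K) = E2 p ζ := by
  rw [e2b_E2_eq hζ]
  exact e2b_mem_U.mp (e2b_E2_mem hζ)

theorem prod_one_sub_pow_eq (hζ : IsPrimitiveRoot ζ p) :
    ∏ b ∈ Finset.Ico 1 p, (1 - ζ ^ b) ^ cexp p b =
      E2 p ζ * (1 - ζ) ^ (∑ b ∈ Finset.Ico 1 p, cexp p b) := by
  rw [E2, ← Finset.prod_pow_eq_pow_sum, ← Finset.prod_mul_distrib]
  refine Finset.prod_congr rfl fun b _ => ?_
  rw [← mul_pow, e2b_geom_mul]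

theorem E2_eigen (hp : 5 ≤ p) (hζ : IsPrimitiveRoot ζ p) (σ : K ≃ₐ[ℚ] K) (a : ℕ)
    (hσ : σ ζ = ζ ^ a) :
    ∃ δ : (𝓞 K)ˣ, σ (E2 p ζ) = E2 p ζ ^ (a ^ 2) * ((δ : 𝓞 K) : K) ^ p := by
  classical
  have hpp : p.Prime := Fact.out
  -- `a` is prime to `p`
  have hcop : p.Coprime a := by
    have h1 : IsPrimitiveRoot (ζ ^ a) p := by
      rw [← hσ]
      exact hζ.map_of_injective σ.injective
    exact ((hζ.pow_iff_coprime hpp.pos a).mp h1).symm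
  have ha : ¬ p ∣ a := hpp.coprime_iff_not_dvd.mp hcop
  -- the action of `σ` on the units of `K`
  let s : Kˣ →* Kˣ := Units.map ((σ : K →+* K) : K →* K)
  have hs_val : ∀ x : Kˣ, ((s x : Kˣ) : K) = σ (x : K) := fun x => rfl
  have hA3 : ∀ b : ℕ, ¬ p ∣ b → s (e2bG ζ b) * e2bG ζ a = e2bG ζ (a * b) := by
    intro b hb
    have hab : ¬ p ∣ a * b := fun h => (hpp.dvd_mul.mp h).elim ha hb
    apply Units.ext
    rw [Units.val_mul, hs_val, e2bG_val hζ hb, e2bG_val hζ ha, e2bG_val hζ hab]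
    exact e2b_map_geom hpp hζ (σ : K →+* K) a hσ b
  -- the permutation `b ↦ a b mod p` of `[1, p-1]`
  set π : ℕ → ℕ := fun b => (a * b) % p with hπ
  have hπmem : ∀ b ∈ Finset.Ico 1 p, π b ∈ Finset.Ico 1 p := by
    intro b hb
    have hb' := e2b_not_dvd_of_mem_Ico hb
    rw [Finset.mem_Ico]
    refine ⟨Nat.pos_of_ne_zero fun h0 => ?_, Nat.mod_lt _ hpp.pos⟩
    exact (hpp.dvd_mul.mp (Nat.dvd_of_mod_eq_zero h0)).elim ha hb'
  have hπinj : Set.InjOn π (Finset.Ico 1 p : Set ℕ) := by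
    intro b hb b' hb' h
    have h1 : a * b ≡ a * b' [MOD p] := h
    have h2 : b ≡ b' [MOD p] := Nat.ModEq.cancel_left_of_coprime hcop h1
    rw [Finset.mem_coe, Finset.mem_Ico] at hb hb'
    exact Nat.ModEq.eq_of_lt_of_lt h2 hb.2 hb'.2
  have himage : (Finset.Ico 1 p).image π = Finset.Ico 1 p :=
    Finset.eq_of_subset_of_card_le (Finset.image_subset_iff.mpr hπmem)
      (by rw [Finset.card_image_of_injOn hπinj])
  -- the exponents
  have hexp : ∀ b ∈ Finset.Ico 1 p, ∃ m : ℤ,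
      (cexp p b : ℤ) = ((a ^ 2 * cexp p (π b) : ℕ) : ℤ) + m * p := by
    intro b hb
    have hbz : (b : ZMod p) ≠ 0 := by
      rw [Ne, ZMod.natCast_eq_zero_iff]
      exact e2b_not_dvd_of_mem_Ico hb
    have haz : (a : ZMod p) ≠ 0 := by
      rw [Ne, ZMod.natCast_eq_zero_iff]
      exact ha
    have h1 : ((cexp p b : ℕ) : ZMod p) = ((a ^ 2 * cexp p (π b) : ℕ) : ZMod p) := by
      rw [Nat.cast_mul, e2b_cexp_cast, e2b_cexp_cast, Nat.cast_pow, hπ]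
      simp only [ZMod.natCast_mod, Nat.cast_mul]
      field_simp
    have h2 : (p : ℤ) ∣ (cexp p b : ℤ) - ((a ^ 2 * cexp p (π b) : ℕ) : ℤ) := by
      rw [← ZMod.intCast_zmod_eq_zero_iff_dvd]
      push_cast
      rw [sub_eq_zero]
      exact_mod_cast h1
    obtain ⟨m, hm⟩ := h2
    exact ⟨m, by rw [mul_comm m]; linarith⟩
  choose! m hm using hexp
  obtain ⟨t, ht⟩ := dvd_sum_cexp hp
  set E : Kˣ := ∏ b ∈ Finset.Ico 1 p, e2bG ζ b ^ cexp p b with hE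
  set D : Kˣ := ∏ b ∈ Finset.Ico 1 p, e2bG ζ (π b) ^ m b with hD
  have hDmem : D ∈ e2bU K := Subgroup.prod_mem _ fun b hb =>
    Subgroup.zpow_mem _ (e2bG_mem hζ (e2b_not_dvd_of_mem_Ico (hπmem b hb))) _
  have h1 : s E * e2bG ζ a ^ (∑ b ∈ Finset.Ico 1 p, cexp p b)
      = ∏ b ∈ Finset.Ico 1 p, e2bG ζ (π b) ^ cexp p b := by
    rw [hE, map_prod, ← Finset.prod_pow_eq_pow_sum, ← Finset.prod_mul_distrib]
    refine Finset.prod_congr rfl fun b hb => ?_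
    rw [map_pow, ← mul_pow, hA3 b (e2b_not_dvd_of_mem_Ico hb)]
    congr 1
    exact e2bG_congr hζ (Nat.mod_mod _ _).symm
  have h2 : ∏ b ∈ Finset.Ico 1 p, e2bG ζ (π b) ^ cexp p b = E ^ (a ^ 2) * D ^ p := by
    have h3 : ∀ b ∈ Finset.Ico 1 p, e2bG ζ (π b) ^ cexp p b
        = (e2bG ζ (π b) ^ cexp p (π b)) ^ (a ^ 2) * (e2bG ζ (π b) ^ m b) ^ p := by
      intro b hb
      rw [← zpow_natCast (e2bG ζ (π b)) (cexp p b), hm b hb, zpow_add, zpow_natCast, zpow_mul,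
        zpow_natCast, mul_comm (a ^ 2), pow_mul]
    have h4 : ∏ b ∈ Finset.Ico 1 p, e2bG ζ (π b) ^ cexp p (π b) = E := by
      rw [hE]
      conv_rhs => rw [← himage]
      rw [Finset.prod_image hπinj]
    rw [Finset.prod_congr rfl h3, Finset.prod_mul_distrib, Finset.prod_pow, Finset.prod_pow, h4]
  have key : s E = E ^ (a ^ 2) * (D / e2bG ζ a ^ t) ^ p := by
    rw [div_pow, ← mul_div_assoc, eq_div_iff_mul_eq', ← pow_mul, mul_comm t p, ← ht, h1, h2]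
  obtain ⟨δ, hδ⟩ := e2b_mem_U.mp
    (Subgroup.div_mem _ hDmem (Subgroup.pow_mem _ (e2bG_mem hζ ha) t))
  refine ⟨δ, ?_⟩
  rw [e2b_E2_eq hζ, hδ]
  have hkey := congrArg Units.val key
  rw [hs_val, Units.val_mul, Units.val_pow_eq_pow_val, Units.val_pow_eq_pow_val] at hkey
  exact hkey

end cyclo

end Fermat.Agent.S14
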