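import Fermat.Agent.S14.Defs
import Fermat.Agent.S14.E2Basic

/-!
# S14 piece U1: the local computation for `E₂` modulo `(1 - ζ)^3`

We map `𝓞 K` to the truncated polynomial ring `F_p[X]/(X^3)` (modelled by triples) by
`ζ ↦ 1 - X` and use the truncated logarithm.
-/

set_option autoImplicit false

open NumberField

namespace Fermat.Agent.S14

/-- Truncated polynomials `a + b X + c X^2` modulo `X^3`. -/
@[ext] structure Tr3 (R : Type) where
  a : R
  b : R
  c : R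

namespace Tr3

variable {R : Type} [CommRing R]

instance : Zero (Tr3 R) := ⟨⟨0, 0, 0⟩⟩
instance : One (Tr3 R) := ⟨⟨1, 0, 0⟩⟩
instance : Add (Tr3 R) := ⟨fun x y => ⟨x.a + y.a, x.b + y.b, x.c + y.c⟩⟩
instance : Neg (Tr3 R) := ⟨fun x => ⟨-x.a, -x.b, -x.c⟩⟩
instance : Mul (Tr3 R) :=
  ⟨fun x y => ⟨x.a * y.a, x.a * y.b + x.b * y.a, x.a * y.c + x.b * y.b + x.c * y.a⟩⟩
instance : NatCast (Tr3 R) := ⟨fun n => ⟨n, 0, 0⟩⟩
instance : IntCast (Tr3 R) := ⟨fun n => ⟨n, 0, 0⟩⟩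

@[simp] theorem zero_a : (0 : Tr3 R).a = 0 := rfl
@[simp] theorem zero_b : (0 : Tr3 R).b = 0 := rfl
@[simp] theorem zero_c : (0 : Tr3 R).c = 0 := rfl
@[simp] theorem one_a : (1 : Tr3 R).a = 1 := rfl
@[simp] theorem one_b : (1 : Tr3 R).b = 0 := rfl
@[simp] theorem one_c : (1 : Tr3 R).c = 0 := rfl
@[simp] theorem add_a (x y : Tr3 R) : (x + y).a = x.a + y.a := rfl
@[simp] theorem add_b (x y : Tr3 R) : (x + y).b = x.b + y.b := rfl
@[simp] theorem add_c (x y : Tr3 R) : (x + y).c = x.c + y.c := rfl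
@[simp] theorem neg_a (x : Tr3 R) : (-x).a = -x.a := rfl
@[simp] theorem neg_b (x : Tr3 R) : (-x).b = -x.b := rfl
@[simp] theorem neg_c (x : Tr3 R) : (-x).c = -x.c := rfl
@[simp] theorem mul_a (x y : Tr3 R) : (x * y).a = x.a * y.a := rfl
@[simp] theorem mul_b (x y : Tr3 R) : (x * y).b = x.a * y.b + x.b * y.a := rfl
@[simp] theorem mul_c (x y : Tr3 R) : (x * y).c = x.a * y.c + x.b * y.b + x.c * y.a := rfl
@[simp] theorem natCast_a (n : ℕ) : (n : Tr3 R).a = n := rfl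
@[simp] theorem natCast_b (n : ℕ) : (n : Tr3 R).b = 0 := rfl
@[simp] theorem natCast_c (n : ℕ) : (n : Tr3 R).c = 0 := rfl
@[simp] theorem intCast_a (n : ℤ) : (n : Tr3 R).a = n := rfl
@[simp] theorem intCast_b (n : ℤ) : (n : Tr3 R).b = 0 := rfl
@[simp] theorem intCast_c (n : ℤ) : (n : Tr3 R).c = 0 := rfl

instance : CommRing (Tr3 R) where
  add_assoc x y z := by ext <;> simp [add_assoc]
  zero_add x := by ext <;> simp
  add_zero x := by ext <;> simp
  nsmul := nsmulRec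
  zsmul := zsmulRec
  neg_add_cancel x := by ext <;> simp
  add_comm x y := by ext <;> simp [add_comm]
  left_distrib x y z := by ext <;> simp <;> ring
  right_distrib x y z := by ext <;> simp <;> ring
  zero_mul x := by ext <;> simp
  mul_zero x := by ext <;> simp
  mul_assoc x y z := by ext <;> simp <;> ring
  one_mul x := by ext <;> simp
  mul_one x := by ext <;> simp
  mul_comm x y := by ext <;> simp <;> ring
  natCast_zero := by ext <;> simp
  natCast_succ n := by ext <;> simp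
  intCast_ofNat n := by ext <;> simp
  intCast_negSucc n := by ext <;> simp

/-- The constant-coefficient ring homomorphism. -/
def aHom : Tr3 R →+* R where
  toFun := Tr3.a
  map_one' := rfl
  map_mul' _ _ := rfl
  map_zero' := rfl
  map_add' _ _ := rfl

@[simp] theorem aHom_apply (x : Tr3 R) : aHom x = x.a := rfl

theorem pow_a (x : Tr3 R) (n : ℕ) : (x ^ n).a = x.a ^ n := map_pow aHom x n

/-- `1 - X`. -/
def zt : Tr3 R := ⟨1, -1, 0⟩

theorem zt_pow (i : ℕ) : (zt : Tr3 R) ^ i = ⟨1, -(i : R), (i.choose 2 : ℕ)⟩ := by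
  induction i with
  | zero => ext <;> simp [zt]
  | succ i ih =>
    rw [pow_succ, ih]
    ext
    · simp [zt]
    · simp [zt]
    · simp only [mul_c, zt, mul_zero, mul_neg, mul_one, neg_neg, zero_add]
      have : (i + 1).choose 2 = i.choose 2 + i := by
        rw [Nat.choose_succ_succ' i 1, Nat.choose_one_right, add_comm]
      rw [this]; push_cast; ring

theorem zt_geom (b : ℕ) : ∑ i ∈ Finset.range b, (zt : Tr3 R) ^ i =
    ⟨(b : R), -((b.choose 2 : ℕ) : R), ((b.choose 3 : ℕ) : R)⟩ := by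
  induction b with
  | zero => ext <;> simp
  | succ b ih =>
    rw [Finset.sum_range_succ, ih, zt_pow]
    ext
    · simp
    · simp only [add_b]
      have : (b + 1).choose 2 = b.choose 2 + b := by
        rw [Nat.choose_succ_succ' b 1, Nat.choose_one_right, add_comm]
      rw [this]; push_cast; ring
    · simp only [add_c]
      have : (b + 1).choose 3 = b.choose 3 + b.choose 2 := by
        rw [Nat.choose_succ_succ' b 2, add_comm]
      rw [this]; push_cast; rfl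

theorem X_cube : ((1 : Tr3 R) - zt) ^ 3 = 0 := by
  ext <;> simp [zt, pow_succ, sub_eq_add_neg]

section log

variable {F : Type} [Field F]

/-- The truncated logarithm `log (a + bX + cX²) = (b/a) X + (c/a - b²/(2a²)) X²`. -/
def lg (u : Tr3 F) : F × F := (u.b / u.a, u.c / u.a - u.b ^ 2 / (2 * u.a ^ 2))

theorem lg_mul (h2 : (2 : F) ≠ 0) {u v : Tr3 F} (hu : u.a ≠ 0) (hv : v.a ≠ 0) :
    lg (u * v) = lg u + lg v := by
  ext
  · simp only [lg, mul_b, mul_a, Prod.fst_add]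
    field_simp
    ring
  · simp only [lg, mul_c, mul_a, mul_b, Prod.snd_add]
    field_simp
    ring

theorem lg_one : lg (1 : Tr3 F) = 0 := by
  ext <;> simp [lg]

theorem lg_intCast (n : ℤ) : lg (n : Tr3 F) = 0 := by
  ext <;> simp [lg]

theorem lg_pow (h2 : (2 : F) ≠ 0) {u : Tr3 F} (hu : u.a ≠ 0) (n : ℕ) :
    lg (u ^ n) = n • lg u := by
  induction n with
  | zero => simp [lg_one]
  | succ n ih =>
    rw [pow_succ, lg_mul h2 (by rw [pow_a]; exact pow_ne_zero _ hu) hu, ih, succ_nsmul]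

theorem prod_a {ι : Type} (s : Finset ι) (f : ι → Tr3 F) :
    (∏ i ∈ s, f i).a = ∏ i ∈ s, (f i).a := map_prod aHom f s

theorem lg_prod (h2 : (2 : F) ≠ 0) {ι : Type} (s : Finset ι) (f : ι → Tr3 F)
    (hf : ∀ i ∈ s, (f i).a ≠ 0) : lg (∏ i ∈ s, f i) = ∑ i ∈ s, lg (f i) := by
  classical
  induction s using Finset.induction_on with
  | empty => simp [lg_one]
  | insert i s hi ih =>
    rw [Finset.prod_insert hi, Finset.sum_insert hi, lg_mul h2 (hf i (Finset.mem_insert_self i s)),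
      ih (fun j hj => hf j (Finset.mem_insert_of_mem hj))]
    rw [prod_a]
    exact Finset.prod_ne_zero_iff.mpr (fun j hj => hf j (Finset.mem_insert_of_mem hj))

end log

end Tr3

section phi

variable {p : ℕ} [Fact p.Prime] {K : Type} [Field K] [NumberField K]
  [IsCyclotomicExtension {p} ℚ K] {ζ : K}

theorem u1_geom_zero (hp : 5 ≤ p) :
    ∑ i ∈ Finset.range p, (Tr3.zt : Tr3 (ZMod p)) ^ i = 0 := by
  have hpp : p.Prime := Fact.out
  rw [Tr3.zt_geom]
  ext
  · simp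
  · simp only [Tr3.zero_b, neg_eq_zero]
    rw [ZMod.natCast_eq_zero_iff]
    exact hpp.dvd_choose_self (by norm_num) (by omega)
  · simp only [Tr3.zero_c]
    rw [ZMod.natCast_eq_zero_iff]
    exact hpp.dvd_choose_self (by norm_num) (by omega)

theorem u1_minpoly (hζ : IsPrimitiveRoot ζ p) :
    minpoly ℤ hζ.integralPowerBasis.gen = Polynomial.cyclotomic p ℤ := by
  have hpp : p.Prime := Fact.out
  rw [IsPrimitiveRoot.integralPowerBasis_gen]
  have h1 : minpoly ℤ (algebraMap (𝓞 K) K hζ.toInteger) = minpoly ℤ hζ.toInteger :=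
    minpoly.algebraMap_eq (RingOfIntegers.coe_injective) _
  rw [← h1]
  exact (Polynomial.cyclotomic_eq_minpoly hζ hpp.pos).symm

/-- The ring homomorphism `𝓞 K → F_p[X]/(X^3)`, `ζ ↦ 1 - X`. -/
noncomputable def u1Phi (hp : 5 ≤ p) (hζ : IsPrimitiveRoot ζ p) : 𝓞 K →+* Tr3 (ZMod p) :=
  (hζ.integralPowerBasis.lift (Tr3.zt : Tr3 (ZMod p)) (by
    rw [u1_minpoly hζ, Polynomial.cyclotomic_prime ℤ p]
    simp only [map_sum, map_pow, Polynomial.aeval_X]
    exact u1_geom_zero hp)).toRingHom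

theorem u1Phi_zeta (hp : 5 ≤ p) (hζ : IsPrimitiveRoot ζ p) :
    u1Phi hp hζ hζ.toInteger = Tr3.zt := by
  have := hζ.integralPowerBasis.lift_gen (Tr3.zt : Tr3 (ZMod p)) (by
    rw [u1_minpoly hζ, Polynomial.cyclotomic_prime ℤ p]
    simp only [map_sum, map_pow, Polynomial.aeval_X]
    exact u1_geom_zero hp)
  have hgen : hζ.toInteger = hζ.integralPowerBasis.gen :=
    (IsPrimitiveRoot.integralPowerBasis_gen hζ).symm
  rw [hgen]
  exact this

end phi

section sums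

variable {F : Type} [Field F]

theorem u1_choose_two (m : ℕ) : (2 : F) * ((m.choose 2 : ℕ) : F) = (m : F) * ((m : F) - 1) := by
  induction m with
  | zero => simp
  | succ m ih =>
    have : (m + 1).choose 2 = m.choose 2 + m := by
      rw [Nat.choose_succ_succ' m 1, Nat.choose_one_right, add_comm]
    rw [this]
    push_cast
    rw [mul_add, ih]
    ring

theorem u1_choose_three (m : ℕ) :
    (6 : F) * ((m.choose 3 : ℕ) : F) = (m : F) * ((m : F) - 1) * ((m : F) - 2) := by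
  induction m with
  | zero => simp
  | succ m ih =>
    have : (m + 1).choose 3 = m.choose 3 + m.choose 2 := by
      rw [Nat.choose_succ_succ' m 2, add_comm]
    rw [this]
    push_cast
    have h2 := u1_choose_two (F := F) m
    have : (6 : F) * (((m.choose 3 : ℕ) : F) + ((m.choose 2 : ℕ) : F)) =
        (6 : F) * ((m.choose 3 : ℕ) : F) + 3 * ((2 : F) * ((m.choose 2 : ℕ) : F)) := by ring
    rw [this, ih, h2]
    ring

/-- The truncated logarithm of `(b, -C(b,2), C(b,3))`. -/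
theorem u1_lg_geom (h2 : (2 : F) ≠ 0) (h3 : (3 : F) ≠ 0) (b : ℕ) (hb : (b : F) ≠ 0) :
    Tr3.lg (⟨(b : F), -((b.choose 2 : ℕ) : F), ((b.choose 3 : ℕ) : F)⟩ : Tr3 F) =
      (-((b : F) - 1) / 2, ((b : F) - 1) * ((b : F) - 5) / 24) := by
  have e2 := u1_choose_two (F := F) b
  have e3 := u1_choose_three (F := F) b
  have h6 : (6 : F) ≠ 0 := by
    have : (6 : F) = 2 * 3 := by norm_num
    rw [this]; exact mul_ne_zero h2 h3
  have h24 : (24 : F) ≠ 0 := by
    have : (24 : F) = 2 * 2 * (2 * 3) := by norm_num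
    rw [this]; exact mul_ne_zero (mul_ne_zero h2 h2) (mul_ne_zero h2 h3)
  have c2 : ((b.choose 2 : ℕ) : F) = (b : F) * ((b : F) - 1) / 2 := by
    rw [eq_div_iff h2, mul_comm, e2]
  have c3 : ((b.choose 3 : ℕ) : F) = (b : F) * ((b : F) - 1) * ((b : F) - 2) / 6 := by
    rw [eq_div_iff h6, mul_comm, e3]
  ext
  · simp only [Tr3.lg]
    rw [c2]
    field_simp
  · simp only [Tr3.lg]
    rw [c2, c3]
    field_simp
    ring

end sums

section final

variable {p : ℕ} [Fact p.Prime]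

theorem u1_sum_inv (hp : 5 ≤ p) : ∑ b ∈ Finset.Ico 1 p, ((b : ZMod p))⁻¹ = 0 := by
  have hpp : p.Prime := Fact.out
  have h1 : ∑ b ∈ Finset.Ico 1 p, ((b : ZMod p))⁻¹ = ∑ b ∈ Finset.range p, ((b : ZMod p))⁻¹ := by
    rw [Finset.sum_range_eq_add_Ico _ hpp.pos]
    simp
  have h2 : ∑ b ∈ Finset.range p, ((b : ZMod p))⁻¹ = ∑ x : ZMod p, x⁻¹ := by
    refine Finset.sum_nbij' (fun b => (b : ZMod p)) ZMod.val ?_ ?_ ?_ ?_ ?_
    · intro b _
      exact Finset.mem_univ _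
    · intro x _
      exact Finset.mem_range.mpr (ZMod.val_lt x)
    · intro b hb
      exact ZMod.val_natCast_of_lt (Finset.mem_range.mp hb)
    · intro x _
      exact ZMod.natCast_zmod_val x
    · intro b _
      rfl
  have h3 : ∑ x : ZMod p, x⁻¹ = ∑ x : ZMod p, x ^ 1 := by
    simp only [pow_one]
    exact Fintype.sum_equiv (Equiv.inv (ZMod p)) _ _ (fun x => rfl)
  rw [h1, h2, h3]
  apply FiniteField.sum_pow_lt_card_sub_one
  rw [ZMod.card]
  omega

theorem u1_sum_inv_sq (hp : 5 ≤ p) : ∑ b ∈ Finset.Ico 1 p, (((b : ZMod p))⁻¹) ^ 2 = 0 := by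
  have h := dvd_sum_cexp (p := p) hp
  rw [← ZMod.natCast_eq_zero_iff, Nat.cast_sum] at h
  rw [← h]
  exact Finset.sum_congr rfl fun b _ => (e2b_cexp_cast p b).symm

theorem u1_cast_ne_zero {b : ℕ} (hb : b ∈ Finset.Ico 1 p) : (b : ZMod p) ≠ 0 := by
  rw [Ne, ZMod.natCast_eq_zero_iff]
  exact e2b_not_dvd_of_mem_Ico hb

/-- The truncated logarithm of the image of `E₂`. -/
theorem u1_lg_E2 (hp : 5 ≤ p) :
    Tr3.lg (∏ b ∈ Finset.Ico 1 p, (⟨(b : ZMod p), -((b.choose 2 : ℕ) : ZMod p),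
      ((b.choose 3 : ℕ) : ZMod p)⟩ : Tr3 (ZMod p)) ^ cexp p b) = (0, -1 / 24) := by
  have hpp : p.Prime := Fact.out
  have h2 : (2 : ZMod p) ≠ 0 := by
    have : ((2 : ℕ) : ZMod p) ≠ 0 := by
      rw [Ne, ZMod.natCast_eq_zero_iff]
      intro h
      have := Nat.le_of_dvd (by norm_num) h
      omega
    exact_mod_cast this
  have h3 : (3 : ZMod p) ≠ 0 := by
    have : ((3 : ℕ) : ZMod p) ≠ 0 := by
      rw [Ne, ZMod.natCast_eq_zero_iff]
      intro h
      have := Nat.le_of_dvd (by norm_num) h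
      omega
    exact_mod_cast this
  have h24 : (24 : ZMod p) ≠ 0 := by
    have : (24 : ZMod p) = 2 * 2 * (2 * 3) := by norm_num
    rw [this]; exact mul_ne_zero (mul_ne_zero h2 h2) (mul_ne_zero h2 h3)
  rw [Tr3.lg_prod h2]
  swap
  · intro b hb
    rw [Tr3.pow_a]
    exact pow_ne_zero _ (u1_cast_ne_zero hb)
  have hterm : ∀ b ∈ Finset.Ico 1 p,
      Tr3.lg ((⟨(b : ZMod p), -((b.choose 2 : ℕ) : ZMod p),
        ((b.choose 3 : ℕ) : ZMod p)⟩ : Tr3 (ZMod p)) ^ cexp p b) =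
      ((-1 / 2 : ZMod p) * ((b : ZMod p)⁻¹ - ((b : ZMod p)⁻¹) ^ 2),
        (1 / 24 : ZMod p) * (1 - 6 * (b : ZMod p)⁻¹ + 5 * ((b : ZMod p)⁻¹) ^ 2)) := by
    intro b hb
    have hb0 := u1_cast_ne_zero hb
    rw [Tr3.lg_pow h2 (by exact hb0), u1_lg_geom h2 h3 b hb0, Prod.smul_mk, nsmul_eq_mul,
      nsmul_eq_mul, e2b_cexp_cast]
    refine Prod.ext ?_ ?_
    · show ((b : ZMod p)⁻¹) ^ 2 * (-((b : ZMod p) - 1) / 2) =
        (-1 / 2 : ZMod p) * ((b : ZMod p)⁻¹ - ((b : ZMod p)⁻¹) ^ 2)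
      field_simp
    · show ((b : ZMod p)⁻¹) ^ 2 * (((b : ZMod p) - 1) * ((b : ZMod p) - 5) / 24) =
        (1 / 24 : ZMod p) * (1 - 6 * (b : ZMod p)⁻¹ + 5 * ((b : ZMod p)⁻¹) ^ 2)
      field_simp
      ring
  rw [Finset.sum_congr rfl hterm]
  ext
  · simp only [Prod.fst_sum]
    rw [← Finset.mul_sum, Finset.sum_sub_distrib, u1_sum_inv hp, u1_sum_inv_sq hp]
    simp
  · simp only [Prod.snd_sum]
    rw [← Finset.mul_sum, Finset.sum_add_distrib, Finset.sum_sub_distrib, ← Finset.mul_sum,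
      ← Finset.mul_sum, u1_sum_inv hp, u1_sum_inv_sq hp]
    simp only [Finset.sum_const, Nat.card_Ico, nsmul_eq_mul, mul_one, mul_zero, sub_zero, add_zero]
    have : ((p - 1 : ℕ) : ZMod p) = -1 := by
      rw [Nat.cast_sub hpp.one_lt.le]
      simp
    rw [this]
    field_simp

variable {K : Type} [Field K] [NumberField K] [IsCyclotomicExtension {p} ℚ K] {ζ : K}

/-- **U1**: if `ζ^k E₂^j ε^p` is congruent to a rational integer modulo `(1 - ζ)^3`,
then `p ∣ k` and `p ∣ j`. -/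
theorem u1 (hp : 5 ≤ p) (hζ : IsPrimitiveRoot ζ p) (k j : ℕ) (ε : (𝓞 K)ˣ) (n : ℤ) (w : 𝓞 K)
    (h : ζ ^ k * E2 p ζ ^ j * ((ε : 𝓞 K) : K) ^ p - (n : K) = (1 - ζ) ^ 3 * (w : K)) :
    p ∣ k ∧ p ∣ j := by
  have hpp : p.Prime := Fact.out
  have h2 : (2 : ZMod p) ≠ 0 := by
    have : ((2 : ℕ) : ZMod p) ≠ 0 := by
      rw [Ne, ZMod.natCast_eq_zero_iff]
      intro h
      have := Nat.le_of_dvd (by norm_num) h
      omega
    exact_mod_cast this
  have h3 : (3 : ZMod p) ≠ 0 := by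
    have : ((3 : ℕ) : ZMod p) ≠ 0 := by
      rw [Ne, ZMod.natCast_eq_zero_iff]
      intro h
      have := Nat.le_of_dvd (by norm_num) h
      omega
    exact_mod_cast this
  have h24 : (24 : ZMod p) ≠ 0 := by
    have : (24 : ZMod p) = 2 * 2 * (2 * 3) := by norm_num
    rw [this]; exact mul_ne_zero (mul_ne_zero h2 h2) (mul_ne_zero h2 h3)
  -- move the hypothesis into `𝓞 K`
  set E2' : 𝓞 K := ∏ b ∈ Finset.Ico 1 p, (∑ i ∈ Finset.range b, hζ.toInteger ^ i) ^ cexp p b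
    with hE2'
  have hE2K : (E2' : K) = E2 p ζ := by
    rw [hE2', E2]
    push_cast
    rfl
  have h' : hζ.toInteger ^ k * E2' ^ j * (ε : 𝓞 K) ^ p - (n : 𝓞 K) =
      (1 - hζ.toInteger) ^ 3 * w := by
    apply RingOfIntegers.coe_injective
    have e1 : ((hζ.toInteger ^ k * E2' ^ j * (ε : 𝓞 K) ^ p - (n : 𝓞 K) : 𝓞 K) : K) =
        ζ ^ k * (E2' : K) ^ j * ((ε : 𝓞 K) : K) ^ p - (n : K) := by
      push_cast; rfl
    have e2 : (((1 - hζ.toInteger) ^ 3 * w : 𝓞 K) : K) = (1 - ζ) ^ 3 * (w : K) := by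
      push_cast; rfl
    show ((hζ.toInteger ^ k * E2' ^ j * (ε : 𝓞 K) ^ p - (n : 𝓞 K) : 𝓞 K) : K) =
      (((1 - hζ.toInteger) ^ 3 * w : 𝓞 K) : K)
    rw [e1, e2, hE2K]
    exact h
  -- apply `φ`
  set φ := u1Phi (K := K) hp hζ with hφdef
  have hφζ : φ hζ.toInteger = Tr3.zt := u1Phi_zeta hp hζ
  have hφ := congrArg φ h'
  rw [map_sub, map_mul, map_mul, map_pow, map_pow, map_pow, map_intCast, map_mul, map_pow,
    map_sub, map_one, hφζ, Tr3.X_cube, zero_mul, sub_eq_zero] at hφ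
  have hφE2 : φ E2' = ∏ b ∈ Finset.Ico 1 p, (⟨(b : ZMod p), -((b.choose 2 : ℕ) : ZMod p),
      ((b.choose 3 : ℕ) : ZMod p)⟩ : Tr3 (ZMod p)) ^ cexp p b := by
    rw [hE2', map_prod]
    refine Finset.prod_congr rfl fun b _ => ?_
    rw [map_pow, map_sum]
    simp only [map_pow, hφζ]
    rw [Tr3.zt_geom]
  have haE2 : (φ E2').a ≠ 0 := by
    rw [hφE2, Tr3.prod_a]
    refine Finset.prod_ne_zero_iff.mpr fun b hb => ?_
    rw [Tr3.pow_a]
    exact pow_ne_zero _ (u1_cast_ne_zero hb)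
  have haε : (φ (ε : 𝓞 K)).a ≠ 0 := by
    intro h0
    have h1 : φ (ε : 𝓞 K) * φ ((ε⁻¹ : (𝓞 K)ˣ) : 𝓞 K) = 1 := by
      rw [← map_mul]; simp
    have h2' := congrArg Tr3.a h1
    rw [Tr3.mul_a, h0, zero_mul] at h2'
    simp at h2'
  have haζ : (Tr3.zt : Tr3 (ZMod p)).a ≠ 0 := by
    simp [Tr3.zt]
  have hlg := congrArg Tr3.lg hφ
  rw [Tr3.lg_intCast,
    Tr3.lg_mul h2 (by
      rw [Tr3.mul_a, Tr3.pow_a, Tr3.pow_a]
      exact mul_ne_zero (pow_ne_zero _ haζ) (pow_ne_zero _ haE2))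
      (by rw [Tr3.pow_a]; exact pow_ne_zero _ haε),
    Tr3.lg_mul h2 (by rw [Tr3.pow_a]; exact pow_ne_zero _ haζ)
      (by rw [Tr3.pow_a]; exact pow_ne_zero _ haE2),
    Tr3.lg_pow h2 haζ, Tr3.lg_pow h2 haE2, Tr3.lg_pow h2 haε, hφE2, u1_lg_E2 hp] at hlg
  have hlgζ : Tr3.lg (Tr3.zt : Tr3 (ZMod p)) = (-1, -1 / 2) := by
    refine Prod.ext ?_ ?_
    · simp [Tr3.lg, Tr3.zt]
    · simp [Tr3.lg, Tr3.zt]
      field_simp
  rw [hlgζ] at hlg
  have hpz : (p : ZMod p) = 0 := ZMod.natCast_self p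
  have hfst := congrArg Prod.fst hlg
  have hsnd := congrArg Prod.snd hlg
  simp only [Prod.fst_add, Prod.snd_add, Prod.smul_fst, Prod.smul_snd, Prod.fst_zero,
    Prod.snd_zero] at hfst hsnd
  simp only [nsmul_eq_mul, hpz, zero_mul, add_zero, mul_zero, mul_neg, mul_one,
    neg_eq_zero] at hfst hsnd
  have hk : (k : ZMod p) = 0 := hfst
  rw [hk, zero_mul] at hsnd
  have hj : (j : ZMod p) = 0 := by
    have : (j : ZMod p) * (-1 / 24) = 0 := by simpa using hsnd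
    rcases mul_eq_zero.mp this with h0 | h0
    · exact h0
    · exfalso
      rw [div_eq_zero_iff] at h0
      rcases h0 with h0 | h0
      · simp at h0
      · exact h24 h0
  exact ⟨(ZMod.natCast_eq_zero_iff k p).mp hk, (ZMod.natCast_eq_zero_iff j p).mp hj⟩

end final

end Fermat.Agent.S14
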