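import Fermat.Agent.S14.Defs

/-!
# S14, piece ALG-1: an element all of whose valuations are divisible by `n` generates an
`n`-th power of a fractional ideal.
-/

set_option autoImplicit false

open NumberField IsDedekindDomain
open scoped nonZeroDivisors

namespace Fermat.Agent.S14

/-- **ALG-1** -/
theorem exists_ideal_pow_eq {F : Type} [Field F] [NumberField F] (n : ℕ) (hn : n ≠ 0) (α : F)
    (hα : α ≠ 0)
    (h : ∀ v : HeightOneSpectrum (𝓞 F),
      (n : ℤ) ∣ FractionalIdeal.count F v (FractionalIdeal.spanSingleton (𝓞 F)⁰ α)) :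
    ∃ I : FractionalIdeal (𝓞 F)⁰ F, FractionalIdeal.spanSingleton (𝓞 F)⁰ α = I ^ n := by
  classical
  set J : FractionalIdeal (𝓞 F)⁰ F := FractionalIdeal.spanSingleton (𝓞 F)⁰ α with hJdef
  have hJ : J ≠ 0 := by
    rw [hJdef, Ne, FractionalIdeal.spanSingleton_eq_zero_iff]
    exact hα
  have hfact := FractionalIdeal.finprod_heightOneSpectrum_factorization' (K := F) hJ
  have hne : ∀ v : HeightOneSpectrum (𝓞 F),
      ((v.asIdeal : Ideal (𝓞 F)) : FractionalIdeal (𝓞 F)⁰ F) ≠ 0 := by
    intro v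
    exact FractionalIdeal.coeIdeal_ne_zero.mpr v.ne_bot
  refine ⟨∏ᶠ v : HeightOneSpectrum (𝓞 F),
    ((v.asIdeal : Ideal (𝓞 F)) : FractionalIdeal (𝓞 F)⁰ F) ^ (FractionalIdeal.count F v J / n), ?_⟩
  have hfin : Function.HasFiniteMulSupport (fun v : HeightOneSpectrum (𝓞 F) =>
      ((v.asIdeal : Ideal (𝓞 F)) : FractionalIdeal (𝓞 F)⁰ F) ^ (FractionalIdeal.count F v J / n)) := by
    have h0 := FractionalIdeal.finite_factors (K := F) J
    rw [Filter.eventually_cofinite] at h0
    refine Set.Finite.subset h0 ?_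
    intro v hv
    simp only [Function.mem_mulSupport] at hv
    intro hc
    apply hv
    rw [hc, Int.zero_ediv, zpow_zero]
  rw [finprod_pow hfin]
  refine hfact.symm.trans ?_
  refine finprod_congr fun v => ?_
  rw [← zpow_natCast, ← zpow_mul, Int.ediv_mul_cancel (h v)]

end Fermat.Agent.S14
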