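import Fermat.Agent.S14.ThaineField

/-!
# S14, piece T: Thaine's relation

`K = ℚ(ζ_p)`, `q ≡ 1 mod p` a prime, `F = K(ζ_q)`, `Gal(F/K) = ⟨t⟩`, `t ζ_q = ζ_q ^ g`.  With
`β` the Hilbert 90 element for the cyclotomic unit `ξ = 1 - ζ_p ζ_q` (`t β = ξ β`) and
`b = N_{F/K} β`, every prime `v ∤ q` of `K` has `(q - 1) ∣ v(b)`, while for `v ∣ q` one has
`g ^ v(b) ≡ 1 - ζ_p` modulo `v`.
-/

set_option autoImplicit false
set_option linter.unusedSectionVars false
set_option linter.style.haveILetI false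

open NumberField IsDedekindDomain Polynomial
open scoped nonZeroDivisors

namespace Fermat.Agent.S14

/-- The local congruence behind Thaine's relation: if `τ` acts trivially modulo `P`,
`τ π = π s` for a uniformizer `π` with `s ≡ g`, and `τ β = ξ β` with `v_P(β) = k`,
then `g ^ k ≡ ξ` modulo `P`. -/
theorem thaine_congr {B : Type*} [CommRing B] [IsDedekindDomain B] (w : HeightOneSpectrum B)
    (τ : B →+* B) (hτ : ∀ x, τ x - x ∈ w.asIdeal) (π s ξ β : B) (g k : ℕ)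
    (hπ : w.intValuation π = WithZero.exp (-1 : ℤ)) (hs : τ π = π * s)
    (hsg : s - (g : B) ∈ w.asIdeal)
    (hβ : τ β = ξ * β) (hk : w.intValuation β = WithZero.exp (-(k : ℤ))) :
    (g : B) ^ k - ξ ∈ w.asIdeal := by
  have hP : w.asIdeal ≠ ⊥ := w.ne_bot
  have hPp : w.asIdeal.IsPrime := w.isPrime
  have hπk : w.intValuation (π ^ k) = WithZero.exp (-(k : ℤ)) := by
    rw [map_pow, hπ, ← WithZero.exp_nsmul]
    simp
  have hlt : ¬ (WithZero.exp (-(k : ℤ)) ≤ WithZero.exp (-((k + 1 : ℕ) : ℤ))) := by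
    rw [WithZero.exp_le_exp]; push_cast; omega
  have h1 : π ^ k ∈ w.asIdeal ^ k := (w.intValuation_le_pow_iff_mem _ _).mp hπk.le
  have h2 : π ^ k ∉ w.asIdeal ^ (k + 1) := by
    rw [← w.intValuation_le_pow_iff_mem, hπk]; exact hlt
  have h3 : β ∈ w.asIdeal ^ k := (w.intValuation_le_pow_iff_mem _ _).mp hk.le
  have h4 : β ∉ w.asIdeal ^ (k + 1) := by
    rw [← w.intValuation_le_pow_iff_mem, hk]; exact hlt
  obtain ⟨d, e, he, hde⟩ := Ideal.exists_mul_add_mem_pow_succ hP (π ^ k) β h1 h2 h3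
  -- `τ` preserves the powers of `P`
  have hτP : ∀ (n : ℕ) (x : B), x ∈ w.asIdeal ^ n → τ x ∈ w.asIdeal ^ n := by
    intro n x hx
    have hle : Ideal.map τ w.asIdeal ≤ w.asIdeal := by
      rw [Ideal.map_le_iff_le_comap]
      intro y hy
      have := w.asIdeal.add_mem (hτ y) hy
      rwa [sub_add_cancel] at this
    have : τ x ∈ Ideal.map τ (w.asIdeal ^ n) := Ideal.mem_map_of_mem τ hx
    rw [Ideal.map_pow] at this
    exact Ideal.pow_right_mono hle n this
  have hd : d ∉ w.asIdeal := by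
    intro hd
    apply h4
    rw [← hde]
    exact Ideal.add_mem _ (by rw [pow_succ]; exact Ideal.mul_mem_mul h1 hd) he
  -- the key membership
  have hkey : π ^ k * (s ^ k * τ d - ξ * d) ∈ w.asIdeal ^ (k + 1) := by
    have e1 : π ^ k * (s ^ k * τ d - ξ * d) = ξ * e - τ e := by
      have h5 : τ β = (π * s) ^ k * τ d + τ e := by
        rw [← hde, map_add, map_mul, map_pow, hs]
      have h6 : ξ * β = ξ * (π ^ k * d) + ξ * e := by rw [← hde, mul_add]
      have h7 := hβ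
      rw [h5, h6] at h7
      linear_combination h7
    rw [e1]
    exact Ideal.sub_mem _ (Ideal.mul_mem_left _ _ he) (hτP _ _ he)
  have hmem : s ^ k * τ d - ξ * d ∈ w.asIdeal := Ideal.mem_prime_of_mul_mem_pow hP h2 hkey
  -- pass to the quotient
  have hq : (Ideal.Quotient.mk w.asIdeal) (((g : B) ^ k - ξ) * d) = 0 := by
    have e1 : (Ideal.Quotient.mk w.asIdeal) s = (Ideal.Quotient.mk w.asIdeal) (g : B) :=
      Ideal.Quotient.eq.mpr hsg
    have e2 : (Ideal.Quotient.mk w.asIdeal) (τ d) = (Ideal.Quotient.mk w.asIdeal) d :=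
      Ideal.Quotient.eq.mpr (hτ d)
    have e3 := Ideal.Quotient.eq_zero_iff_mem.mpr hmem
    rw [map_sub, map_mul, map_mul, map_pow, e1, e2] at e3
    rw [map_mul, map_sub, map_pow, sub_mul]
    exact e3
  rw [Ideal.Quotient.eq_zero_iff_mem] at hq
  exact (hPp.mem_or_mem hq).resolve_right hd

/-- The adic valuation of a nonzero element in terms of `FractionalIdeal.count`. -/
theorem thaine_valuation_eq_exp_neg_count {R K : Type*} [CommRing R] [IsDedekindDomain R]
    [Field K] [Algebra R K] [IsFractionRing R K] (v : HeightOneSpectrum R) {b : K} (hb : b ≠ 0) :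
    v.valuation K b =
      WithZero.exp (-(FractionalIdeal.count K v (FractionalIdeal.spanSingleton R⁰ b))) := by
  have key : ∀ r : R, r ≠ 0 → v.valuation K (algebraMap R K r) = WithZero.exp
      (-(FractionalIdeal.count K v (FractionalIdeal.spanSingleton R⁰ (algebraMap R K r)))) := by
    intro r hr
    have h0 : (Ideal.span {r} : Ideal R) ≠ 0 := by
      rw [Ne, Ideal.zero_eq_bot, Ideal.span_singleton_eq_bot]; exact hr
    rw [HeightOneSpectrum.valuation_of_algebraMap, v.intValuation_if_neg hr,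
      ← FractionalIdeal.coeIdeal_span_singleton, FractionalIdeal.count_coe K v h0]
  obtain ⟨n, d, hd, rfl⟩ := IsFractionRing.div_surjective (A := R) b
  have hd0 : d ≠ 0 := nonZeroDivisors.ne_zero hd
  have hn0 : n ≠ 0 := by rintro rfl; simp at hb
  have hd0' : algebraMap R K d ≠ 0 := by
    simpa using (IsFractionRing.injective R K).ne hd0
  have hn0' : algebraMap R K n ≠ 0 := by
    simpa using (IsFractionRing.injective R K).ne hn0
  have h1 : FractionalIdeal.spanSingleton R⁰ (algebraMap R K n / algebraMap R K d) *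
      FractionalIdeal.spanSingleton R⁰ (algebraMap R K d) =
      FractionalIdeal.spanSingleton R⁰ (algebraMap R K n) := by
    rw [FractionalIdeal.spanSingleton_mul_spanSingleton, div_mul_cancel₀ _ hd0']
  have h2 := FractionalIdeal.count_mul K v
    (I := FractionalIdeal.spanSingleton R⁰ (algebraMap R K n / algebraMap R K d))
    (I' := FractionalIdeal.spanSingleton R⁰ (algebraMap R K d))
    (by rw [Ne, FractionalIdeal.spanSingleton_eq_zero_iff]; exact hb)
    (by rw [Ne, FractionalIdeal.spanSingleton_eq_zero_iff]; exact hd0')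
  rw [h1] at h2
  rw [map_div₀, key n hn0, key d hd0, h2, neg_add, WithZero.exp_add,
    mul_div_assoc, div_self (WithZero.exp_ne_zero), mul_one]

section ThaineGalois

variable {K : Type} [Field K] [NumberField K] {F : Type} [Field F] [NumberField F] [Algebra K F]

/-- Conjugates of an integer that is multiplied by a unit under a generator of the Galois group
differ from it by units. -/
theorem thaine_conj_unit [FiniteDimensional K F] (t : F ≃ₐ[K] F)
    (ht : ∀ σ : F ≃ₐ[K] F, σ ∈ Subgroup.zpowers t)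
    (ξ : (𝓞 F)ˣ) (β : 𝓞 F) (hβ : t (β : F) = ((ξ : 𝓞 F) : F) * (β : F)) (σ : F ≃ₐ[K] F) :
    ∃ u : (𝓞 F)ˣ, σ (β : F) = ((u : 𝓞 F) : F) * (β : F) := by
  have hfin : Finite (F ≃ₐ[K] F) := inferInstance
  obtain ⟨n, rfl⟩ := (mem_powers_iff_mem_zpowers.mpr (ht σ))
  induction n with
  | zero => exact ⟨1, by simp⟩
  | succ n ih =>
    obtain ⟨u, hu⟩ := ih
    refine ⟨Units.map (MulSemiringAction.toRingHom (F ≃ₐ[K] F) (𝓞 F) (t ^ n)).toMonoidHom ξ * u, ?_⟩
    have h1 : (t ^ (n + 1)) (β : F) = (t ^ n) (t (β : F)) := by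
      rw [pow_succ]; rfl
    rw [h1, hβ, map_mul, hu, ← mul_assoc]
    rfl

theorem thaine_val_norm [FiniteDimensional K F] [IsGalois K F] (t : F ≃ₐ[K] F)
    (ht : ∀ σ : F ≃ₐ[K] F, σ ∈ Subgroup.zpowers t)
    (ξ : (𝓞 F)ˣ) (β : 𝓞 F) (hβ : t (β : F) = ((ξ : 𝓞 F) : F) * (β : F))
    (w : HeightOneSpectrum (𝓞 F)) :
    w.valuation F (algebraMap K F (Algebra.norm K (β : F))) =
      w.intValuation β ^ Module.finrank K F := by
  rw [Algebra.norm_eq_prod_automorphisms, map_prod]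
  have h1 : ∀ σ : F ≃ₐ[K] F, w.valuation F (σ (β : F)) = w.intValuation β := by
    intro σ
    obtain ⟨u, hu⟩ := thaine_conj_unit t ht ξ β hβ σ
    rw [hu, map_mul, HeightOneSpectrum.valuation_of_algebraMap,
      HeightOneSpectrum.valuation_of_algebraMap]
    have h2 : w.intValuation (u : 𝓞 F) = 1 := by
      rw [HeightOneSpectrum.intValuation_eq_one_iff]
      intro hmem
      exact w.isPrime.ne_top (Ideal.eq_top_of_isUnit_mem _ hmem u.isUnit)
    rw [h2, one_mul]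
  simp only [h1]
  rw [Finset.prod_const, Finset.card_univ, ← Nat.card_eq_fintype_card,
    IsGalois.card_aut_eq_finrank]

end ThaineGalois

section Thaine

variable {p : ℕ} [Fact p.Prime] {K : Type} [Field K] [NumberField K]
  [IsCyclotomicExtension {p} ℚ K] {ζ : K}

theorem thaine_exists_over {K : Type} [Field K] [NumberField K] (F : Type) [Field F]
    [NumberField F] [Algebra K F]
    (v : HeightOneSpectrum (𝓞 K)) :
    ∃ w : HeightOneSpectrum (𝓞 F), w.asIdeal.LiesOver v.asIdeal := by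
  have : v.asIdeal.IsMaximal := v.isMaximal
  obtain ⟨Q, hQ, hQv⟩ := Ideal.exists_maximal_ideal_liesOver_of_isIntegral (S := 𝓞 F) v.asIdeal
  exact ⟨⟨Q, hQ.isPrime, Ideal.ne_bot_of_liesOver_of_ne_bot v.ne_bot Q⟩, hQv⟩

/-- Ramification of the primes of `F = K(ζ_q)` over `K`: unramified away from `q`, totally
ramified above `q`. -/
theorem thaine_ramificationIdx (hζ : IsPrimitiveRoot ζ p) (q : ℕ) (hq : q.Prime)
    (hqp : q % p = 1) (F : Type) [Field F] [NumberField F] [Algebra K F]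
    [IsCyclotomicExtension {q} K F]
    (v : HeightOneSpectrum (𝓞 K)) (w : HeightOneSpectrum (𝓞 F)) [w.asIdeal.LiesOver v.asIdeal] :
    ((q : 𝓞 K) ∉ v.asIdeal → w.asIdeal.ramificationIdx (𝓞 K) = 1) ∧
    ((q : 𝓞 K) ∈ v.asIdeal → w.asIdeal.ramificationIdx (𝓞 K) = q - 1 ∧
      w.intValuation (q : 𝓞 F) = WithZero.exp (-((q - 1 : ℕ) : ℤ))) := by
  have hp : p.Prime := Fact.out
  have hpq := thaine_p_ne_q q hq hqp
  have hcyc := thaine_isCyclo hζ q hq hqp F
  have : NeZero v.asIdeal := ⟨v.ne_bot⟩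
  obtain ⟨ℓ, hℓdef⟩ : ∃ ℓ, ℓ = Ideal.absNorm (Ideal.under ℤ v.asIdeal) := ⟨_, rfl⟩
  have hℓ : ℓ.Prime := hℓdef ▸ Nat.absNorm_under_prime v.asIdeal
  haveI : Fact ℓ.Prime := ⟨hℓ⟩
  have hv : v.asIdeal.LiesOver (Ideal.span {(ℓ : ℤ)}) :=
    hℓdef ▸ Int.liesOver_span_absNorm v.asIdeal
  have hw : w.asIdeal.LiesOver (Ideal.span {(ℓ : ℤ)}) :=
    Ideal.LiesOver.trans w.asIdeal v.asIdeal _
  have htower : w.asIdeal.ramificationIdx ℤ =
      v.asIdeal.ramificationIdx ℤ * w.asIdeal.ramificationIdx (𝓞 K) :=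
    Ideal.ramificationIdx_tower v.asIdeal w.asIdeal
  have hmem : (q : 𝓞 K) ∈ v.asIdeal ↔ ℓ = q := by
    rw [← Int.cast_natCast, Int.cast_mem_ideal_iff, ← hℓdef, Int.natCast_dvd_natCast,
      Nat.prime_dvd_prime_iff_eq hℓ hq]
  have : NeZero p := ⟨hp.ne_zero⟩
  have : NeZero q := ⟨hq.ne_zero⟩
  have : NeZero (p * q) := ⟨Nat.mul_ne_zero hp.ne_zero hq.ne_zero⟩
  have hwP : w.asIdeal.IsPrime := w.isPrime
  have hvP : v.asIdeal.IsPrime := v.isPrime
  constructor
  · intro hqv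
    have hℓq : ℓ ≠ q := fun h => hqv (hmem.mpr h)
    by_cases hℓp : ℓ = p
    · subst hℓp
      have e1 : w.asIdeal.ramificationIdx ℤ = ℓ ^ 0 * (ℓ - 1) :=
        IsCyclotomicExtension.Rat.ramificationIdx_eq (ℓ * q) F w.asIdeal (m := q) (p := ℓ)
          (k := 0) (by ring) (fun h => hpq ((Nat.prime_dvd_prime_iff_eq hp hq).mp h))
      have e2 : v.asIdeal.ramificationIdx ℤ = ℓ - 1 :=
        IsCyclotomicExtension.Rat.ramificationIdx_eq_of_prime ℓ K v.asIdeal
      rw [e1, e2, pow_zero, one_mul] at htower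
      have hpos : 0 < ℓ - 1 := Nat.sub_pos_of_lt hp.one_lt
      exact (Nat.eq_of_mul_eq_mul_left hpos (by rw [mul_one]; exact htower)).symm
    · have e1 : w.asIdeal.ramificationIdx ℤ = 1 :=
        IsCyclotomicExtension.Rat.ramificationIdx_eq_of_not_dvd ℓ F w.asIdeal (m := p * q)
          (fun h => by
            rcases (Nat.Prime.dvd_mul hℓ).mp h with h | h
            · exact hℓp ((Nat.prime_dvd_prime_iff_eq hℓ hp).mp h)
            · exact hℓq ((Nat.prime_dvd_prime_iff_eq hℓ hq).mp h))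
      rw [e1] at htower
      exact Nat.eq_one_of_mul_eq_one_left htower.symm
  · intro hqv
    have hℓq : ℓ = q := hmem.mp hqv
    subst hℓq
    have e1 : w.asIdeal.ramificationIdx ℤ = ℓ ^ 0 * (ℓ - 1) :=
      IsCyclotomicExtension.Rat.ramificationIdx_eq (p * ℓ) F w.asIdeal (m := p) (p := ℓ)
        (k := 0) (by ring) (fun h => hpq ((Nat.prime_dvd_prime_iff_eq hq hp).mp h).symm)
    have e2 : v.asIdeal.ramificationIdx ℤ = 1 :=
      IsCyclotomicExtension.Rat.ramificationIdx_eq_of_not_dvd ℓ K v.asIdeal (m := p)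
        (fun h => hpq ((Nat.prime_dvd_prime_iff_eq hq hp).mp h).symm)
    rw [e1, e2, pow_zero, one_mul, one_mul] at htower
    refine ⟨htower.symm, ?_⟩
    have hq0 : ((ℓ : ℕ) : 𝓞 F) ≠ 0 := by
      exact_mod_cast hq.ne_zero
    have hmap : Ideal.map (algebraMap ℤ (𝓞 F)) (Ideal.span {(ℓ : ℤ)}) =
        Ideal.span {((ℓ : ℕ) : 𝓞 F)} := by
      rw [Ideal.map_span, Set.image_singleton]; simp
    have hne : Ideal.map (algebraMap ℤ (𝓞 F)) (Ideal.span {(ℓ : ℤ)}) ≠ ⊥ := by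
      rw [hmap, Ne, Ideal.span_singleton_eq_bot]; exact hq0
    have e3 := Ideal.IsDedekindDomain.ramificationIdx_eq_multiplicity
      (Ideal.span {(ℓ : ℤ)}) w.asIdeal hne
    rw [hmap, e1, pow_zero, one_mul] at e3
    rw [w.intValuation_eq_exp_neg_multiplicity hq0, ← e3]

/-- Above `q` the whole Galois group of `F/K` is the inertia group. -/
theorem thaine_inertia (hζ : IsPrimitiveRoot ζ p) (q : ℕ) (hq : q.Prime)
    (hqp : q % p = 1) (F : Type) [Field F] [NumberField F] [Algebra K F]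
    [IsCyclotomicExtension {q} K F]
    (v : HeightOneSpectrum (𝓞 K)) (w : HeightOneSpectrum (𝓞 F)) [w.asIdeal.LiesOver v.asIdeal]
    (hqv : (q : 𝓞 K) ∈ v.asIdeal) (σ : F ≃ₐ[K] F) (x : 𝓞 F) : σ • x - x ∈ w.asIdeal := by
  have : NeZero q := ⟨hq.ne_zero⟩
  have := IsCyclotomicExtension.finiteDimensional {q} K F
  have := IsCyclotomicExtension.isGalois {q} K F
  have hwP : w.asIdeal.IsPrime := w.isPrime
  have hvP : v.asIdeal.IsPrime := v.isPrime
  have h1 := Ideal.card_inertia_eq_ramificationIdxIn (G := F ≃ₐ[K] F) v.asIdeal w.asIdeal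
  rw [Ideal.ramificationIdxIn_eq_ramificationIdx v.asIdeal w.asIdeal (F ≃ₐ[K] F),
    ((thaine_ramificationIdx hζ q hq hqp F v w).2 hqv).1, ← thaine_finrank hζ q hq hqp F,
    ← IsGalois.card_aut_eq_finrank] at h1
  have h2 := Subgroup.eq_top_of_card_eq _ h1
  have h3 : σ ∈ w.asIdeal.inertia (F ≃ₐ[K] F) := h2 ▸ Subgroup.mem_top σ
  exact h3 x

/-- Above `q`, `1 - ζ_q` is a uniformizer. -/
theorem thaine_uniformizer (hζ : IsPrimitiveRoot ζ p) (q : ℕ) (hq : q.Prime)
    (hqp : q % p = 1) (F : Type) [Field F] [NumberField F] [Algebra K F]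
    [IsCyclotomicExtension {q} K F]
    (v : HeightOneSpectrum (𝓞 K)) (w : HeightOneSpectrum (𝓞 F)) [w.asIdeal.LiesOver v.asIdeal]
    (hqv : (q : 𝓞 K) ∈ v.asIdeal) {ζq : F} (hζq : IsPrimitiveRoot ζq q) (πq : 𝓞 F)
    (hπ : (πq : F) = 1 - ζq) : w.intValuation πq = WithZero.exp (-1 : ℤ) := by
  have : NeZero q := ⟨hq.ne_zero⟩
  haveI : Fact q.Prime := ⟨hq⟩
  have hassoc := IsCyclotomicExtension.Rat.associated_zeta_sub_one_pow_prime q hζq
  have hπ' : πq = -(hζq.toInteger - 1) := by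
    apply RingOfIntegers.ext
    rw [hπ]
    show 1 - ζq = -(ζq - 1)
    ring
  obtain ⟨u, hu⟩ := hassoc
  have hu1 : w.intValuation (u : 𝓞 F) = 1 := by
    rw [HeightOneSpectrum.intValuation_eq_one_iff]
    intro hmem
    exact w.isPrime.ne_top (Ideal.eq_top_of_isUnit_mem _ hmem u.isUnit)
  have h1 := congrArg w.intValuation hu
  rw [map_mul, hu1, mul_one, map_pow,
    ((thaine_ramificationIdx hζ q hq hqp F v w).2 hqv).2] at h1
  rw [hπ', Valuation.map_neg]
  set x := w.intValuation (hζq.toInteger - 1) with hx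
  have hx0 : x ≠ 0 := by
    intro h0
    rw [h0, zero_pow (Nat.sub_pos_of_lt hq.one_lt).ne'] at h1
    exact WithZero.exp_ne_zero h1.symm
  rw [← WithZero.exp_log hx0, ← WithZero.exp_nsmul, WithZero.exp_inj] at h1
  rw [← WithZero.exp_log hx0, WithZero.exp_inj]
  have hq1 : (0 : ℤ) < ((q - 1 : ℕ) : ℤ) := by
    exact_mod_cast Nat.sub_pos_of_lt hq.one_lt
  have h2 : ((q - 1 : ℕ) : ℤ) * WithZero.log x = ((q - 1 : ℕ) : ℤ) * (-1) := by
    rw [mul_neg_one, ← h1]; simp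
  exact mul_left_cancel₀ hq1.ne' h2

/-- Thaine's relation for a generic model `F` of `K(ζ_q)`. -/
theorem thaine_aux (hζ : IsPrimitiveRoot ζ p) (q : ℕ) (hq : q.Prime) (hqp : q % p = 1)
    (F : Type) [Field F] [NumberField F] [Algebra K F] [IsCyclotomicExtension {q} K F] :
    ∃ (b : K) (g : ℕ), b ≠ 0 ∧ orderOf (g : ZMod q) = q - 1 ∧
      (∀ v : HeightOneSpectrum (𝓞 K), (q : 𝓞 K) ∉ v.asIdeal →
        (p : ℤ) ∣ FractionalIdeal.count K v (FractionalIdeal.spanSingleton (𝓞 K)⁰ b)) ∧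
      (∀ v : HeightOneSpectrum (𝓞 K), (q : 𝓞 K) ∈ v.asIdeal → ∃ k : ℕ,
        (p : ℤ) ∣ FractionalIdeal.count K v (FractionalIdeal.spanSingleton (𝓞 K)⁰ b) - k ∧
        ∃ y ∈ v.asIdeal, (y : K) = (g : K) ^ k - (1 - ζ)) := by
  have hp : p.Prime := Fact.out
  have : NeZero p := ⟨hp.ne_zero⟩
  have : NeZero q := ⟨hq.ne_zero⟩
  have := IsCyclotomicExtension.finiteDimensional {q} K F
  have := IsCyclotomicExtension.isGalois {q} K F
  obtain ⟨g, t, ζq, ξ, β, hg, hζq, htζ, ht, hξ, hβ0, hβ⟩ := thaine_field hζ q hq hqp F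
  have hfin := thaine_finrank hζ q hq hqp F
  have hβF : (β : F) ≠ 0 := RingOfIntegers.coe_ne_zero_iff.mpr hβ0
  have hb0 : Algebra.norm K (β : F) ≠ 0 := Algebra.norm_ne_zero_iff.mpr hβF
  have hq1 : (0 : ℤ) < ((q - 1 : ℕ) : ℤ) := by
    exact_mod_cast Nat.sub_pos_of_lt hq.one_lt
  -- the valuation identity `e(w|v) * v(b) = (q - 1) * w(β)`
  have key : ∀ (v : HeightOneSpectrum (𝓞 K)) (w : HeightOneSpectrum (𝓞 F))
      [w.asIdeal.LiesOver v.asIdeal], ∃ k : ℕ, w.intValuation β = WithZero.exp (-(k : ℤ)) ∧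
        (w.asIdeal.ramificationIdx (𝓞 K) : ℤ) * FractionalIdeal.count K v
          (FractionalIdeal.spanSingleton (𝓞 K)⁰ (Algebra.norm K (β : F))) =
          ((q - 1 : ℕ) : ℤ) * k := by
    intro v w _
    have hwP := w.isPrime
    have h1 := HeightOneSpectrum.valuation_liesOver F v w (Algebra.norm K (β : F))
    rw [thaine_val_norm t ht ξ β hβ w, hfin,
      Ideal.ramificationIdx'_eq_ramificationIdx v.asIdeal w.asIdeal v.ne_bot,
      thaine_valuation_eq_exp_neg_count v hb0, w.intValuation_if_neg hβ0,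
      ← WithZero.exp_nsmul, ← WithZero.exp_nsmul, WithZero.exp_inj] at h1
    refine ⟨_, w.intValuation_if_neg hβ0, ?_⟩
    simp only [nsmul_eq_mul, mul_neg, neg_inj] at h1
    exact h1
  refine ⟨Algebra.norm K (β : F), g, hb0, hg, ?_, ?_⟩
  · intro v hqv
    obtain ⟨w, hw⟩ := thaine_exists_over F v
    obtain ⟨k, hk, hkey⟩ := key v w
    rw [(thaine_ramificationIdx hζ q hq hqp F v w).1 hqv, Nat.cast_one, one_mul] at hkey
    obtain ⟨m, hm⟩ := thaine_p_dvd (p := p) q hqp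
    refine ⟨m * k, ?_⟩
    rw [hkey, hm]
    push_cast
    ring
  · intro v hqv
    obtain ⟨w, hw⟩ := thaine_exists_over F v
    obtain ⟨k, hk, hkey⟩ := key v w
    rw [((thaine_ramificationIdx hζ q hq hqp F v w).2 hqv).1] at hkey
    have hck : FractionalIdeal.count K v
        (FractionalIdeal.spanSingleton (𝓞 K)⁰ (Algebra.norm K (β : F))) = k :=
      mul_left_cancel₀ hq1.ne' hkey
    refine ⟨k, by rw [hck, sub_self]; exact dvd_zero _, ?_⟩
    -- the congruence modulo `w`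
    let ζqI : 𝓞 F := hζq.toInteger
    let ζI : 𝓞 K := hζ.toInteger
    let τ : 𝓞 F →+* 𝓞 F := MulSemiringAction.toRingHom (F ≃ₐ[K] F) (𝓞 F) t
    have hτ : ∀ x, τ x - x ∈ w.asIdeal := fun x => thaine_inertia hζ q hq hqp F v w hqv t x
    have hπ : w.intValuation (1 - ζqI) = WithZero.exp (-1 : ℤ) :=
      thaine_uniformizer hζ q hq hqp F v w hqv hζq (1 - ζqI) rfl
    have hπmem : 1 - ζqI ∈ w.asIdeal := by
      rw [← w.intValuation_lt_one_iff_mem, hπ, ← WithZero.exp_zero, WithZero.exp_lt_exp]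
      norm_num
    have hs : τ (1 - ζqI) = (1 - ζqI) * ∑ i ∈ Finset.range g, ζqI ^ i := by
      apply RingOfIntegers.ext
      have e1 : ((τ (1 - ζqI) : 𝓞 F) : F) = t (1 - ζq) := rfl
      have e2 : (((1 - ζqI) * ∑ i ∈ Finset.range g, ζqI ^ i : 𝓞 F) : F) =
          (1 - ζq) * ∑ i ∈ Finset.range g, ζq ^ i := by
        simp [ζqI]
      rw [e1, e2, map_sub, map_one, htζ, mul_neg_geom_sum]
    have hsg : (∑ i ∈ Finset.range g, ζqI ^ i) - (g : 𝓞 F) ∈ w.asIdeal := by
      have e : (Ideal.Quotient.mk w.asIdeal) ζqI = 1 := by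
        rw [← map_one (Ideal.Quotient.mk w.asIdeal)]
        exact (Ideal.Quotient.eq.mpr hπmem).symm
      rw [← Ideal.Quotient.eq_zero_iff_mem, map_sub, map_sum, map_natCast]
      simp [map_pow, e]
    have hβ' : τ β = (ξ : 𝓞 F) * β := RingOfIntegers.ext hβ
    have hcong := thaine_congr w τ hτ (1 - ζqI) _ (ξ : 𝓞 F) β g k hπ hs hsg hβ' hk
    refine ⟨(g : 𝓞 K) ^ k - (1 - ζI), ?_, ?_⟩
    · rw [Ideal.mem_of_liesOver w.asIdeal v.asIdeal]
      have e1 : algebraMap (𝓞 K) (𝓞 F) ((g : 𝓞 K) ^ k - (1 - ζI)) =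
          ((g : 𝓞 F) ^ k - (ξ : 𝓞 F)) + algebraMap (𝓞 K) (𝓞 F) ζI * (1 - ζqI) := by
        apply RingOfIntegers.ext
        have hcoe : ∀ x : 𝓞 K, ((algebraMap (𝓞 K) (𝓞 F) x : 𝓞 F) : F) =
            algebraMap K F (x : K) := fun _ => rfl
        have e2 : ((algebraMap (𝓞 K) (𝓞 F) ((g : 𝓞 K) ^ k - (1 - ζI)) : 𝓞 F) : F) =
            (g : F) ^ k - (1 - algebraMap K F ζ) := by
          rw [hcoe]
          simp [ζI]
        have e3 : ((((g : 𝓞 F) ^ k - (ξ : 𝓞 F)) + algebraMap (𝓞 K) (𝓞 F) ζI * (1 - ζqI) : 𝓞 F) : F) =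
            ((g : F) ^ k - (1 - algebraMap K F ζ * ζq)) + algebraMap K F ζ * (1 - ζq) := by
          have e4 : ((algebraMap (𝓞 K) (𝓞 F) ζI : 𝓞 F) : F) = algebraMap K F ζ := rfl
          simp [ζqI, e4, hξ]
        rw [e2, e3]
        ring
      rw [e1]
      exact Ideal.add_mem _ hcong (Ideal.mul_mem_left _ _ hπmem)
    · simp [ζI]

set_option linter.unusedVariables false in
/-- T: Thaine's relation. -/
theorem thaine (hp : 3 ≤ p) (hζ : IsPrimitiveRoot ζ p) (q : ℕ) (hq : q.Prime) (hqp : q % p = 1) :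
    ∃ (b : K) (g : ℕ), b ≠ 0 ∧ orderOf (g : ZMod q) = q - 1 ∧
      (∀ v : HeightOneSpectrum (𝓞 K), (q : 𝓞 K) ∉ v.asIdeal →
        (p : ℤ) ∣ FractionalIdeal.count K v (FractionalIdeal.spanSingleton (𝓞 K)⁰ b)) ∧
      (∀ v : HeightOneSpectrum (𝓞 K), (q : 𝓞 K) ∈ v.asIdeal → ∃ k : ℕ,
        (p : ℤ) ∣ FractionalIdeal.count K v (FractionalIdeal.spanSingleton (𝓞 K)⁰ b) - k ∧
        ∃ y ∈ v.asIdeal, (y : K) = (g : K) ^ k - (1 - ζ)) := by
  have : NeZero q := ⟨hq.ne_zero⟩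
  exact thaine_aux hζ q hq hqp (CyclotomicField q K)

end Thaine

end Fermat.Agent.S14
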