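import Fermat.Agent.S14.ThaineConsCore
import Fermat.Agent.S14.Thaine

/-!
# S14, piece TC: the consequence of Thaine's relation
-/

set_option autoImplicit false

open NumberField IsDedekindDomain
open scoped nonZeroDivisors

namespace Fermat.Agent.S14

section cyclo

variable {p : ℕ} [Fact p.Prime] {K : Type} [Field K] [NumberField K]
  [IsCyclotomicExtension {p} ℚ K] {ζ : K}

/-- TC. -/
theorem thaine_consequence (hp : 5 ≤ p) (hζ : IsPrimitiveRoot ζ p)
    (ψ : ClassGroup (𝓞 K) →* Multiplicative (ZMod p)) (hψ : IsOmegaSq p ζ ψ)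
    (v : HeightOneSpectrum (𝓞 K)) (hv : (Ideal.absNorm v.asIdeal).Prime)
    (hvp : (p : 𝓞 K) ∉ v.asIdeal) (hψv : ψ (primeClass v) ≠ 1) :
    ∃ x : 𝓞 K, ∃ y ∈ v.asIdeal, (y : K) = E2 p ζ - (x : K) ^ p :=
  thaine_consequence_of hp hζ (fun q hq hqp => thaine (by omega) hζ q hq hqp) ψ hψ v hv hvp hψv

end cyclo

end Fermat.Agent.S14
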