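import Fermat.Agent.S14.IdealPow

/-!
# S14 piece P3: no Kummer datum for `p = 3`

`𝓞 K` is a PID with units `±ζ^k`; a unit congruent to an integer modulo `(1 - ζ)^2` is `±1`.
-/

set_option autoImplicit false

open NumberField IsDedekindDomain
open scoped nonZeroDivisors

namespace Fermat.Agent.S14

/-- P3 (file `Three.lean`). -/
theorem no_kummerDatum_three {K : Type} [Field K] [NumberField K]
    [IsCyclotomicExtension {3} ℚ K] {ζ α : K} (hζ : IsPrimitiveRoot ζ 3) :
    ¬ KummerDatum 3 ζ α := by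
  intro h
  haveI := IsCyclotomicExtension.Rat.three_pid K
  obtain ⟨I, hI⟩ := exists_ideal_pow_eq 3 (by norm_num) α h.ne_zero h.val
  rw [FractionalIdeal.eq_spanSingleton_of_principal I, FractionalIdeal.spanSingleton_pow,
    FractionalIdeal.spanSingleton_eq_spanSingleton] at hI
  obtain ⟨η, hη⟩ := hI
  set γ := Submodule.IsPrincipal.generator (I : Submodule (𝓞 K) K) with hγ
  -- `η • α = γ ^ 3`
  have hα : α = (((η⁻¹ : (𝓞 K)ˣ) : 𝓞 K) : K) * γ ^ 3 := by
    rw [← hη, Units.smul_def, Algebra.smul_def, ← mul_assoc, ← map_mul]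
    simp
  obtain ⟨n, w, hw⟩ := h.loc η⁻¹ γ hα
  have hcong : ∃ n : ℤ, (hζ.toInteger - 1) ^ 2 ∣ (((η⁻¹ : (𝓞 K)ˣ) : 𝓞 K) - n : 𝓞 K) := by
    refine ⟨n, -(hζ.toInteger - 1) * w, ?_⟩
    apply RingOfIntegers.ext
    simp only [map_sub, map_mul, map_pow, map_neg, map_intCast, map_one]
    rw [hw]
    show (1 - ζ) ^ 3 * (w : K) = (ζ - 1) ^ 2 * (-(ζ - 1) * (w : K))
    ring
  rcases IsCyclotomicExtension.Rat.Three.eq_one_or_neg_one_of_unit_of_congruent hζ η⁻¹ hcong
    with h1 | h1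
  · refine h.not_pow γ ?_
    rw [hα, h1]
    simp
  · refine h.not_pow (-γ) ?_
    rw [hα, h1]
    simp only [Units.val_neg, Units.val_one, map_neg, map_one]
    ring

end Fermat.Agent.S14
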