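import Fermat.Agent.S14.Defs

/-!
# S14, piece U2: multiplicity one of `ω²` in `E / E^p`

Let `K = ℚ(ζ_p)`, `E` its unit group.  An automorphism `σ` acts on `E / torsion ≅ ℤ^r` by an
integer matrix `umMat σ`; comparing the trace of the permutation of the infinite places in the
standard basis and in the basis `(log|u_i|, 1)` gives
`tr (umMat σ) + 1 = #{fixed infinite places}` (`um_trace_formula`).  For a generator `σ` of the
Galois group this gives `tr (G ^ j) = -1` for `0 < j < (p-1)/2` and `G ^ ((p-1)/2) = 1`, so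
modulo `p` the projector on the `g²`-eigenspace has trace `1` (`um_eigen_dep`), i.e. the
`ω²`-eigenspace of `E / E^p·torsion` is a line.  The torsion is handled by the eigen-relation.
-/

set_option autoImplicit false
set_option linter.unusedSectionVars false

namespace Fermat.Agent.S14

open Module NumberField NumberField.Units NumberField.InfinitePlace

/-- Linear algebra: if `A ^ m = 1`, `tr (A ^ j) = -1` for `0 < j < m`, the size of `A` is `m - 1`
and `c ≠ 1` is an `m`-th root of unity, then the `c`-eigenspace of `A` is a line. -/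
theorem um_eigen_dep {F : Type*} [Field F] {r m : ℕ} (A : Matrix (Fin r) (Fin r) F) (c : F)
    (hr : r + 1 = m) (hmF : (m : F) ≠ 0)
    (hchar : ∀ d : ℕ, d ≤ r → (d : F) = 1 → d = 1)
    (hAm : A ^ m = 1) (htr : ∀ j, 0 < j → j < m → Matrix.trace (A ^ j) = -1)
    (hcm : c ^ m = 1) (hc1 : c ≠ 1)
    (x y : Fin r → F) (hx : A.mulVec x = c • x) (hy : A.mulVec y = c • y) :
    ∃ a b : F, (a ≠ 0 ∨ b ≠ 0) ∧ a • x + b • y = 0 := by
  classical
  subst hr
  have hc0 : c ≠ 0 := by
    rintro rfl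
    simp at hcm
  set d : F := c⁻¹ with hd
  have hdm : d ^ (r + 1) = 1 := by rw [hd, inv_pow, hcm, inv_one]
  have hd1 : d ≠ 1 := by
    rw [hd]
    intro h
    exact hc1 (inv_eq_one.mp h)
  have hdc : d * c = 1 := inv_mul_cancel₀ hc0
  have hgeo : ∑ j ∈ Finset.range (r + 1), d ^ j = 0 := by
    have := mul_geom_sum d (r + 1)
    rw [hdm, sub_self] at this
    exact (mul_eq_zero.mp this).resolve_left (sub_ne_zero.mpr hd1)
  have hdr : d ^ r = c := by
    have : d ^ r * d = 1 := by rw [← pow_succ, hdm]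
    calc d ^ r = d ^ r * (d * c) := by rw [hdc, mul_one]
      _ = (d ^ r * d) * c := by ring
      _ = c := by rw [this, one_mul]
  set S : Matrix (Fin r) (Fin r) F := ∑ j ∈ Finset.range (r + 1), d ^ j • A ^ j with hS
  have hAS : A * S = c • S := by
    rw [hS, Finset.mul_sum, Finset.smul_sum, Finset.sum_range_succ, Finset.sum_range_succ']
    congr 1
    · refine Finset.sum_congr rfl fun j _ => ?_
      rw [Matrix.mul_smul, ← pow_succ', smul_smul]
      congr 1
      rw [pow_succ]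
      calc d ^ j = d ^ j * (d * c) := by rw [hdc, mul_one]
        _ = c * (d ^ j * d) := by ring
    · rw [Matrix.mul_smul, ← pow_succ', hAm, hdr, pow_zero, pow_zero, one_smul]
  have hpow : ∀ (v : Fin r → F), A.mulVec v = c • v → ∀ j : ℕ, (A ^ j).mulVec v = c ^ j • v := by
    intro v hv j
    induction j with
    | zero => simp
    | succ j ih =>
      rw [pow_succ, ← Matrix.mulVec_mulVec, hv, Matrix.mulVec_smul, ih, smul_smul, pow_succ,
        mul_comm]
  have hSv : ∀ (v : Fin r → F), A.mulVec v = c • v → S.mulVec v = ((r + 1 : ℕ) : F) • v := by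
    intro v hv
    rw [hS, Matrix.sum_mulVec]
    have : ∀ j ∈ Finset.range (r + 1), (d ^ j • A ^ j).mulVec v = v := by
      intro j _
      rw [Matrix.smul_mulVec, hpow v hv j, smul_smul, ← mul_pow, hdc, one_pow, one_smul]
    rw [Finset.sum_congr rfl this, Finset.sum_const, Finset.card_range, Nat.cast_smul_eq_nsmul]
  set e : Matrix (Fin r) (Fin r) F := ((r + 1 : ℕ) : F)⁻¹ • S with he
  set W : Submodule F (Fin r → F) := LinearMap.ker (Matrix.toLin' (A - c • (1 : Matrix _ _ F)))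
    with hW
  have hmemW : ∀ v : Fin r → F, v ∈ W ↔ A.mulVec v = c • v := by
    intro v
    rw [hW, LinearMap.mem_ker, Matrix.toLin'_apply, Matrix.sub_mulVec, Matrix.smul_mulVec,
      Matrix.one_mulVec, sub_eq_zero]
  have hproj : LinearMap.IsProj W (Matrix.toLin' e) := by
    refine ⟨fun v => ?_, fun v hv => ?_⟩
    · rw [hmemW, Matrix.toLin'_apply, Matrix.mulVec_mulVec, he, Matrix.mul_smul, hAS,
        smul_comm, Matrix.smul_mulVec]
    · rw [hmemW] at hv
      rw [Matrix.toLin'_apply, he, Matrix.smul_mulVec, hSv v hv, smul_smul, inv_mul_cancel₀ hmF,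
        one_smul]
  have htrS : S.trace = ((r + 1 : ℕ) : F) := by
    rw [hS, Matrix.trace_sum, Finset.sum_range_succ']
    have h1 : ∀ j ∈ Finset.range r, (d ^ (j + 1) • A ^ (j + 1)).trace = - d ^ (j + 1) := by
      intro j hj
      rw [Matrix.trace_smul, htr (j + 1) (Nat.succ_pos j)
        (Nat.succ_lt_succ (Finset.mem_range.mp hj)), smul_eq_mul, mul_neg, mul_one]
    rw [Finset.sum_congr rfl h1, Finset.sum_neg_distrib, pow_zero, pow_zero, one_smul,
      Matrix.trace_one, Fintype.card_fin]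
    rw [Finset.sum_range_succ', pow_zero] at hgeo
    have h2 : ∑ j ∈ Finset.range r, d ^ (j + 1) = -1 := by linear_combination hgeo
    rw [h2]
    push_cast
    ring
  have htre : e.trace = 1 := by
    rw [he, Matrix.trace_smul, htrS, smul_eq_mul, inv_mul_cancel₀ hmF]
  have hfin : (finrank F W : F) = 1 := by
    rw [← hproj.trace, Matrix.trace_toLin'_eq, htre]
  have hle : finrank F W ≤ r := by
    have := Submodule.finrank_le W
    simpa using this
  have hone : finrank F W = 1 := hchar _ hle hfin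
  obtain ⟨v₀, hv₀, hspan⟩ := finrank_eq_one_iff'.mp hone
  obtain ⟨a, ha⟩ := hspan ⟨x, (hmemW x).mpr hx⟩
  obtain ⟨b, hb⟩ := hspan ⟨y, (hmemW y).mpr hy⟩
  have hxa : x = a • (v₀ : Fin r → F) := by
    have := congrArg Subtype.val ha
    simpa using this.symm
  have hyb : y = b • (v₀ : Fin r → F) := by
    have := congrArg Subtype.val hb
    simpa using this.symm
  by_cases hab : a = 0 ∧ b = 0
  · refine ⟨1, 0, Or.inl one_ne_zero, ?_⟩
    rw [hxa, hab.1]
    simp
  · refine ⟨b, -a, ?_, ?_⟩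
    · by_contra h
      rw [not_or, not_not, not_not] at h
      exact hab ⟨neg_eq_zero.mp h.2, h.1⟩
    · rw [hxa, hyb, smul_smul, smul_smul]
      rw [← add_smul]
      have : b * a + -a * b = 0 := by ring
      rw [this, zero_smul]


section general

variable (K : Type*) [Field K] [NumberField K]

/-- Exponent vector of a unit with respect to the fundamental system. -/
noncomputable def umExp (x : (𝓞 K)ˣ) : Fin (rank K) → ℤ :=
  (Classical.choose (exist_unique_eq_mul_prod K x).exists).2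

theorem umExp_spec (x : (𝓞 K)ˣ) :
    ∃ t ∈ torsion K, x = t * ∏ i, fundSystem K i ^ umExp K x i :=
  ⟨(Classical.choose (exist_unique_eq_mul_prod K x).exists).1, SetLike.coe_mem _,
    Classical.choose_spec (exist_unique_eq_mul_prod K x).exists⟩

theorem umExp_unique (x t : (𝓞 K)ˣ) (ht : t ∈ torsion K) (e : Fin (rank K) → ℤ)
    (h : x = t * ∏ i, fundSystem K i ^ e i) : umExp K x = e := by
  have h1 := Classical.choose_spec (exist_unique_eq_mul_prod K x).exists
  have h2 := (exist_unique_eq_mul_prod K x).unique h1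
    (show x = ((⟨t, ht⟩ : torsion K), e).1 * ∏ i, fundSystem K i ^ ((⟨t, ht⟩ : torsion K), e).2 i
      from h)
  exact congrArg Prod.snd h2

theorem umExp_mul (x y : (𝓞 K)ˣ) : umExp K (x * y) = umExp K x + umExp K y := by
  obtain ⟨t, ht, hx⟩ := umExp_spec K x
  obtain ⟨s, hs, hy⟩ := umExp_spec K y
  refine umExp_unique K (x * y) (t * s) (Subgroup.mul_mem _ ht hs) _ ?_
  conv_lhs => rw [hx, hy]
  simp only [Pi.add_apply, zpow_add, Finset.prod_mul_distrib]
  rw [mul_mul_mul_comm]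

theorem umExp_of_mem_torsion {t : (𝓞 K)ˣ} (ht : t ∈ torsion K) : umExp K t = 0 :=
  umExp_unique K t t ht 0 (by simp)

theorem umExp_one : umExp K 1 = 0 := umExp_of_mem_torsion K (Subgroup.one_mem _)

/-- The exponent vector as a monoid homomorphism. -/
noncomputable def umExpHom : (𝓞 K)ˣ →* Multiplicative (Fin (rank K) → ℤ) :=
  MonoidHom.mk' (fun x => Multiplicative.ofAdd (umExp K x)) fun x y => by
    rw [umExp_mul, ofAdd_add]

theorem umExp_zpow (x : (𝓞 K)ˣ) (n : ℤ) : umExp K (x ^ n) = n • umExp K x := by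
  have := map_zpow (umExpHom K) x n
  simpa [umExpHom] using congrArg Multiplicative.toAdd this

theorem umExp_pow (x : (𝓞 K)ˣ) (n : ℕ) : umExp K (x ^ n) = n • umExp K x := by
  have := map_pow (umExpHom K) x n
  simpa [umExpHom] using congrArg Multiplicative.toAdd this

theorem umExp_inv (x : (𝓞 K)ˣ) : umExp K x⁻¹ = - umExp K x := by
  have := map_inv (umExpHom K) x
  simpa [umExpHom] using congrArg Multiplicative.toAdd this

theorem umExp_prod {ι : Type*} (s : Finset ι) (f : ι → (𝓞 K)ˣ) :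
    umExp K (∏ i ∈ s, f i) = ∑ i ∈ s, umExp K (f i) := by
  classical
  induction s using Finset.induction_on with
  | empty => simpa using umExp_one K
  | insert a s ha ih => rw [Finset.prod_insert ha, Finset.sum_insert ha, umExp_mul, ih]

theorem umExp_prod_fundSystem (e : Fin (rank K) → ℤ) :
    umExp K (∏ i, fundSystem K i ^ e i) = e :=
  umExp_unique K _ 1 (Subgroup.one_mem _) e (by simp)

theorem umExp_fundSystem (i : Fin (rank K)) : umExp K (fundSystem K i) = Pi.single i 1 := by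
  classical
  refine umExp_unique K _ 1 (Subgroup.one_mem _) _ ?_
  rw [one_mul, Finset.prod_eq_single i]
  · simp
  · intro j _ hj
    simp [hj]
  · intro h
    exact absurd (Finset.mem_univ i) h

theorem umExp_eq_zero_iff (x : (𝓞 K)ˣ) : umExp K x = 0 ↔ x ∈ torsion K := by
  refine ⟨fun h => ?_, fun h => umExp_of_mem_torsion K h⟩
  obtain ⟨t, ht, hx⟩ := umExp_spec K x
  rw [h] at hx
  simp only [Pi.zero_apply, zpow_zero, Finset.prod_const_one, mul_one] at hx
  rw [hx]
  exact ht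

/-- If two units have the same exponent vector they differ by a root of unity. -/
theorem um_eq_torsion_mul (x y : (𝓞 K)ˣ) (h : umExp K x = umExp K y) :
    ∃ t ∈ torsion K, x = t * y := by
  refine ⟨x * y⁻¹, ?_, by simp⟩
  rw [← umExp_eq_zero_iff, umExp_mul, umExp_inv, h, add_neg_cancel]

/-- The action of an automorphism on units. -/
noncomputable def umMap (σ : K ≃ₐ[ℚ] K) : (𝓞 K)ˣ →* (𝓞 K)ˣ :=
  Units.map ((RingOfIntegers.mapRingEquiv σ.toRingEquiv : 𝓞 K ≃+* 𝓞 K) : 𝓞 K →* 𝓞 K)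

theorem coe_umMap (σ : K ≃ₐ[ℚ] K) (x : (𝓞 K)ˣ) :
    (((umMap K σ x : (𝓞 K)ˣ) : 𝓞 K) : K) = σ ((x : 𝓞 K) : K) := rfl

theorem umMap_mul_apply (σ τ : K ≃ₐ[ℚ] K) (x : (𝓞 K)ˣ) :
    umMap K (σ * τ) x = umMap K σ (umMap K τ x) := by
  ext
  rfl

theorem umMap_one_apply (x : (𝓞 K)ˣ) : umMap K 1 x = x := by
  ext
  rfl

theorem umMap_mem_torsion (σ : K ≃ₐ[ℚ] K) {x : (𝓞 K)ˣ} (hx : x ∈ torsion K) :
    umMap K σ x ∈ torsion K := by
  rw [torsion, CommGroup.mem_torsion] at hx ⊢
  exact (umMap K σ).isOfFinOrder hx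

/-- The integer matrix of an automorphism acting on units modulo torsion. -/
noncomputable def umMat (σ : K ≃ₐ[ℚ] K) : Matrix (Fin (rank K)) (Fin (rank K)) ℤ :=
  Matrix.of fun j i => umExp K (umMap K σ (fundSystem K i)) j

theorem umExp_umMap (σ : K ≃ₐ[ℚ] K) (x : (𝓞 K)ˣ) :
    umExp K (umMap K σ x) = (umMat K σ).mulVec (umExp K x) := by
  obtain ⟨t, ht, hx⟩ := umExp_spec K x
  conv_lhs => rw [hx]
  rw [map_mul, umExp_mul, umExp_of_mem_torsion K (umMap_mem_torsion K σ ht), zero_add,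
    map_prod, umExp_prod]
  ext j
  simp only [map_zpow, umExp_zpow, Finset.sum_apply, Pi.smul_apply, smul_eq_mul, Matrix.mulVec,
    dotProduct, umMat, Matrix.of_apply]
  exact Finset.sum_congr rfl fun i _ => mul_comm _ _

theorem umMat_mul (σ τ : K ≃ₐ[ℚ] K) : umMat K (σ * τ) = umMat K σ * umMat K τ := by
  ext j i
  have h := congrFun (umExp_umMap K σ (umMap K τ (fundSystem K i))) j
  rw [← umMap_mul_apply] at h
  simp only [umMat, Matrix.of_apply, Matrix.mul_apply]
  rw [h]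
  rfl

theorem umMat_one : umMat K 1 = 1 := by
  ext j i
  simp only [umMat, Matrix.of_apply, umMap_one_apply, umExp_fundSystem, Matrix.one_apply,
    Pi.single_apply]

theorem umMat_pow (σ : K ≃ₐ[ℚ] K) (n : ℕ) : umMat K (σ ^ n) = umMat K σ ^ n := by
  induction n with
  | zero => simp [umMat_one]
  | succ n ih => rw [pow_succ, umMat_mul, ih, pow_succ]


/-- The trace of a permutation operator is the number of fixed points. -/
theorem um_trace_funLeft {Q : Type*} [Fintype Q] (π : Q → Q) :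
    LinearMap.trace ℝ (Q → ℝ) (LinearMap.funLeft ℝ ℝ π) = (Nat.card {q : Q // π q = q} : ℝ) := by
  classical
  rw [Nat.card_eq_fintype_card, Fintype.card_subtype,
    LinearMap.trace_eq_matrix_trace ℝ (Pi.basisFun ℝ Q), Matrix.trace]
  simp only [Matrix.diag, LinearMap.toMatrix_apply, Pi.basisFun_apply, Pi.basisFun_repr,
    LinearMap.funLeft_apply, Pi.single_apply]
  rw [Finset.card_filter]
  push_cast
  refine Finset.sum_congr rfl fun q _ => ?_
  by_cases h : π q = q <;> simp [h]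

/-- The full logarithmic embedding (all infinite places). -/
noncomputable def umLog (x : (𝓞 K)ˣ) : InfinitePlace K → ℝ :=
  fun w => mult w * Real.log (w ((x : 𝓞 K) : K))

theorem umLog_mul (x y : (𝓞 K)ˣ) : umLog K (x * y) = umLog K x + umLog K y := by
  ext w
  have hx : w ((x : 𝓞 K) : K) ≠ 0 := (pos_at_place x w).ne'
  have hy : w ((y : 𝓞 K) : K) ≠ 0 := (pos_at_place y w).ne'
  simp only [umLog, Pi.add_apply, Units.val_mul, map_mul]
  rw [Real.log_mul hx hy, mul_add]

theorem umLog_of_mem_torsion {t : (𝓞 K)ˣ} (ht : t ∈ torsion K) : umLog K t = 0 := by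
  ext w
  simp only [umLog, Pi.zero_apply]
  rw [(mem_torsion K).mp ht w, Real.log_one, mul_zero]

/-- The logarithmic embedding as a monoid homomorphism. -/
noncomputable def umLogHom : (𝓞 K)ˣ →* Multiplicative (InfinitePlace K → ℝ) :=
  MonoidHom.mk' (fun x => Multiplicative.ofAdd (umLog K x)) fun x y => by
    rw [umLog_mul, ofAdd_add]

theorem umLog_zpow (x : (𝓞 K)ˣ) (n : ℤ) : umLog K (x ^ n) = n • umLog K x := by
  have := map_zpow (umLogHom K) x n
  simpa [umLogHom] using congrArg Multiplicative.toAdd this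

theorem umLog_prod {ι : Type*} (s : Finset ι) (f : ι → (𝓞 K)ˣ) :
    umLog K (∏ i ∈ s, f i) = ∑ i ∈ s, umLog K (f i) := by
  classical
  induction s using Finset.induction_on with
  | empty => simpa using umLog_of_mem_torsion K (Subgroup.one_mem _)
  | insert a s ha ih => rw [Finset.prod_insert ha, Finset.sum_insert ha, umLog_mul, ih]

theorem umLog_eq_sum (x : (𝓞 K)ˣ) :
    umLog K x = ∑ i, (umExp K x i : ℝ) • umLog K (fundSystem K i) := by
  obtain ⟨t, ht, hx⟩ := umExp_spec K x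
  conv_lhs => rw [hx]
  rw [umLog_mul, umLog_of_mem_torsion K ht, zero_add, umLog_prod]
  refine Finset.sum_congr rfl fun i _ => ?_
  rw [umLog_zpow, Int.cast_smul_eq_zsmul]

theorem sum_umLog (x : (𝓞 K)ˣ) : ∑ w, umLog K x w = 0 := sum_mult_mul_log x

theorem umLog_umMap (σ : K ≃ₐ[ℚ] K) (x : (𝓞 K)ˣ) (w : InfinitePlace K) :
    umLog K (umMap K σ x) w = umLog K x (w.comap (σ.toRingEquiv : K →+* K)) := by
  have hm : mult (w.comap (σ.toRingEquiv : K →+* K)) = mult w := by
    have h := isReal_comap_iff (f := σ.toRingEquiv) (w := w)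
    unfold mult
    by_cases hw : w.IsReal
    · rw [if_pos hw, if_pos (h.mpr hw)]
    · rw [if_neg hw, if_neg (fun h' => hw (h.mp h'))]
  simp only [umLog, hm, comap_apply]
  rfl

theorem um_linearIndependent :
    LinearIndependent ℝ (fun o : Option (Fin (rank K)) =>
      (o.elim (1 : InfinitePlace K → ℝ) (fun i => umLog K (fundSystem K i)))) := by
  classical
  rw [Fintype.linearIndependent_iff]
  intro g hg
  rw [Fintype.sum_option] at hg
  simp only [Option.elim_none, Option.elim_some] at hg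
  have h0 : g none = 0 := by
    have h1 : ∑ w, (g none • (1 : InfinitePlace K → ℝ) +
        ∑ i, g (some i) • umLog K (fundSystem K i)) w = 0 := by
      rw [hg]
      simp
    have h2 : ∀ i, ∑ w, g (some i) * umLog K (fundSystem K i) w = 0 := fun i => by
      rw [← Finset.mul_sum, sum_umLog, mul_zero]
    simp only [Pi.add_apply, Pi.smul_apply, Pi.one_apply, smul_eq_mul, mul_one,
      Finset.sum_apply, Finset.sum_add_distrib, Finset.sum_const,
      Finset.card_univ, nsmul_eq_mul] at h1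
    rw [Finset.sum_comm, Finset.sum_congr rfl fun i _ => h2 i, Finset.sum_const_zero,
      add_zero] at h1
    have hc : (Fintype.card (InfinitePlace K) : ℝ) ≠ 0 :=
      Nat.cast_ne_zero.mpr Fintype.card_ne_zero
    exact (mul_eq_zero.mp h1).resolve_left hc
  rw [h0, zero_smul, zero_add] at hg
  have h3 : ∑ i, g (some i) • logEmbedding K (Additive.ofMul (fundSystem K i)) = 0 := by
    ext w
    have := congrFun hg w.1
    simpa [umLog, Finset.sum_apply] using this
  have h4 := Fintype.linearIndependent_iff.mp (isMaxRank_fundSystem K) (fun i => g (some i)) h3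
  intro o
  cases o with
  | none => exact h0
  | some i => exact h4 i

/-- **Trace formula**: the trace of an automorphism on the units modulo torsion is the number
of infinite places it fixes, minus one. -/
theorem um_trace_formula (σ : K ≃ₐ[ℚ] K) :
    (((umMat K σ).trace : ℤ) : ℝ) + 1 =
      (Nat.card {w : InfinitePlace K // w.comap (σ.toRingEquiv : K →+* K) = w} : ℝ) := by
  classical
  have hcard : Fintype.card (Option (Fin (rank K))) = finrank ℝ (InfinitePlace K → ℝ) := by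
    have h1 : 0 < Fintype.card (InfinitePlace K) := Fintype.card_pos
    rw [Fintype.card_option, Fintype.card_fin, Module.finrank_fintype_fun_eq_card, rank]
    omega
  let 𝔅 := basisOfLinearIndependentOfCardEqFinrank (um_linearIndependent K) hcard
  have h𝔅 : ∀ o, 𝔅 o = o.elim (1 : InfinitePlace K → ℝ) (fun i => umLog K (fundSystem K i)) :=
    fun o => by simp [𝔅]
  let P : (InfinitePlace K → ℝ) →ₗ[ℝ] (InfinitePlace K → ℝ) :=
    LinearMap.funLeft ℝ ℝ (fun w : InfinitePlace K => w.comap (σ.toRingEquiv : K →+* K))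
  have hPnone : P (𝔅 none) = 𝔅 none := by
    rw [h𝔅]
    rfl
  have hPsome : ∀ i, P (𝔅 (some i)) = ∑ j, ((umMat K σ j i : ℤ) : ℝ) • 𝔅 (some j) := by
    intro i
    have h1 : P (𝔅 (some i)) = umLog K (umMap K σ (fundSystem K i)) := by
      rw [h𝔅]
      ext w
      exact (umLog_umMap K σ (fundSystem K i) w).symm
    rw [h1, umLog_eq_sum]
    refine Finset.sum_congr rfl fun j _ => ?_
    rw [h𝔅]
    rfl
  have hdiag_none : (LinearMap.toMatrix 𝔅 𝔅 P) none none = 1 := by
    rw [LinearMap.toMatrix_apply, hPnone, Basis.repr_self, Finsupp.single_eq_same]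
  have hdiag_some : ∀ i, (LinearMap.toMatrix 𝔅 𝔅 P) (some i) (some i) =
      ((umMat K σ i i : ℤ) : ℝ) := by
    intro i
    rw [LinearMap.toMatrix_apply, hPsome, map_sum]
    simp [Finsupp.single_apply]
  have htr : (LinearMap.toMatrix 𝔅 𝔅 P).trace = 1 + ∑ i, ((umMat K σ i i : ℤ) : ℝ) := by
    rw [Matrix.trace, Fintype.sum_option]
    simp only [Matrix.diag_apply, hdiag_none, hdiag_some]
  have hl : (((umMat K σ).trace : ℤ) : ℝ) = ∑ i, ((umMat K σ i i : ℤ) : ℝ) := by
    rw [Matrix.trace, Int.cast_sum]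
    rfl
  rw [hl, ← um_trace_funLeft, LinearMap.trace_eq_matrix_trace ℝ 𝔅]
  change _ = (LinearMap.toMatrix 𝔅 𝔅 P).trace
  rw [htr, add_comm]


/-- An automorphism fixing all infinite places acts trivially on units modulo torsion. -/
theorem umMat_eq_one_of_fix (σ : K ≃ₐ[ℚ] K)
    (h : ∀ w : InfinitePlace K, w.comap (σ.toRingEquiv : K →+* K) = w) : umMat K σ = 1 := by
  rw [← umMat_one]
  ext j i
  simp only [umMat, Matrix.of_apply, umMap_one_apply]
  have ht : umMap K σ (fundSystem K i) * (fundSystem K i)⁻¹ ∈ torsion K := by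
    rw [mem_torsion K]
    intro w
    have h1 : w (((umMap K σ (fundSystem K i) : (𝓞 K)ˣ) : 𝓞 K) : K) =
        w (((fundSystem K i : (𝓞 K)ˣ) : 𝓞 K) : K) := by
      rw [coe_umMap]
      have := congrArg (fun v : InfinitePlace K => v (((fundSystem K i : (𝓞 K)ˣ) : 𝓞 K) : K))
        (h w)
      simpa using this
    have h2 : (((umMap K σ (fundSystem K i) * (fundSystem K i)⁻¹ : (𝓞 K)ˣ) : 𝓞 K) : K) =
        (((umMap K σ (fundSystem K i) : (𝓞 K)ˣ) : 𝓞 K) : K) *
          ((((fundSystem K i : (𝓞 K)ˣ) : 𝓞 K) : K))⁻¹ := by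
      have h3 := NumberField.Units.coe_zpow (fundSystem K i) (-1)
      rw [zpow_neg_one, zpow_neg_one] at h3
      rw [← h3]
      rfl
    change w ((((umMap K σ (fundSystem K i) * (fundSystem K i)⁻¹ : (𝓞 K)ˣ) : 𝓞 K) : K)) = 1
    rw [h2, map_mul, map_inv₀, h1]
    exact mul_inv_cancel₀ (pos_at_place _ w).ne'
  have h4 : umExp K (umMap K σ (fundSystem K i) * (fundSystem K i)⁻¹) = 0 :=
    umExp_of_mem_torsion K ht
  rw [umExp_mul, umExp_inv] at h4
  have h5 := congrFun h4 j
  simp only [Pi.add_apply, Pi.neg_apply, Pi.zero_apply] at h5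
  linarith

end general

section cyclo

variable {p : ℕ} [Fact p.Prime] {K : Type*} [Field K] [NumberField K]
  [IsCyclotomicExtension {p} ℚ K] {ζ : K}

/-- The unit rank of the `p`-th cyclotomic field is `(p - 3) / 2`, stated without subtraction. -/
theorem um_rank_add_one (hp2 : p ≠ 2) : rank K + 1 = (p - 1) / 2 := by
  have hp := (Fact.out : p.Prime)
  have h2 : 2 < p := lt_of_le_of_ne hp.two_le (Ne.symm hp2)
  have hreal := IsCyclotomicExtension.Rat.nrRealPlaces_eq_zero (n := p) K h2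
  have hcomplex := IsCyclotomicExtension.Rat.nrComplexPlaces_eq_totient_div_two p K
  have hcard := NumberField.InfinitePlace.card_eq_nrRealPlaces_add_nrComplexPlaces (K := K)
  rw [Nat.totient_prime hp] at hcomplex
  have h3 : 1 ≤ (p - 1) / 2 := by omega
  rw [NumberField.Units.rank, hcard, hreal, hcomplex]
  omega

/-- Embeddings of the cyclotomic field are determined by the image of `ζ`. -/
theorem um_ringHom_ext (hζ : IsPrimitiveRoot ζ p) (f g : K →+* ℂ) (h : f ζ = g ζ) : f = g := by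
  have : NeZero p := ⟨(Fact.out : p.Prime).ne_zero⟩
  have h1 := (hζ.powerBasis ℚ).algHom_ext (f := f.toRatAlgHom) (g := g.toRatAlgHom)
    (by simpa using h)
  ext x
  exact DFunLike.congr_fun h1 x

/-- An automorphism fixes an infinite place iff it is the identity or complex conjugation. -/
theorem um_fix_iff (hζ : IsPrimitiveRoot ζ p) (σ : K ≃ₐ[ℚ] K) (w : InfinitePlace K) :
    w.comap (σ.toRingEquiv : K →+* K) = w ↔ σ ζ = ζ ∨ σ ζ = ζ⁻¹ := by
  have hp0 : p ≠ 0 := (Fact.out : p.Prime).ne_zero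
  obtain ⟨φ, rfl⟩ : ∃ φ : K →+* ℂ, InfinitePlace.mk φ = w := ⟨w.embedding, mk_embedding w⟩
  have hnorm : ‖φ ζ‖ = 1 :=
    Complex.norm_eq_one_of_pow_eq_one (by rw [← map_pow, hζ.pow_eq_one, map_one]) hp0
  have hconj : (starRingEnd ℂ) (φ ζ) = φ ζ⁻¹ := by
    rw [map_inv₀, Complex.inv_eq_conj hnorm]
  rw [comap_mk, mk_eq_iff]
  constructor
  · rintro (h | h)
    · left
      have h1 := DFunLike.congr_fun h ζ
      exact φ.injective (by simpa using h1)
    · right
      have h1 := DFunLike.congr_fun h ζ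
      have h2 : (starRingEnd ℂ) (φ (σ ζ)) = φ ζ := by
        simpa [ComplexEmbedding.conjugate_coe_eq] using h1
      apply φ.injective
      rw [← hconj, ← h2, Complex.conj_conj]
  · rintro (h | h)
    · left
      exact (um_ringHom_ext hζ _ _ (by simp [h])).symm
    · right
      refine um_ringHom_ext hζ _ _ ?_
      simp only [ComplexEmbedding.conjugate_coe_eq, RingHom.comp_apply]
      have h1 : ((σ.toRingEquiv : K →+* K)) ζ = ζ⁻¹ := h
      rw [h1, ← hconj, Complex.conj_conj]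

/-- Automorphisms of the cyclotomic field with prescribed exponent. -/
theorem um_exists_aut (hζ : IsPrimitiveRoot ζ p) (t : (ZMod p)ˣ) :
    ∃ σ : K ≃ₐ[ℚ] K, σ ζ = ζ ^ (t : ZMod p).val := by
  have : NeZero p := ⟨(Fact.out : p.Prime).ne_zero⟩
  have hirr : Irreducible (Polynomial.cyclotomic p ℚ) :=
    Polynomial.cyclotomic.irreducible_rat (Fact.out : p.Prime).pos
  let σ := (IsCyclotomicExtension.autEquivPow K hirr).symm t
  have hσ : IsCyclotomicExtension.autEquivPow K hirr σ = t := MulEquiv.apply_symm_apply _ _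
  refine ⟨σ, ?_⟩
  have hz := IsCyclotomicExtension.zeta_spec p ℚ K
  have h1 := hz.autToPow_spec ℚ σ
  have h2 : hz.autToPow ℚ σ = t := hσ
  obtain ⟨k, -, hk⟩ := hz.eq_pow_of_pow_eq_one hζ.pow_eq_one
  rw [← hk, map_pow, ← h1, h2, ← pow_mul, ← pow_mul, mul_comm]

/-- Multiplicity one of `ω²` in `E / E^p` (universe polymorphic version of `u2`). -/
theorem um_main (hp : 5 ≤ p) (hζ : IsPrimitiveRoot ζ p) (η₁ η₂ : (𝓞 K)ˣ)
    (h₁ : ∀ (σ : K ≃ₐ[ℚ] K) (a : ℕ), σ ζ = ζ ^ a →
      ∃ δ : (𝓞 K)ˣ, σ ((η₁ : 𝓞 K) : K) = ((η₁ : 𝓞 K) : K) ^ (a ^ 2) * ((δ : 𝓞 K) : K) ^ p)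
    (h₂ : ∀ (σ : K ≃ₐ[ℚ] K) (a : ℕ), σ ζ = ζ ^ a →
      ∃ δ : (𝓞 K)ˣ, σ ((η₂ : 𝓞 K) : K) = ((η₂ : 𝓞 K) : K) ^ (a ^ 2) * ((δ : 𝓞 K) : K) ^ p) :
    ∃ (i j : ℕ) (ε : (𝓞 K)ˣ), ¬ (p ∣ i ∧ p ∣ j) ∧ η₁ ^ i * η₂ ^ j = ε ^ p := by
  classical
  have hpp : p.Prime := Fact.out
  have : NeZero p := ⟨hpp.ne_zero⟩
  have hodd : Odd p := hpp.odd_of_ne_two (by omega)
  -- a primitive root modulo `p`
  obtain ⟨g₀, hg₀⟩ := IsCyclic.exists_generator (α := (ZMod p)ˣ)
  have hord : orderOf g₀ = p - 1 := by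
    rw [orderOf_eq_card_of_forall_mem_zpowers hg₀, Nat.card_eq_fintype_card, ZMod.card_units_eq_totient,
      Nat.totient_prime hpp]
  set g : ℕ := (g₀ : ZMod p).val with hg
  have hgcast : ((g : ℕ) : ZMod p) = (g₀ : ZMod p) := by
    rw [hg, ZMod.natCast_val, ZMod.cast_id', id]
  obtain ⟨σ, hσ⟩ := um_exists_aut hζ g₀
  set m : ℕ := (p - 1) / 2 with hm
  have hm2 : 2 * m = p - 1 := by
    obtain ⟨k, hk⟩ := hodd
    omega
  have hσpow : ∀ j : ℕ, (σ ^ j) ζ = ζ ^ (g ^ j) := by
    intro j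
    induction j with
    | zero => simp
    | succ j ih => rw [pow_succ, AlgEquiv.mul_apply, hσ, map_pow, ih, ← pow_mul, pow_succ]
  have hg₀pow : ∀ j : ℕ, ((g ^ j : ℕ) : ZMod p) = ((g₀ ^ j : (ZMod p)ˣ) : ZMod p) := by
    intro j
    push_cast
    rw [hgcast]
  have hζ0 : ζ ≠ 0 := hζ.ne_zero hpp.ne_zero
  -- no fixed places for `0 < j < m`
  have hfix_none : ∀ j, 0 < j → j < m → ∀ w : InfinitePlace K,
      w.comap ((σ ^ j).toRingEquiv : K →+* K) ≠ w := by
    intro j hj0 hjm w hw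
    rw [um_fix_iff hζ, hσpow] at hw
    rcases hw with h | h
    · have h1 : ζ ^ (((g ^ j : ℕ) : ℤ) - 1) = 1 := by
        rw [zpow_sub₀ hζ0, zpow_one, zpow_natCast, h, div_self hζ0]
      have h1' : (p : ℤ) ∣ ((g ^ j : ℕ) : ℤ) - 1 := (hζ.zpow_eq_one_iff_dvd _).mp h1
      have h2 : g₀ ^ j = 1 := by
        apply Units.ext
        rw [← hg₀pow, Units.val_one]
        have h0 := (ZMod.intCast_zmod_eq_zero_iff_dvd _ p).mpr h1'
        push_cast at h0
        push_cast
        exact sub_eq_zero.mp h0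
      have h3 := orderOf_dvd_of_pow_eq_one h2
      rw [hord] at h3
      have h4 := Nat.le_of_dvd hj0 h3
      omega
    · have h1 : ζ ^ (g ^ j + 1) = 1 := by
        rw [pow_succ, h, inv_mul_cancel₀ hζ0]
      have h2 : p ∣ g ^ j + 1 := (hζ.pow_eq_one_iff_dvd _).mp h1
      have h3 : ((g₀ ^ j : (ZMod p)ˣ) : ZMod p) = -1 := by
        rw [← hg₀pow]
        have h0 := (ZMod.natCast_eq_zero_iff (g ^ j + 1) p).mpr h2
        push_cast at h0
        push_cast
        exact eq_neg_of_add_eq_zero_left h0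
      have h4 : g₀ ^ (2 * j) = 1 := by
        apply Units.ext
        rw [mul_comm, pow_mul, Units.val_pow_eq_pow_val, h3]
        simp
      have h5 := orderOf_dvd_of_pow_eq_one h4
      rw [hord] at h5
      have h6 := Nat.le_of_dvd (by omega) h5
      omega
  -- all places fixed by `σ ^ m`
  have hfix_all : ∀ w : InfinitePlace K, w.comap ((σ ^ m).toRingEquiv : K →+* K) = w := by
    intro w
    rw [um_fix_iff hζ, hσpow]
    right
    have h1 : (g₀ ^ m) ^ 2 = 1 := by
      rw [← pow_mul, mul_comm, hm2, ← hord, pow_orderOf_eq_one]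
    have h2 : g₀ ^ m ≠ 1 := by
      intro h
      have h0 := orderOf_dvd_of_pow_eq_one h
      rw [hord] at h0
      have h00 := Nat.le_of_dvd (by omega) h0
      omega
    have h3 : ((g₀ ^ m : (ZMod p)ˣ) : ZMod p) = -1 := by
      have h4 : ((g₀ ^ m : (ZMod p)ˣ) : ZMod p) ^ 2 = 1 ^ 2 := by
        rw [← Units.val_pow_eq_pow_val, h1, Units.val_one, one_pow]
      rcases eq_or_eq_neg_of_sq_eq_sq _ _ h4 with h5 | h5
      · exact absurd (Units.ext (by simpa using h5)) h2
      · exact h5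
    have h6 : p ∣ g ^ m + 1 := by
      rw [← ZMod.natCast_eq_zero_iff]
      push_cast
      rw [hgcast, ← Units.val_pow_eq_pow_val, h3]
      ring
    have h7 : ζ ^ (g ^ m + 1) = 1 := (hζ.pow_eq_one_iff_dvd _).mpr h6
    rw [pow_succ] at h7
    exact eq_inv_of_mul_eq_one_left h7
  -- the integer matrix of `σ`
  set G := umMat K σ with hG
  have hGm : G ^ m = 1 := by
    rw [hG, ← umMat_pow]
    exact umMat_eq_one_of_fix K _ hfix_all
  have hGtr : ∀ j, 0 < j → j < m → (G ^ j).trace = -1 := by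
    intro j hj0 hjm
    have h := um_trace_formula K (σ ^ j)
    rw [hG, ← umMat_pow]
    have hcard : Nat.card {w : InfinitePlace K //
        w.comap ((σ ^ j).toRingEquiv : K →+* K) = w} = 0 := by
      rw [Nat.card_eq_zero]
      left
      exact ⟨fun ⟨w, hw⟩ => hfix_none j hj0 hjm w hw⟩
    rw [hcard] at h
    have h' : (((umMat K (σ ^ j)).trace : ℤ) : ℝ) = ((-1 : ℤ) : ℝ) := by
      push_cast
      push_cast at h
      linarith
    exact_mod_cast h'
  -- reduction modulo `p`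
  set A : Matrix (Fin (rank K)) (Fin (rank K)) (ZMod p) :=
    (Int.castRingHom (ZMod p)).mapMatrix G with hA
  have hAm : A ^ m = 1 := by rw [hA, ← map_pow, hGm, map_one]
  have hAtr : ∀ j, 0 < j → j < m → (A ^ j).trace = -1 := by
    intro j hj0 hjm
    rw [hA, ← map_pow]
    have h1 : ((Int.castRingHom (ZMod p)).mapMatrix (G ^ j)).trace =
        (((G ^ j).trace : ℤ) : ZMod p) := by
      simp [Matrix.trace, RingHom.mapMatrix_apply]
    rw [h1, hGtr j hj0 hjm]
    simp
  set c : ZMod p := (g₀ : ZMod p) ^ 2 with hc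
  have hcm : c ^ m = 1 := by
    rw [hc, ← pow_mul, hm2]
    exact ZMod.pow_card_sub_one_eq_one (Units.ne_zero g₀)
  have hc1 : c ≠ 1 := by
    intro h
    have h2 : g₀ ^ 2 = 1 := Units.ext (by rw [Units.val_pow_eq_pow_val]; exact h)
    have h3 := orderOf_dvd_of_pow_eq_one h2
    rw [hord] at h3
    have h4 := Nat.le_of_dvd (by norm_num) h3
    omega
  have hmF : ((m : ℕ) : ZMod p) ≠ 0 := by
    rw [Ne, ZMod.natCast_eq_zero_iff]
    intro h
    have h4 := Nat.le_of_dvd (by omega) h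
    omega
  have hr : rank K + 1 = m := um_rank_add_one (by omega)
  have hchar : ∀ d : ℕ, d ≤ rank K → ((d : ℕ) : ZMod p) = 1 → d = 1 := by
    intro d hd h
    have h1 : ((d : ℕ) : ZMod p) = ((1 : ℕ) : ZMod p) := by simpa using h
    rw [ZMod.natCast_eq_natCast_iff] at h1
    exact Nat.ModEq.eq_of_lt_of_lt h1 (by omega) (by omega)
  -- the eigen-relations as identities between units
  have key : ∀ η : (𝓞 K)ˣ, (∀ (τ : K ≃ₐ[ℚ] K) (a : ℕ), τ ζ = ζ ^ a →
      ∃ δ : (𝓞 K)ˣ, τ ((η : 𝓞 K) : K) = ((η : 𝓞 K) : K) ^ (a ^ 2) * ((δ : 𝓞 K) : K) ^ p) →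
      ∃ δ : (𝓞 K)ˣ, umMap K σ η = η ^ (g ^ 2) * δ ^ p := by
    intro η h
    obtain ⟨δ, hδ⟩ := h σ g hσ
    refine ⟨δ, ?_⟩
    apply NumberField.Units.coe_injective K
    change σ ((η : 𝓞 K) : K) = (((η ^ (g ^ 2) * δ ^ p : (𝓞 K)ˣ) : 𝓞 K) : K)
    rw [hδ]
    simp
  have eig : ∀ (η δ : (𝓞 K)ˣ), umMap K σ η = η ^ (g ^ 2) * δ ^ p →
      A.mulVec (fun i => ((umExp K η i : ℤ) : ZMod p)) =
        c • (fun i => ((umExp K η i : ℤ) : ZMod p)) := by
    intro η δ h
    have h1 := umExp_umMap K σ η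
    rw [h, umExp_mul, umExp_pow, umExp_pow] at h1
    ext j
    have h2 : ((g ^ 2 : ℕ) : ℤ) * umExp K η j + (p : ℤ) * umExp K δ j =
        ∑ i, umMat K σ j i * umExp K η i := by
      have h0 := congrFun h1 j
      simp only [Pi.add_apply, Pi.smul_apply] at h0
      simp only [nsmul_eq_mul] at h0
      exact h0
    have h3 := congrArg (Int.cast : ℤ → ZMod p) h2
    push_cast at h3
    simp only [Matrix.mulVec, dotProduct, Pi.smul_apply, smul_eq_mul, hA, RingHom.mapMatrix_apply,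
      Matrix.map_apply, Int.coe_castRingHom]
    rw [← hG] at h3
    rw [← h3, hgcast, ZMod.natCast_self, zero_mul, add_zero, hc]
  obtain ⟨δ₁, hδ₁⟩ := key η₁ h₁
  obtain ⟨δ₂, hδ₂⟩ := key η₂ h₂
  obtain ⟨a, b, hab, hdep⟩ := um_eigen_dep A c hr hmF hchar hAm hAtr hcm hc1 _ _
    (eig η₁ δ₁ hδ₁) (eig η₂ δ₂ hδ₂)
  have hdiv : ∀ l, (p : ℤ) ∣ (a.val : ℤ) * umExp K η₁ l + (b.val : ℤ) * umExp K η₂ l := by
    intro l
    rw [← ZMod.intCast_zmod_eq_zero_iff_dvd]
    have h0 := congrFun hdep l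
    simp only [Pi.add_apply, Pi.smul_apply, smul_eq_mul, Pi.zero_apply] at h0
    push_cast
    simp only [ZMod.natCast_val, ZMod.cast_id', id]
    exact h0
  choose z hz using hdiv
  set θ : (𝓞 K)ˣ := η₁ ^ a.val * η₂ ^ b.val with hθ
  set ε₀ : (𝓞 K)ˣ := ∏ l, fundSystem K l ^ z l with hε₀
  have hexp : umExp K θ = umExp K (ε₀ ^ p) := by
    rw [hθ, umExp_mul, umExp_pow, umExp_pow, umExp_pow, hε₀, umExp_prod_fundSystem]
    ext l
    simp only [Pi.add_apply, Pi.smul_apply, nsmul_eq_mul]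
    exact hz l
  obtain ⟨t, ht, hθt⟩ := um_eq_torsion_mul K θ (ε₀ ^ p) hexp
  -- the root of unity `t` is a `p`-th power
  have htp : t ^ p = t := by
    set δ₃ : (𝓞 K)ˣ := δ₁ ^ a.val * δ₂ ^ b.val with hδ₃
    have hθσ : umMap K σ θ = θ ^ (g ^ 2) * δ₃ ^ p := by
      rw [hθ, hδ₃, map_mul, map_pow, map_pow, hδ₁, hδ₂]
      apply NumberField.Units.coe_injective K
      simp only [NumberField.Units.coe_mul, NumberField.Units.coe_pow]
      ring
    have h1 : umMap K σ t * (umMap K σ ε₀) ^ p = (t * ε₀ ^ p) ^ (g ^ 2) * δ₃ ^ p := by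
      rw [← map_pow, ← map_mul, ← hθt]
      exact hθσ
    have h2 := congrArg (fun u : (𝓞 K)ˣ => ((u : 𝓞 K) : K)) h1
    simp only [NumberField.Units.coe_mul, NumberField.Units.coe_pow] at h2
    -- elements of `K`
    set T : K := ((t : 𝓞 K) : K) with hT
    set E : K := ((ε₀ : 𝓞 K) : K) with hE
    set D : K := ((δ₃ : 𝓞 K) : K) with hD
    have hσT : (((umMap K σ t : (𝓞 K)ˣ) : 𝓞 K) : K) = σ T := coe_umMap K σ t
    have hσE : (((umMap K σ ε₀ : (𝓞 K)ˣ) : 𝓞 K) : K) = σ E := coe_umMap K σ ε₀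
    have h2' : σ T * σ E ^ p = (T * E ^ p) ^ (g ^ 2) * D ^ p := by
      rw [← hσT, ← hσE]
      exact h2
    have hT0 : T ≠ 0 := NumberField.Units.coe_ne_zero t
    have hE0 : E ≠ 0 := NumberField.Units.coe_ne_zero ε₀
    have hσE0 : σ E ≠ 0 := by
      rw [← hσE]
      exact NumberField.Units.coe_ne_zero _
    -- `T` is a root of unity
    have hTfin : IsOfFinOrder T := by
      rw [torsion, CommGroup.mem_torsion, isOfFinOrder_iff_pow_eq_one] at ht
      obtain ⟨n, hn, htn⟩ := ht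
      rw [isOfFinOrder_iff_pow_eq_one]
      refine ⟨n, hn, ?_⟩
      rw [hT, ← NumberField.Units.coe_pow, htn]
      rfl
    obtain ⟨k, hk, hTk⟩ := hζ.exists_pow_or_neg_mul_pow_of_isOfFinOrder hodd hTfin
    have hT2 : T ^ 2 = ζ ^ (2 * k) := by
      rcases hTk with h | h
      · rw [h, ← pow_mul, mul_comm]
      · rw [h, neg_sq, ← pow_mul, mul_comm]
    have hT2p : T ^ (2 * p) = 1 := by
      rw [pow_mul, hT2, ← pow_mul, mul_comm, pow_mul, hζ.pow_eq_one, one_pow]
    -- the auxiliary root of unity `X`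
    set X : K := E ^ (g ^ 2) * D / σ E with hX
    have hXT : σ T = T ^ (g ^ 2) * X ^ p := by
      rw [hX, div_pow, mul_pow]
      field_simp
      rw [h2']
      ring
    have hXfin : IsOfFinOrder X := by
      rw [isOfFinOrder_iff_pow_eq_one]
      refine ⟨p * (2 * p), Nat.mul_pos hpp.pos (Nat.mul_pos (by norm_num) hpp.pos), ?_⟩
      have h3 : (T ^ (g ^ 2) * X ^ p) ^ (2 * p) = 1 := by
        rw [← hXT, ← map_pow, hT2p, map_one]
      rw [mul_pow, ← pow_mul, mul_comm (g ^ 2) (2 * p), pow_mul, hT2p, one_pow, one_mul,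
        ← pow_mul] at h3
      exact h3
    obtain ⟨l, -, hXl⟩ := hζ.exists_pow_or_neg_mul_pow_of_isOfFinOrder hodd hXfin
    have hXp2 : (X ^ p) ^ 2 = 1 := by
      have hl : (ζ ^ l) ^ p = 1 := by
        rw [← pow_mul, mul_comm, pow_mul, hζ.pow_eq_one, one_pow]
      rcases hXl with h | h
      · rw [h, hl, one_pow]
      · rw [h, hodd.neg_pow, hl, neg_sq, one_pow]
    -- compare exponents
    have h4 : ζ ^ (g * (2 * k)) = ζ ^ (2 * k * g ^ 2) := by
      have h5 : (σ T) ^ 2 = (T ^ 2) ^ (g ^ 2) := by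
        rw [hXT, mul_pow, hXp2, mul_one, ← pow_mul, ← pow_mul, mul_comm]
      rw [← map_pow, hT2, map_pow, hσ, ← pow_mul, ← pow_mul] at h5
      exact h5
    have h6 : ζ ^ (((2 * k * g ^ 2 : ℕ) : ℤ) - ((g * (2 * k) : ℕ) : ℤ)) = 1 := by
      rw [zpow_sub₀ hζ0, zpow_natCast, zpow_natCast, h4, div_self (pow_ne_zero _ hζ0)]
    have h7 : (p : ℤ) ∣ ((2 * k * g ^ 2 : ℕ) : ℤ) - ((g * (2 * k) : ℕ) : ℤ) :=
      (hζ.zpow_eq_one_iff_dvd _).mp h6
    have h8 := (ZMod.intCast_zmod_eq_zero_iff_dvd _ p).mpr h7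
    push_cast at h8
    rw [hgcast] at h8
    have h9 : (2 : ZMod p) * (g₀ : ZMod p) * ((g₀ : ZMod p) - 1) * (k : ZMod p) = 0 := by
      linear_combination h8
    have h2ne : (2 : ZMod p) ≠ 0 := by
      intro h
      have h' : ((2 : ℕ) : ZMod p) = 0 := by exact_mod_cast h
      rw [ZMod.natCast_eq_zero_iff] at h'
      have := Nat.le_of_dvd (by norm_num) h'
      omega
    have hg1 : (g₀ : ZMod p) - 1 ≠ 0 := by
      intro h
      have h' : g₀ = 1 := Units.ext (by rw [Units.val_one]; exact sub_eq_zero.mp h)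
      rw [h', orderOf_one] at hord
      omega
    have hk0 : (k : ZMod p) = 0 := by
      rcases mul_eq_zero.mp h9 with h | h
      · rcases mul_eq_zero.mp h with h | h
        · rcases mul_eq_zero.mp h with h | h
          · exact absurd h h2ne
          · exact absurd h (Units.ne_zero g₀)
        · exact absurd h hg1
      · exact h
    have hk' : k = 0 := by
      rw [ZMod.natCast_eq_zero_iff] at hk0
      exact Nat.eq_zero_of_dvd_of_lt hk0 hk
    rw [hk', pow_zero] at hTk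
    rcases hTk with h | h
    · have ht1 : t = 1 := NumberField.Units.coe_injective K (by
        change T = _
        rw [h]
        rfl)
      rw [ht1, one_pow]
    · have ht1 : t = -1 := NumberField.Units.coe_injective K (by
        change T = _
        rw [h]
        rfl)
      rw [ht1, hodd.neg_one_pow]
  refine ⟨a.val, b.val, t * ε₀, ?_, ?_⟩
  · rintro ⟨ha, hb⟩
    have ha0 : a = 0 :=
      (ZMod.val_eq_zero a).mp (Nat.eq_zero_of_dvd_of_lt ha (ZMod.val_lt a))
    have hb0 : b = 0 :=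
      (ZMod.val_eq_zero b).mp (Nat.eq_zero_of_dvd_of_lt hb (ZMod.val_lt b))
    rcases hab with h | h
    · exact h ha0
    · exact h hb0
  · rw [← hθ, hθt, mul_pow, htp]

end cyclo

section final

variable {p : ℕ} [Fact p.Prime] {K : Type} [Field K] [NumberField K]
  [IsCyclotomicExtension {p} ℚ K] {ζ : K}

/-- U2 (file `UnitsMult.lean`): multiplicity one of `ω²` in `E / E^p`. -/
theorem u2 (hp : 5 ≤ p) (hζ : IsPrimitiveRoot ζ p) (η₁ η₂ : (𝓞 K)ˣ)
    (h₁ : ∀ (σ : K ≃ₐ[ℚ] K) (a : ℕ), σ ζ = ζ ^ a →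
      ∃ δ : (𝓞 K)ˣ, σ ((η₁ : 𝓞 K) : K) = ((η₁ : 𝓞 K) : K) ^ (a ^ 2) * ((δ : 𝓞 K) : K) ^ p)
    (h₂ : ∀ (σ : K ≃ₐ[ℚ] K) (a : ℕ), σ ζ = ζ ^ a →
      ∃ δ : (𝓞 K)ˣ, σ ((η₂ : 𝓞 K) : K) = ((η₂ : 𝓞 K) : K) ^ (a ^ 2) * ((δ : 𝓞 K) : K) ^ p) :
    ∃ (i j : ℕ) (ε : (𝓞 K)ˣ), ¬ (p ∣ i ∧ p ∣ j) ∧ η₁ ^ i * η₂ ^ j = ε ^ p :=
  um_main hp hζ η₁ η₂ h₁ h₂

end final

end Fermat.Agent.S14
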