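import Fermat.Agent.S14.Defs
import Fermat.Agent.S14.IdealPow
import Fermat.Agent.S14.E2Basic
import Fermat.Agent.S14.E2Local
import Fermat.Agent.S14.UnitsMult
import Fermat.Agent.S14.ClassFunctional
import Fermat.Agent.S14.Three
import Fermat.Agent.S14.Density
import Fermat.Agent.S14.ThaineCons

/-!
# S14 core: no Kummer datum in the `p`-th cyclotomic field (`p ≥ 3`)

Assembly of the number-theoretic core: class group case (Thaine relation + density argument)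
and unit case (`E₂` computation + multiplicity one).
-/

set_option autoImplicit false

open NumberField IsDedekindDomain
open scoped nonZeroDivisors

namespace Fermat.Agent.S14

section scaling

variable {p : ℕ} {K : Type} [Field K] [NumberField K] {ζ : K}

/-- Scaling a Kummer datum by a `p`-th power. -/
theorem KummerDatum.scale {α : K} (h : KummerDatum p ζ α) (d : K) (hd : d ≠ 0) :
    KummerDatum p ζ (α * d ^ p) := by
  have hdp : d ^ p ≠ 0 := pow_ne_zero _ hd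
  refine ⟨mul_ne_zero h.ne_zero hdp, ?_, ?_, ?_, ?_⟩
  · intro c hc
    apply h.not_pow (c / d)
    rw [div_pow, ← hc, mul_div_assoc, div_self hdp, mul_one]
  · intro σ a hσ
    obtain ⟨γ, hγ⟩ := h.eigen σ a hσ
    refine ⟨γ * σ d / d ^ (a ^ 2), ?_⟩
    rw [map_mul, map_pow, hγ, mul_pow, div_pow, mul_pow, ← pow_mul, ← pow_mul, mul_comm p (a ^ 2)]
    have hd2 : d ^ (a ^ 2 * p) ≠ 0 := pow_ne_zero _ hd
    field_simp
  · intro v
    have h1 : FractionalIdeal.spanSingleton (𝓞 K)⁰ (α * d ^ p) =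
        FractionalIdeal.spanSingleton (𝓞 K)⁰ α * (FractionalIdeal.spanSingleton (𝓞 K)⁰ d) ^ p := by
      rw [FractionalIdeal.spanSingleton_pow, FractionalIdeal.spanSingleton_mul_spanSingleton]
    rw [h1, FractionalIdeal.count_mul, FractionalIdeal.count_pow]
    · exact dvd_add (h.val v) (dvd_mul_right _ _)
    · exact FractionalIdeal.spanSingleton_ne_zero_iff.mpr h.ne_zero
    · exact pow_ne_zero _ (FractionalIdeal.spanSingleton_ne_zero_iff.mpr hd)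
  · intro η γ hη
    apply h.loc η (γ / d)
    rw [div_pow, ← mul_div_assoc, ← hη, mul_div_assoc, div_self hdp, mul_one]

/-- Step A: normalisation to an integral generator with `(a) = J ^ p`. -/
theorem exists_integral_datum {α : K} (hp : p ≠ 0) (h : KummerDatum p ζ α) :
    ∃ (a : 𝓞 K) (J : Ideal (𝓞 K)), a ≠ 0 ∧ Ideal.span {a} = J ^ p ∧
      KummerDatum p ζ (a : K) := by
  obtain ⟨I, hI⟩ := exists_ideal_pow_eq p hp α h.ne_zero h.val
  obtain ⟨d, J, hd, hIJ⟩ := FractionalIdeal.exists_eq_spanSingleton_mul I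
  have hd' : (algebraMap (𝓞 K) K d) ≠ 0 := by
    simpa using hd
  have key : FractionalIdeal.spanSingleton (𝓞 K)⁰ (α * (algebraMap (𝓞 K) K d) ^ p) =
      ((J ^ p : Ideal (𝓞 K)) : FractionalIdeal (𝓞 K)⁰ K) := by
    rw [← FractionalIdeal.spanSingleton_mul_spanSingleton, hI, hIJ, mul_pow,
      FractionalIdeal.spanSingleton_pow, FractionalIdeal.coeIdeal_pow, mul_comm, ← mul_assoc,
      FractionalIdeal.spanSingleton_mul_spanSingleton, ← mul_pow, mul_inv_cancel₀ hd',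
      one_pow, FractionalIdeal.spanSingleton_one, one_mul]
  have hmem : α * (algebraMap (𝓞 K) K d) ^ p ∈
      ((J ^ p : Ideal (𝓞 K)) : FractionalIdeal (𝓞 K)⁰ K) := by
    rw [← key]; exact FractionalIdeal.mem_spanSingleton_self _ _
  obtain ⟨a, haJ, ha⟩ := (FractionalIdeal.mem_coeIdeal _).mp hmem
  have hK := h.scale (algebraMap (𝓞 K) K d) hd'
  rw [← ha] at hK key
  have ha0 : a ≠ 0 := by
    rintro rfl
    exact hK.ne_zero (by simp)
  refine ⟨a, J, ha0, ?_, hK⟩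
  apply FractionalIdeal.coeIdeal_injective (K := K)
  show ((Ideal.span {a} : Ideal (𝓞 K)) : FractionalIdeal (𝓞 K)⁰ K) = ((J ^ p : Ideal (𝓞 K)) :
    FractionalIdeal (𝓞 K)⁰ K)
  rw [FractionalIdeal.coeIdeal_span_singleton, key]

omit [NumberField K] in
theorem ideal_ne_bot_of_span_eq_pow {a : 𝓞 K} {J : Ideal (𝓞 K)} (hp : p ≠ 0) (ha : a ≠ 0)
    (hJ : Ideal.span {a} = J ^ p) : J ≠ ⊥ := by
  rintro rfl
  rw [← Ideal.zero_eq_bot, zero_pow hp, Ideal.zero_eq_bot, Ideal.span_singleton_eq_bot] at hJ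
  exact ha hJ

/-- Step B/C: the class of `J` is `p`-torsion and lies in the `ω²`-eigenspace. -/
theorem class_props {a : 𝓞 K} {J : Ideal (𝓞 K)} (hp : p ≠ 0) (ha : a ≠ 0)
    (hJ : Ideal.span {a} = J ^ p) (h : KummerDatum p ζ (a : K)) (hJ0 : J ≠ ⊥) :
    (ClassGroup.mk0 ⟨J, mem_nonZeroDivisors_of_ne_zero hJ0⟩) ^ p = 1 ∧
    ∀ (σ : K ≃ₐ[ℚ] K) (a' : ℕ), σ ζ = ζ ^ a' →
      clMap σ (ClassGroup.mk0 ⟨J, mem_nonZeroDivisors_of_ne_zero hJ0⟩) =
        (ClassGroup.mk0 ⟨J, mem_nonZeroDivisors_of_ne_zero hJ0⟩) ^ (a' ^ 2) := by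
  constructor
  · rw [← map_pow, ClassGroup.mk0_eq_one_iff]
    show (J ^ p).IsPrincipal
    rw [← hJ]
    exact ⟨⟨a, rfl⟩⟩
  · intro σ a' hσ
    obtain ⟨γ, hγ⟩ := h.eigen σ a' hσ
    obtain ⟨y, x, hx, hxy⟩ := IsFractionRing.div_surjective (A := 𝓞 K) γ
    have hx0 : x ≠ 0 := nonZeroDivisors.ne_zero hx
    have hx0' : (algebraMap (𝓞 K) K x) ≠ 0 := by simpa using hx0
    set g : 𝓞 K ≃+* 𝓞 K := RingOfIntegers.mapRingEquiv σ.toRingEquiv with hg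
    have hga : ((g a : 𝓞 K) : K) = σ (a : K) := rfl
    have hy0 : y ≠ 0 := by
      rintro rfl
      have hγ0 : γ = 0 := by rw [← hxy]; simp
      rw [hγ0, zero_pow hp, mul_zero] at hγ
      have : (a : K) = 0 := by
        have := congrArg σ.symm hγ
        simpa using this
      exact ha (by exact_mod_cast this)
    have e1 : g a * x ^ p = a ^ (a' ^ 2) * y ^ p := by
      apply RingOfIntegers.coe_injective
      have h1 : ((g a * x ^ p : 𝓞 K) : K) = σ (a : K) * (algebraMap (𝓞 K) K x) ^ p := by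
        push_cast; rfl
      have h2 : ((a ^ (a' ^ 2) * y ^ p : 𝓞 K) : K) =
          (a : K) ^ (a' ^ 2) * (algebraMap (𝓞 K) K y) ^ p := by
        push_cast; rfl
      show ((g a * x ^ p : 𝓞 K) : K) = ((a ^ (a' ^ 2) * y ^ p : 𝓞 K) : K)
      rw [h1, h2, hγ, ← hxy, div_pow]
      field_simp
    have e2 : (J.map (g : 𝓞 K →+* 𝓞 K) * Ideal.span {x}) ^ p =
        (J ^ (a' ^ 2) * Ideal.span {y}) ^ p := by
      rw [mul_pow, mul_pow, ← Ideal.map_pow, ← hJ, Ideal.map_span, Set.image_singleton,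
        Ideal.span_singleton_pow, Ideal.span_singleton_pow, Ideal.span_singleton_mul_span_singleton,
        ← pow_mul, mul_comm (a' ^ 2) p, pow_mul, ← hJ, Ideal.span_singleton_pow,
        Ideal.span_singleton_mul_span_singleton]
      congr 2
    have e3 := pow_left_injective (M := Ideal (𝓞 K)) hp e2
    show ClassGroup.mulEquiv g _ = _
    rw [ClassGroup.mulEquiv_mk0, ← map_pow, ClassGroup.mk0_eq_mk0_iff]
    refine ⟨x, y, hx0, hy0, ?_⟩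
    rw [mul_comm, Ideal.coe_mapNonZero]
    simp only [SubmonoidClass.coe_pow]
    rw [e3, mul_comm]

end scaling

end Fermat.Agent.S14

namespace Fermat.Agent.S14

section units

variable {p : ℕ} {K : Type} [Field K] [NumberField K] {ζ : K}

omit [NumberField K] in
theorem unit_inv_coe (δ : (𝓞 K)ˣ) :
    (((δ⁻¹ : (𝓞 K)ˣ) : 𝓞 K) : K) = ((δ : 𝓞 K) : K)⁻¹ := by
  have h3 : ((δ : 𝓞 K) : K) * (((δ⁻¹ : (𝓞 K)ˣ) : 𝓞 K) : K) = 1 := by
    rw [← map_mul]; simp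
  exact eq_inv_of_mul_eq_one_right h3

omit [NumberField K] in
theorem unit_coe_ne_zero (δ : (𝓞 K)ˣ) : ((δ : 𝓞 K) : K) ≠ 0 := by simp

omit [NumberField K] in
/-- An element of `K` whose `p`-th power is a unit of `𝓞 K` is a unit of `𝓞 K`. -/
theorem exists_unit_of_pow_eq (hp : p ≠ 0) (u : (𝓞 K)ˣ) (c : K)
    (hc : c ^ p = ((u : 𝓞 K) : K)) : ∃ δ : (𝓞 K)ˣ, ((δ : 𝓞 K) : K) = c := by
  have hc0 : c ≠ 0 := by
    rintro rfl
    rw [zero_pow hp] at hc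
    have : ((u : 𝓞 K) : K) ≠ 0 := by
      simp
    exact this hc.symm
  have h1 : IsIntegral ℤ c := by
    apply IsIntegral.of_pow (Nat.pos_of_ne_zero hp)
    rw [hc]
    exact RingOfIntegers.isIntegral_coe _
  have h2 : IsIntegral ℤ c⁻¹ := by
    apply IsIntegral.of_pow (Nat.pos_of_ne_zero hp)
    have : c⁻¹ ^ p = (((u⁻¹ : (𝓞 K)ˣ) : 𝓞 K) : K) := by
      rw [inv_pow, hc]
      have h3 : ((u : 𝓞 K) : K) * (((u⁻¹ : (𝓞 K)ˣ) : 𝓞 K) : K) = 1 := by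
        rw [← map_mul]; simp
      exact inv_eq_of_mul_eq_one_right h3
    rw [this]
    exact RingOfIntegers.isIntegral_coe _
  refine ⟨⟨⟨c, h1⟩, ⟨c⁻¹, h2⟩, ?_, ?_⟩, rfl⟩
  · apply RingOfIntegers.coe_injective
    show c * c⁻¹ = 1
    exact mul_inv_cancel₀ hc0
  · apply RingOfIntegers.coe_injective
    show c⁻¹ * c = 1
    exact inv_mul_cancel₀ hc0

end units

end Fermat.Agent.S14

namespace Fermat.Agent.S14

section cyclo

variable {p : ℕ} [Fact p.Prime] {K : Type} [Field K] [NumberField K]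
  [IsCyclotomicExtension {p} ℚ K] {ζ : K}

/-- `E₂` is not a `p`-th power in `K`. -/
theorem E2_not_pow (h5 : 5 ≤ p) (hζ : IsPrimitiveRoot ζ p) (c : K) : E2 p ζ ≠ c ^ p := by
  intro hc
  have hp0 : p ≠ 0 := (Fact.out : p.Prime).ne_zero
  obtain ⟨u, hu⟩ := E2_isUnit (K := K) hζ
  obtain ⟨δ, hδ⟩ := exists_unit_of_pow_eq hp0 u c (by rw [hu, hc])
  have hδ0 : ((δ : 𝓞 K) : K) ≠ 0 := by simp
  have hinv : (((δ⁻¹ : (𝓞 K)ˣ) : 𝓞 K) : K) = ((δ : 𝓞 K) : K)⁻¹ := by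
    have h3 : ((δ : 𝓞 K) : K) * (((δ⁻¹ : (𝓞 K)ˣ) : 𝓞 K) : K) = 1 := by
      rw [← map_mul]; simp
    exact eq_inv_of_mul_eq_one_right h3
  have key := u1 (K := K) h5 hζ 0 1 δ⁻¹ 1 0 (by
    rw [hinv, hδ, hc]
    have hc0 : c ≠ 0 := hδ ▸ hδ0
    have : c ^ p ≠ 0 := pow_ne_zero _ hc0
    simp only [pow_zero, pow_one, one_mul, Int.cast_one, map_zero, mul_zero, inv_pow]
    rw [mul_inv_cancel₀ this, sub_self])
  have : p ∣ 1 := key.2
  have := Nat.le_of_dvd one_pos this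
  omega

/-- The principal case: a Kummer datum `a = η γ₀ ^ p` with `η` a unit is impossible. -/
theorem no_kummerDatum_unit (h5 : 5 ≤ p) (hζ : IsPrimitiveRoot ζ p) (η : (𝓞 K)ˣ) (γ₀ : K)
    (hγ₀ : γ₀ ≠ 0) (hK : KummerDatum p ζ (((η : 𝓞 K) : K) * γ₀ ^ p)) : False := by
  have hp0 : p ≠ 0 := (Fact.out : p.Prime).ne_zero
  have hpp : p.Prime := Fact.out
  obtain ⟨e, he⟩ := E2_isUnit (K := K) hζ
  have hη0 := unit_coe_ne_zero η
  have he0 := unit_coe_ne_zero e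
  -- `η` lies in the `ω²`-eigenspace
  have hη : ∀ (σ : K ≃ₐ[ℚ] K) (a' : ℕ), σ ζ = ζ ^ a' → ∃ δ : (𝓞 K)ˣ,
      σ ((η : 𝓞 K) : K) = ((η : 𝓞 K) : K) ^ (a' ^ 2) * ((δ : 𝓞 K) : K) ^ p := by
    intro σ a' hσ
    obtain ⟨γ, hγ⟩ := hK.eigen σ a' hσ
    let g : 𝓞 K ≃+* 𝓞 K := RingOfIntegers.mapRingEquiv σ.toRingEquiv
    let uu : (𝓞 K)ˣ := Units.map (g : 𝓞 K →* 𝓞 K) η * (η⁻¹) ^ (a' ^ 2)
    have huu : ((uu : 𝓞 K) : K) = σ ((η : 𝓞 K) : K) / ((η : 𝓞 K) : K) ^ (a' ^ 2) := by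
      have h1 : ((uu : 𝓞 K) : K) = ((g (η : 𝓞 K) : 𝓞 K) : K) *
          ((((η⁻¹ : (𝓞 K)ˣ) : 𝓞 K) : K)) ^ (a' ^ 2) := by
        show ((((Units.map (g : 𝓞 K →* 𝓞 K) η * (η⁻¹) ^ (a' ^ 2) : (𝓞 K)ˣ)) : 𝓞 K) : K) = _
        push_cast
        rfl
      rw [h1, unit_inv_coe, inv_pow, div_eq_mul_inv]
      rfl
    have hσγ₀ : σ γ₀ ≠ 0 := by simpa using hγ₀
    rw [map_mul, map_pow] at hγ
    have key : (γ₀ ^ (a' ^ 2) * γ / σ γ₀) ^ p =
        σ ((η : 𝓞 K) : K) / ((η : 𝓞 K) : K) ^ (a' ^ 2) := by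
      rw [div_pow, mul_pow, div_eq_div_iff (pow_ne_zero _ hσγ₀) (pow_ne_zero _ hη0), hγ]
      ring
    obtain ⟨δ, hδ⟩ := exists_unit_of_pow_eq hp0 uu (γ₀ ^ (a' ^ 2) * γ / σ γ₀) (by
      rw [huu, key])
    refine ⟨δ, ?_⟩
    rw [hδ, key, mul_div_cancel₀ _ (pow_ne_zero _ hη0)]
  have he_eig : ∀ (σ : K ≃ₐ[ℚ] K) (a' : ℕ), σ ζ = ζ ^ a' → ∃ δ : (𝓞 K)ˣ,
      σ ((e : 𝓞 K) : K) = ((e : 𝓞 K) : K) ^ (a' ^ 2) * ((δ : 𝓞 K) : K) ^ p := by
    intro σ a' hσ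
    rw [he]
    exact E2_eigen h5 hζ σ a' hσ
  obtain ⟨i, j, ε, hij, hε⟩ := u2 h5 hζ e η he_eig hη
  have hεK : ((e : 𝓞 K) : K) ^ i * ((η : 𝓞 K) : K) ^ j = ((ε : 𝓞 K) : K) ^ p := by
    have := congrArg (fun u : (𝓞 K)ˣ => ((u : 𝓞 K) : K)) hε
    simpa using this
  have hε0 := unit_coe_ne_zero ε
  by_cases hj : p ∣ j
  · -- then `E₂` is a `p`-th power
    have hi : ¬ p ∣ i := fun hi => hij ⟨hi, hj⟩
    obtain ⟨t, rfl⟩ := hj
    have hcop : Nat.Coprime i p := (Nat.Coprime.symm ((Nat.Prime.coprime_iff_not_dvd hpp).mpr hi))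
    obtain ⟨s, -, hs⟩ := Nat.exists_mul_mod_eq_one_of_coprime hcop hpp.one_lt
    have hs' : i * s = 1 + p * (i * s / p) := by
      have := Nat.div_add_mod (i * s) p
      omega
    set t' := i * s / p with ht'
    apply E2_not_pow (K := K) h5 hζ
      ((((ε : 𝓞 K) : K) / ((η : 𝓞 K) : K) ^ t) ^ s / ((e : 𝓞 K) : K) ^ t')
    rw [← he]
    have h1 : ((e : 𝓞 K) : K) ^ i = (((ε : 𝓞 K) : K) / ((η : 𝓞 K) : K) ^ t) ^ p := by
      rw [div_pow, eq_div_iff (pow_ne_zero _ (pow_ne_zero _ hη0)), ← hεK]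
      ring
    have h2 : ((e : 𝓞 K) : K) ^ (i * s) = ((e : 𝓞 K) : K) * (((e : 𝓞 K) : K) ^ t') ^ p := by
      rw [hs']; ring
    rw [div_pow, eq_div_iff (pow_ne_zero _ (pow_ne_zero _ he0)), ← h2, pow_mul, h1]
    ring
  · -- `η = E₂ ^ m * ε' ^ p`
    have hcop : Nat.Coprime j p := (Nat.Coprime.symm ((Nat.Prime.coprime_iff_not_dvd hpp).mpr hj))
    obtain ⟨s, -, hs⟩ := Nat.exists_mul_mod_eq_one_of_coprime hcop hpp.one_lt
    have hs' : j * s = 1 + p * (j * s / p) := by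
      have := Nat.div_add_mod (j * s) p
      omega
    set t' := j * s / p with ht'
    -- ε' = ε ^ s / (e ^ (i * s) * η ^ t')
    let ε' : (𝓞 K)ˣ := ε ^ s * (e⁻¹) ^ (i * s) * (η⁻¹) ^ t'
    have hε' : ((ε' : 𝓞 K) : K) = ((ε : 𝓞 K) : K) ^ s / (((e : 𝓞 K) : K) ^ (i * s) *
        ((η : 𝓞 K) : K) ^ t') := by
      have h1 : ((ε' : 𝓞 K) : K) = ((ε : 𝓞 K) : K) ^ s *
          ((((e⁻¹ : (𝓞 K)ˣ) : 𝓞 K) : K)) ^ (i * s) * ((((η⁻¹ : (𝓞 K)ˣ) : 𝓞 K) : K)) ^ t' := by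
        show ((((ε ^ s * (e⁻¹) ^ (i * s) * (η⁻¹) ^ t' : (𝓞 K)ˣ)) : 𝓞 K) : K) = _
        push_cast
        rfl
      rw [h1, unit_inv_coe, unit_inv_coe, inv_pow, inv_pow, div_eq_mul_inv, mul_inv, mul_assoc]
    have hηm : ((η : 𝓞 K) : K) = ζ ^ 0 * E2 p ζ ^ ((p - 1) * (i * s)) * ((ε' : 𝓞 K) : K) ^ p := by
      rw [hε', ← he, pow_zero, one_mul, div_pow, mul_pow]
      have h1 : (((e : 𝓞 K) : K) ^ i * ((η : 𝓞 K) : K) ^ j) ^ s = (((ε : 𝓞 K) : K) ^ p) ^ s := by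
        rw [hεK]
      have h2 : ((η : 𝓞 K) : K) ^ (j * s) = ((η : 𝓞 K) : K) * (((η : 𝓞 K) : K) ^ t') ^ p := by
        rw [hs']; ring
      have h3 : ((e : 𝓞 K) : K) ^ ((p - 1) * (i * s)) * ((e : 𝓞 K) : K) ^ (i * s) =
          (((e : 𝓞 K) : K) ^ (i * s)) ^ p := by
        rw [← pow_add, ← pow_mul]
        congr 1
        obtain ⟨k, rfl⟩ : ∃ k, p = k + 1 := ⟨p - 1, by have := hpp.one_lt; omega⟩
        simp only [Nat.add_sub_cancel]; ring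
      rw [mul_pow, ← pow_mul, ← pow_mul, h2] at h1
      have h4 : (((ε : 𝓞 K) : K) ^ s) ^ p = ((e : 𝓞 K) : K) ^ (i * s) * (((η : 𝓞 K) : K) *
          (((η : 𝓞 K) : K) ^ t') ^ p) := by
        rw [h1]; ring
      have hne : (((e : 𝓞 K) : K) ^ (i * s)) ^ p * (((η : 𝓞 K) : K) ^ t') ^ p ≠ 0 :=
        mul_ne_zero (pow_ne_zero _ (pow_ne_zero _ he0)) (pow_ne_zero _ (pow_ne_zero _ hη0))
      rw [← mul_div_assoc, eq_div_iff hne, h4]
      calc ((η : 𝓞 K) : K) * ((((e : 𝓞 K) : K) ^ (i * s)) ^ p * (((η : 𝓞 K) : K) ^ t') ^ p)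
          = (((e : 𝓞 K) : K) ^ ((p - 1) * (i * s)) * ((e : 𝓞 K) : K) ^ (i * s)) *
            (((η : 𝓞 K) : K) * (((η : 𝓞 K) : K) ^ t') ^ p) := by rw [h3]; ring
        _ = _ := by ring
    -- local condition
    obtain ⟨n, w, hnw⟩ := hK.loc η γ₀ rfl
    rw [hηm] at hnw
    obtain ⟨-, hm⟩ := u1 h5 hζ 0 ((p - 1) * (i * s)) ε' n w hnw
    obtain ⟨m', hm'⟩ := hm
    apply hK.not_pow (E2 p ζ ^ m' * ((ε' : 𝓞 K) : K) * γ₀)
    rw [hηm, hm']
    ring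

/-- The core theorem for `p ≥ 5`. -/
theorem no_kummerDatum_five (h5 : 5 ≤ p) (hζ : IsPrimitiveRoot ζ p) (α : K) :
    ¬ KummerDatum p ζ α := by
  intro hα
  have hp0 : p ≠ 0 := (Fact.out : p.Prime).ne_zero
  have h3 : 3 ≤ p := by omega
  obtain ⟨a, J, ha, hJ, hK⟩ := exists_integral_datum hp0 hα
  have hJ0 := ideal_ne_bot_of_span_eq_pow hp0 ha hJ
  obtain ⟨hxp, hxσ⟩ := class_props hp0 ha hJ hK hJ0
  obtain ⟨e, he⟩ := E2_isUnit (K := K) hζ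
  by_cases hx1 : ClassGroup.mk0 ⟨J, mem_nonZeroDivisors_of_ne_zero hJ0⟩ = 1
  · rw [ClassGroup.mk0_eq_one_iff] at hx1
    obtain ⟨γ₀, hγ₀⟩ := hx1.principal
    have hJ' : J = Ideal.span {γ₀} := hγ₀
    have hγ₀0 : γ₀ ≠ 0 := by
      rintro rfl
      apply hJ0
      rw [hJ']
      simp
    rw [hJ', Ideal.span_singleton_pow, Ideal.span_singleton_eq_span_singleton] at hJ
    obtain ⟨u, hu⟩ := hJ
    apply no_kummerDatum_unit h5 hζ u⁻¹ (γ₀ : K) (by simpa using hγ₀0)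
    have hu' : (a : K) * ((u : 𝓞 K) : K) = (γ₀ : K) ^ p := by
      have := congrArg (fun z : 𝓞 K => (z : K)) hu
      simpa using this
    have : (a : K) = (((u⁻¹ : (𝓞 K)ˣ) : 𝓞 K) : K) * (γ₀ : K) ^ p := by
      rw [unit_inv_coe, ← hu', mul_comm, mul_assoc, mul_inv_cancel₀ (unit_coe_ne_zero u), mul_one]
    rw [← this]
    exact hK
  · obtain ⟨ψ, hψ1, hψ⟩ := exists_omegaSq hζ _ hx1 hxp hxσ
    apply density_contra K p h3 hζ ψ hψ1 e (by rw [he]; exact E2_not_pow h5 hζ)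
    intro v hv hvp hψv
    obtain ⟨x', y, hy, hxy⟩ := thaine_consequence h5 hζ ψ hψ v hv hvp hψv
    refine ⟨x', ?_⟩
    have : (e : 𝓞 K) - x' ^ p = y := by
      apply RingOfIntegers.coe_injective
      show (((e : 𝓞 K) - x' ^ p : 𝓞 K) : K) = (y : K)
      rw [hxy, ← he]
      push_cast
      rfl
    rw [this]
    exact hy

/-- END: there is no Kummer datum in the `p`-th cyclotomic field, `p ≥ 3`. -/
theorem no_kummerDatum (h3 : 3 ≤ p) (hζ : IsPrimitiveRoot ζ p) (α : K) :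
    ¬ KummerDatum p ζ α := by
  by_cases h5 : 5 ≤ p
  · exact no_kummerDatum_five h5 hζ α
  · have hpp : p.Prime := Fact.out
    have h34 : p = 3 ∨ p = 4 := by omega
    rcases h34 with rfl | rfl
    · exact no_kummerDatum_three hζ
    · exact absurd hpp (by decide)

end cyclo

end Fermat.Agent.S14
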