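import Fermat.Agent.S14.CZPartition

/-!
# S14, analytic piece AN1 (part 2): the Lipschitz estimate for `phi * norm ^ (-s)`
-/

set_option autoImplicit false

namespace Fermat.Agent.S14.CZ

open NumberField NumberField.InfinitePlace NumberField.mixedEmbedding NumberField.Units
  NumberField.Units.dirichletUnitTheorem Module

/-! ### Elementary real inequalities -/

lemma abs_log_sub_log_le {a b ρ : ℝ} (hρ : 0 < ρ) (ha : ρ ≤ a) (hb : ρ ≤ b) :
    |Real.log a - Real.log b| ≤ |a - b| / ρ := by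
  have key : ∀ {u v : ℝ}, ρ ≤ u → u ≤ v → Real.log v - Real.log u ≤ (v - u) / ρ := by
    intro u v hu huv
    have hu0 : 0 < u := lt_of_lt_of_le hρ hu
    have hv0 : 0 < v := lt_of_lt_of_le hu0 huv
    have h1 : Real.log v - Real.log u = Real.log (v / u) := (Real.log_div hv0.ne' hu0.ne').symm
    have h2 : Real.log (v / u) ≤ v / u - 1 := Real.log_le_sub_one_of_pos (div_pos hv0 hu0)
    have h3 : v / u - 1 = (v - u) / u := by field_simp
    have h4 : (v - u) / u ≤ (v - u) / ρ :=
      div_le_div_of_nonneg_left (by linarith) hρ hu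
    linarith
  rcases le_total a b with h | h
  · have := key ha h
    have hlog : Real.log a ≤ Real.log b := Real.log_le_log (lt_of_lt_of_le hρ ha) h
    rw [abs_of_nonpos (by linarith), abs_of_nonpos (by linarith)]
    calc -(Real.log a - Real.log b) = Real.log b - Real.log a := by ring
      _ ≤ (b - a) / ρ := this
      _ = -(a - b) / ρ := by ring
  · have := key hb h
    have hlog : Real.log b ≤ Real.log a := Real.log_le_log (lt_of_lt_of_le hρ hb) h
    rw [abs_of_nonneg (by linarith), abs_of_nonneg (by linarith)]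
    exact this

lemma abs_exp_sub_exp_le (a b : ℝ) :
    |Real.exp a - Real.exp b| ≤ |a - b| * max (Real.exp a) (Real.exp b) := by
  have key : ∀ {u v : ℝ}, u ≤ v → Real.exp v - Real.exp u ≤ (v - u) * Real.exp v := by
    intro u v huv
    have h1 : Real.exp u = Real.exp v * Real.exp (u - v) := by
      rw [← Real.exp_add]; congr 1; ring
    have h2 : (u - v) + 1 ≤ Real.exp (u - v) := Real.add_one_le_exp _
    have h3 : 0 < Real.exp v := Real.exp_pos v
    rw [h1]
    nlinarith
  rcases le_total a b with h | h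
  · have := key h
    have hexp : Real.exp a ≤ Real.exp b := Real.exp_le_exp.mpr h
    rw [abs_of_nonpos (by linarith), abs_of_nonpos (by linarith), max_eq_right hexp]
    linarith
  · have := key h
    have hexp : Real.exp b ≤ Real.exp a := Real.exp_le_exp.mpr h
    rw [abs_of_nonneg (by linarith), abs_of_nonneg (by linarith), max_eq_left hexp]
    exact this

lemma abs_prod_sub_prod_le {ι : Type*} (s : Finset ι) (a b : ι → ℝ)
    (ha : ∀ i ∈ s, 0 ≤ a i ∧ a i ≤ 1) (hb : ∀ i ∈ s, 0 ≤ b i ∧ b i ≤ 1) :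
    |∏ i ∈ s, a i - ∏ i ∈ s, b i| ≤ ∑ i ∈ s, |a i - b i| := by
  classical
  induction s using Finset.induction_on with
  | empty => simp
  | insert j s hj ih =>
    rw [Finset.prod_insert hj, Finset.prod_insert hj, Finset.sum_insert hj]
    have ih' := ih (fun i hi => ha i (Finset.mem_insert_of_mem hi))
      (fun i hi => hb i (Finset.mem_insert_of_mem hi))
    have hA0 : 0 ≤ ∏ i ∈ s, a i :=
      Finset.prod_nonneg fun i hi => (ha i (Finset.mem_insert_of_mem hi)).1
    have hA1 : ∏ i ∈ s, a i ≤ 1 :=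
      Finset.prod_le_one (fun i hi => (ha i (Finset.mem_insert_of_mem hi)).1)
        (fun i hi => (ha i (Finset.mem_insert_of_mem hi)).2)
    have hbj := hb j (Finset.mem_insert_self j s)
    have e : a j * ∏ i ∈ s, a i - b j * ∏ i ∈ s, b i
        = (a j - b j) * ∏ i ∈ s, a i + b j * (∏ i ∈ s, a i - ∏ i ∈ s, b i) := by ring
    rw [e]
    calc |(a j - b j) * ∏ i ∈ s, a i + b j * (∏ i ∈ s, a i - ∏ i ∈ s, b i)|
        ≤ |(a j - b j) * ∏ i ∈ s, a i| + |b j * (∏ i ∈ s, a i - ∏ i ∈ s, b i)| := abs_add_le _ _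
      _ = |a j - b j| * (∏ i ∈ s, a i) + b j * |∏ i ∈ s, a i - ∏ i ∈ s, b i| := by
          rw [abs_mul, abs_mul, abs_of_nonneg hA0, abs_of_nonneg hbj.1]
      _ ≤ |a j - b j| * 1 + 1 * ∑ i ∈ s, |a i - b i| := by
          apply add_le_add
          · exact mul_le_mul_of_nonneg_left hA1 (abs_nonneg _)
          · exact mul_le_mul hbj.2 ih' (abs_nonneg _) zero_le_one
      _ = |a j - b j| + ∑ i ∈ s, |a i - b i| := by ring

variable {K : Type*} [Field K] [NumberField K]

open scoped Classical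

/-! ### Norms at places -/

lemma normAtPlace_le_norm (w : InfinitePlace K) (x : mixedSpace K) : normAtPlace w x ≤ ‖x‖ := by
  rw [norm_eq_sup'_normAtPlace]
  exact Finset.le_sup' (fun w => normAtPlace w x) (Finset.mem_univ w)

lemma exists_normAtPlace_eq_norm (x : mixedSpace K) :
    ∃ w : InfinitePlace K, normAtPlace w x = ‖x‖ := by
  rw [norm_eq_sup'_normAtPlace]
  obtain ⟨w, -, hw⟩ := Finset.exists_mem_eq_sup' Finset.univ_nonempty (fun w => normAtPlace w x)
  exact ⟨w, hw.symm⟩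

lemma abs_normAtPlace_sub_le (w : InfinitePlace K) (x y : mixedSpace K) :
    |normAtPlace w y - normAtPlace w x| ≤ ‖y - x‖ := by
  have h1 : normAtPlace w y ≤ normAtPlace w x + normAtPlace w (y - x) := by
    have := normAtPlace_add_le w x (y - x)
    rwa [show x + (y - x) = y by abel] at this
  have h2 : normAtPlace w x ≤ normAtPlace w y + normAtPlace w (y - x) := by
    have := normAtPlace_add_le w y (x - y)
    rwa [show y + (x - y) = x by abel, show x - y = -(y - x) by abel, normAtPlace_neg] at this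
  have h3 := normAtPlace_le_norm w (y - x)
  rw [abs_le]; constructor <;> linarith

lemma log_norm_eq {x : mixedSpace K} (hx : mixedEmbedding.norm x ≠ 0) :
    Real.log (mixedEmbedding.norm x) = ∑ w, (mult w : ℝ) * Real.log (normAtPlace w x) := by
  rw [mixedEmbedding.norm_apply, Real.log_prod]
  · simp [Real.log_pow]
  · intro w _
    exact pow_ne_zero _ (mixedEmbedding.norm_ne_zero_iff.mp hx w)

omit [NumberField K] in
lemma mult_le_two (w : InfinitePlace K) : (mult w : ℝ) ≤ 2 := by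
  rw [mult]; split_ifs <;> norm_num

lemma sum_mult_eq_real : ∑ w : InfinitePlace K, (mult w : ℝ) = (finrank ℚ K : ℝ) := by
  rw [← Nat.cast_sum, sum_mult_eq]

/-! ### Deviations of the logarithms -/

/-- Deviation of the log-norm at `w` from the average. -/
noncomputable def dev (x : mixedSpace K) (w : InfinitePlace K) : ℝ :=
  Real.log (normAtPlace w x) - Real.log (mixedEmbedding.norm x) * (finrank ℚ K : ℝ)⁻¹

lemma logMap_eq_mult_dev (x : mixedSpace K) (w : {w : InfinitePlace K // w ≠ w₀}) :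
    logMap x w = mult w.val * dev x w.val := rfl

lemma finrank_pos_real : (0 : ℝ) < (finrank ℚ K : ℝ) := by
  exact_mod_cast (finrank_pos : 0 < finrank ℚ K)

lemma sum_mult_dev {x : mixedSpace K} (hx : mixedEmbedding.norm x ≠ 0) :
    ∑ w, (mult w : ℝ) * dev x w = 0 := by
  unfold dev
  simp_rw [mul_sub]
  rw [Finset.sum_sub_distrib, ← log_norm_eq hx, ← Finset.sum_mul, sum_mult_eq_real]
  have := (finrank_pos_real (K := K)).ne'
  field_simp
  ring

/-- A bound for `‖logMap x‖` on the support of `phi`. -/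
noncomputable def M0 (K : Type*) [Field K] [NumberField K] : ℝ := ∑ i, ‖logBasis K i‖

lemma M0_nonneg : 0 ≤ M0 K := Finset.sum_nonneg fun _ _ => norm_nonneg _

lemma norm_logMap_le {x : mixedSpace K} (h : ∀ i, |unitCoord K x i| ≤ 1) :
    ‖logMap x‖ ≤ M0 K := by
  have e : logMap x = ∑ i, unitCoord K x i • logBasis K i :=
    ((logBasis K).sum_repr (logMap x)).symm
  rw [e]
  refine (norm_sum_le _ _).trans (Finset.sum_le_sum fun i _ => ?_)
  rw [_root_.norm_smul, Real.norm_eq_abs]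
  calc |unitCoord K x i| * ‖logBasis K i‖ ≤ 1 * ‖logBasis K i‖ :=
        mul_le_mul_of_nonneg_right (h i) (norm_nonneg _)
    _ = ‖logBasis K i‖ := one_mul _

/-- A bound for all the deviations on the support of `phi`. -/
noncomputable def M1 (K : Type*) [Field K] [NumberField K] : ℝ :=
  (Fintype.card {w : InfinitePlace K // w ≠ w₀} + 1) * M0 K

lemma M1_nonneg : 0 ≤ M1 K := mul_nonneg (by positivity) M0_nonneg

lemma M0_le_M1 : M0 K ≤ M1 K := by
  unfold M1
  have := M0_nonneg (K := K)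
  have h : (0 : ℝ) ≤ Fintype.card {w : InfinitePlace K // w ≠ w₀} := by positivity
  nlinarith

lemma abs_dev_le {x : mixedSpace K} (hx : mixedEmbedding.norm x ≠ 0)
    (h : ∀ i, |unitCoord K x i| ≤ 1) (w : InfinitePlace K) : |dev x w| ≤ M1 K := by
  have hL := norm_logMap_le h
  have hcomp : ∀ v : {w : InfinitePlace K // w ≠ w₀}, |(mult v.val : ℝ) * dev x v.val| ≤ M0 K := by
    intro v
    rw [← logMap_eq_mult_dev, ← Real.norm_eq_abs]
    exact (norm_le_pi_norm (logMap x) v).trans hL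
  have hmul : ∀ v : InfinitePlace K, |dev x v| ≤ |(mult v : ℝ) * dev x v| := by
    intro v
    rw [abs_mul, abs_of_nonneg (by positivity : (0 : ℝ) ≤ (mult v : ℝ))]
    calc |dev x v| = 1 * |dev x v| := (one_mul _).symm
      _ ≤ (mult v : ℝ) * |dev x v| := mul_le_mul_of_nonneg_right one_le_mult (abs_nonneg _)
  by_cases hw : w = w₀
  · subst hw
    have hsum := sum_mult_dev hx
    rw [Fintype.sum_eq_add_sum_subtype_ne _ (w₀ : InfinitePlace K)] at hsum
    have e : (mult (w₀ : InfinitePlace K) : ℝ) * dev x w₀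
        = -∑ v : {w : InfinitePlace K // w ≠ w₀}, (mult v.val : ℝ) * dev x v.val := by linarith
    refine (hmul _).trans ?_
    rw [e, abs_neg]
    refine (Finset.abs_sum_le_sum_abs _ _).trans ?_
    calc ∑ v : {w : InfinitePlace K // w ≠ w₀}, |(mult v.val : ℝ) * dev x v.val|
        ≤ ∑ _v : {w : InfinitePlace K // w ≠ w₀}, M0 K := Finset.sum_le_sum fun v _ => hcomp v
      _ = Fintype.card {w : InfinitePlace K // w ≠ w₀} * M0 K := by
          rw [Finset.sum_const, Finset.card_univ, nsmul_eq_mul]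
      _ ≤ M1 K := by
          unfold M1
          have := M0_nonneg (K := K)
          nlinarith
  · exact ((hmul w).trans (hcomp ⟨w, hw⟩)).trans M0_le_M1

/-- The balance constant. -/
noncomputable def cbal (K : Type*) [Field K] [NumberField K] : ℝ := Real.exp (-(2 * M1 K))

lemma cbal_pos : 0 < cbal K := Real.exp_pos _

lemma cbal_le_one : cbal K ≤ 1 := by
  unfold cbal
  rw [← Real.exp_zero]
  exact Real.exp_le_exp.mpr (by linarith [M1_nonneg (K := K)])

/-- The points where `phi * norm ^ (-s)` may be nonzero. -/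
def Good (x : mixedSpace K) : Prop :=
  mixedEmbedding.norm x ≠ 0 ∧ ∀ i, |unitCoord K x i| ≤ 1

lemma normAtPlace_pos_of_norm_ne_zero {x : mixedSpace K} (hx : mixedEmbedding.norm x ≠ 0)
    (w : InfinitePlace K) : 0 < normAtPlace w x :=
  lt_of_le_of_ne (normAtPlace_nonneg _ _) (mixedEmbedding.norm_ne_zero_iff.mp hx w).symm

lemma Good.balanced {x : mixedSpace K} (hx : Good x) (w : InfinitePlace K) :
    cbal K * ‖x‖ ≤ normAtPlace w x := by
  obtain ⟨w', hw'⟩ := exists_normAtPlace_eq_norm x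
  have hpos := normAtPlace_pos_of_norm_ne_zero hx.1 w
  have hpos' := normAtPlace_pos_of_norm_ne_zero hx.1 w'
  have h1 := abs_dev_le hx.1 hx.2 w
  have h2 := abs_dev_le hx.1 hx.2 w'
  have h3 : Real.log (normAtPlace w x) - Real.log (normAtPlace w' x) = dev x w - dev x w' := by
    unfold dev; ring
  have h4 : -(2 * M1 K) + Real.log (normAtPlace w' x) ≤ Real.log (normAtPlace w x) := by
    have := (abs_le.mp h1).1
    have := (abs_le.mp h2).2
    linarith
  have h5 := Real.exp_le_exp.mpr h4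
  rw [Real.exp_add, Real.exp_log hpos, Real.exp_log hpos', hw'] at h5
  exact h5

lemma Good.norm_pos {x : mixedSpace K} (hx : Good x) : 0 < ‖x‖ := by
  obtain ⟨w', hw'⟩ := exists_normAtPlace_eq_norm x
  rw [← hw']
  exact normAtPlace_pos_of_norm_ne_zero hx.1 w'

lemma norm_ne_zero_of_forall_le {x : mixedSpace K} {ρ : ℝ} (hρ : 0 < ρ)
    (hx : ∀ w, ρ ≤ normAtPlace w x) : mixedEmbedding.norm x ≠ 0 :=
  mixedEmbedding.norm_ne_zero_iff.mpr fun w => (lt_of_lt_of_le hρ (hx w)).ne'

lemma log_norm_ge {x : mixedSpace K} {ρ : ℝ} (hρ : 0 < ρ)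
    (hx : ∀ w, ρ ≤ normAtPlace w x) :
    (finrank ℚ K : ℝ) * Real.log ρ ≤ Real.log (mixedEmbedding.norm x) := by
  rw [log_norm_eq (norm_ne_zero_of_forall_le hρ hx), ← sum_mult_eq_real, Finset.sum_mul]
  refine Finset.sum_le_sum fun w _ => ?_
  exact mul_le_mul_of_nonneg_left (Real.log_le_log hρ (hx w)) (by positivity)

/-! ### Comparison of two points with comparable coordinates -/

section compare

variable {x y : mixedSpace K} {δ : ℝ}

lemma abs_log_norm_sub_le (hx : mixedEmbedding.norm x ≠ 0) (hy : mixedEmbedding.norm y ≠ 0)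
    (h : ∀ w, |Real.log (normAtPlace w y) - Real.log (normAtPlace w x)| ≤ δ) :
    |Real.log (mixedEmbedding.norm y) - Real.log (mixedEmbedding.norm x)|
      ≤ (finrank ℚ K : ℝ) * δ := by
  rw [log_norm_eq hx, log_norm_eq hy, ← Finset.sum_sub_distrib, ← sum_mult_eq_real,
    Finset.sum_mul]
  refine (Finset.abs_sum_le_sum_abs _ _).trans (Finset.sum_le_sum fun w _ => ?_)
  rw [← mul_sub, abs_mul, abs_of_nonneg (by positivity : (0 : ℝ) ≤ (mult w : ℝ))]
  exact mul_le_mul_of_nonneg_left (h w) (by positivity)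

lemma abs_dev_sub_le (hx : mixedEmbedding.norm x ≠ 0) (hy : mixedEmbedding.norm y ≠ 0)
    (h : ∀ w, |Real.log (normAtPlace w y) - Real.log (normAtPlace w x)| ≤ δ)
    (w : InfinitePlace K) : |dev y w - dev x w| ≤ 2 * δ := by
  have h1 := abs_log_norm_sub_le hx hy h
  have hn := finrank_pos_real (K := K)
  have e : dev y w - dev x w = (Real.log (normAtPlace w y) - Real.log (normAtPlace w x))
      - (Real.log (mixedEmbedding.norm y) - Real.log (mixedEmbedding.norm x))
        * (finrank ℚ K : ℝ)⁻¹ := by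
    unfold dev; ring
  rw [e]
  have h2 : |(Real.log (mixedEmbedding.norm y) - Real.log (mixedEmbedding.norm x))
        * (finrank ℚ K : ℝ)⁻¹| ≤ δ := by
    rw [abs_mul, abs_of_pos (inv_pos.mpr hn)]
    calc |Real.log (mixedEmbedding.norm y) - Real.log (mixedEmbedding.norm x)|
          * (finrank ℚ K : ℝ)⁻¹ ≤ ((finrank ℚ K : ℝ) * δ) * (finrank ℚ K : ℝ)⁻¹ :=
          mul_le_mul_of_nonneg_right h1 (inv_pos.mpr hn).le
      _ = δ := by field_simp
  calc _ ≤ |Real.log (normAtPlace w y) - Real.log (normAtPlace w x)|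
        + |(Real.log (mixedEmbedding.norm y) - Real.log (mixedEmbedding.norm x))
          * (finrank ℚ K : ℝ)⁻¹| := abs_sub _ _
    _ ≤ δ + δ := add_le_add (h w) h2
    _ = 2 * δ := by ring

lemma delta_nonneg_of (h : ∀ w : InfinitePlace K,
    |Real.log (normAtPlace w y) - Real.log (normAtPlace w x)| ≤ δ) : 0 ≤ δ :=
  (abs_nonneg _).trans (h (w₀ : InfinitePlace K))

lemma norm_logMap_sub_le (hx : mixedEmbedding.norm x ≠ 0) (hy : mixedEmbedding.norm y ≠ 0)
    (h : ∀ w, |Real.log (normAtPlace w y) - Real.log (normAtPlace w x)| ≤ δ) :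
    ‖logMap y - logMap x‖ ≤ 4 * δ := by
  have hδ : 0 ≤ δ := delta_nonneg_of h
  rw [pi_norm_le_iff_of_nonneg (by positivity)]
  intro w
  rw [Pi.sub_apply, logMap_eq_mult_dev, logMap_eq_mult_dev, ← mul_sub, Real.norm_eq_abs, abs_mul,
    abs_of_nonneg (by positivity : (0 : ℝ) ≤ (mult w.val : ℝ))]
  calc (mult w.val : ℝ) * |dev y w.val - dev x w.val| ≤ 2 * (2 * δ) :=
        mul_le_mul (mult_le_two _) (abs_dev_sub_le hx hy h _) (abs_nonneg _) (by norm_num)
    _ = 4 * δ := by ring

/-- The sum of the operator norms of the coordinate functionals of `logBasis`. -/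
noncomputable def Mc (K : Type*) [Field K] [NumberField K] : ℝ :=
  ∑ i, ‖LinearMap.toContinuousLinearMap ((logBasis K).coord i)‖

lemma Mc_nonneg : 0 ≤ Mc K := Finset.sum_nonneg fun _ _ => norm_nonneg _

lemma abs_unitCoord_sub_le (hx : mixedEmbedding.norm x ≠ 0) (hy : mixedEmbedding.norm y ≠ 0)
    (h : ∀ w, |Real.log (normAtPlace w y) - Real.log (normAtPlace w x)| ≤ δ)
    (i : Fin (rank K)) :
    |unitCoord K y i - unitCoord K x i|
      ≤ ‖LinearMap.toContinuousLinearMap ((logBasis K).coord i)‖ * (4 * δ) := by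
  have e : unitCoord K y i - unitCoord K x i
      = LinearMap.toContinuousLinearMap ((logBasis K).coord i) (logMap y - logMap x) := by
    simp [unitCoord, Basis.coord_apply]
  rw [e, ← Real.norm_eq_abs]
  exact (ContinuousLinearMap.le_opNorm _ _).trans
    (mul_le_mul_of_nonneg_left (norm_logMap_sub_le hx hy h) (norm_nonneg _))

lemma abs_phi_sub_le (hx : mixedEmbedding.norm x ≠ 0) (hy : mixedEmbedding.norm y ≠ 0)
    (h : ∀ w, |Real.log (normAtPlace w y) - Real.log (normAtPlace w x)| ≤ δ) :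
    |phi K y - phi K x| ≤ Mc K * (4 * δ) := by
  unfold phi
  rw [← mul_sub, abs_mul]
  have hw : |((torsionOrder K : ℝ))⁻¹| ≤ 1 := by
    rw [abs_of_nonneg (by positivity)]
    exact inv_le_one_of_one_le₀ (by exact_mod_cast torsionOrder_pos K)
  have h1 : |∏ i, tent (unitCoord K y i) - ∏ i, tent (unitCoord K x i)|
      ≤ ∑ i, |tent (unitCoord K y i) - tent (unitCoord K x i)| :=
    abs_prod_sub_prod_le _ _ _ (fun i _ => ⟨tent_nonneg _, tent_le_one _⟩)
      (fun i _ => ⟨tent_nonneg _, tent_le_one _⟩)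
  have h2 : ∑ i, |tent (unitCoord K y i) - tent (unitCoord K x i)| ≤ Mc K * (4 * δ) := by
    unfold Mc
    rw [Finset.sum_mul]
    exact Finset.sum_le_sum fun i _ =>
      (tent_lipschitz _ _).trans (abs_unitCoord_sub_le hx hy h i)
  calc _ ≤ 1 * (Mc K * (4 * δ)) :=
        mul_le_mul hw (h1.trans h2) (abs_nonneg _) zero_le_one
    _ = Mc K * (4 * δ) := one_mul _

end compare

/-! ### The weighted function `phi * norm ^ (-s)` -/

/-- The weighted function `phi * norm ^ (-s)`. -/
noncomputable def Fs (K : Type*) [Field K] [NumberField K] (s : ℝ) (x : mixedSpace K) : ℝ :=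
  phi K x * mixedEmbedding.norm x ^ (-s)

lemma Fs_nonneg (s : ℝ) (x : mixedSpace K) : 0 ≤ Fs K s x :=
  mul_nonneg (phi_nonneg K x) (Real.rpow_nonneg (mixedEmbedding.norm_nonneg x) _)

lemma good_of_Fs_ne_zero {s : ℝ} (hs : s ≠ 0) {x : mixedSpace K} (h : Fs K s x ≠ 0) :
    Good x := by
  constructor
  · intro h0
    apply h
    unfold Fs
    rw [h0, Real.zero_rpow (neg_ne_zero.mpr hs), mul_zero]
  · intro i
    exact (abs_unitCoord_lt_one_of_phi_ne_zero K
      (fun h0 => h (by unfold Fs; rw [h0, zero_mul])) i).le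

lemma Fs_eq_zero_of_not_good {s : ℝ} (hs : s ≠ 0) {x : mixedSpace K} (h : ¬ Good x) :
    Fs K s x = 0 := by
  by_contra h'
  exact h (good_of_Fs_ne_zero hs h')

lemma rpow_neg_eq_exp {N s : ℝ} (hN : 0 < N) : N ^ (-s) = Real.exp (-(s * Real.log N)) := by
  rw [Real.rpow_def_of_pos hN]; congr 1; ring

lemma norm_pos_of_forall_le {x : mixedSpace K} {ρ : ℝ} (hρ : 0 < ρ)
    (hx : ∀ w, ρ ≤ normAtPlace w x) : 0 < mixedEmbedding.norm x :=
  lt_of_le_of_ne (mixedEmbedding.norm_nonneg x) (Ne.symm (norm_ne_zero_of_forall_le hρ hx))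

lemma norm_rpow_le {s : ℝ} (hs : 0 ≤ s) {x : mixedSpace K} {ρ : ℝ} (hρ : 0 < ρ)
    (hx : ∀ w, ρ ≤ normAtPlace w x) :
    mixedEmbedding.norm x ^ (-s) ≤ Real.exp (-(s * ((finrank ℚ K : ℝ) * Real.log ρ))) := by
  rw [rpow_neg_eq_exp (norm_pos_of_forall_le hρ hx)]
  apply Real.exp_le_exp.mpr
  have := mul_le_mul_of_nonneg_left (log_norm_ge hρ hx) hs
  linarith

lemma Fs_sub_le_of_near {s : ℝ} (hs1 : 1 ≤ s) (hs2 : s ≤ 2) {x y : mixedSpace K} {ρ : ℝ}
    (hρ : 0 < ρ) (hx : ∀ w, ρ ≤ normAtPlace w x) (hy : ∀ w, ρ ≤ normAtPlace w y) :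
    |Fs K s y - Fs K s x| ≤ (4 * Mc K + 2 * (finrank ℚ K : ℝ)) * (‖y - x‖ / ρ) *
      Real.exp (-(s * ((finrank ℚ K : ℝ) * Real.log ρ))) := by
  set δ := ‖y - x‖ / ρ with hδdef
  set P := Real.exp (-(s * ((finrank ℚ K : ℝ) * Real.log ρ))) with hPdef
  have hn := finrank_pos_real (K := K)
  have hNx := norm_ne_zero_of_forall_le hρ hx
  have hNy := norm_ne_zero_of_forall_le hρ hy
  have hNxp := norm_pos_of_forall_le hρ hx
  have hNyp := norm_pos_of_forall_le hρ hy
  have hδ : ∀ w, |Real.log (normAtPlace w y) - Real.log (normAtPlace w x)| ≤ δ := fun w =>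
    (abs_log_sub_log_le hρ (hy w) (hx w)).trans
      (div_le_div_of_nonneg_right (abs_normAtPlace_sub_le w x y) hρ.le)
  have hδ0 : 0 ≤ δ := delta_nonneg_of hδ
  have hP0 : 0 ≤ P := (Real.exp_pos _).le
  have h1 := abs_phi_sub_le hNx hNy hδ
  have h2 := abs_log_norm_sub_le hNx hNy hδ
  have hPy : mixedEmbedding.norm y ^ (-s) ≤ P := norm_rpow_le (by linarith) hρ hy
  have hPx : mixedEmbedding.norm x ^ (-s) ≤ P := norm_rpow_le (by linarith) hρ hx
  have h3 : |mixedEmbedding.norm y ^ (-s) - mixedEmbedding.norm x ^ (-s)|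
      ≤ 2 * (finrank ℚ K : ℝ) * δ * P := by
    have hPy' := hPy
    have hPx' := hPx
    rw [rpow_neg_eq_exp hNyp] at hPy' ⊢
    rw [rpow_neg_eq_exp hNxp] at hPx' ⊢
    refine (abs_exp_sub_exp_le _ _).trans ?_
    have e : -(s * Real.log (mixedEmbedding.norm y)) - -(s * Real.log (mixedEmbedding.norm x))
        = -s * (Real.log (mixedEmbedding.norm y) - Real.log (mixedEmbedding.norm x)) := by ring
    have h4 : |-(s * Real.log (mixedEmbedding.norm y)) - -(s * Real.log (mixedEmbedding.norm x))|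
        ≤ 2 * ((finrank ℚ K : ℝ) * δ) := by
      rw [e, abs_mul, abs_neg, abs_of_nonneg (by linarith : (0 : ℝ) ≤ s)]
      exact mul_le_mul hs2 h2 (abs_nonneg _) (by norm_num)
    calc _ ≤ (2 * ((finrank ℚ K : ℝ) * δ)) * P :=
          mul_le_mul h4 (max_le hPy' hPx') (le_max_of_le_left (Real.exp_pos _).le)
            (by positivity)
      _ = 2 * (finrank ℚ K : ℝ) * δ * P := by ring
  have e : Fs K s y - Fs K s x = (phi K y - phi K x) * mixedEmbedding.norm y ^ (-s)
      + phi K x * (mixedEmbedding.norm y ^ (-s) - mixedEmbedding.norm x ^ (-s)) := by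
    unfold Fs; ring
  rw [e]
  have hNy0 : 0 ≤ mixedEmbedding.norm y ^ (-s) := Real.rpow_nonneg hNyp.le _
  calc _ ≤ |(phi K y - phi K x) * mixedEmbedding.norm y ^ (-s)|
        + |phi K x * (mixedEmbedding.norm y ^ (-s) - mixedEmbedding.norm x ^ (-s))| :=
        abs_add_le _ _
    _ = |phi K y - phi K x| * mixedEmbedding.norm y ^ (-s)
        + phi K x * |mixedEmbedding.norm y ^ (-s) - mixedEmbedding.norm x ^ (-s)| := by
        rw [abs_mul, abs_mul, abs_of_nonneg hNy0, abs_of_nonneg (phi_nonneg K x)]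
    _ ≤ (Mc K * (4 * δ)) * P + 1 * (2 * (finrank ℚ K : ℝ) * δ * P) := by
        apply add_le_add
        · exact mul_le_mul h1 hPy hNy0 (mul_nonneg Mc_nonneg (by positivity))
        · exact mul_le_mul (phi_le_one K x) h3 (abs_nonneg _) zero_le_one
    _ = (4 * Mc K + 2 * (finrank ℚ K : ℝ)) * δ * P := by ring

/-- Uniform bound at good points of norm at least `r ≥ 1`. -/
lemma Fs_le_of_good {s : ℝ} (hs1 : 1 ≤ s) (hs2 : s ≤ 2) {x : mixedSpace K} (hx : Good x)
    {r : ℝ} (hr : 1 ≤ r) (hrx : r ≤ ‖x‖) :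
    Fs K s x ≤ Real.exp (-(2 * (finrank ℚ K : ℝ) * Real.log (cbal K))) *
      Real.exp (-((finrank ℚ K : ℝ) * Real.log r)) := by
  have hn := finrank_pos_real (K := K)
  have hc := cbal_pos (K := K)
  have hxpos : 0 < ‖x‖ := by linarith
  have hρ : 0 < cbal K * ‖x‖ := mul_pos hc hxpos
  have h1 : mixedEmbedding.norm x ^ (-s)
      ≤ Real.exp (-(s * ((finrank ℚ K : ℝ) * Real.log (cbal K * ‖x‖)))) :=
    norm_rpow_le (by linarith) hρ hx.balanced
  have h2 : Fs K s x ≤ mixedEmbedding.norm x ^ (-s) := by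
    unfold Fs
    calc phi K x * mixedEmbedding.norm x ^ (-s) ≤ 1 * mixedEmbedding.norm x ^ (-s) :=
          mul_le_mul_of_nonneg_right (phi_le_one K x)
            (Real.rpow_nonneg (mixedEmbedding.norm_nonneg x) _)
      _ = _ := one_mul _
  refine h2.trans (h1.trans ?_)
  rw [← Real.exp_add]
  apply Real.exp_le_exp.mpr
  rw [Real.log_mul hc.ne' hxpos.ne']
  have hlc : Real.log (cbal K) ≤ 0 := Real.log_nonpos hc.le cbal_le_one
  have hlr : 0 ≤ Real.log r := Real.log_nonneg hr
  have hlx : Real.log r ≤ Real.log ‖x‖ := Real.log_le_log (by linarith) hrx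
  have a1 : s * ((finrank ℚ K : ℝ) * (-Real.log (cbal K)))
      ≤ 2 * ((finrank ℚ K : ℝ) * (-Real.log (cbal K))) :=
    mul_le_mul_of_nonneg_right hs2 (mul_nonneg hn.le (by linarith))
  have a2 : 1 * ((finrank ℚ K : ℝ) * Real.log r) ≤ s * ((finrank ℚ K : ℝ) * Real.log ‖x‖) :=
    mul_le_mul hs1 (mul_le_mul_of_nonneg_left hlx hn.le) (mul_nonneg hn.le hlr) (by linarith)
  nlinarith

/-- The Lipschitz constant. -/
noncomputable def CL (K : Type*) [Field K] [NumberField K] : ℝ :=
  (4 * Mc K + 2 * (finrank ℚ K : ℝ)) * (2 / cbal K) *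
      Real.exp (-(2 * (finrank ℚ K : ℝ) * Real.log (cbal K / 2)))
    + Real.exp (-(2 * (finrank ℚ K : ℝ) * Real.log (cbal K))) * (2 / cbal K)

lemma CL_nonneg : 0 ≤ CL K := by
  unfold CL
  have hc := cbal_pos (K := K)
  have := Mc_nonneg (K := K)
  have hn := finrank_pos_real (K := K)
  positivity

lemma Fs_sub_le_of_good {s : ℝ} (hs1 : 1 ≤ s) (hs2 : s ≤ 2) {x y : mixedSpace K} (hx : Good x)
    {r : ℝ} (hr : 1 ≤ r) (hrx : r ≤ ‖x‖) (hry : r ≤ ‖y‖) :
    |Fs K s y - Fs K s x| ≤ CL K * ‖y - x‖ *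
      (Real.exp (-((finrank ℚ K : ℝ) * Real.log r)) * r⁻¹) := by
  have hn := finrank_pos_real (K := K)
  have hc := cbal_pos (K := K)
  have hc1 := cbal_le_one (K := K)
  have hMc := Mc_nonneg (K := K)
  have hr0 : 0 < r := by linarith
  have hxpos : 0 < ‖x‖ := by linarith
  have hE0 : 0 < Real.exp (-((finrank ℚ K : ℝ) * Real.log r)) := Real.exp_pos _
  have hlr : 0 ≤ Real.log r := Real.log_nonneg hr
  have hd0 : 0 ≤ ‖y - x‖ := norm_nonneg _
  by_cases hnear : ‖y - x‖ ≤ cbal K / 2 * ‖x‖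
  · -- near case
    have hρ : 0 < cbal K / 2 * ‖x‖ := by positivity
    have hx' : ∀ w, cbal K / 2 * ‖x‖ ≤ normAtPlace w x := fun w => by
      have := hx.balanced w
      nlinarith
    have hy' : ∀ w, cbal K / 2 * ‖x‖ ≤ normAtPlace w y := fun w => by
      have h1 := hx.balanced w
      have h2 := (abs_le.mp (abs_normAtPlace_sub_le w x y)).1
      nlinarith
    have key := Fs_sub_le_of_near hs1 hs2 hρ hx' hy'
    refine key.trans ?_
    have hρ0 : 0 < cbal K / 2 * r := by positivity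
    have hρle : cbal K / 2 * r ≤ cbal K / 2 * ‖x‖ :=
      mul_le_mul_of_nonneg_left hrx (by positivity)
    -- the two factors
    have f1 : ‖y - x‖ / (cbal K / 2 * ‖x‖) ≤ ‖y - x‖ * ((2 / cbal K) * r⁻¹) := by
      rw [div_eq_mul_inv]
      apply mul_le_mul_of_nonneg_left _ hd0
      have : (cbal K / 2 * ‖x‖)⁻¹ ≤ (cbal K / 2 * r)⁻¹ := inv_anti₀ hρ0 hρle
      refine this.trans (le_of_eq ?_)
      field_simp
    have f2 : Real.exp (-(s * ((finrank ℚ K : ℝ) * Real.log (cbal K / 2 * ‖x‖))))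
        ≤ Real.exp (-(2 * (finrank ℚ K : ℝ) * Real.log (cbal K / 2))) *
          Real.exp (-((finrank ℚ K : ℝ) * Real.log r)) := by
      rw [← Real.exp_add]
      apply Real.exp_le_exp.mpr
      rw [Real.log_mul (by positivity) hxpos.ne']
      have hlc : Real.log (cbal K / 2) ≤ 0 := Real.log_nonpos (by positivity) (by linarith)
      have hlx : Real.log r ≤ Real.log ‖x‖ := Real.log_le_log hr0 hrx
      have a1 : s * ((finrank ℚ K : ℝ) * (-Real.log (cbal K / 2)))
          ≤ 2 * ((finrank ℚ K : ℝ) * (-Real.log (cbal K / 2))) :=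
        mul_le_mul_of_nonneg_right hs2 (mul_nonneg hn.le (by linarith))
      have a2 : 1 * ((finrank ℚ K : ℝ) * Real.log r)
          ≤ s * ((finrank ℚ K : ℝ) * Real.log ‖x‖) :=
        mul_le_mul hs1 (mul_le_mul_of_nonneg_left hlx hn.le) (mul_nonneg hn.le hlr)
          (by linarith)
      nlinarith
    have hA : 0 ≤ 4 * Mc K + 2 * (finrank ℚ K : ℝ) := by positivity
    calc (4 * Mc K + 2 * (finrank ℚ K : ℝ)) * (‖y - x‖ / (cbal K / 2 * ‖x‖)) *
          Real.exp (-(s * ((finrank ℚ K : ℝ) * Real.log (cbal K / 2 * ‖x‖))))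
        ≤ (4 * Mc K + 2 * (finrank ℚ K : ℝ)) * (‖y - x‖ * ((2 / cbal K) * r⁻¹)) *
          (Real.exp (-(2 * (finrank ℚ K : ℝ) * Real.log (cbal K / 2))) *
            Real.exp (-((finrank ℚ K : ℝ) * Real.log r))) := by
          apply mul_le_mul (mul_le_mul_of_nonneg_left f1 hA) f2 (Real.exp_pos _).le
          positivity
      _ = ((4 * Mc K + 2 * (finrank ℚ K : ℝ)) * (2 / cbal K) *
            Real.exp (-(2 * (finrank ℚ K : ℝ) * Real.log (cbal K / 2)))) * ‖y - x‖ *
          (Real.exp (-((finrank ℚ K : ℝ) * Real.log r)) * r⁻¹) := by ring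
      _ ≤ CL K * ‖y - x‖ * (Real.exp (-((finrank ℚ K : ℝ) * Real.log r)) * r⁻¹) := by
          apply mul_le_mul_of_nonneg_right _ (by positivity)
          apply mul_le_mul_of_nonneg_right _ hd0
          unfold CL
          have : 0 ≤ Real.exp (-(2 * (finrank ℚ K : ℝ) * Real.log (cbal K))) * (2 / cbal K) := by
            positivity
          linarith
  · -- far case
    rw [not_le] at hnear
    set G := Real.exp (-(2 * (finrank ℚ K : ℝ) * Real.log (cbal K))) *
      Real.exp (-((finrank ℚ K : ℝ) * Real.log r)) with hG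
    have hG0 : 0 ≤ G := by positivity
    have hFx : Fs K s x ≤ G := Fs_le_of_good hs1 hs2 hx hr hrx
    have hFy : Fs K s y ≤ G := by
      by_cases hy : Good y
      · exact Fs_le_of_good hs1 hs2 hy hr hry
      · rw [Fs_eq_zero_of_not_good (by linarith) hy]; exact hG0
    have habs : |Fs K s y - Fs K s x| ≤ G := by
      rw [abs_le]
      constructor <;> linarith [Fs_nonneg (K := K) s x, Fs_nonneg (K := K) s y]
    refine habs.trans ?_
    have hrle : r ≤ (2 / cbal K) * ‖y - x‖ := by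
      have h1 : cbal K / 2 * r ≤ ‖y - x‖ :=
        (mul_le_mul_of_nonneg_left hrx (by positivity)).trans hnear.le
      have h2 : r = (2 / cbal K) * (cbal K / 2 * r) := by field_simp
      rw [h2]
      exact mul_le_mul_of_nonneg_left h1 (by positivity)
    have hone : (1 : ℝ) ≤ ((2 / cbal K) * ‖y - x‖) * r⁻¹ := by
      rw [← div_eq_mul_inv, le_div_iff₀ hr0]
      linarith
    calc G = G * 1 := (mul_one _).symm
      _ ≤ G * (((2 / cbal K) * ‖y - x‖) * r⁻¹) := mul_le_mul_of_nonneg_left hone hG0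
      _ = (Real.exp (-(2 * (finrank ℚ K : ℝ) * Real.log (cbal K))) * (2 / cbal K)) * ‖y - x‖ *
          (Real.exp (-((finrank ℚ K : ℝ) * Real.log r)) * r⁻¹) := by rw [hG]; ring
      _ ≤ CL K * ‖y - x‖ * (Real.exp (-((finrank ℚ K : ℝ) * Real.log r)) * r⁻¹) := by
          apply mul_le_mul_of_nonneg_right _ (by positivity)
          apply mul_le_mul_of_nonneg_right _ hd0
          unfold CL
          have : 0 ≤ (4 * Mc K + 2 * (finrank ℚ K : ℝ)) * (2 / cbal K) *
              Real.exp (-(2 * (finrank ℚ K : ℝ) * Real.log (cbal K / 2))) := by positivity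
          linarith

lemma rpow_neg_sub_one {r : ℝ} (hr : 0 < r) (n : ℝ) :
    r ^ (-n - 1) = Real.exp (-(n * Real.log r)) * r⁻¹ := by
  rw [Real.rpow_def_of_pos hr, show Real.log r * (-n - 1) = -(n * Real.log r) + -Real.log r by ring,
    Real.exp_add, Real.exp_neg (Real.log r), Real.exp_log hr]

/-- **The Lipschitz estimate** for `Fs = phi * norm ^ (-s)`, uniform in `s ∈ [1, 2]`. -/
theorem Fs_lipschitz {s : ℝ} (hs1 : 1 ≤ s) (hs2 : s ≤ 2) (x y : mixedSpace K) {r : ℝ}
    (hr : 1 ≤ r) (hrx : r ≤ ‖x‖) (hry : r ≤ ‖y‖) :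
    |Fs K s x - Fs K s y| ≤ CL K * ‖x - y‖ * r ^ (-(finrank ℚ K : ℝ) - 1) := by
  rw [rpow_neg_sub_one (by linarith)]
  by_cases hx : Good x
  · rw [abs_sub_comm, norm_sub_rev]
    exact Fs_sub_le_of_good hs1 hs2 hx hr hrx hry
  · by_cases hy : Good y
    · exact Fs_sub_le_of_good hs1 hs2 hy hr hry hrx
    · rw [Fs_eq_zero_of_not_good (by linarith) hx, Fs_eq_zero_of_not_good (by linarith) hy,
        sub_zero, abs_zero]
      have := CL_nonneg (K := K)
      have hr0 : 0 < r := by linarith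
      positivity

end Fermat.Agent.S14.CZ
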