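import Mathlib

/-!
# S14, analytic piece AN1 (part 1): a Lipschitz partition of unity for the unit action

`tent`, its integer translates summing to one, the coordinates `unitCoord` of `logMap x` in the
basis of the unit lattice, the weight `phi` on the mixed space and the orbit-sum identity
`∑ u : (𝓞 K)ˣ, phi (u • x) = 1`.
-/

set_option autoImplicit false

namespace Fermat.Agent.S14.CZ

open NumberField NumberField.InfinitePlace NumberField.mixedEmbedding NumberField.Units
  NumberField.Units.dirichletUnitTheorem Module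

/-- The tent function `max 0 (1 - |t|)`. -/
noncomputable def tent (t : ℝ) : ℝ := max 0 (1 - |t|)

lemma tent_nonneg (t : ℝ) : 0 ≤ tent t := le_max_left _ _

lemma tent_le_one (t : ℝ) : tent t ≤ 1 := by
  unfold tent; exact max_le zero_le_one (by linarith [abs_nonneg t])

lemma tent_eq_zero {t : ℝ} (h : 1 ≤ |t|) : tent t = 0 := by
  unfold tent; exact max_eq_left (by linarith)

lemma abs_lt_one_of_tent_ne_zero {t : ℝ} (h : tent t ≠ 0) : |t| < 1 := by
  by_contra h'
  exact h (tent_eq_zero (not_lt.mp h'))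

lemma tent_lipschitz (a b : ℝ) : |tent a - tent b| ≤ |a - b| := by
  unfold tent
  calc |max 0 (1 - |a|) - max 0 (1 - |b|)| ≤ |(1 - |a|) - (1 - |b|)| := by
        rw [max_comm 0, max_comm 0]; exact abs_max_sub_max_le_abs _ _ _
    _ = |(|b| - |a|)| := by congr 1; ring
    _ ≤ |b - a| := abs_abs_sub_abs_le_abs_sub _ _
    _ = |a - b| := abs_sub_comm _ _

/-- The two integers `k` for which `tent (t + k)` may be nonzero. -/
noncomputable def tentSupp (t : ℝ) : Finset ℤ := {-⌊t⌋, -⌊t⌋ - 1}

lemma tent_add_eq_zero {t : ℝ} {k : ℤ} (hk : k ∉ tentSupp t) : tent (t + k) = 0 := by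
  apply tent_eq_zero
  simp only [tentSupp, Finset.mem_insert, Finset.mem_singleton, not_or] at hk
  obtain ⟨h1, h2⟩ := hk
  have hf0 := Int.fract_nonneg t
  have hf1 := Int.fract_lt_one t
  have ht : t = Int.fract t + ⌊t⌋ := (Int.fract_add_floor t).symm
  rcases lt_or_gt_of_ne (show k + ⌊t⌋ ≠ 0 by omega) with h | h
  · have h' : k + ⌊t⌋ ≤ -2 := by omega
    have h'' : ((k : ℝ) + (⌊t⌋ : ℝ)) ≤ -2 := by exact_mod_cast h'
    rw [le_abs]; right; linarith
  · have h' : 1 ≤ k + ⌊t⌋ := by omega
    have h'' : (1 : ℝ) ≤ ((k : ℝ) + (⌊t⌋ : ℝ)) := by exact_mod_cast h'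
    rw [le_abs]; left; linarith

lemma sum_tentSupp (t : ℝ) : ∑ k ∈ tentSupp t, tent (t + k) = 1 := by
  have hf0 := Int.fract_nonneg t
  have hf1 := Int.fract_lt_one t
  have ht : t = Int.fract t + ⌊t⌋ := (Int.fract_add_floor t).symm
  rw [tentSupp, Finset.sum_pair (by omega)]
  have e1 : t + ((-⌊t⌋ : ℤ) : ℝ) = Int.fract t := by push_cast; linarith
  have e2 : t + ((-⌊t⌋ - 1 : ℤ) : ℝ) = Int.fract t - 1 := by push_cast; linarith
  rw [e1, e2]
  unfold tent
  rw [abs_of_nonneg hf0, abs_of_nonpos (by linarith), max_eq_right (by linarith),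
    max_eq_right (by linarith)]
  ring

section pi

variable {ι : Type*} [Fintype ι] [DecidableEq ι]

/-- The finite support of `k ↦ ∏ i, tent (t i + k i)`. -/
noncomputable def tentSuppPi (t : ι → ℝ) : Finset (ι → ℤ) :=
  Fintype.piFinset fun i => tentSupp (t i)

lemma prod_tent_eq_zero {t : ι → ℝ} {k : ι → ℤ} (hk : k ∉ tentSuppPi t) :
    ∏ i, tent (t i + k i) = 0 := by
  simp only [tentSuppPi, Fintype.mem_piFinset, not_forall] at hk
  obtain ⟨i, hi⟩ := hk
  exact Finset.prod_eq_zero (Finset.mem_univ i) (tent_add_eq_zero hi)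

lemma sum_tentSuppPi (t : ι → ℝ) : ∑ k ∈ tentSuppPi t, ∏ i, tent (t i + k i) = 1 := by
  rw [tentSuppPi, ← Finset.prod_univ_sum (fun i => tentSupp (t i)) (fun i (j : ℤ) => tent (t i + j))]
  simp [sum_tentSupp]

end pi

variable (K : Type*) [Field K] [NumberField K]

/-- The real basis of the log space given by the basis of the unit lattice. -/
noncomputable def logBasis : Basis (Fin (rank K)) ℝ (logSpace K) := by
  classical
  exact (basisUnitLattice K).ofZLatticeBasis ℝ (unitLattice K)

lemma logBasis_apply (i : Fin (rank K)) :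
    logBasis K i = logEmbedding K (Additive.ofMul (fundSystem K i)) := by
  rw [logBasis, Basis.ofZLatticeBasis_apply, logEmbedding_fundSystem]

/-- Coordinates of `logMap x` in the basis of the unit lattice. -/
noncomputable def unitCoord (x : mixedSpace K) (i : Fin (rank K)) : ℝ :=
  (logBasis K).repr (logMap x) i

/-- The weight function: a partition of unity for the action of the units on the mixed space. -/
noncomputable def phi (x : mixedSpace K) : ℝ :=
  (torsionOrder K : ℝ)⁻¹ * ∏ i, tent (unitCoord K x i)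

lemma phi_nonneg (x : mixedSpace K) : 0 ≤ phi K x :=
  mul_nonneg (by positivity) (Finset.prod_nonneg fun i _ => tent_nonneg _)

lemma phi_le_one (x : mixedSpace K) : phi K x ≤ 1 := by
  have h1 : (1 : ℝ) ≤ torsionOrder K := by exact_mod_cast torsionOrder_pos K
  have h2 : ∏ i, tent (unitCoord K x i) ≤ 1 :=
    Finset.prod_le_one (fun i _ => tent_nonneg _) (fun i _ => tent_le_one _)
  have h3 : 0 ≤ ∏ i, tent (unitCoord K x i) := Finset.prod_nonneg fun i _ => tent_nonneg _
  unfold phi
  calc (torsionOrder K : ℝ)⁻¹ * ∏ i, tent (unitCoord K x i) ≤ 1 * 1 :=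
        mul_le_mul (inv_le_one_of_one_le₀ h1) h2 h3 zero_le_one
    _ = 1 := one_mul 1

lemma abs_unitCoord_lt_one_of_phi_ne_zero {x : mixedSpace K} (h : phi K x ≠ 0)
    (i : Fin (rank K)) : |unitCoord K x i| < 1 := by
  apply abs_lt_one_of_tent_ne_zero
  intro h0
  exact h (by unfold phi; rw [Finset.prod_eq_zero (Finset.mem_univ i) h0, mul_zero])

variable {K}

/-- The unit `ζ * ∏ i, fundSystem i ^ e i`. -/
noncomputable def unitOf (p : torsion K × (Fin (rank K) → ℤ)) : (𝓞 K)ˣ :=
  (p.1 : (𝓞 K)ˣ) * ∏ i, fundSystem K i ^ p.2 i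

lemma unitOf_bijective : Function.Bijective (unitOf (K := K)) := by
  constructor
  · intro p q h
    obtain ⟨r, -, hr⟩ := exist_unique_eq_mul_prod K (unitOf p)
    rw [hr p rfl, hr q h]
  · intro u
    obtain ⟨r, hr, -⟩ := exist_unique_eq_mul_prod K u
    exact ⟨r, hr.symm⟩

lemma logEmbedding_unitOf (p : torsion K × (Fin (rank K) → ℤ)) :
    logEmbedding K (Additive.ofMul (unitOf p)) = ∑ i, ((p.2 i : ℤ) : ℝ) • logBasis K i := by
  have h0 : logEmbedding K (Additive.ofMul (p.1 : (𝓞 K)ˣ)) = 0 :=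
    logEmbedding_eq_zero_iff.mpr p.1.2
  rw [unitOf, ofMul_mul, map_add, h0, zero_add, ofMul_prod, map_sum]
  refine Finset.sum_congr rfl fun i _ => ?_
  rw [ofMul_zpow, map_zsmul, logBasis_apply, Int.cast_smul_eq_zsmul]

lemma unitCoord_unitOf_smul (p : torsion K × (Fin (rank K) → ℤ)) {x : mixedSpace K}
    (hx : mixedEmbedding.norm x ≠ 0) (i : Fin (rank K)) :
    unitCoord K (unitOf p • x) i = unitCoord K x i + p.2 i := by
  unfold unitCoord
  rw [logMap_unit_smul _ hx, logEmbedding_unitOf, map_add, Finsupp.add_apply,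
    Basis.repr_sum_self]
  ring

lemma phi_unitOf_smul (p : torsion K × (Fin (rank K) → ℤ)) {x : mixedSpace K}
    (hx : mixedEmbedding.norm x ≠ 0) :
    phi K (unitOf p • x) =
      (torsionOrder K : ℝ)⁻¹ * ∏ i, tent (unitCoord K x i + p.2 i) := by
  unfold phi
  simp_rw [unitCoord_unitOf_smul p hx]

/-- The orbit-sum identity: `phi` is a partition of unity for the unit action. -/
theorem hasSum_phi_unit_smul {x : mixedSpace K} (hx : mixedEmbedding.norm x ≠ 0) :
    HasSum (fun u : (𝓞 K)ˣ => phi K (u • x)) 1 := by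
  classical
  let _ : Fintype (torsion K) := Fintype.ofFinite _
  rw [← (Equiv.ofBijective _ (unitOf_bijective (K := K))).hasSum_iff]
  have hfun : (fun u : (𝓞 K)ˣ => phi K (u • x)) ∘ (Equiv.ofBijective _ (unitOf_bijective (K := K)))
      = fun p : torsion K × (Fin (rank K) → ℤ) =>
        (torsionOrder K : ℝ)⁻¹ * ∏ i, tent (unitCoord K x i + p.2 i) := by
    funext p
    simp only [Function.comp_apply, Equiv.ofBijective_apply]
    exact phi_unitOf_smul p hx
  rw [hfun]
  set t : Fin (rank K) → ℝ := fun i => unitCoord K x i with ht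
  have hsupp : ∀ p : torsion K × (Fin (rank K) → ℤ),
      p ∉ (Finset.univ : Finset (torsion K)) ×ˢ tentSuppPi t →
      (torsionOrder K : ℝ)⁻¹ * ∏ i, tent (unitCoord K x i + p.2 i) = 0 := by
    intro p hp
    have hp' : p.2 ∉ tentSuppPi t := by
      intro h
      exact hp (Finset.mem_product.mpr ⟨Finset.mem_univ _, h⟩)
    rw [prod_tent_eq_zero (t := t) hp', mul_zero]
  have h : HasSum (fun p : torsion K × (Fin (rank K) → ℤ) =>
      (torsionOrder K : ℝ)⁻¹ * ∏ i, tent (unitCoord K x i + p.2 i))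
      (∑ p ∈ (Finset.univ : Finset (torsion K)) ×ˢ tentSuppPi t,
        (torsionOrder K : ℝ)⁻¹ * ∏ i, tent (unitCoord K x i + p.2 i)) :=
    hasSum_sum_of_ne_finset_zero hsupp
  convert h using 1
  rw [Finset.sum_product]
  simp only [← Finset.mul_sum]
  rw [sum_tentSuppPi t]
  simp only [mul_one, Finset.sum_const, Finset.card_univ, nsmul_eq_mul]
  rw [← Nat.card_eq_fintype_card, ← torsionOrder,
    inv_mul_cancel₀ (Nat.cast_ne_zero.mpr (torsionOrder_ne_zero K))]

end Fermat.Agent.S14.CZ
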