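import Fermat.Agent.S14.ZetaBounds

/-!
# S14 piece AN1 (unfolding): the partial zeta function of an ideal class as a sum over an ideal

For an ideal class `c` and an integral ideal `J` in the class `c⁻¹`, the ideals `I` in the
class `c` correspond to the nonzero elements `a ∈ J` up to units (`I * J = (a)`), and
`N(I) * N(J) = |N(a)|`.  For any nonnegative weight `φ` on the mixed space whose sums over
unit orbits are `1`, this gives
`ζ(s, c) = N(J)^s * ∑_{a ∈ J} φ(ι a) * |N(a)|^{-s}`.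
-/

set_option autoImplicit false

open NumberField NumberField.mixedEmbedding
open scoped nonZeroDivisors

namespace Fermat.Agent.S14

section czu

variable (F : Type) [Field F] [NumberField F]

/-- The norm of the image of an algebraic integer in the mixed space is the absolute norm of
the principal ideal it generates. -/
theorem czu_norm_eq (a : 𝓞 F) :
    mixedEmbedding.norm (mixedEmbedding F (a : F)) = (Ideal.absNorm (Ideal.span {a}) : ℝ) := by
  rw [mixedEmbedding.norm_eq_norm, Ideal.absNorm_span_singleton, ← Algebra.coe_norm_int,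
    Nat.cast_natAbs]
  simp

theorem czu_norm_unit_mul (u : (𝓞 F)ˣ) (a : 𝓞 F) :
    mixedEmbedding.norm (mixedEmbedding F (((u : 𝓞 F) * a : 𝓞 F) : F)) =
      mixedEmbedding.norm (mixedEmbedding F (a : F)) := by
  rw [czu_norm_eq, czu_norm_eq, Ideal.span_singleton_mul_left_unit u.isUnit]

/-- **Unfolding of the partial zeta function.** -/
theorem classZeta_unfold (c : ClassGroup (𝓞 F)) :
    ∃ J : (Ideal (𝓞 F))⁰, ∀ φ : mixedSpace F → ℝ, (∀ x, 0 ≤ φ x) →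
      (∀ x, mixedEmbedding.norm x ≠ 0 →
        HasSum (fun u : (𝓞 F)ˣ ↦ φ (mixedEmbedding F ((u : 𝓞 F) : F) * x)) 1) →
      ∀ s : ℝ, 1 < s →
        Summable (fun a : (J : Ideal (𝓞 F)) ↦ φ (mixedEmbedding F ((a : 𝓞 F) : F)) *
          mixedEmbedding.norm (mixedEmbedding F ((a : 𝓞 F) : F)) ^ (-s)) ∧
        classZeta F c s = (Ideal.absNorm (J : Ideal (𝓞 F)) : ℝ) ^ s *
          ∑' a : (J : Ideal (𝓞 F)), φ (mixedEmbedding F ((a : 𝓞 F) : F)) *
            mixedEmbedding.norm (mixedEmbedding F ((a : 𝓞 F) : F)) ^ (-s) := by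
  classical
  obtain ⟨J, hJ⟩ := ClassGroup.mk0_surjective (R := 𝓞 F) c⁻¹
  refine ⟨J, ?_⟩
  have hJ0 : (J : Ideal (𝓞 F)) ≠ ⊥ := nonZeroDivisors.ne_zero J.2
  have hI0 : ∀ I : (Ideal (𝓞 F))⁰, (I : Ideal (𝓞 F)) ≠ ⊥ := fun I => nonZeroDivisors.ne_zero I.2
  -- generators of `I * J`
  have hprin : ∀ I : {I : (Ideal (𝓞 F))⁰ // ClassGroup.mk0 I = c},
      ∃ a : 𝓞 F, ((I.1 : Ideal (𝓞 F)) * (J : Ideal (𝓞 F))) = Ideal.span {a} := by
    intro I
    have h1 : ClassGroup.mk0 (I.1 * J) = 1 := by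
      rw [map_mul, I.2, hJ, mul_inv_cancel]
    have h2 : ((I.1 * J : (Ideal (𝓞 F))⁰) : Ideal (𝓞 F)).IsPrincipal :=
      (ClassGroup.mk0_eq_one_iff (I.1 * J).2).mp h1
    obtain ⟨a, ha⟩ := h2
    exact ⟨a, ha⟩
  choose gen hgen using hprin
  have hgen0 : ∀ I, gen I ≠ 0 := by
    intro I h0
    have h1 := hgen I
    rw [h0, Ideal.span_singleton_eq_bot.mpr rfl, Ideal.mul_eq_bot] at h1
    rcases h1 with h1 | h1
    · exact hI0 I.1 h1
    · exact hJ0 h1
  have hgenJ : ∀ I, gen I ∈ (J : Ideal (𝓞 F)) := by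
    intro I
    rw [← Ideal.span_singleton_le_iff_mem, ← hgen I]
    exact (Ideal.mul_le_right : (I.1 : Ideal (𝓞 F)) * (J : Ideal (𝓞 F)) ≤ (J : Ideal (𝓞 F)))
  have hgenN : ∀ I, mixedEmbedding.norm (mixedEmbedding F (gen I : F)) =
      (Ideal.absNorm (I.1 : Ideal (𝓞 F)) : ℝ) * (Ideal.absNorm (J : Ideal (𝓞 F)) : ℝ) := by
    intro I
    rw [czu_norm_eq, ← hgen I, map_mul, Nat.cast_mul]
  have hNJ : (0 : ℝ) < (Ideal.absNorm (J : Ideal (𝓞 F)) : ℝ) := by
    have : Ideal.absNorm (J : Ideal (𝓞 F)) ≠ 0 := by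
      rw [Ne, Ideal.absNorm_eq_zero_iff]; exact hJ0
    exact_mod_cast Nat.pos_of_ne_zero this
  have hNI : ∀ I : (Ideal (𝓞 F))⁰, (0 : ℝ) < (Ideal.absNorm (I : Ideal (𝓞 F)) : ℝ) := by
    intro I
    have : Ideal.absNorm (I : Ideal (𝓞 F)) ≠ 0 := by
      rw [Ne, Ideal.absNorm_eq_zero_iff]; exact hI0 I
    exact_mod_cast Nat.pos_of_ne_zero this
  intro φ hφ0 hφ s hs
  -- the function on `J`
  set f : ↥(J : Ideal (𝓞 F)) → ℝ := fun a => φ (mixedEmbedding F ((a : 𝓞 F) : F)) *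
      mixedEmbedding.norm (mixedEmbedding F ((a : 𝓞 F) : F)) ^ (-s) with hf
  -- the parametrisation
  let Φ : {I : (Ideal (𝓞 F))⁰ // ClassGroup.mk0 I = c} × (𝓞 F)ˣ → ↥(J : Ideal (𝓞 F)) :=
    fun p => ⟨(p.2 : 𝓞 F) * gen p.1, Ideal.mul_mem_left _ _ (hgenJ p.1)⟩
  have hΦinj : Function.Injective Φ := by
    rintro ⟨I, u⟩ ⟨I', u'⟩ h
    have h' : (u : 𝓞 F) * gen I = (u' : 𝓞 F) * gen I' := congrArg Subtype.val h
    have h1 : Ideal.span {gen I} = Ideal.span {gen I'} := by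
      rw [← Ideal.span_singleton_mul_left_unit u.isUnit, h',
        Ideal.span_singleton_mul_left_unit u'.isUnit]
    rw [← hgen I, ← hgen I'] at h1
    have h2 : (I.1 : Ideal (𝓞 F)) = (I'.1 : Ideal (𝓞 F)) := mul_right_cancel₀ hJ0 h1
    have h3 : I = I' := Subtype.ext (Subtype.ext h2)
    subst h3
    have h4 : u = u' := Units.ext (mul_right_cancel₀ (hgen0 I) h')
    rw [h4]
  have hΦrange : ∀ a : (J : Ideal (𝓞 F)), (a : 𝓞 F) ≠ 0 → a ∈ Set.range Φ := by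
    intro a ha
    have h1 : Ideal.span {(a : 𝓞 F)} ≤ (J : Ideal (𝓞 F)) :=
      (Ideal.span_singleton_le_iff_mem _).mpr a.2
    obtain ⟨I0, hI0'⟩ := Ideal.dvd_iff_le.mpr h1
    have hI0ne : I0 ≠ ⊥ := by
      rintro rfl
      rw [Ideal.mul_bot, Ideal.span_singleton_eq_bot] at hI0'
      exact ha hI0'
    let I1 : (Ideal (𝓞 F))⁰ := ⟨I0, mem_nonZeroDivisors_of_ne_zero hI0ne⟩
    have hspan_mem : Ideal.span {(a : 𝓞 F)} ∈ (Ideal (𝓞 F))⁰ :=
      mem_nonZeroDivisors_of_ne_zero (by rwa [Ne, Ideal.zero_eq_bot, Ideal.span_singleton_eq_bot])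
    have hcls : ClassGroup.mk0 I1 = c := by
      have h2 : ClassGroup.mk0 (I1 * J) = 1 := by
        have h3 : (I1 * J : (Ideal (𝓞 F))⁰) = ⟨Ideal.span {(a : 𝓞 F)}, hspan_mem⟩ := by
          apply Subtype.ext
          show I0 * (J : Ideal (𝓞 F)) = Ideal.span {(a : 𝓞 F)}
          rw [hI0', mul_comm]
        rw [h3, ClassGroup.mk0_eq_one_iff]
        exact ⟨⟨(a : 𝓞 F), rfl⟩⟩
      rw [map_mul, hJ, mul_inv_eq_one] at h2
      exact h2
    have h4 : Ideal.span {gen ⟨I1, hcls⟩} = Ideal.span {(a : 𝓞 F)} := by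
      rw [← hgen ⟨I1, hcls⟩, hI0', mul_comm]
    obtain ⟨u, hu⟩ := Ideal.span_singleton_eq_span_singleton.mp h4
    refine ⟨(⟨I1, hcls⟩, u), ?_⟩
    apply Subtype.ext
    show (u : 𝓞 F) * gen ⟨I1, hcls⟩ = (a : 𝓞 F)
    rw [mul_comm]; exact hu
  have hsupp : ∀ a : (J : Ideal (𝓞 F)), a ∉ Set.range Φ → f a = 0 := by
    intro a ha
    have h0 : (a : 𝓞 F) = 0 := by
      by_contra h
      exact ha (hΦrange a h)
    simp only [hf, h0]
    have hs0 : -s ≠ 0 := by linarith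
    simp [Real.zero_rpow hs0]
  -- values on the parametrisation
  have hval : ∀ (I : {I : (Ideal (𝓞 F))⁰ // ClassGroup.mk0 I = c}) (u : (𝓞 F)ˣ),
      f (Φ (I, u)) = φ (mixedEmbedding F ((u : 𝓞 F) : F) * mixedEmbedding F (gen I : F)) *
        mixedEmbedding.norm (mixedEmbedding F (gen I : F)) ^ (-s) := by
    intro I u
    show φ (mixedEmbedding F (((u : 𝓞 F) * gen I : 𝓞 F) : F)) *
        mixedEmbedding.norm (mixedEmbedding F (((u : 𝓞 F) * gen I : 𝓞 F) : F)) ^ (-s) = _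
    rw [czu_norm_unit_mul]
    congr 2
    rw [← map_mul]
    congr 1
  have hnorm_ne : ∀ I, mixedEmbedding.norm (mixedEmbedding F (gen I : F)) ≠ 0 := by
    intro I
    rw [hgenN]
    exact (mul_pos (hNI I.1) hNJ).ne'
  have hfib : ∀ I : {I : (Ideal (𝓞 F))⁰ // ClassGroup.mk0 I = c},
      HasSum (fun u : (𝓞 F)ˣ => f (Φ (I, u)))
        ((Ideal.absNorm (I.1 : Ideal (𝓞 F)) : ℝ) ^ (-s) *
          (Ideal.absNorm (J : Ideal (𝓞 F)) : ℝ) ^ (-s)) := by
    intro I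
    have h := (hφ _ (hnorm_ne I)).mul_right
      (mixedEmbedding.norm (mixedEmbedding F (gen I : F)) ^ (-s))
    rw [one_mul] at h
    have hfun : (fun u : (𝓞 F)ˣ => f (Φ (I, u))) = fun u : (𝓞 F)ˣ =>
        φ (mixedEmbedding F ((u : 𝓞 F) : F) * mixedEmbedding F (gen I : F)) *
          mixedEmbedding.norm (mixedEmbedding F (gen I : F)) ^ (-s) :=
      funext fun u => hval I u
    rw [hfun, ← Real.mul_rpow (hNI I.1).le hNJ.le, ← hgenN]
    exact h
  set g : {I : (Ideal (𝓞 F))⁰ // ClassGroup.mk0 I = c} × (𝓞 F)ˣ → ℝ := fun p => f (Φ p)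
    with hg
  have hg0 : 0 ≤ g := fun p =>
    mul_nonneg (hφ0 _) (Real.rpow_nonneg (mixedEmbedding.norm_nonneg _) _)
  have hsumI : Summable (fun I : {I : (Ideal (𝓞 F))⁰ // ClassGroup.mk0 I = c} =>
      (Ideal.absNorm (I.1 : Ideal (𝓞 F)) : ℝ) ^ (-s) *
        (Ideal.absNorm (J : Ideal (𝓞 F)) : ℝ) ^ (-s)) :=
    ((summable_idealZeta F s hs).comp_injective Subtype.val_injective).mul_right _
  have hgsum : Summable g := by
    rw [summable_prod_of_nonneg hg0]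
    refine ⟨fun I => (hfib I).summable, ?_⟩
    have : (fun I => ∑' u, g (I, u)) =
        fun I : {I : (Ideal (𝓞 F))⁰ // ClassGroup.mk0 I = c} =>
          (Ideal.absNorm (I.1 : Ideal (𝓞 F)) : ℝ) ^ (-s) *
            (Ideal.absNorm (J : Ideal (𝓞 F)) : ℝ) ^ (-s) :=
      funext fun I => (hfib I).tsum_eq
    rw [this]
    exact hsumI
  have hfsum : Summable f := (hΦinj.summable_iff hsupp).mp hgsum
  refine ⟨hfsum, ?_⟩
  have ht1 : ∑' a, f a = ∑' p, g p := (hΦinj.tsum_eq (f := f) (by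
    intro a ha
    by_contra h
    exact ha (hsupp a h))).symm
  have ht2 : ∑' p, g p = ∑' I : {I : (Ideal (𝓞 F))⁰ // ClassGroup.mk0 I = c},
      (Ideal.absNorm (I.1 : Ideal (𝓞 F)) : ℝ) ^ (-s) *
        (Ideal.absNorm (J : Ideal (𝓞 F)) : ℝ) ^ (-s) := by
    rw [hgsum.tsum_prod]
    exact tsum_congr fun I => (hfib I).tsum_eq
  rw [ht1, ht2, tsum_mul_right]
  unfold classZeta
  rw [mul_comm, mul_assoc, ← Real.rpow_add hNJ, neg_add_cancel, Real.rpow_zero, mul_one]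

end czu

end Fermat.Agent.S14
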