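import Fermat.Agent.S14.ZetaBounds

/-!
# S14 piece ANfin (core): the density contradiction from the three prime-sum bounds

`density_contra_of` is `density_contra` of the skeleton with the three analytic inputs
(`primeSum_ge`, `primeSum_ker_le`, `primeSum_powRes_le`) as explicit hypotheses.
-/

set_option autoImplicit false

open NumberField IsDedekindDomain Filter Ideal Topology
open scoped nonZeroDivisors

namespace Fermat.Agent.S14

section general

variable (F : Type) [Field F] [NumberField F]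

/-- `primeSum` as a sum of an indicator function over all primes. -/
theorem density_primeSum_eq (A : Set (HeightOneSpectrum (𝓞 F))) (s : ℝ) :
    primeSum A s = ∑' v : HeightOneSpectrum (𝓞 F),
      A.indicator (fun v => (Ideal.absNorm v.asIdeal : ℝ) ^ (-s)) v := by
  unfold primeSum
  exact tsum_subtype A (fun v : HeightOneSpectrum (𝓞 F) => (Ideal.absNorm v.asIdeal : ℝ) ^ (-s))

theorem density_summable_indicator (A : Set (HeightOneSpectrum (𝓞 F))) (s : ℝ) (hs : 1 < s) :
    Summable (A.indicator (fun v : HeightOneSpectrum (𝓞 F) =>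
      (Ideal.absNorm v.asIdeal : ℝ) ^ (-s))) :=
  summable_subtype_iff_indicator.mp (summable_primeSum F A s hs)

/-- Subadditivity of `primeSum` along a cover by three sets. -/
theorem density_primeSum_le_union (S T U V : Set (HeightOneSpectrum (𝓞 F)))
    (hsub : S ⊆ T ∪ U ∪ V) (s : ℝ) (hs : 1 < s) :
    primeSum S s ≤ primeSum T s + primeSum U s + primeSum V s := by
  set g : HeightOneSpectrum (𝓞 F) → ℝ := fun v => (Ideal.absNorm v.asIdeal : ℝ) ^ (-s) with hg
  have hnn : ∀ v, 0 ≤ g v := fun v => Real.rpow_nonneg (Nat.cast_nonneg _) _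
  have hsum : ∀ A : Set (HeightOneSpectrum (𝓞 F)), Summable (A.indicator g) := fun A =>
    density_summable_indicator F A s hs
  have hind : ∀ (A : Set (HeightOneSpectrum (𝓞 F))) (v : HeightOneSpectrum (𝓞 F)),
      0 ≤ A.indicator g v := fun A v => Set.indicator_nonneg (fun v _ => hnn v) v
  rw [density_primeSum_eq, density_primeSum_eq, density_primeSum_eq, density_primeSum_eq,
    ← (hsum T).tsum_add (hsum U), ← ((hsum T).add (hsum U)).tsum_add (hsum V)]
  refine (hsum S).tsum_le_tsum (fun v => ?_) (((hsum T).add (hsum U)).add (hsum V))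
  by_cases hv : v ∈ S
  · rw [Set.indicator_of_mem hv]
    rcases hsub hv with (hT | hU) | hV
    · rw [Set.indicator_of_mem hT]
      linarith [hind U v, hind V v]
    · rw [Set.indicator_of_mem hU]
      linarith [hind T v, hind V v]
    · rw [Set.indicator_of_mem hV]
      linarith [hind T v, hind U v]
  · rw [Set.indicator_of_notMem hv]
    linarith [hind T v, hind U v, hind V v]

/-- Only finitely many primes contain a given nonzero integer. -/
theorem density_finite_primes_over (n : ℕ) (hn : n ≠ 0) :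
    {v : HeightOneSpectrum (𝓞 F) | (n : 𝓞 F) ∈ v.asIdeal}.Finite := by
  have h0 : Ideal.span {(n : 𝓞 F)} ≠ 0 := by
    rw [Ideal.zero_eq_bot, Ne, Ideal.span_singleton_eq_bot]
    exact_mod_cast hn
  refine (Ideal.finite_factors h0).subset (fun v hv => ?_)
  exact Ideal.dvd_span_singleton.mpr hv

/-- A finite set of primes contributes a bounded amount. -/
theorem density_primeSum_finite_le (V : Set (HeightOneSpectrum (𝓞 F))) (hV : V.Finite) (s : ℝ)
    (hs : 0 ≤ s) : primeSum V s ≤ (hV.toFinset.card : ℝ) := by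
  rw [density_primeSum_eq, tsum_eq_sum (s := hV.toFinset) (fun v hv => by
    rw [Set.Finite.mem_toFinset] at hv
    exact Set.indicator_of_notMem hv _)]
  calc ∑ v ∈ hV.toFinset, V.indicator (fun v => (Ideal.absNorm v.asIdeal : ℝ) ^ (-s)) v
      ≤ ∑ v ∈ hV.toFinset, (1 : ℝ) := by
        refine Finset.sum_le_sum (fun v hv => ?_)
        rw [Set.Finite.mem_toFinset] at hv
        rw [Set.indicator_of_mem hv]
        have h1 : (1 : ℝ) ≤ (Ideal.absNorm v.asIdeal : ℝ) := by
          have h2 : Ideal.absNorm v.asIdeal ≠ 0 := by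
            rw [Ne, Ideal.absNorm_eq_zero_iff]
            exact v.ne_bot
          exact_mod_cast Nat.one_le_iff_ne_zero.mpr h2
        exact Real.rpow_le_one_of_one_le_of_nonpos h1 (by linarith)
    _ = (hV.toFinset.card : ℝ) := by simp

/-- AN-fin (core): the density contradiction, with the three prime-sum bounds as hypotheses. -/
theorem density_contra_of (p : ℕ) [Fact p.Prime] (h3 : 3 ≤ p)
    (ψ : ClassGroup (𝓞 F) →* Multiplicative (ZMod p)) (e : (𝓞 F)ˣ)
    (hge : ∃ C δ : ℝ, 0 < δ ∧ ∀ s : ℝ, 1 < s → s < 1 + δ →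
      Real.log (1 / (s - 1)) - C ≤
        primeSum {v : HeightOneSpectrum (𝓞 F) | (Ideal.absNorm v.asIdeal).Prime} s)
    (hker : ∃ C δ : ℝ, 0 < δ ∧ ∀ s : ℝ, 1 < s → s < 1 + δ →
      primeSum {v : HeightOneSpectrum (𝓞 F) | ψ (primeClass v) = 1} s ≤
        (1 / (p : ℝ)) * Real.log (1 / (s - 1)) + C)
    (hpow : ∃ C δ : ℝ, 0 < δ ∧ ∀ s : ℝ, 1 < s → s < 1 + δ →
      primeSum {v : HeightOneSpectrum (𝓞 F) | (p : 𝓞 F) ∉ v.asIdeal ∧ (e : 𝓞 F) ∉ v.asIdeal ∧
          ∃ x : 𝓞 F, (e : 𝓞 F) - x ^ p ∈ v.asIdeal} s ≤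
        (1 / (p : ℝ)) * Real.log (1 / (s - 1)) + C)
    (h : ∀ v : HeightOneSpectrum (𝓞 F), (Ideal.absNorm v.asIdeal).Prime →
      (p : 𝓞 F) ∉ v.asIdeal → ψ (primeClass v) ≠ 1 → ∃ x : 𝓞 F, (e : 𝓞 F) - x ^ p ∈ v.asIdeal) :
    False := by
  obtain ⟨C₀, δ₀, hδ₀, hge⟩ := hge
  obtain ⟨C₁, δ₁, hδ₁, hker⟩ := hker
  obtain ⟨C₂, δ₂, hδ₂, hpow⟩ := hpow
  have hp0 : p ≠ 0 := (Fact.out : p.Prime).ne_zero
  have hfin := density_finite_primes_over F p hp0
  set K₃ : ℝ := (hfin.toFinset.card : ℝ) with hK₃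
  -- the cover
  have hsub : {v : HeightOneSpectrum (𝓞 F) | (Ideal.absNorm v.asIdeal).Prime} ⊆
      {v : HeightOneSpectrum (𝓞 F) | ψ (primeClass v) = 1} ∪
      {v : HeightOneSpectrum (𝓞 F) | (p : 𝓞 F) ∉ v.asIdeal ∧ (e : 𝓞 F) ∉ v.asIdeal ∧
          ∃ x : 𝓞 F, (e : 𝓞 F) - x ^ p ∈ v.asIdeal} ∪
      {v : HeightOneSpectrum (𝓞 F) | (p : 𝓞 F) ∈ v.asIdeal} := by
    intro v hv
    by_cases hpv : (p : 𝓞 F) ∈ v.asIdeal
    · exact Or.inr hpv
    · by_cases hψv : ψ (primeClass v) = 1
      · exact Or.inl (Or.inl hψv)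
      · refine Or.inl (Or.inr ⟨hpv, ?_, h v hv hpv hψv⟩)
        intro hev
        exact v.isPrime.ne_top (Ideal.eq_top_of_isUnit_mem _ hev e.isUnit)
  set M : ℝ := C₀ + C₁ + C₂ + K₃ with hM
  -- choose `s`
  set t : ℝ := min (min (δ₀ / 2) (δ₁ / 2)) (min (δ₂ / 2) (Real.exp (-(3 * |M| + 3)))) with ht
  have ht0 : 0 < t := by
    rw [ht]
    refine lt_min (lt_min (by linarith) (by linarith)) (lt_min (by linarith) (Real.exp_pos _))
  have ht₀ : t < δ₀ := lt_of_le_of_lt ((min_le_left _ _).trans (min_le_left _ _)) (by linarith)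
  have ht₁ : t < δ₁ := lt_of_le_of_lt ((min_le_left _ _).trans (min_le_right _ _)) (by linarith)
  have ht₂ : t < δ₂ := lt_of_le_of_lt ((min_le_right _ _).trans (min_le_left _ _)) (by linarith)
  have hte : t ≤ Real.exp (-(3 * |M| + 3)) := (min_le_right _ _).trans (min_le_right _ _)
  have hs1 : 1 < 1 + t := by linarith
  have h0 := hge (1 + t) hs1 (by linarith)
  have h1 := hker (1 + t) hs1 (by linarith)
  have h2 := hpow (1 + t) hs1 (by linarith)
  have h3' := density_primeSum_finite_le F _ hfin (1 + t) (by linarith)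
  have hcov := density_primeSum_le_union F _ _ _ _ hsub (1 + t) hs1
  have hL : Real.log (1 / (1 + t - 1)) = -Real.log t := by
    rw [add_sub_cancel_left, one_div, Real.log_inv]
  rw [hL] at h0 h1 h2
  have hlog : Real.log t ≤ -(3 * |M| + 3) := (Real.log_le_iff_le_exp ht0).mpr hte
  have hp3 : (1 : ℝ) / (p : ℝ) ≤ 1 / 3 :=
    one_div_le_one_div_of_le (by norm_num) (by exact_mod_cast h3)
  have hLpos : 0 ≤ -Real.log t := by
    have := abs_nonneg M
    linarith
  have hmul : (1 / (p : ℝ)) * (-Real.log t) ≤ (1 / 3) * (-Real.log t) :=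
    mul_le_mul_of_nonneg_right hp3 hLpos
  have hMabs : M ≤ |M| := le_abs_self M
  -- combine
  have hfinal : -Real.log t - C₀ ≤ (1 / 3) * (-Real.log t) + C₁ + ((1 / 3) * (-Real.log t) + C₂)
      + K₃ := by linarith
  linarith

end general

end Fermat.Agent.S14
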