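import Fermat.Agent.S14.Defs
import Fermat.Agent.S14.EulerProd
import Fermat.Agent.S14.ZetaBounds

/-!
# S14 piece ANc (core): primes in the kernel of a nontrivial class group functional

The set of primes `v` with `ψ [v] = 1` has upper Dirichlet density at most `1 / p`, in the form
`∑_{ψ [v] = 1} N v ^ (-s) ≤ (1 / p) log (1 / (s - 1)) + C`.  Only upper bounds for the `L`-series
of class group characters are used: `|L(s, χ)| ≤ C` near `1` for `χ ≠ 1`, which follows from the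
boundedness of the differences of the partial zeta functions.
-/

set_option autoImplicit false
set_option linter.unusedSectionVars false

open NumberField IsDedekindDomain Filter Topology
open scoped nonZeroDivisors

namespace Fermat.Agent.S14

/-! ### Elementary inequalities -/

theorem psk_norm_one_sub_le (z : ℂ) : ‖1 - z‖ ≤ Real.exp (‖z‖ ^ 2 - z.re) := by
  have h1 : ‖1 - z‖ ^ 2 = 1 - 2 * z.re + ‖z‖ ^ 2 := by
    rw [Complex.sq_norm, Complex.sq_norm, Complex.normSq_apply, Complex.normSq_apply]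
    simp only [Complex.sub_re, Complex.one_re, Complex.sub_im, Complex.one_im]
    ring
  have h2 : ‖1 - z‖ ^ 2 ≤ (Real.exp (‖z‖ ^ 2 - z.re)) ^ 2 := by
    rw [h1, ← Real.exp_nat_mul]
    have := Real.add_one_le_exp (((2 : ℕ) : ℝ) * (‖z‖ ^ 2 - z.re))
    push_cast at this ⊢
    nlinarith [sq_nonneg ‖z‖]
  exact (pow_le_pow_iff_left₀ (norm_nonneg _) (Real.exp_pos _).le two_ne_zero).mp h2

/-- The logarithmic bound for an absolutely convergent Euler product. -/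
theorem psk_log_bound {ι : Type*} (g : ι → ℂ) (hg1 : ∀ i, ‖g i‖ < 1)
    (hs : Summable fun i => ‖g i‖) (hs2 : Summable fun i => ‖g i‖ ^ 2)
    (L : ℂ) (hL : HasProd (fun i => (1 - g i)⁻¹) L) :
    0 < ‖L‖ ∧ ∑' i, (g i).re ≤ Real.log ‖L‖ + ∑' i, ‖g i‖ ^ 2 := by
  have hre : Summable fun i => (g i).re := Complex.reCLM.summable hs.of_norm
  have hsum : HasSum (fun i => (g i).re - ‖g i‖ ^ 2) (∑' i, (g i).re - ∑' i, ‖g i‖ ^ 2) :=
    hre.hasSum.sub hs2.hasSum
  have hprod := hsum.rexp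
  have hle : Real.exp (∑' i, (g i).re - ∑' i, ‖g i‖ ^ 2) ≤ ‖L‖ := by
    have h1 : Tendsto (fun T : Finset ι => ∏ i ∈ T, Real.exp ((g i).re - ‖g i‖ ^ 2)) atTop
        (𝓝 (Real.exp (∑' i, (g i).re - ∑' i, ‖g i‖ ^ 2))) := hprod
    have h2 : Tendsto (fun T : Finset ι => ∏ i ∈ T, ‖(1 - g i)⁻¹‖) atTop (𝓝 ‖L‖) := hL.norm
    refine le_of_tendsto_of_tendsto' h1 h2 (fun T => ?_)
    refine Finset.prod_le_prod (fun i _ => (Real.exp_pos _).le) (fun i _ => ?_)
    rw [norm_inv]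
    have hne : 0 < ‖1 - g i‖ := by
      rw [norm_pos_iff, sub_ne_zero]
      intro h
      have := hg1 i
      rw [← h] at this
      simp at this
    rw [le_inv_comm₀ (Real.exp_pos _) hne, ← Real.exp_neg]
    have := psk_norm_one_sub_le (g i)
    rwa [neg_sub]
  have hpos : 0 < ‖L‖ := lt_of_lt_of_le (Real.exp_pos _) hle
  refine ⟨hpos, ?_⟩
  have := (Real.le_log_iff_exp_le hpos).mpr hle
  linarith

section general

variable (F : Type) [Field F] [NumberField F]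

/-! ### The characters `χ_k = e(k ψ / p)` of the class group -/

/-- The character `c ↦ e(k ψ(c) / p)` of the class group. -/
noncomputable def pskChi (p : ℕ) [Fact p.Prime]
    (ψ : ClassGroup (𝓞 F) →* Multiplicative (ZMod p)) (k : ZMod p) (c : ClassGroup (𝓞 F)) : ℂ :=
  haveI : NeZero p := ⟨(Fact.out : p.Prime).ne_zero⟩
  ZMod.stdAddChar (k * Multiplicative.toAdd (ψ c))

variable {F}

theorem pskChi_mul (p : ℕ) [Fact p.Prime] (ψ : ClassGroup (𝓞 F) →* Multiplicative (ZMod p))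
    (k : ZMod p) (c c' : ClassGroup (𝓞 F)) :
    pskChi F p ψ k (c * c') = pskChi F p ψ k c * pskChi F p ψ k c' := by
  unfold pskChi
  rw [show ψ (c * c') = ψ c * ψ c' from map_mul ψ c c', toAdd_mul, mul_add,
    AddChar.map_add_eq_mul]

theorem pskChi_one (p : ℕ) [Fact p.Prime] (ψ : ClassGroup (𝓞 F) →* Multiplicative (ZMod p))
    (k : ZMod p) : pskChi F p ψ k 1 = 1 := by
  unfold pskChi
  rw [map_one, toAdd_one, mul_zero, AddChar.map_zero_eq_one]

theorem pskChi_norm (p : ℕ) [Fact p.Prime] (ψ : ClassGroup (𝓞 F) →* Multiplicative (ZMod p))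
    (k : ZMod p) (c : ClassGroup (𝓞 F)) : ‖pskChi F p ψ k c‖ = 1 := by
  have : NeZero p := ⟨(Fact.out : p.Prime).ne_zero⟩
  unfold pskChi
  exact AddChar.norm_apply _ _

theorem pskChi_zero (p : ℕ) [Fact p.Prime] (ψ : ClassGroup (𝓞 F) →* Multiplicative (ZMod p))
    (c : ClassGroup (𝓞 F)) : pskChi F p ψ 0 c = 1 := by
  unfold pskChi
  rw [zero_mul, AddChar.map_zero_eq_one]

/-- Orthogonality over `k`. -/
theorem pskChi_sum_k (p : ℕ) [Fact p.Prime] (ψ : ClassGroup (𝓞 F) →* Multiplicative (ZMod p))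
    (c : ClassGroup (𝓞 F)) :
    ∑ k : ZMod p, pskChi F p ψ k c = if ψ c = 1 then (p : ℂ) else 0 := by
  have : NeZero p := ⟨(Fact.out : p.Prime).ne_zero⟩
  unfold pskChi
  rw [AddChar.sum_mulShift (Multiplicative.toAdd (ψ c)) (ZMod.isPrimitive_stdAddChar p)]
  have hiff : Multiplicative.toAdd (ψ c) = 0 ↔ ψ c = 1 := Iff.rfl
  by_cases h : ψ c = 1
  · rw [if_pos h, if_pos (hiff.mpr h), ZMod.card]
  · rw [if_neg h, if_neg (fun h' => h (hiff.mp h'))]
    simp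

/-- A nontrivial character sums to zero over the class group. -/
theorem pskChi_sum_c (p : ℕ) [Fact p.Prime] (ψ : ClassGroup (𝓞 F) →* Multiplicative (ZMod p))
    (hψ : ψ ≠ 1) (k : ZMod p) (hk : k ≠ 0) :
    ∑ c : ClassGroup (𝓞 F), pskChi F p ψ k c = 0 := by
  have : NeZero p := ⟨(Fact.out : p.Prime).ne_zero⟩
  obtain ⟨c₀, hc₀⟩ : ∃ c₀, ψ c₀ ≠ 1 := by
    by_contra h
    push Not at h
    exact hψ (MonoidHom.ext h)
  have hne : pskChi F p ψ k c₀ ≠ 1 := by
    unfold pskChi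
    intro h
    rw [← AddChar.map_zero_eq_one (ZMod.stdAddChar (N := p))] at h
    have h0 := ZMod.injective_stdAddChar h
    rcases mul_eq_zero.mp h0 with h1 | h1
    · exact hk h1
    · exact hc₀ h1
  have hS : ∑ c : ClassGroup (𝓞 F), pskChi F p ψ k c =
      pskChi F p ψ k c₀ * ∑ c : ClassGroup (𝓞 F), pskChi F p ψ k c := by
    rw [Finset.mul_sum]
    rw [← Fintype.sum_equiv (Equiv.mulLeft c₀) (fun c => pskChi F p ψ k (c₀ * c))
      (fun c => pskChi F p ψ k c) (fun c => rfl)]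
    exact Finset.sum_congr rfl (fun c _ => pskChi_mul p ψ k c₀ c)
  have h2 : (1 - pskChi F p ψ k c₀) * ∑ c : ClassGroup (𝓞 F), pskChi F p ψ k c = 0 := by
    rw [sub_mul, one_mul, ← hS, sub_self]
  rcases mul_eq_zero.mp h2 with h | h
  · exact absurd (sub_eq_zero.mp h).symm hne
  · exact h

/-! ### The completely multiplicative functions `χ_k([I]) N(I)^{-s}` -/

variable (F)

open Classical in
/-- The function `I ↦ χ_k([I]) N(I)^{-s}` on ideals (zero at the zero ideal). -/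
noncomputable def pskF (p : ℕ) [Fact p.Prime]
    (ψ : ClassGroup (𝓞 F) →* Multiplicative (ZMod p)) (k : ZMod p) (s : ℝ) (I : Ideal (𝓞 F)) : ℂ :=
  if h : I = 0 then 0 else
    pskChi F p ψ k (ClassGroup.mk0 ⟨I, mem_nonZeroDivisors_of_ne_zero h⟩) *
      (((Ideal.absNorm I : ℝ) ^ (-s) : ℝ) : ℂ)

variable {F}

theorem pskF_coe (p : ℕ) [Fact p.Prime] (ψ : ClassGroup (𝓞 F) →* Multiplicative (ZMod p))
    (k : ZMod p) (s : ℝ) (I : (Ideal (𝓞 F))⁰) :
    pskF F p ψ k s (I : Ideal (𝓞 F)) =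
      pskChi F p ψ k (ClassGroup.mk0 I) * (((Ideal.absNorm (I : Ideal (𝓞 F)) : ℝ) ^ (-s) : ℝ) : ℂ) := by
  unfold pskF
  rw [dif_neg (nonZeroDivisors.coe_ne_zero I)]

theorem pskF_prime (p : ℕ) [Fact p.Prime] (ψ : ClassGroup (𝓞 F) →* Multiplicative (ZMod p))
    (k : ZMod p) (s : ℝ) (v : HeightOneSpectrum (𝓞 F)) :
    pskF F p ψ k s v.asIdeal =
      pskChi F p ψ k (primeClass v) * (((Ideal.absNorm v.asIdeal : ℝ) ^ (-s) : ℝ) : ℂ) := by
  unfold pskF
  rw [dif_neg (show v.asIdeal ≠ 0 from v.ne_bot)]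
  rfl

theorem pskF_norm (p : ℕ) [Fact p.Prime] (ψ : ClassGroup (𝓞 F) →* Multiplicative (ZMod p))
    (k : ZMod p) (s : ℝ) (I : (Ideal (𝓞 F))⁰) :
    ‖pskF F p ψ k s (I : Ideal (𝓞 F))‖ = (Ideal.absNorm (I : Ideal (𝓞 F)) : ℝ) ^ (-s) := by
  rw [pskF_coe, norm_mul, pskChi_norm, one_mul, Complex.norm_real, Real.norm_eq_abs,
    abs_of_nonneg (Real.rpow_nonneg (Nat.cast_nonneg _) _)]

theorem pskF_top (p : ℕ) [Fact p.Prime] (ψ : ClassGroup (𝓞 F) →* Multiplicative (ZMod p))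
    (k : ZMod p) (s : ℝ) : pskF F p ψ k s ⊤ = 1 := by
  have h := pskF_coe p ψ k s (1 : (Ideal (𝓞 F))⁰)
  rw [map_one, pskChi_one] at h
  have h1 : ((1 : (Ideal (𝓞 F))⁰) : Ideal (𝓞 F)) = ⊤ := by
    rw [Submonoid.coe_one, Ideal.one_eq_top]
  rw [h1] at h
  rw [h, Ideal.absNorm_top]
  simp

theorem pskF_mul (p : ℕ) [Fact p.Prime] (ψ : ClassGroup (𝓞 F) →* Multiplicative (ZMod p))
    (k : ZMod p) (s : ℝ) (I J : Ideal (𝓞 F)) :
    pskF F p ψ k s (I * J) = pskF F p ψ k s I * pskF F p ψ k s J := by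
  by_cases hI : I = 0
  · subst hI
    simp [pskF]
  by_cases hJ : J = 0
  · subst hJ
    simp [pskF]
  have h1 := pskF_coe p ψ k s (⟨I, mem_nonZeroDivisors_of_ne_zero hI⟩ : (Ideal (𝓞 F))⁰)
  have h2 := pskF_coe p ψ k s (⟨J, mem_nonZeroDivisors_of_ne_zero hJ⟩ : (Ideal (𝓞 F))⁰)
  have h3 := pskF_coe p ψ k s ((⟨I, mem_nonZeroDivisors_of_ne_zero hI⟩ : (Ideal (𝓞 F))⁰) *
    ⟨J, mem_nonZeroDivisors_of_ne_zero hJ⟩)
  simp only [Submonoid.coe_mul] at h1 h2 h3
  rw [h1, h2, h3, map_mul, pskChi_mul, map_mul, Nat.cast_mul,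
    Real.mul_rpow (Nat.cast_nonneg _) (Nat.cast_nonneg _)]
  push_cast
  ring

/-! ### The `L`-series -/

variable (F)

/-- The value `L(s, χ_k)`. -/
noncomputable def pskL (p : ℕ) [Fact p.Prime]
    (ψ : ClassGroup (𝓞 F) →* Multiplicative (ZMod p)) (k : ZMod p) (s : ℝ) : ℂ :=
  ∑' I : (Ideal (𝓞 F))⁰, pskF F p ψ k s (I : Ideal (𝓞 F))

variable {F}

theorem pskF_summable (p : ℕ) [Fact p.Prime] (ψ : ClassGroup (𝓞 F) →* Multiplicative (ZMod p))
    (k : ZMod p) (s : ℝ) (hs : 1 < s) :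
    Summable fun I : (Ideal (𝓞 F))⁰ ↦ ‖pskF F p ψ k s (I : Ideal (𝓞 F))‖ := by
  simp only [pskF_norm]
  exact summable_idealZeta F s hs

theorem pskL_hasProd (p : ℕ) [Fact p.Prime] (ψ : ClassGroup (𝓞 F) →* Multiplicative (ZMod p))
    (k : ZMod p) (s : ℝ) (hs : 1 < s) :
    HasProd (fun v : HeightOneSpectrum (𝓞 F) ↦ (1 - pskF F p ψ k s v.asIdeal)⁻¹)
      (pskL F p ψ k s) :=
  eulerProduct_ideal F _ (pskF_top p ψ k s) (pskF_mul p ψ k s) (pskF_summable p ψ k s hs)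

/-- The norm of a prime is at least `2`. -/
theorem psk_two_le_absNorm (v : HeightOneSpectrum (𝓞 F)) : 2 ≤ Ideal.absNorm v.asIdeal := by
  have h0 : Ideal.absNorm v.asIdeal ≠ 0 := by
    rw [Ne, Ideal.absNorm_eq_zero_iff]
    exact v.ne_bot
  have h1 : Ideal.absNorm v.asIdeal ≠ 1 := by
    rw [Ne, Ideal.absNorm_eq_one_iff]
    exact v.isPrime.ne_top
  omega

theorem pskF_prime_norm (p : ℕ) [Fact p.Prime]
    (ψ : ClassGroup (𝓞 F) →* Multiplicative (ZMod p)) (k : ZMod p) (s : ℝ)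
    (v : HeightOneSpectrum (𝓞 F)) :
    ‖pskF F p ψ k s v.asIdeal‖ = (Ideal.absNorm v.asIdeal : ℝ) ^ (-s) := by
  rw [pskF_prime, norm_mul, pskChi_norm, one_mul, Complex.norm_real, Real.norm_eq_abs,
    abs_of_nonneg (Real.rpow_nonneg (Nat.cast_nonneg _) _)]

theorem psk_rpow_lt_one (v : HeightOneSpectrum (𝓞 F)) (s : ℝ) (hs : 0 < s) :
    (Ideal.absNorm v.asIdeal : ℝ) ^ (-s) < 1 := by
  have h2 : (2 : ℝ) ≤ (Ideal.absNorm v.asIdeal : ℝ) := by exact_mod_cast psk_two_le_absNorm v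
  exact Real.rpow_lt_one_of_one_lt_of_neg (by linarith) (by linarith)

theorem psk_rpow_le (v : HeightOneSpectrum (𝓞 F)) (s : ℝ) (hs : 1 ≤ s) :
    (Ideal.absNorm v.asIdeal : ℝ) ^ (-s) ≤ (Ideal.absNorm v.asIdeal : ℝ) ^ (-1 : ℝ) := by
  have h2 : (2 : ℝ) ≤ (Ideal.absNorm v.asIdeal : ℝ) := by exact_mod_cast psk_two_le_absNorm v
  exact Real.rpow_le_rpow_of_exponent_le (by linarith) (by linarith)

variable (F) in
theorem psk_summable_prime (s : ℝ) (hs : 1 < s) :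
    Summable fun v : HeightOneSpectrum (𝓞 F) ↦ (Ideal.absNorm v.asIdeal : ℝ) ^ (-s) := by
  have h := summable_primeSum F Set.univ s hs
  have h2 : Summable ((fun v : HeightOneSpectrum (𝓞 F) ↦ (Ideal.absNorm v.asIdeal : ℝ) ^ (-s)) ∘
      (Equiv.Set.univ (HeightOneSpectrum (𝓞 F)))) := h
  exact (Equiv.summable_iff _).mp h2

variable (F) in
theorem psk_summable_prime_sq :
    Summable fun v : HeightOneSpectrum (𝓞 F) ↦ ((Ideal.absNorm v.asIdeal : ℝ) ^ (-1 : ℝ)) ^ 2 := by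
  have h := psk_summable_prime F 2 (by norm_num)
  refine h.congr (fun v => ?_)
  rw [← Real.rpow_natCast, ← Real.rpow_mul (Nat.cast_nonneg _)]
  norm_num

/-- The per-character bound. -/
theorem psk_char_bound (p : ℕ) [Fact p.Prime] (ψ : ClassGroup (𝓞 F) →* Multiplicative (ZMod p))
    (k : ZMod p) (s : ℝ) (hs : 1 < s) :
    0 < ‖pskL F p ψ k s‖ ∧
    ∑' v : HeightOneSpectrum (𝓞 F), (pskF F p ψ k s v.asIdeal).re ≤
      Real.log ‖pskL F p ψ k s‖ +
        ∑' v : HeightOneSpectrum (𝓞 F), ((Ideal.absNorm v.asIdeal : ℝ) ^ (-1 : ℝ)) ^ 2 := by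
  have hn : ∀ v : HeightOneSpectrum (𝓞 F), ‖pskF F p ψ k s v.asIdeal‖ < 1 := fun v => by
    rw [pskF_prime_norm]
    exact psk_rpow_lt_one v s (by linarith)
  have hs1 : Summable fun v : HeightOneSpectrum (𝓞 F) => ‖pskF F p ψ k s v.asIdeal‖ := by
    simp only [pskF_prime_norm]
    exact psk_summable_prime F s hs
  have hle : ∀ v : HeightOneSpectrum (𝓞 F), ‖pskF F p ψ k s v.asIdeal‖ ^ 2 ≤
      ((Ideal.absNorm v.asIdeal : ℝ) ^ (-1 : ℝ)) ^ 2 := fun v => by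
    rw [pskF_prime_norm]
    exact pow_le_pow_left₀ (Real.rpow_nonneg (Nat.cast_nonneg _) _) (psk_rpow_le v s hs.le) 2
  have hs2 : Summable fun v : HeightOneSpectrum (𝓞 F) => ‖pskF F p ψ k s v.asIdeal‖ ^ 2 :=
    Summable.of_nonneg_of_le (fun v => sq_nonneg _) hle (psk_summable_prime_sq F)
  obtain ⟨hpos, hb⟩ := psk_log_bound (fun v : HeightOneSpectrum (𝓞 F) => pskF F p ψ k s v.asIdeal)
    hn hs1 hs2 _ (pskL_hasProd p ψ k s hs)
  refine ⟨hpos, hb.trans ?_⟩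
  have := hs2.tsum_le_tsum hle (psk_summable_prime_sq F)
  linarith

/-- The trivial character gives the Dedekind zeta function. -/
theorem pskL_zero (p : ℕ) [Fact p.Prime] (ψ : ClassGroup (𝓞 F) →* Multiplicative (ZMod p))
    (s : ℝ) : pskL F p ψ 0 s = ((idealZeta F s : ℝ) : ℂ) := by
  unfold pskL idealZeta
  rw [Complex.ofReal_tsum]
  refine tsum_congr (fun I => ?_)
  rw [pskF_coe, pskChi_zero, one_mul]

/-- Decomposition of `L(s, χ_k)` along ideal classes. -/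
theorem pskL_eq_sum (p : ℕ) [Fact p.Prime] (ψ : ClassGroup (𝓞 F) →* Multiplicative (ZMod p))
    (k : ZMod p) (s : ℝ) (hs : 1 < s) :
    pskL F p ψ k s = ∑ c : ClassGroup (𝓞 F), pskChi F p ψ k c * ((classZeta F c s : ℝ) : ℂ) := by
  have hsum : Summable fun I : (Ideal (𝓞 F))⁰ ↦ pskF F p ψ k s (I : Ideal (𝓞 F)) :=
    (pskF_summable p ψ k s hs).of_norm
  have h1 := hsum.hasSum.tsum_fiberwise (fun I : (Ideal (𝓞 F))⁰ => ClassGroup.mk0 I)
  have h2 := (hasSum_fintype (fun c : ClassGroup (𝓞 F) =>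
    ∑' b : ((fun I : (Ideal (𝓞 F))⁰ => ClassGroup.mk0 I) ⁻¹' {c}),
      pskF F p ψ k s ((b : (Ideal (𝓞 F))⁰) : Ideal (𝓞 F))))
  have h3 := h1.unique h2
  unfold pskL
  rw [h3]
  refine Finset.sum_congr rfl (fun c _ => ?_)
  unfold classZeta
  rw [Complex.ofReal_tsum, ← tsum_mul_left]
  refine tsum_congr (fun b => ?_)
  rw [pskF_coe]
  have hb : ClassGroup.mk0 (b : (Ideal (𝓞 F))⁰) = c := b.2
  rw [hb]

/-- Boundedness of `L(s, χ_k)` for `k ≠ 0`. -/
theorem pskL_bound (p : ℕ) [Fact p.Prime] (ψ : ClassGroup (𝓞 F) →* Multiplicative (ZMod p))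
    (hψ : ψ ≠ 1) (k : ZMod p) (hk : k ≠ 0) (C₁ : ℝ)
    (hC₁ : ∀ (c c' : ClassGroup (𝓞 F)) (s : ℝ), 1 < s → s ≤ 2 →
      |classZeta F c s - classZeta F c' s| ≤ C₁)
    (s : ℝ) (hs : 1 < s) (hs2 : s ≤ 2) :
    ‖pskL F p ψ k s‖ ≤ Fintype.card (ClassGroup (𝓞 F)) * C₁ := by
  rw [pskL_eq_sum p ψ k s hs]
  have h0 := pskChi_sum_c p ψ hψ k hk
  have h1 : ∑ c : ClassGroup (𝓞 F), pskChi F p ψ k c * ((classZeta F c s : ℝ) : ℂ) =
      ∑ c : ClassGroup (𝓞 F), pskChi F p ψ k c *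
        (((classZeta F c s - classZeta F 1 s : ℝ)) : ℂ) := by
    have : ∑ c : ClassGroup (𝓞 F), pskChi F p ψ k c * (((classZeta F c s - classZeta F 1 s : ℝ)) : ℂ)
        = ∑ c : ClassGroup (𝓞 F), pskChi F p ψ k c * ((classZeta F c s : ℝ) : ℂ) -
          (∑ c : ClassGroup (𝓞 F), pskChi F p ψ k c) * ((classZeta F 1 s : ℝ) : ℂ) := by
      rw [Finset.sum_mul, ← Finset.sum_sub_distrib]
      refine Finset.sum_congr rfl (fun c _ => ?_)
      push_cast
      ring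
    rw [this, h0, zero_mul, sub_zero]
  rw [h1]
  refine (norm_sum_le _ _).trans ?_
  have h2 : ∀ c ∈ (Finset.univ : Finset (ClassGroup (𝓞 F))),
      ‖pskChi F p ψ k c * (((classZeta F c s - classZeta F 1 s : ℝ)) : ℂ)‖ ≤ C₁ := fun c _ => by
    rw [norm_mul, pskChi_norm, one_mul, Complex.norm_real, Real.norm_eq_abs]
    exact hC₁ c 1 s hs hs2
  have h3 := Finset.sum_le_sum h2
  rw [Finset.sum_const, Finset.card_univ, nsmul_eq_mul] at h3
  exact h3

/-- Orthogonality at a prime. -/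
theorem psk_sum_k_prime (p : ℕ) [Fact p.Prime] (ψ : ClassGroup (𝓞 F) →* Multiplicative (ZMod p))
    (s : ℝ) (v : HeightOneSpectrum (𝓞 F)) :
    ∑ k : ZMod p, (pskF F p ψ k s v.asIdeal).re =
      (p : ℝ) * Set.indicator {v : HeightOneSpectrum (𝓞 F) | ψ (primeClass v) = 1}
        (fun v => (Ideal.absNorm v.asIdeal : ℝ) ^ (-s)) v := by
  have h1 : ∑ k : ZMod p, pskF F p ψ k s v.asIdeal =
      (if ψ (primeClass v) = 1 then (p : ℂ) else 0) *
        (((Ideal.absNorm v.asIdeal : ℝ) ^ (-s) : ℝ) : ℂ) := by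
    simp only [pskF_prime]
    rw [← Finset.sum_mul, pskChi_sum_k]
  have h2 : ∑ k : ZMod p, (pskF F p ψ k s v.asIdeal).re =
      (∑ k : ZMod p, pskF F p ψ k s v.asIdeal).re := (Complex.re_sum _ _).symm
  rw [h2, h1]
  by_cases hv : ψ (primeClass v) = 1
  · rw [if_pos hv, Set.indicator_of_mem (show v ∈ {v : HeightOneSpectrum (𝓞 F) |
      ψ (primeClass v) = 1} from hv)]
    rw [← Complex.ofReal_natCast, ← Complex.ofReal_mul, Complex.ofReal_re]
  · rw [if_neg hv, Set.indicator_of_notMem (show v ∉ {v : HeightOneSpectrum (𝓞 F) |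
      ψ (primeClass v) = 1} from hv)]
    simp

variable (F) in
/-- AN-c with the boundedness of the differences of the partial zeta functions as a
hypothesis. -/
theorem primeSum_ker_le_of (p : ℕ) [Fact p.Prime]
    (ψ : ClassGroup (𝓞 F) →* Multiplicative (ZMod p)) (hψ : ψ ≠ 1)
    (hAN : ∃ C : ℝ, ∀ (c c' : ClassGroup (𝓞 F)) (s : ℝ), 1 < s → s ≤ 2 →
      |classZeta F c s - classZeta F c' s| ≤ C) :
    ∃ C δ : ℝ, 0 < δ ∧ ∀ s : ℝ, 1 < s → s < 1 + δ →
      primeSum {v : HeightOneSpectrum (𝓞 F) | ψ (primeClass v) = 1} s ≤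
        (1 / (p : ℝ)) * Real.log (1 / (s - 1)) + C := by
  have hp0 : (0 : ℝ) < p := by exact_mod_cast (Fact.out : p.Prime).pos
  have : NeZero p := ⟨(Fact.out : p.Prime).ne_zero⟩
  obtain ⟨C₁, hC₁⟩ := hAN
  obtain ⟨c₀, C₀, δ₀, hc₀, hδ₀, hz⟩ := idealZeta_bounds F
  set M : ℝ := max (Fintype.card (ClassGroup (𝓞 F)) * C₁) 1 with hM
  have hM1 : 1 ≤ M := le_max_right _ _
  have hlogM : 0 ≤ Real.log M := Real.log_nonneg hM1
  set B₂ : ℝ := ∑' v : HeightOneSpectrum (𝓞 F), ((Ideal.absNorm v.asIdeal : ℝ) ^ (-1 : ℝ)) ^ 2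
    with hB₂
  refine ⟨(|Real.log C₀| + p * Real.log M + p * B₂) / p, min δ₀ 1, lt_min hδ₀ one_pos,
    fun s hs hsδ => ?_⟩
  have hs2 : s ≤ 2 := by
    have := min_le_right δ₀ 1
    linarith
  have hsδ₀ : s < 1 + δ₀ := by
    have := min_le_left δ₀ 1
    linarith
  have hs0 : 0 < s - 1 := by linarith
  set S : Set (HeightOneSpectrum (𝓞 F)) := {v : HeightOneSpectrum (𝓞 F) | ψ (primeClass v) = 1}
    with hS
  -- Step A
  have hsumre : ∀ k : ZMod p, Summable fun v : HeightOneSpectrum (𝓞 F) =>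
      (pskF F p ψ k s v.asIdeal).re := fun k => by
    have hs1 : Summable fun v : HeightOneSpectrum (𝓞 F) => ‖pskF F p ψ k s v.asIdeal‖ := by
      simp only [pskF_prime_norm]
      exact psk_summable_prime F s hs
    exact Complex.reCLM.summable hs1.of_norm
  have hA : (p : ℝ) * primeSum S s =
      ∑ k : ZMod p, ∑' v : HeightOneSpectrum (𝓞 F), (pskF F p ψ k s v.asIdeal).re := by
    rw [← Summable.tsum_finsetSum (fun k _ => hsumre k)]
    unfold primeSum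
    rw [tsum_subtype S (fun v : HeightOneSpectrum (𝓞 F) => (Ideal.absNorm v.asIdeal : ℝ) ^ (-s)),
      ← tsum_mul_left]
    exact tsum_congr (fun v => (psk_sum_k_prime p ψ s v).symm)
  -- Step B, C
  have hk : ∀ k : ZMod p, ∑' v : HeightOneSpectrum (𝓞 F), (pskF F p ψ k s v.asIdeal).re ≤
      (if k = 0 then |Real.log C₀| + Real.log (1 / (s - 1)) else 0) + Real.log M + B₂ := by
    intro k
    obtain ⟨hpos, hb⟩ := psk_char_bound p ψ k s hs
    by_cases hk0 : k = 0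
    · subst hk0
      rw [if_pos rfl]
      obtain ⟨hz1, hz2⟩ := hz s hs hsδ₀
      have hC₀ : 0 < C₀ := by
        have h1 : 0 < c₀ / (s - 1) := div_pos hc₀ hs0
        have h2 : 0 < C₀ / (s - 1) := lt_of_lt_of_le h1 (hz1.trans hz2)
        by_contra hneg
        push Not at hneg
        have := div_nonpos_of_nonpos_of_nonneg hneg hs0.le
        linarith
      have hnorm : ‖pskL F p ψ 0 s‖ ≤ C₀ / (s - 1) := by
        rw [pskL_zero, Complex.norm_real, Real.norm_eq_abs, abs_of_nonneg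
          (le_trans (div_pos hc₀ hs0).le hz1)]
        exact hz2
      have hlog : Real.log ‖pskL F p ψ 0 s‖ ≤ Real.log C₀ + Real.log (1 / (s - 1)) := by
        have h1 := Real.log_le_log hpos hnorm
        rw [div_eq_mul_one_div, Real.log_mul hC₀.ne' (one_div_pos.mpr hs0).ne'] at h1
        exact h1
      have := le_abs_self (Real.log C₀)
      linarith
    · rw [if_neg hk0]
      have hnorm : ‖pskL F p ψ k s‖ ≤ M :=
        (pskL_bound p ψ hψ k hk0 C₁ hC₁ s hs hs2).trans (le_max_left _ _)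
      have hlog := Real.log_le_log hpos hnorm
      linarith
  have hsum : (p : ℝ) * primeSum S s ≤
      |Real.log C₀| + Real.log (1 / (s - 1)) + p * Real.log M + p * B₂ := by
    rw [hA]
    refine (Finset.sum_le_sum (fun k _ => hk k)).trans (le_of_eq ?_)
    rw [Finset.sum_add_distrib, Finset.sum_add_distrib, Finset.sum_ite_eq' Finset.univ (0 : ZMod p),
      if_pos (Finset.mem_univ _), Finset.sum_const, Finset.sum_const, Finset.card_univ, ZMod.card,
      nsmul_eq_mul, nsmul_eq_mul]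
  have hfin : primeSum S s ≤ (|Real.log C₀| + Real.log (1 / (s - 1)) + p * Real.log M + p * B₂) / p := by
    rw [le_div_iff₀ hp0]
    linarith
  refine hfin.trans (le_of_eq ?_)
  field_simp
  ring

end general

end Fermat.Agent.S14
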