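import Fermat.Agent.S14.E2Basic

/-!
# S14, piece TC (core): the consequence of Thaine's relation

For a degree-one prime `v ∤ p` of `K = ℚ(ζ_p)` and an `ω²`-functional `ψ` on the class group with
`ψ([v]) ≠ 0`, the cyclotomic unit `E₂` is a `p`-th power residue modulo `v`.  Thaine's relation
is taken as a hypothesis in `thaine_consequence_of`.
-/

set_option autoImplicit false

open NumberField IsDedekindDomain
open scoped nonZeroDivisors

namespace Fermat.Agent.S14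

section general

variable {F : Type} [Field F] [NumberField F]

/-- a nonzero fractional ideal all of whose valuations are divisible by `n` is an `n`-th power. -/
theorem tc_exists_pow_eq (n : ℕ) (J : FractionalIdeal (𝓞 F)⁰ F) (hJ : J ≠ 0)
    (h : ∀ v : HeightOneSpectrum (𝓞 F), (n : ℤ) ∣ FractionalIdeal.count F v J) :
    ∃ I : FractionalIdeal (𝓞 F)⁰ F, J = I ^ n := by
  classical
  have hfact := FractionalIdeal.finprod_heightOneSpectrum_factorization' (K := F) hJ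
  refine ⟨∏ᶠ v : HeightOneSpectrum (𝓞 F),
    ((v.asIdeal : Ideal (𝓞 F)) : FractionalIdeal (𝓞 F)⁰ F) ^ (FractionalIdeal.count F v J / n), ?_⟩
  have hfin : Function.HasFiniteMulSupport (fun v : HeightOneSpectrum (𝓞 F) =>
      ((v.asIdeal : Ideal (𝓞 F)) : FractionalIdeal (𝓞 F)⁰ F) ^
        (FractionalIdeal.count F v J / n)) := by
    have h0 := FractionalIdeal.finite_factors (K := F) J
    rw [Filter.eventually_cofinite] at h0
    refine Set.Finite.subset h0 ?_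
    intro v hv
    simp only [Function.mem_mulSupport] at hv
    intro hc
    apply hv
    rw [hc, Int.zero_ediv, zpow_zero]
  rw [finprod_pow hfin]
  refine hfact.symm.trans ?_
  refine finprod_congr fun v => ?_
  rw [← zpow_natCast, ← zpow_mul, Int.ediv_mul_cancel (h v)]

/-- a relation in the class group, read off from the valuations of an element. -/
theorem tc_class_relation (p : ℕ) [Fact p.Prime]
    (ψ : ClassGroup (𝓞 F) →* Multiplicative (ZMod p)) (b : F) (hb : b ≠ 0)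
    (T : Finset (HeightOneSpectrum (𝓞 F))) (k : HeightOneSpectrum (𝓞 F) → ℕ)
    (h1 : ∀ w, w ∉ T →
      (p : ℤ) ∣ FractionalIdeal.count F w (FractionalIdeal.spanSingleton (𝓞 F)⁰ b))
    (h2 : ∀ w ∈ T,
      (p : ℤ) ∣ FractionalIdeal.count F w (FractionalIdeal.spanSingleton (𝓞 F)⁰ b) - k w) :
    ∏ w ∈ T, ψ (primeClass w) ^ k w = 1 := by
  classical
  set J : FractionalIdeal (𝓞 F)⁰ F := FractionalIdeal.spanSingleton (𝓞 F)⁰ b with hJdef
  have hJ : J ≠ 0 := by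
    rw [hJdef, Ne, FractionalIdeal.spanSingleton_eq_zero_iff]; exact hb
  have hne : ∀ w : HeightOneSpectrum (𝓞 F),
      ((w.asIdeal : Ideal (𝓞 F)) : FractionalIdeal (𝓞 F)⁰ F) ≠ 0 :=
    fun w => FractionalIdeal.coeIdeal_ne_zero.mpr w.ne_bot
  set P : FractionalIdeal (𝓞 F)⁰ F :=
    ∏ w ∈ T, ((w.asIdeal : Ideal (𝓞 F)) : FractionalIdeal (𝓞 F)⁰ F) ^ k w with hPdef
  have hP : P ≠ 0 := Finset.prod_ne_zero_iff.mpr (fun w _ => pow_ne_zero _ (hne w))
  have hcountP : ∀ w, FractionalIdeal.count F w P = if w ∈ T then (k w : ℤ) else 0 := by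
    intro w
    rw [hPdef, FractionalIdeal.count_prod F w T _ (fun w' _ => pow_ne_zero _ (hne w'))]
    simp only [FractionalIdeal.count_pow, FractionalIdeal.count_maximal, mul_ite, mul_one,
      mul_zero, Finset.sum_ite_eq']
  obtain ⟨I, hI⟩ := tc_exists_pow_eq p (J * P⁻¹) (mul_ne_zero hJ (inv_ne_zero hP)) (fun w => by
    rw [FractionalIdeal.count_mul F w hJ (inv_ne_zero hP), FractionalIdeal.count_inv, hcountP]
    by_cases hw : w ∈ T
    · rw [if_pos hw, ← sub_eq_add_neg]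
      exact h2 w hw
    · rw [if_neg hw, neg_zero, add_zero]
      exact h1 w hw)
  have hI0 : I ≠ 0 := by
    rintro rfl
    rw [zero_pow (Fact.out : p.Prime).ne_zero] at hI
    exact mul_ne_zero hJ (inv_ne_zero hP) hI
  have hJeq : J = I ^ p * P := by
    rw [← hI, mul_assoc, inv_mul_cancel₀ hP, mul_one]
  have hunits : Units.mk0 J hJ = Units.mk0 I hI0 ^ p *
      ∏ w ∈ T, (FractionalIdeal.mk0 F
        ⟨w.asIdeal, mem_nonZeroDivisors_of_ne_zero w.ne_bot⟩) ^ k w := by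
    apply Units.ext
    rw [Units.val_mk0, Units.val_mul, Units.val_pow_eq_pow_val, Units.val_mk0, Units.coe_prod,
      hJeq, hPdef]
    congr 1
  have hmk := congrArg (fun U => ψ (ClassGroup.mk F U)) hunits
  simp only [map_mul, map_pow, map_prod] at hmk
  have hprinc : ClassGroup.mk F (Units.mk0 J hJ) = 1 := by
    rw [ClassGroup.mk_eq_one_iff]
    refine ⟨⟨b, ?_⟩⟩
    rw [Units.val_mk0, hJdef, FractionalIdeal.coe_spanSingleton]
  have hpow : ∀ x : Multiplicative (ZMod p), x ^ p = 1 := by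
    intro x
    apply Multiplicative.toAdd.injective
    rw [toAdd_pow, toAdd_one]
    simp
  rw [hprinc, map_one, hpow, one_mul] at hmk
  rw [hmk]
  refine Finset.prod_congr rfl (fun w _ => ?_)
  rw [ClassGroup.mk_mk0]
  rfl


/-- exponents in `Multiplicative (ZMod p)` only matter modulo `p`. -/
theorem tc_pow_congr (p : ℕ) [Fact p.Prime] (x : Multiplicative (ZMod p)) (m n : ℕ)
    (h : (m : ZMod p) = (n : ZMod p)) : x ^ m = x ^ n := by
  apply Multiplicative.toAdd.injective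
  rw [toAdd_pow, toAdd_pow, nsmul_eq_mul, nsmul_eq_mul, h]

theorem tc_dvd_of_pow_eq_one (p : ℕ) [Fact p.Prime] (x : Multiplicative (ZMod p)) (hx : x ≠ 1)
    (n : ℕ) (h : x ^ n = 1) : p ∣ n := by
  have h1 := congrArg Multiplicative.toAdd h
  rw [toAdd_pow, toAdd_one, nsmul_eq_mul] at h1
  rcases mul_eq_zero.mp h1 with h2 | h2
  · exact (ZMod.natCast_eq_zero_iff n p).mp h2
  · exact absurd (toAdd_eq_zero.mp h2) hx

/-- the conjugate prime `σ(v)`. -/
noncomputable def tcConj (σ : F ≃ₐ[ℚ] F) (v : HeightOneSpectrum (𝓞 F)) :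
    HeightOneSpectrum (𝓞 F) where
  asIdeal := v.asIdeal.comap (RingOfIntegers.mapRingEquiv σ.symm.toRingEquiv : 𝓞 F →+* 𝓞 F)
  isPrime := Ideal.comap_isPrime _ _
  ne_bot := by
    obtain ⟨x, hx, hx0⟩ := Submodule.exists_mem_ne_zero_of_ne_bot v.ne_bot
    intro h
    have h2 : (RingOfIntegers.mapRingEquiv σ.symm.toRingEquiv : 𝓞 F →+* 𝓞 F)
        (RingOfIntegers.mapRingEquiv σ.toRingEquiv x) = x := by
      apply RingOfIntegers.ext
      show σ.symm (σ (x : F)) = (x : F)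
      exact σ.symm_apply_apply _
    have h1 : RingOfIntegers.mapRingEquiv σ.toRingEquiv x ∈ v.asIdeal.comap
        (RingOfIntegers.mapRingEquiv σ.symm.toRingEquiv : 𝓞 F →+* 𝓞 F) := by
      rw [Ideal.mem_comap, h2]
      exact hx
    rw [h, Ideal.mem_bot] at h1
    exact hx0 ((RingOfIntegers.mapRingEquiv σ.toRingEquiv).injective (by rw [h1, map_zero]))

theorem tc_mem_conj (σ : F ≃ₐ[ℚ] F) (v : HeightOneSpectrum (𝓞 F)) (x : 𝓞 F) :
    x ∈ (tcConj σ v).asIdeal ↔ RingOfIntegers.mapRingEquiv σ.symm.toRingEquiv x ∈ v.asIdeal :=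
  Iff.rfl

theorem tc_natCast_mem_conj (σ : F ≃ₐ[ℚ] F) (v : HeightOneSpectrum (𝓞 F)) (q : ℕ)
    (h : (q : 𝓞 F) ∈ v.asIdeal) : (q : 𝓞 F) ∈ (tcConj σ v).asIdeal := by
  rw [tc_mem_conj, map_natCast]
  exact h

theorem tc_primeClass_conj (σ : F ≃ₐ[ℚ] F) (v : HeightOneSpectrum (𝓞 F)) :
    primeClass (tcConj σ v) = clMap σ (primeClass v) := by
  unfold primeClass clMap
  rw [ClassGroup.mulEquiv_mk0]
  congr 1
  apply Subtype.ext
  show (tcConj σ v).asIdeal = Ideal.map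
    ((RingOfIntegers.mapRingEquiv σ.toRingEquiv : 𝓞 F ≃+* 𝓞 F) : 𝓞 F →+* 𝓞 F) v.asIdeal
  rw [Ideal.map_comap_of_equiv]
  rfl

/-- transitivity of the Galois action on the primes above `q`. -/
theorem tc_exists_conj [IsGalois ℚ F] (v w : HeightOneSpectrum (𝓞 F)) (q : ℕ) (hq : q.Prime)
    (hv : (q : 𝓞 F) ∈ v.asIdeal) (hw : (q : 𝓞 F) ∈ w.asIdeal) :
    ∃ σ : F ≃ₐ[ℚ] F, w = tcConj σ v := by
  have hmax : (Ideal.span {(q : ℤ)}).IsMaximal :=
    (Ideal.isPrime_of_prime (Ideal.prime_span_singleton_iff.mpr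
      (Nat.prime_iff_prime_int.mp hq))).isMaximal (by simp [hq.ne_zero])
  have hover : ∀ u : HeightOneSpectrum (𝓞 F), (q : 𝓞 F) ∈ u.asIdeal →
      u.asIdeal.LiesOver (Ideal.span {(q : ℤ)}) := fun u hu => by
    refine ⟨hmax.eq_of_le (Ideal.comap_ne_top _ u.isPrime.ne_top) ?_⟩
    rw [Ideal.span_le, Set.singleton_subset_iff]
    show algebraMap ℤ (𝓞 F) (q : ℤ) ∈ u.asIdeal
    rw [map_natCast]
    exact hu
  have := hover v hv
  have := hover w hw
  obtain ⟨σ, hσ⟩ := Ideal.exists_smul_eq_of_isGaloisGroup (Ideal.span ({(q : ℤ)} : Set ℤ))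
    v.asIdeal w.asIdeal (F ≃ₐ[ℚ] F)
  refine ⟨σ, ?_⟩
  apply HeightOneSpectrum.ext
  rw [← hσ]
  ext x
  rw [Ideal.mem_pointwise_smul_iff_inv_smul_mem, tc_mem_conj]
  rfl


/-- the image of a primitive `p`-th root of unity in the residue ring at `v ∤ p` has order `p`. -/
theorem tc_orderOf_zeta {p : ℕ} [Fact p.Prime] {ζ : F} (hζ : IsPrimitiveRoot ζ p) (ζ' : 𝓞 F)
    (hζ' : (ζ' : F) = ζ) (v : HeightOneSpectrum (𝓞 F)) (hvp : (p : 𝓞 F) ∉ v.asIdeal) :
    orderOf (Ideal.Quotient.mk v.asIdeal ζ') = p := by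
  have hpp : p.Prime := Fact.out
  have hζ'' : algebraMap (𝓞 F) F ζ' = ζ := hζ'
  have hζ'p : ζ' ^ p = 1 := by
    apply IsFractionRing.injective (𝓞 F) F
    rw [map_pow, map_one, hζ'', hζ.pow_eq_one]
  apply orderOf_eq_prime
  · rw [← map_pow, hζ'p, map_one]
  · intro h1
    apply hvp
    rw [← Ideal.Quotient.eq_zero_iff_mem]
    have hgeom : ∑ i ∈ Finset.range p, ζ' ^ i = 0 := by
      apply IsFractionRing.injective (𝓞 F) F
      rw [map_sum, map_zero]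
      simp only [map_pow, hζ'']
      exact hζ.geom_sum_eq_zero hpp.one_lt
    have h2 := congrArg (Ideal.Quotient.mk v.asIdeal) hgeom
    rw [map_sum, map_zero] at h2
    simp only [map_pow, h1, one_pow, Finset.sum_const, Finset.card_range, nsmul_eq_mul,
      mul_one] at h2
    rw [map_natCast]
    exact h2

theorem tc_modEq_of_mem {p : ℕ} [Fact p.Prime] {ζ : F} (hζ : IsPrimitiveRoot ζ p) (ζ' : 𝓞 F)
    (hζ' : (ζ' : F) = ζ) (v : HeightOneSpectrum (𝓞 F)) (hvp : (p : 𝓞 F) ∉ v.asIdeal)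
    (i j : ℕ) (h : ζ' ^ i - ζ' ^ j ∈ v.asIdeal) : i ≡ j [MOD p] := by
  have hpp : p.Prime := Fact.out
  have hord := tc_orderOf_zeta hζ ζ' hζ' v hvp
  set z := Ideal.Quotient.mk v.asIdeal ζ' with hz
  have hzp : z ^ p = 1 := by rw [← hord]; exact pow_orderOf_eq_one z
  have hu : IsUnit z := IsUnit.of_pow_eq_one hzp hpp.ne_zero
  obtain ⟨u, hu⟩ := hu
  have h1 : z ^ i = z ^ j := by
    rw [hz, ← map_pow, ← map_pow, Ideal.Quotient.eq]
    exact h
  have h2 : u ^ i = u ^ j := by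
    apply Units.ext
    rw [Units.val_pow_eq_pow_val, Units.val_pow_eq_pow_val, hu]
    exact h1
  have h3 : orderOf u = p := by
    rw [← orderOf_units, hu]
    exact hord
  rw [← h3]
  exact pow_eq_pow_iff_modEq.mp h2

/-- a degree-one prime `v ∤ p` of a field containing `ζ_p` has norm `≡ 1 mod p`. -/
theorem tc_mod_eq_one {p : ℕ} [Fact p.Prime] {ζ : F} (hζ : IsPrimitiveRoot ζ p) (ζ' : 𝓞 F)
    (hζ' : (ζ' : F) = ζ) (v : HeightOneSpectrum (𝓞 F)) (hv : (Ideal.absNorm v.asIdeal).Prime)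
    (hvp : (p : 𝓞 F) ∉ v.asIdeal) : Ideal.absNorm v.asIdeal % p = 1 := by
  classical
  have hpp : p.Prime := Fact.out
  have hord := tc_orderOf_zeta hζ ζ' hζ' v hvp
  have hcard : Nat.card (𝓞 F ⧸ v.asIdeal) = Ideal.absNorm v.asIdeal := by
    rw [Ideal.absNorm_apply, Submodule.cardQuot_apply]
  have hfin : Finite (𝓞 F ⧸ v.asIdeal) :=
    Nat.finite_of_card_ne_zero (by rw [hcard]; exact hv.ne_zero)
  let _ : Fintype (𝓞 F ⧸ v.asIdeal) := Fintype.ofFinite _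
  let _ : Field (𝓞 F ⧸ v.asIdeal) := Ideal.Quotient.field v.asIdeal
  set z := Ideal.Quotient.mk v.asIdeal ζ' with hz
  have hz0 : z ≠ 0 := by
    intro h0
    have h1 : z ^ p = 1 := by rw [← hord]; exact pow_orderOf_eq_one z
    rw [h0, zero_pow hpp.ne_zero] at h1
    exact zero_ne_one h1
  have h2 := FiniteField.pow_card_sub_one_eq_one z hz0
  rw [← Nat.card_eq_fintype_card, hcard] at h2
  have h3 : p ∣ Ideal.absNorm v.asIdeal - 1 := by
    rw [← hord]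
    exact orderOf_dvd_of_pow_eq_one h2
  obtain ⟨m, hm⟩ := h3
  have h4 : Ideal.absNorm v.asIdeal = 1 + p * m := by
    have := hv.one_lt
    omega
  rw [h4, Nat.add_mul_mod_self_left, Nat.mod_eq_of_lt hpp.one_lt]

end general

section cyclo

variable {p : ℕ} [Fact p.Prime] {K : Type} [Field K] [NumberField K]
  [IsCyclotomicExtension {p} ℚ K] {ζ : K}

theorem tc_aut_ext (hζ : IsPrimitiveRoot ζ p) (σ τ : K ≃ₐ[ℚ] K) (h : σ ζ = τ ζ) : σ = τ := by
  have h1 : (σ : K →ₐ[ℚ] K) = (τ : K →ₐ[ℚ] K) := by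
    apply (hζ.powerBasis ℚ).algHom_ext
    rw [IsPrimitiveRoot.powerBasis_gen]
    exact h
  exact AlgEquiv.coe_toAlgHom_injective h1

omit [IsCyclotomicExtension {p} ℚ K] in
theorem tc_exists_exp (hζ : IsPrimitiveRoot ζ p) (σ : K ≃ₐ[ℚ] K) :
    ∃ b ∈ Finset.Ico 1 p, σ ζ = ζ ^ b := by
  have hpp : p.Prime := Fact.out
  have h1 : (σ ζ) ^ p = 1 := by rw [← map_pow, hζ.pow_eq_one, map_one]
  obtain ⟨i, hi, hi'⟩ := hζ.eq_pow_of_pow_eq_one h1
  refine ⟨i, Finset.mem_Ico.mpr ⟨?_, hi⟩, hi'.symm⟩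
  rcases Nat.eq_zero_or_pos i with h0 | h0
  · exfalso
    rw [h0, pow_zero] at hi'
    have h2 : σ ζ = σ 1 := by rw [← hi', map_one]
    exact hζ.ne_one hpp.one_lt (σ.injective h2)
  · exact h0

theorem tc_exists_aut (hζ : IsPrimitiveRoot ζ p) (b : ℕ) (hb : b ∈ Finset.Ico 1 p) :
    ∃ σ : K ≃ₐ[ℚ] K, σ ζ = ζ ^ b := by
  have hpp : p.Prime := Fact.out
  have hb' := Finset.mem_Ico.mp hb
  have hcop : b.Coprime p :=
    (Nat.coprime_comm.mp ((Nat.Prime.coprime_iff_not_dvd hpp).mpr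
      (Nat.not_dvd_of_pos_of_lt hb'.1 hb'.2)))
  have hζb : IsPrimitiveRoot (ζ ^ b) p := hζ.pow_of_coprime b hcop
  have hirr : Irreducible (Polynomial.cyclotomic p ℚ) :=
    Polynomial.cyclotomic.irreducible_rat hpp.pos
  have hmin : minpoly ℚ (hζ.powerBasis ℚ).gen = minpoly ℚ (hζb.powerBasis ℚ).gen := by
    rw [IsPrimitiveRoot.powerBasis_gen, IsPrimitiveRoot.powerBasis_gen,
      ← hζ.minpoly_eq_cyclotomic_of_irreducible hirr,
      ← hζb.minpoly_eq_cyclotomic_of_irreducible hirr]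
  refine ⟨(hζ.powerBasis ℚ).equivOfMinpoly (hζb.powerBasis ℚ) hmin, ?_⟩
  have h := PowerBasis.equivOfMinpoly_gen (hζ.powerBasis ℚ) (hζb.powerBasis ℚ) hmin
  rw [IsPrimitiveRoot.powerBasis_gen, IsPrimitiveRoot.powerBasis_gen] at h
  exact h


/-- TC with Thaine's relation as a hypothesis. -/
theorem thaine_consequence_of (hp : 5 ≤ p) (hζ : IsPrimitiveRoot ζ p)
    (hth : ∀ (q : ℕ), q.Prime → q % p = 1 →
      ∃ (b : K) (g : ℕ), b ≠ 0 ∧ orderOf (g : ZMod q) = q - 1 ∧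
      (∀ v : HeightOneSpectrum (𝓞 K), (q : 𝓞 K) ∉ v.asIdeal →
        (p : ℤ) ∣ FractionalIdeal.count K v (FractionalIdeal.spanSingleton (𝓞 K)⁰ b)) ∧
      (∀ v : HeightOneSpectrum (𝓞 K), (q : 𝓞 K) ∈ v.asIdeal → ∃ k : ℕ,
        (p : ℤ) ∣ FractionalIdeal.count K v (FractionalIdeal.spanSingleton (𝓞 K)⁰ b) - k ∧
        ∃ y ∈ v.asIdeal, (y : K) = (g : K) ^ k - (1 - ζ)))
    (ψ : ClassGroup (𝓞 K) →* Multiplicative (ZMod p)) (hψ : IsOmegaSq p ζ ψ)
    (v : HeightOneSpectrum (𝓞 K)) (hv : (Ideal.absNorm v.asIdeal).Prime)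
    (hvp : (p : 𝓞 K) ∉ v.asIdeal) (hψv : ψ (primeClass v) ≠ 1) :
    ∃ x : 𝓞 K, ∃ y ∈ v.asIdeal, (y : K) = E2 p ζ - (x : K) ^ p := by
  classical
  have hpp : p.Prime := Fact.out
  set q := Ideal.absNorm v.asIdeal with hq
  have hint : IsIntegral ℤ ζ := hζ.isIntegral hpp.pos
  obtain ⟨ζ', hζ'⟩ : ∃ ζ' : 𝓞 K, algebraMap (𝓞 K) K ζ' = ζ := ⟨⟨ζ, hint⟩, rfl⟩
  have hqv : (q : 𝓞 K) ∈ v.asIdeal := Ideal.absNorm_mem v.asIdeal
  have hqp : q % p = 1 := tc_mod_eq_one hζ ζ' hζ' v hv hvp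
  obtain ⟨b, g, hb0, -, hth1, hth2⟩ := hth q hv hqp
  -- automorphisms `σ c` with `σ c ζ = ζ ^ c` for `c ∈ Ico 1 p`
  have hσex : ∀ c : ℕ, ∃ σ : K ≃ₐ[ℚ] K, c ∈ Finset.Ico 1 p → σ ζ = ζ ^ c := fun c => by
    by_cases hc : c ∈ Finset.Ico 1 p
    · obtain ⟨σ, hσ⟩ := tc_exists_aut hζ c hc
      exact ⟨σ, fun _ => hσ⟩
    · exact ⟨1, fun h => absurd h hc⟩
  choose σ hσ using hσex
  -- the primes `W c = (σ c)⁻¹ v`
  set W : ℕ → HeightOneSpectrum (𝓞 K) := fun c => tcConj (σ c).symm v with hW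
  have hWq : ∀ c, (q : 𝓞 K) ∈ (W c).asIdeal := fun c => tc_natCast_mem_conj _ v q hqv
  -- Thaine exponents
  have hkex : ∀ w : HeightOneSpectrum (𝓞 K), ∃ k : ℕ, (q : 𝓞 K) ∈ w.asIdeal →
      ((p : ℤ) ∣ FractionalIdeal.count K w (FractionalIdeal.spanSingleton (𝓞 K)⁰ b) - k ∧
        ∃ y ∈ w.asIdeal, (y : K) = (g : K) ^ k - (1 - ζ)) := fun w => by
    by_cases hw : (q : 𝓞 K) ∈ w.asIdeal
    · obtain ⟨k, hk1, hk2⟩ := hth2 w hw
      exact ⟨k, fun _ => ⟨hk1, hk2⟩⟩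
    · exact ⟨0, fun h => absurd h hw⟩
  choose k hk using hkex
  -- congruences at `v`
  have hcong : ∀ c ∈ Finset.Ico 1 p,
      (g : 𝓞 K) ^ k (W c) - (1 - ζ' ^ c) ∈ v.asIdeal := by
    intro c hc
    obtain ⟨y, hy, hyeq⟩ := (hk (W c) (hWq c)).2
    have h1 : RingOfIntegers.mapRingEquiv (σ c).symm.symm.toRingEquiv y ∈ v.asIdeal := hy
    have h2 : RingOfIntegers.mapRingEquiv (σ c).symm.symm.toRingEquiv y
        = (g : 𝓞 K) ^ k (W c) - (1 - ζ' ^ c) := by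
      apply IsFractionRing.injective (𝓞 K) K
      have h3 : algebraMap (𝓞 K) K (RingOfIntegers.mapRingEquiv (σ c).symm.symm.toRingEquiv y)
          = σ c (y : K) := rfl
      rw [h3, hyeq, map_sub, map_sub, map_pow, map_natCast, map_one, hσ c hc, map_sub, map_pow,
        map_natCast, map_sub, map_one, map_pow, hζ']
    rwa [h2] at h1
  -- injectivity of `W` on `Ico 1 p`
  have hWinj : Set.InjOn W (Finset.Ico 1 p : Set ℕ) := by
    intro c hc c' hc' hcc'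
    have h1 := hcong c (Finset.mem_coe.mp hc)
    have h2 := hcong c' (Finset.mem_coe.mp hc')
    have hcc'' : W c = W c' := hcc'
    rw [hcc''] at h1
    have h3 : ζ' ^ c - ζ' ^ c' ∈ v.asIdeal := by
      have h4 := v.asIdeal.sub_mem h1 h2
      have h5 : (g : 𝓞 K) ^ k (W c') - (1 - ζ' ^ c) - ((g : 𝓞 K) ^ k (W c') - (1 - ζ' ^ c'))
          = ζ' ^ c - ζ' ^ c' := by ring
      rwa [h5] at h4
    have h4 := tc_modEq_of_mem hζ ζ' hζ' v hvp c c' h3
    exact Nat.ModEq.eq_of_lt_of_lt h4 (Finset.mem_Ico.mp (Finset.mem_coe.mp hc)).2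
      (Finset.mem_Ico.mp (Finset.mem_coe.mp hc')).2
  -- every prime above `q` is some `W c`
  have hWsurj : ∀ w : HeightOneSpectrum (𝓞 K), (q : 𝓞 K) ∈ w.asIdeal →
      ∃ c ∈ Finset.Ico 1 p, w = W c := by
    intro w hw
    have : IsGalois ℚ K := IsCyclotomicExtension.isGalois {p} ℚ K
    obtain ⟨τ, hτ⟩ := tc_exists_conj v w q hv hqv hw
    obtain ⟨c, hc, hτc⟩ := tc_exists_exp hζ τ.symm
    refine ⟨c, hc, ?_⟩
    have h1 : τ.symm = σ c := tc_aut_ext hζ _ _ (by rw [hτc, hσ c hc])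
    rw [hτ, hW]
    simp only
    rw [← h1, AlgEquiv.symm_symm]
  -- the class relation
  have hrel := tc_class_relation p ψ b hb0 ((Finset.Ico 1 p).image W) k
    (fun w hw => hth1 w (fun hqw => hw (by
      obtain ⟨c, hc, rfl⟩ := hWsurj w hqw
      exact Finset.mem_image_of_mem W hc)))
    (fun w hw => by
      obtain ⟨c, hc, rfl⟩ := Finset.mem_image.mp hw
      exact (hk (W c) (hWq c)).1)
  rw [Finset.prod_image hWinj] at hrel
  -- `ψ [W c] = ψ [v] ^ cexp p c`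
  have hψW : ∀ c ∈ Finset.Ico 1 p, ψ (primeClass (W c)) = ψ (primeClass v) ^ cexp p c := by
    intro c hc
    obtain ⟨a, ha, hσa⟩ := tc_exists_exp hζ (σ c).symm
    have h1 : ψ (primeClass (W c)) = ψ (primeClass v) ^ (a ^ 2) := by
      rw [hW]
      simp only
      rw [tc_primeClass_conj, hψ (σ c).symm a hσa]
    rw [h1]
    apply tc_pow_congr
    have hac : (a : ZMod p) * (c : ZMod p) = 1 := by
      have h2 : ζ ^ (a * c) = ζ := by
        rw [pow_mul, ← hσa, ← map_pow, ← hσ c hc, AlgEquiv.symm_apply_apply]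
      have hac1 : 1 ≤ a * c :=
        Nat.mul_pos (Finset.mem_Ico.mp ha).1 (Finset.mem_Ico.mp hc).1
      have h3 : ζ ^ (a * c - 1) = 1 := by
        have h4 : ζ ^ (a * c - 1) * ζ = 1 * ζ := by
          rw [← pow_succ, Nat.sub_add_cancel hac1, h2, one_mul]
        exact mul_right_cancel₀ (hζ.ne_zero hpp.ne_zero) h4
      have h5 : p ∣ a * c - 1 := (hζ.pow_eq_one_iff_dvd _).mp h3
      have h6 : ((a * c - 1 : ℕ) : ZMod p) = 0 := (ZMod.natCast_eq_zero_iff _ _).mpr h5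
      rw [Nat.cast_sub hac1, Nat.cast_mul, Nat.cast_one, sub_eq_zero] at h6
      exact h6
    rw [e2b_cexp_cast, Nat.cast_pow, eq_inv_of_mul_eq_one_left hac]
  -- the exponent sum is divisible by `p`
  have hsum : p ∣ ∑ c ∈ Finset.Ico 1 p, cexp p c * k (W c) := by
    apply tc_dvd_of_pow_eq_one p (ψ (primeClass v)) hψv
    rw [← Finset.prod_pow_eq_pow_sum, ← hrel]
    refine Finset.prod_congr rfl (fun c hc => ?_)
    rw [hψW c hc, pow_mul]
  obtain ⟨m, hm⟩ := hsum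
  obtain ⟨m', hm'⟩ := dvd_sum_cexp (p := p) hp
  obtain ⟨u, hu⟩ := E2_isUnit (p := p) hζ
  have hu' : algebraMap (𝓞 K) K (u : 𝓞 K) = E2 p ζ := hu
  -- the product formula in `𝓞 K`
  have hprod : (u : 𝓞 K) * ((1 - ζ') ^ m') ^ p
      = ∏ c ∈ Finset.Ico 1 p, (1 - ζ' ^ c) ^ cexp p c := by
    apply IsFractionRing.injective (𝓞 K) K
    rw [map_mul, map_pow, map_pow, map_sub, map_one, hζ', hu', map_prod]
    simp only [map_pow, map_sub, map_one, hζ']
    rw [prod_one_sub_pow_eq hζ, hm', ← pow_mul, mul_comm m' p]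
  -- the product is congruent to a `p`-th power
  have hprod2 : (∏ c ∈ Finset.Ico 1 p, (1 - ζ' ^ c) ^ cexp p c) - ((g : 𝓞 K) ^ m) ^ p
      ∈ v.asIdeal := by
    have h1 : ((g : 𝓞 K) ^ m) ^ p
        = ∏ c ∈ Finset.Ico 1 p, ((g : 𝓞 K) ^ k (W c)) ^ cexp p c := by
      rw [← pow_mul, mul_comm m p, ← hm, ← Finset.prod_pow_eq_pow_sum]
      refine Finset.prod_congr rfl (fun c _ => ?_)
      rw [← pow_mul, mul_comm]
    rw [h1, ← Ideal.Quotient.eq, map_prod, map_prod]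
    refine Finset.prod_congr rfl (fun c hc => ?_)
    rw [map_pow, map_pow]
    congr 1
    rw [Ideal.Quotient.eq]
    have h2 := v.asIdeal.neg_mem (hcong c hc)
    rwa [neg_sub] at h2
  -- `1 - ζ` is invertible modulo `v`
  have h1ζ : (1 - ζ') ∉ v.asIdeal := by
    intro h
    have h1 : ζ' ^ 0 - ζ' ^ 1 ∈ v.asIdeal := by rwa [pow_zero, pow_one]
    have h2 := tc_modEq_of_mem hζ ζ' hζ' v hvp 0 1 h1
    have h3 := Nat.ModEq.eq_of_lt_of_lt h2 hpp.pos hpp.one_lt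
    exact zero_ne_one h3
  have hx : (1 - ζ') ^ m' ∉ v.asIdeal := fun h => h1ζ (v.isPrime.mem_of_pow_mem _ h)
  obtain ⟨t, i, hi, hti⟩ := v.isMaximal.exists_inv hx
  have ht : Ideal.Quotient.mk v.asIdeal (t * (1 - ζ') ^ m') = 1 := by
    rw [← map_one (Ideal.Quotient.mk v.asIdeal), Ideal.Quotient.eq]
    have h1 : t * (1 - ζ') ^ m' - 1 = -i := by linear_combination hti
    rw [h1]
    exact v.asIdeal.neg_mem hi
  refine ⟨t * (g : 𝓞 K) ^ m, (u : 𝓞 K) - (t * (g : 𝓞 K) ^ m) ^ p, ?_, ?_⟩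
  · rw [← Ideal.Quotient.eq]
    have e2 : Ideal.Quotient.mk v.asIdeal ((u : 𝓞 K) * ((1 - ζ') ^ m') ^ p)
        = Ideal.Quotient.mk v.asIdeal (((g : 𝓞 K) ^ m) ^ p) := by
      rw [hprod, Ideal.Quotient.eq]
      exact hprod2
    calc Ideal.Quotient.mk v.asIdeal (u : 𝓞 K)
        = Ideal.Quotient.mk v.asIdeal (u : 𝓞 K)
          * (Ideal.Quotient.mk v.asIdeal (t * (1 - ζ') ^ m')) ^ p := by
          rw [ht, one_pow, mul_one]
      _ = Ideal.Quotient.mk v.asIdeal (t ^ p)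
          * Ideal.Quotient.mk v.asIdeal ((u : 𝓞 K) * ((1 - ζ') ^ m') ^ p) := by
          simp only [map_mul, map_pow]
          ring
      _ = Ideal.Quotient.mk v.asIdeal (t ^ p)
          * Ideal.Quotient.mk v.asIdeal (((g : 𝓞 K) ^ m) ^ p) := by rw [e2]
      _ = Ideal.Quotient.mk v.asIdeal ((t * (g : 𝓞 K) ^ m) ^ p) := by
          simp only [map_mul, map_pow]
          ring
  · show algebraMap (𝓞 K) K ((u : 𝓞 K) - (t * (g : 𝓞 K) ^ m) ^ p)
      = E2 p ζ - (algebraMap (𝓞 K) K (t * (g : 𝓞 K) ^ m)) ^ p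
    rw [map_sub, map_pow, hu']

end cyclo

end Fermat.Agent.S14
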