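import Mathlib

/-!
# S14, piece T-A: the field `F = K(ζ_q)` for Thaine's relation

`K = ℚ(ζ_p)`, `q ≡ 1 mod p` a prime, `F = K(ζ_q) = ℚ(ζ_pq)`.  We show that `F/K` is cyclic of
degree `q - 1`, generated by `t : ζ_q ↦ ζ_q ^ g` with `g` a primitive root modulo `q`, that the
cyclotomic unit `ξ = 1 - ζ_p ζ_q` has relative norm `1`, and (Hilbert 90) that there is a nonzero
integer `β` of `F` with `t β = ξ β`.
-/

set_option autoImplicit false
set_option linter.style.haveILetI false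

open NumberField IsDedekindDomain Polynomial
open scoped nonZeroDivisors

namespace Fermat.Agent.S14

section ThaineField

variable {p : ℕ} [Fact p.Prime] {K : Type} [Field K] [NumberField K]
  [IsCyclotomicExtension {p} ℚ K] {ζ : K}

omit [Fact p.Prime] in
theorem thaine_p_ne_q (q : ℕ) (hq : q.Prime) (hqp : q % p = 1) : p ≠ q := by
  rintro rfl
  rw [Nat.mod_self] at hqp
  exact zero_ne_one hqp

theorem thaine_p_dvd (q : ℕ) (hqp : q % p = 1) : p ∣ q - 1 :=
  (Nat.modEq_iff_dvd' (by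
    rcases Nat.eq_zero_or_pos q with h | h
    · subst h; simp at hqp
    · exact h)).mp (by
      have hp1 : 1 < p := (Fact.out : p.Prime).one_lt
      show 1 % p = q % p
      rw [hqp, Nat.mod_eq_of_lt hp1])

/-- `F = K(ζ_q)` is the `pq`-th cyclotomic field. -/
theorem thaine_isCyclo (hζ : IsPrimitiveRoot ζ p) (q : ℕ) (hq : q.Prime) (hqp : q % p = 1)
    (F : Type) [Field F] [NumberField F] [Algebra K F] [IsCyclotomicExtension {q} K F] :
    IsCyclotomicExtension {p * q} ℚ F := by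
  have hp : p.Prime := Fact.out
  have hpq : p ≠ q := thaine_p_ne_q q hq hqp
  have h1 : IsCyclotomicExtension ({p} ∪ {q}) ℚ F :=
    IsCyclotomicExtension.trans {p} {q} ℚ K F (algebraMap K F).injective
  obtain ⟨ζq, hζq⟩ := IsCyclotomicExtension.exists_isPrimitiveRoot K F (S := {q}) rfl hq.ne_zero
  have hζF : IsPrimitiveRoot (algebraMap K F ζ) p := hζ.map_of_injective (algebraMap K F).injective
  have hr : IsPrimitiveRoot (algebraMap K F ζ * ζq) (p * q) := by
    have h := (Commute.all (algebraMap K F ζ) ζq).orderOf_mul_eq_mul_orderOf_of_coprime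
      (by rw [← hζF.eq_orderOf, ← hζq.eq_orderOf]; exact (Nat.coprime_primes hp hq).mpr hpq)
    rw [← hζF.eq_orderOf, ← hζq.eq_orderOf] at h
    rw [← h]
    exact IsPrimitiveRoot.orderOf _
  have hpq0 : p * q ≠ 0 := Nat.mul_ne_zero hp.ne_zero hq.ne_zero
  have : NeZero p := ⟨hp.ne_zero⟩
  have : NeZero q := ⟨hq.ne_zero⟩
  have : NeZero (p * q) := ⟨hpq0⟩
  have h2 : IsCyclotomicExtension (({p} ∪ {q}) ∪ {p * q}) ℚ F :=
    IsCyclotomicExtension.union_of_isPrimitiveRoot _ ℚ F hr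
  have h3 : IsCyclotomicExtension ({p * q} ∪ {p}) ℚ F ↔ IsCyclotomicExtension {p * q} ℚ F :=
    (IsCyclotomicExtension.iff_union_of_dvd ℚ F
      ⟨p * q, Set.mem_singleton _, hpq0, dvd_mul_right p q⟩).symm
  have h4 : IsCyclotomicExtension (({p * q} ∪ {p}) ∪ {q}) ℚ F ↔
      IsCyclotomicExtension ({p * q} ∪ {p}) ℚ F :=
    (IsCyclotomicExtension.iff_union_of_dvd ℚ F
      ⟨p * q, Set.mem_union_left _ (Set.mem_singleton _), hpq0, dvd_mul_left q p⟩).symm
  rw [← h3, ← h4]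
  have hs : (({p * q} ∪ {p}) ∪ {q} : Set ℕ) = ({p} ∪ {q}) ∪ {p * q} := by
    ext x; simp only [Set.mem_union, Set.mem_singleton_iff]; tauto
  rw [hs]; exact h2

theorem thaine_finrank (hζ : IsPrimitiveRoot ζ p) (q : ℕ) (hq : q.Prime) (hqp : q % p = 1)
    (F : Type) [Field F] [NumberField F] [Algebra K F] [IsCyclotomicExtension {q} K F] :
    Module.finrank K F = q - 1 := by
  have hp : p.Prime := Fact.out
  have hpq : p ≠ q := thaine_p_ne_q q hq hqp
  have := thaine_isCyclo hζ q hq hqp F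
  have : NeZero (p * q) := ⟨Nat.mul_ne_zero hp.ne_zero hq.ne_zero⟩
  have h1 : Module.finrank ℚ F = (p * q).totient := IsCyclotomicExtension.Rat.finrank (p * q) F
  have h2 : Module.finrank ℚ K = p.totient := IsCyclotomicExtension.Rat.finrank p K
  have h3 := Module.finrank_mul_finrank ℚ K F
  rw [h1, h2, Nat.totient_mul ((Nat.coprime_primes hp hq).mpr hpq), Nat.totient_prime hp,
    Nat.totient_prime hq] at h3
  exact Nat.eq_of_mul_eq_mul_left (Nat.sub_pos_of_lt hp.one_lt) h3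

theorem thaine_irreducible (hζ : IsPrimitiveRoot ζ p) (q : ℕ) (hq : q.Prime) (hqp : q % p = 1)
    (F : Type) [Field F] [NumberField F] [Algebra K F] [IsCyclotomicExtension {q} K F] :
    Irreducible (cyclotomic q K) := by
  have : NeZero q := ⟨hq.ne_zero⟩
  have hζq := IsCyclotomicExtension.zeta_spec q K F
  set ζq := IsCyclotomicExtension.zeta q K F with hζq_def
  have hfin := thaine_finrank hζ q hq hqp F
  have hint : IsIntegral K ζq := Algebra.IsIntegral.isIntegral ζq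
  have hdvd : minpoly K ζq ∣ cyclotomic q K := by
    apply minpoly.dvd
    rw [aeval_def, eval₂_eq_eval_map, map_cyclotomic]
    exact hζq.isRoot_cyclotomic hq.pos
  have hdeg : (minpoly K ζq).natDegree = q - 1 := by
    rw [← hfin, ← hζq.powerBasis_dim K, PowerBasis.finrank]
  have heq : cyclotomic q K = minpoly K ζq :=
    Polynomial.eq_of_monic_of_dvd_of_natDegree_le (minpoly.monic hint) (cyclotomic.monic q K) hdvd
      (by rw [natDegree_cyclotomic, Nat.totient_prime hq, hdeg])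
  rw [heq]
  exact minpoly.irreducible hint

/-- The Galois group of `F/K` is cyclic, generated by `t : ζ_q ↦ ζ_q ^ g` with `g` a primitive
root modulo `q`. -/
theorem thaine_generator (hζ : IsPrimitiveRoot ζ p) (q : ℕ) (hq : q.Prime) (hqp : q % p = 1)
    (F : Type) [Field F] [NumberField F] [Algebra K F] [IsCyclotomicExtension {q} K F] :
    ∃ (g : ℕ) (t : F ≃ₐ[K] F) (ζq : F), orderOf (g : ZMod q) = q - 1 ∧ IsPrimitiveRoot ζq q ∧
      t ζq = ζq ^ g ∧ ∀ σ : F ≃ₐ[K] F, σ ∈ Subgroup.zpowers t := by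
  have : NeZero q := ⟨hq.ne_zero⟩
  haveI : Fact q.Prime := ⟨hq⟩
  have hirr := thaine_irreducible hζ q hq hqp F
  have hζq := IsCyclotomicExtension.zeta_spec q K F
  let e := IsCyclotomicExtension.autEquivPow F hirr
  obtain ⟨u, hu⟩ := IsCyclic.exists_generator (α := (ZMod q)ˣ)
  refine ⟨(u : ZMod q).val, e.symm u, IsCyclotomicExtension.zeta q K F, ?_, hζq, ?_, ?_⟩
  · rw [ZMod.natCast_zmod_val, orderOf_units, orderOf_eq_card_of_forall_mem_zpowers hu,
      Nat.card_eq_fintype_card, ZMod.card_units_eq_totient, Nat.totient_prime hq]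
  · have h := hζq.autToPow_spec K (e.symm u)
    have h2 : hζq.autToPow K (e.symm u) = u := e.apply_symm_apply u
    rw [h2] at h
    exact h.symm
  · intro σ
    obtain ⟨k, hk⟩ := Subgroup.mem_zpowers_iff.mp (hu (e σ))
    refine Subgroup.mem_zpowers_iff.mpr ⟨k, ?_⟩
    apply e.injective
    rw [map_zpow, e.apply_symm_apply, hk]

/-- The cyclotomic unit `1 - ζ_p ζ_q` has relative norm `1`. -/
theorem thaine_norm (hζ : IsPrimitiveRoot ζ p) (q : ℕ) (hq : q.Prime) (hqp : q % p = 1)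
    (F : Type) [Field F] [NumberField F] [Algebra K F] [IsCyclotomicExtension {q} K F]
    {ζq : F} (hζq : IsPrimitiveRoot ζq q) :
    Algebra.norm K (1 - algebraMap K F ζ * ζq) = 1 := by
  have hp : p.Prime := Fact.out
  have : NeZero q := ⟨hq.ne_zero⟩
  haveI : Fact q.Prime := ⟨hq⟩
  have hirr := thaine_irreducible hζ q hq hqp F
  let E := AlgebraicClosure F
  apply (algebraMap K E).injective
  have := IsCyclotomicExtension.finiteDimensional {q} K F
  have := IsCyclotomicExtension.isGalois {q} K F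
  rw [Algebra.norm_eq_prod_embeddings, map_one]
  set z : E := algebraMap K E ζ with hz
  have hzp : IsPrimitiveRoot z p := hζ.map_of_injective (algebraMap K E).injective
  have hz0 : z ≠ 0 := hzp.ne_zero hp.ne_zero
  have hz1 : z ≠ 1 := hzp.ne_one hp.one_lt
  have h1 : ∀ σ : F →ₐ[K] E, σ (1 - algebraMap K F ζ * ζq) = z * (z⁻¹ - σ ζq) := by
    intro σ
    rw [map_sub, map_mul, map_one, AlgHom.commutes, mul_sub, mul_inv_cancel₀ hz0]
  simp only [h1]
  rw [Finset.prod_mul_distrib, Finset.prod_const, Finset.card_univ, AlgHom.card,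
    IsCyclotomicExtension.finrank F hirr, Nat.totient_prime hq]
  obtain ⟨m, hm⟩ := thaine_p_dvd (p := p) q hqp
  have hzq : z ^ (q - 1) = 1 := by rw [hm, pow_mul, hzp.pow_eq_one, one_pow]
  rw [hzq, one_mul]
  have hζE : IsPrimitiveRoot (algebraMap F E ζq) q :=
    hζq.map_of_injective (algebraMap F E).injective
  have Hprod : (∏ σ : F →ₐ[K] E, (z⁻¹ - σ ζq)) = eval z⁻¹ (cyclotomic q E) := by
    rw [cyclotomic_eq_prod_X_sub_primitiveRoots hζE, eval_prod,
      ← Finset.prod_attach (primitiveRoots q E), ← Finset.univ_eq_attach]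
    refine Fintype.prod_equiv (hζq.embeddingsEquivPrimitiveRoots E hirr) _ _ fun σ => ?_
    simp
  rw [Hprod, cyclotomic_prime, eval_geom_sum]
  have hw : (z⁻¹) ^ q = z⁻¹ := by
    have : q = (q - 1) + 1 := (Nat.sub_add_cancel hq.one_lt.le).symm
    rw [this, pow_succ, inv_pow, hzq, inv_one, one_mul]
  have hw1 : z⁻¹ - 1 ≠ 0 := by
    rw [sub_ne_zero]
    intro h
    exact hz1 (inv_eq_one.mp h)
  have hgs := geom_sum_mul z⁻¹ q
  rw [hw] at hgs
  exact mul_right_cancel₀ hw1 (hgs.trans (one_mul _).symm)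

/-- T-A: the field `F = K(ζ_q)`, its cyclic Galois group, the cyclotomic unit `ξ = 1 - ζ_p ζ_q`
and the Hilbert 90 element `β` with `t β = ξ β`. -/
theorem thaine_field (hζ : IsPrimitiveRoot ζ p) (q : ℕ) (hq : q.Prime)
    (hqp : q % p = 1) (F : Type) [Field F] [NumberField F] [Algebra K F]
    [IsCyclotomicExtension {q} K F] :
    ∃ (g : ℕ) (t : F ≃ₐ[K] F) (ζq : F) (ξ : (𝓞 F)ˣ) (β : 𝓞 F),
      orderOf (g : ZMod q) = q - 1 ∧ IsPrimitiveRoot ζq q ∧ t ζq = ζq ^ g ∧
      (∀ σ : F ≃ₐ[K] F, σ ∈ Subgroup.zpowers t) ∧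
      (((ξ : 𝓞 F) : F) = 1 - algebraMap K F ζ * ζq) ∧
      β ≠ 0 ∧ t (β : F) = ((ξ : 𝓞 F) : F) * (β : F) := by
  have hp : p.Prime := Fact.out
  have : NeZero q := ⟨hq.ne_zero⟩
  have := IsCyclotomicExtension.finiteDimensional {q} K F
  have := IsCyclotomicExtension.isGalois {q} K F
  obtain ⟨g, t, ζq, hg, hζq, htζ, ht⟩ := thaine_generator hζ q hq hqp F
  have hnorm := thaine_norm hζ q hq hqp F hζq
  have hint : IsIntegral ℤ (1 - algebraMap K F ζ * ζq) :=
    isIntegral_one.sub (((hζ.isIntegral hp.pos).map (IsScalarTower.toAlgHom ℤ K F)).mul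
      (hζq.isIntegral hq.pos))
  let ξI : 𝓞 F := ⟨1 - algebraMap K F ζ * ζq, hint⟩
  have hξI : (ξI : F) = 1 - algebraMap K F ζ * ζq := rfl
  have hξu : IsUnit ξI := by
    rw [← RingOfIntegers.isUnit_norm_of_isGalois (K := K)]
    have : RingOfIntegers.norm K ξI = 1 := by
      apply RingOfIntegers.ext
      rw [RingOfIntegers.coe_norm, hξI, hnorm]; rfl
    rw [this]; exact isUnit_one
  obtain ⟨ξ, hξ⟩ := hξu
  have : IsCyclic (F ≃ₐ[K] F) := ⟨t, ht⟩
  have hη : Algebra.norm K (algebraMap (𝓞 F) F ((ξ⁻¹ : (𝓞 F)ˣ) : 𝓞 F)) = 1 := by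
    have h1 : algebraMap (𝓞 F) F ((ξ⁻¹ : (𝓞 F)ˣ) : 𝓞 F) = (1 - algebraMap K F ζ * ζq)⁻¹ := by
      rw [← hξI, ← hξ]
      exact (eq_inv_of_mul_eq_one_left (by
        rw [← map_mul, ← Units.val_mul, inv_mul_cancel, Units.val_one, map_one]))
    rw [h1, Algebra.norm_inv, hnorm, inv_one]
  obtain ⟨β, hβ0, hβ⟩ := groupCohomology.exists_mul_galRestrict_of_norm_eq_one
    (A := 𝓞 K) (B := 𝓞 F) ht hη
  refine ⟨g, t, ζq, ξ, β, hg, hζq, htζ, ht, by rw [hξ, hξI], hβ0, ?_⟩
  have h2 := congrArg (algebraMap (𝓞 F) F) hβ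
  rw [map_mul, algebraMap_galRestrict_apply] at h2
  have h3 : algebraMap (𝓞 F) F (ξ : 𝓞 F) * algebraMap (𝓞 F) F ((ξ⁻¹ : (𝓞 F)ˣ) : 𝓞 F) = 1 := by
    rw [← map_mul, ← Units.val_mul, mul_inv_cancel, Units.val_one, map_one]
  calc t (β : F) = (algebraMap (𝓞 F) F (ξ : 𝓞 F) * algebraMap (𝓞 F) F ((ξ⁻¹ : (𝓞 F)ˣ) : 𝓞 F)) *
        t (β : F) := by rw [h3, one_mul]
    _ = algebraMap (𝓞 F) F (ξ : 𝓞 F) * (algebraMap (𝓞 F) F ((ξ⁻¹ : (𝓞 F)ˣ) : 𝓞 F) *
        t (algebraMap (𝓞 F) F β)) := by rw [mul_assoc]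
    _ = ((ξ : 𝓞 F) : F) * (β : F) := by rw [h2]

end ThaineField

end Fermat.Agent.S14
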