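import Mathlib
import Fermat.Agent.S14.Defs

/-! S14 piece AN1b: a Lipschitz partition of unity for the action of the units on the
mixed space of a number field. -/

set_option autoImplicit false

open NumberField NumberField.mixedEmbedding NumberField.Units
  NumberField.Units.dirichletUnitTheorem NumberField.InfinitePlace

namespace Fermat.Agent.S14

section UnitPartition

variable {F : Type} [Field F] [NumberField F]

open scoped Classical

/-- The log embedding of a unit, as a function on units. -/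
noncomputable def upLog (u : (𝓞 F)ˣ) : logSpace F := logEmbedding F (Additive.ofMul u)

theorem upLog_mul (u v : (𝓞 F)ˣ) : upLog (u * v) = upLog u + upLog v := by
  simp only [upLog, ofMul_mul, map_add]

theorem upLog_one : upLog (1 : (𝓞 F)ˣ) = 0 := by
  simp only [upLog, ofMul_one, map_zero]

theorem upLog_inv (u : (𝓞 F)ˣ) : upLog u⁻¹ = -upLog u := by
  simp only [upLog, ofMul_inv, map_neg]

/-- Units with bounded log embedding form a finite set. -/
theorem up_finite_units (r : ℝ) : {u : (𝓞 F)ˣ | ‖upLog u‖ ≤ r}.Finite := by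
  obtain hr | hr := lt_or_ge r 0
  · convert Set.finite_empty
    ext u
    simp only [Set.mem_ofPred_eq, Set.mem_empty_iff_false, iff_false, not_le]
    exact hr.trans_le (norm_nonneg _)
  · suffices {x : (𝓞 F)ˣ | IsIntegral ℤ (x : F) ∧
        ∀ (φ : F →+* ℂ), ‖φ x‖ ≤ Real.exp ((Fintype.card (InfinitePlace F)) * r)}.Finite by
      refine this.subset ?_
      intro x hx
      refine ⟨x.val.prop, (le_iff_le _ _).mp (fun w ↦ (Real.log_le_iff_le_exp ?_).mp ?_)⟩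
      · exact pos_iff.mpr (coe_ne_zero x)
      · exact (le_abs_self _).trans (log_le_of_logEmbedding_le hr hx w)
    refine Set.Finite.of_finite_image ?_ (coe_injective F).injOn
    refine (Embeddings.finite_of_norm_le F ℂ
        (Real.exp ((Fintype.card (InfinitePlace F)) * r))).subset ?_
    rintro _ ⟨x, ⟨⟨h_int, h_le⟩, rfl⟩⟩
    exact ⟨h_int, h_le⟩

/-- Every point of the log space is within bounded distance of the unit lattice. -/
theorem up_exists_unit_near : ∃ R₀ : ℝ, 0 ≤ R₀ ∧ ∀ v : logSpace F,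
    ∃ u : (𝓞 F)ˣ, ‖upLog u + v‖ ≤ R₀ := by
  classical
  let B := (basisUnitLattice F).ofZLatticeBasis ℝ
  obtain ⟨R₀, hR₀⟩ := (ZSpan.fundamentalDomain_isBounded B).exists_norm_le
  refine ⟨max R₀ 0, le_max_right _ _, fun v => ?_⟩
  rsuffices ⟨⟨_, ⟨u, _, rfl⟩⟩, hu⟩ : ∃ e : unitLattice F,
      (e : logSpace F) + v ∈ ZSpan.fundamentalDomain B
  · exact ⟨Additive.toMul u, (hR₀ _ hu).trans (le_max_left _ _)⟩
  · obtain ⟨⟨e, h₁⟩, h₂, -⟩ := ZSpan.exist_unique_vadd_mem_fundamentalDomain B v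
    exact ⟨⟨e, by rwa [← Module.Basis.ofZLatticeBasis_span ℝ (unitLattice F)]⟩, h₂⟩

/-- The tent function of radius `R` on the log space. -/
noncomputable def upTent (R : ℝ) (v : logSpace F) : ℝ := max 0 (R - ‖v‖)

theorem upTent_nonneg (R : ℝ) (v : logSpace F) : 0 ≤ upTent R v := le_max_left _ _

theorem upTent_le {R : ℝ} (hR : 0 ≤ R) (v : logSpace F) : upTent R v ≤ R :=
  max_le hR (by linarith [norm_nonneg v])

theorem upTent_eq_zero {R : ℝ} {v : logSpace F} (h : R ≤ ‖v‖) : upTent R v = 0 :=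
  max_eq_left (by linarith)

theorem upTent_ge (R : ℝ) (v : logSpace F) : R - ‖v‖ ≤ upTent R v := le_max_right _ _

theorem up_abs_max_sub (a b : ℝ) : |max 0 a - max 0 b| ≤ |a - b| := by
  rcases le_total 0 a with ha | ha <;> rcases le_total 0 b with hb | hb
  · rw [max_eq_right ha, max_eq_right hb]
  · rw [max_eq_right ha, max_eq_left hb, sub_zero, abs_of_nonneg ha, abs_of_nonneg (by linarith)]
    linarith
  · rw [max_eq_left ha, max_eq_right hb, zero_sub, abs_neg, abs_of_nonneg hb,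
      abs_of_nonpos (by linarith)]
    linarith
  · rw [max_eq_left ha, max_eq_left hb, sub_zero, abs_zero]
    exact abs_nonneg _

theorem upTent_lipschitz (R : ℝ) (v v' : logSpace F) :
    |upTent R v - upTent R v'| ≤ ‖v - v'‖ := by
  have h1 := up_abs_max_sub (R - ‖v‖) (R - ‖v'‖)
  have h2 := abs_norm_sub_norm_le v v'
  have h3 : |R - ‖v‖ - (R - ‖v'‖)| = |‖v‖ - ‖v'‖| := by
    rw [← abs_neg]
    congr 1
    ring
  rw [h3] at h1
  exact h1.trans h2

/-- The periodisation of the tent function over the units. -/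
noncomputable def upPsi (R : ℝ) (v : logSpace F) : ℝ :=
  ∑' u : (𝓞 F)ˣ, upTent R (upLog u + v)

theorem upPsi_support_finite (R : ℝ) (v : logSpace F) :
    (Function.support fun u : (𝓞 F)ˣ => upTent R (upLog u + v)).Finite := by
  refine (up_finite_units (R + ‖v‖)).subset ?_
  intro u hu
  by_contra hcon
  apply hu
  apply upTent_eq_zero
  have h1 : ¬ ‖upLog u‖ ≤ R + ‖v‖ := hcon
  have h2 := norm_sub_norm_le (upLog u) (-v)
  rw [norm_neg, sub_neg_eq_add] at h2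
  linarith

theorem upPsi_summable (R : ℝ) (v : logSpace F) :
    Summable fun u : (𝓞 F)ˣ => upTent R (upLog u + v) :=
  summable_of_hasFiniteSupport (upPsi_support_finite R v)

theorem upPsi_periodic (R : ℝ) (u₀ : (𝓞 F)ˣ) (v : logSpace F) :
    upPsi R (upLog u₀ + v) = upPsi R v := by
  unfold upPsi
  rw [← (Equiv.mulRight u₀).tsum_eq (fun k => upTent R (upLog k + v))]
  refine tsum_congr fun u => ?_
  simp only [Equiv.coe_mulRight, upLog_mul, add_assoc]

theorem upPsi_ge_one {R₀ : ℝ} (hR₀ : ∀ v : logSpace F, ∃ u : (𝓞 F)ˣ, ‖upLog u + v‖ ≤ R₀)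
    (v : logSpace F) : 1 ≤ upPsi (R₀ + 1) v := by
  obtain ⟨u, hu⟩ := hR₀ v
  have h1 : 1 ≤ upTent (R₀ + 1) (upLog u + v) :=
    le_trans (by linarith) (upTent_ge _ _)
  exact h1.trans ((upPsi_summable _ v).le_tsum u (fun j _ => upTent_nonneg _ _))

theorem upPsi_lipschitz {R₀ : ℝ}
    (hR₀ : ∀ v : logSpace F, ∃ u : (𝓞 F)ˣ, ‖upLog u + v‖ ≤ R₀) :
    ∃ M : ℝ, 0 ≤ M ∧ ∀ v v' : logSpace F, ‖v - v'‖ ≤ 1 →
      |upPsi (R₀ + 1) v - upPsi (R₀ + 1) v'| ≤ M * ‖v - v'‖ := by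
  set R := R₀ + 1 with hR
  set T := (up_finite_units (F := F) (2 * R + 1)).toFinset with hT
  refine ⟨T.card, Nat.cast_nonneg _, ?_⟩
  have key : ∀ w : logSpace F, ‖w‖ ≤ R₀ + 1 →
      upPsi R w = ∑ u ∈ T, upTent R (upLog u + w) := by
    intro w hw
    unfold upPsi
    refine tsum_eq_sum ?_
    intro u hu
    have hu' : ¬ ‖upLog u‖ ≤ 2 * R + 1 := by simpa [hT] using hu
    apply upTent_eq_zero
    have h2 := norm_sub_norm_le (upLog u) (-w)
    rw [norm_neg, sub_neg_eq_add] at h2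
    linarith
  intro v v' hvv
  obtain ⟨u₀, hu₀⟩ := hR₀ v
  have e1 : upPsi R v = upPsi R (upLog u₀ + v) := (upPsi_periodic R u₀ v).symm
  have e2 : upPsi R v' = upPsi R (upLog u₀ + v') := (upPsi_periodic R u₀ v').symm
  have hn' : ‖upLog u₀ + v'‖ ≤ R₀ + 1 := by
    have h3 : upLog u₀ + v' = (upLog u₀ + v) - (v - v') := by abel
    rw [h3]
    exact (norm_sub_le _ _).trans (by linarith)
  rw [e1, e2, key _ (by linarith), key _ hn', ← Finset.sum_sub_distrib]
  refine (Finset.abs_sum_le_sum_abs _ _).trans ?_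
  refine (Finset.sum_le_card_nsmul _ _ ‖v - v'‖ ?_).trans (by simp)
  intro u _
  refine (upTent_lipschitz _ _ _).trans (le_of_eq ?_)
  congr 1
  abel

/-- The normalised tent function. -/
noncomputable def upG (R : ℝ) (v : logSpace F) : ℝ := upTent R v / upPsi R v

theorem upG_nonneg {R₀ : ℝ} (hR₀ : ∀ v : logSpace F, ∃ u : (𝓞 F)ˣ, ‖upLog u + v‖ ≤ R₀)
    (v : logSpace F) : 0 ≤ upG (R₀ + 1) v :=
  div_nonneg (upTent_nonneg _ _) (le_trans zero_le_one (upPsi_ge_one hR₀ v))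

theorem upG_le {R₀ : ℝ} (hR₀0 : 0 ≤ R₀)
    (hR₀ : ∀ v : logSpace F, ∃ u : (𝓞 F)ˣ, ‖upLog u + v‖ ≤ R₀)
    (v : logSpace F) : upG (R₀ + 1) v ≤ R₀ + 1 := by
  have h1 := upPsi_ge_one hR₀ v
  have h2 := upTent_le (R := R₀ + 1) (by linarith) v
  unfold upG
  rw [div_le_iff₀ (by linarith)]
  nlinarith [upTent_nonneg (R₀ + 1) v]

theorem upG_lipschitz {R₀ : ℝ} (hR₀0 : 0 ≤ R₀)
    (hR₀ : ∀ v : logSpace F, ∃ u : (𝓞 F)ˣ, ‖upLog u + v‖ ≤ R₀) :
    ∃ L : ℝ, 0 ≤ L ∧ ∀ v v' : logSpace F,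
      |upG (R₀ + 1) v - upG (R₀ + 1) v'| ≤ L * ‖v - v'‖ := by
  obtain ⟨M, hM0, hM⟩ := upPsi_lipschitz hR₀
  refine ⟨1 + (R₀ + 1) * M + (R₀ + 1), by positivity, ?_⟩
  intro v v'
  have hg0 := upG_nonneg hR₀ v
  have hg0' := upG_nonneg hR₀ v'
  have hg1 := upG_le hR₀0 hR₀ v
  have hg1' := upG_le hR₀0 hR₀ v'
  have hn := norm_nonneg (v - v')
  by_cases hclose : ‖v - v'‖ ≤ 1
  · have hP := upPsi_ge_one hR₀ v
    have hP' := upPsi_ge_one hR₀ v'
    have hT := upTent_lipschitz (R₀ + 1) v v'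
    have hPs := hM v v' hclose
    have hT' := upTent_le (R := R₀ + 1) (by linarith) v'
    have hT0' := upTent_nonneg (R₀ + 1) v'
    have e : upG (R₀ + 1) v - upG (R₀ + 1) v'
        = (upTent (R₀ + 1) v - upTent (R₀ + 1) v') / upPsi (R₀ + 1) v
          + upTent (R₀ + 1) v' * (upPsi (R₀ + 1) v' - upPsi (R₀ + 1) v)
            / (upPsi (R₀ + 1) v * upPsi (R₀ + 1) v') := by
      unfold upG
      field_simp
      ring
    rw [e]
    have b1 : |(upTent (R₀ + 1) v - upTent (R₀ + 1) v') / upPsi (R₀ + 1) v| ≤ ‖v - v'‖ := by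
      rw [abs_div, abs_of_pos (by linarith : (0 : ℝ) < upPsi (R₀ + 1) v)]
      rw [div_le_iff₀ (by linarith)]
      nlinarith
    have b2 : |upTent (R₀ + 1) v' * (upPsi (R₀ + 1) v' - upPsi (R₀ + 1) v)
            / (upPsi (R₀ + 1) v * upPsi (R₀ + 1) v')| ≤ (R₀ + 1) * M * ‖v - v'‖ := by
      have hpos : (0 : ℝ) < upPsi (R₀ + 1) v * upPsi (R₀ + 1) v' := by nlinarith
      rw [abs_div, abs_of_pos hpos, div_le_iff₀ hpos, abs_mul, abs_of_nonneg hT0']
      have h5 : |upPsi (R₀ + 1) v' - upPsi (R₀ + 1) v| ≤ M * ‖v - v'‖ := by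
        rw [abs_sub_comm]; exact hPs
      have h6 : upTent (R₀ + 1) v' * |upPsi (R₀ + 1) v' - upPsi (R₀ + 1) v|
          ≤ (R₀ + 1) * (M * ‖v - v'‖) :=
        mul_le_mul hT' h5 (abs_nonneg _) (by linarith)
      have h7 : (1 : ℝ) ≤ upPsi (R₀ + 1) v * upPsi (R₀ + 1) v' := by nlinarith
      have h8 : 0 ≤ (R₀ + 1) * M * ‖v - v'‖ := by positivity
      nlinarith
    refine (abs_add_le _ _).trans ?_
    nlinarith
  · rw [not_le] at hclose
    have h1 : |upG (R₀ + 1) v - upG (R₀ + 1) v'| ≤ R₀ + 1 := by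
      rw [abs_le]; constructor <;> linarith
    have h2 : 0 ≤ (R₀ + 1) * M := by positivity
    nlinarith

/-- The partition function on the mixed space. -/
noncomputable def upPhi (R : ℝ) (x : mixedSpace F) : ℝ :=
  if mixedEmbedding.norm x = 0 then 0 else upG R (logMap x)

theorem upPhi_of_norm_eq_zero (R : ℝ) {x : mixedSpace F} (hx : mixedEmbedding.norm x = 0) :
    upPhi R x = 0 := if_pos hx

theorem upPhi_of_norm_ne_zero (R : ℝ) {x : mixedSpace F} (hx : mixedEmbedding.norm x ≠ 0) :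
    upPhi R x = upG R (logMap x) := if_neg hx

theorem upPhi_nonneg {R₀ : ℝ} (hR₀ : ∀ v : logSpace F, ∃ u : (𝓞 F)ˣ, ‖upLog u + v‖ ≤ R₀)
    (x : mixedSpace F) : 0 ≤ upPhi (R₀ + 1) x := by
  unfold upPhi
  split_ifs
  · exact le_rfl
  · exact upG_nonneg hR₀ _

theorem upPhi_le {R₀ : ℝ} (hR₀0 : 0 ≤ R₀)
    (hR₀ : ∀ v : logSpace F, ∃ u : (𝓞 F)ˣ, ‖upLog u + v‖ ≤ R₀)
    (x : mixedSpace F) : upPhi (R₀ + 1) x ≤ R₀ + 1 := by
  unfold upPhi
  split_ifs
  · linarith
  · exact upG_le hR₀0 hR₀ _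

theorem upPhi_hasSum {R₀ : ℝ} (hR₀ : ∀ v : logSpace F, ∃ u : (𝓞 F)ˣ, ‖upLog u + v‖ ≤ R₀)
    (x : mixedSpace F) (hx : mixedEmbedding.norm x ≠ 0) :
    HasSum (fun u : (𝓞 F)ˣ ↦ upPhi (R₀ + 1) (mixedEmbedding F ((u : 𝓞 F) : F) * x)) 1 := by
  have hnorm : ∀ u : (𝓞 F)ˣ,
      mixedEmbedding.norm (mixedEmbedding F ((u : 𝓞 F) : F) * x) ≠ 0 := by
    intro u
    rw [map_mul, norm_unit, one_mul]
    exact hx
  have hlog : ∀ u : (𝓞 F)ˣ,
      logMap (mixedEmbedding F ((u : 𝓞 F) : F) * x) = upLog u + logMap x := by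
    intro u
    have := logMap_unit_smul u hx
    rwa [unitSMul_smul] at this
  have h1 : HasSum (fun u : (𝓞 F)ˣ => upTent (R₀ + 1) (upLog u + logMap x))
      (upPsi (R₀ + 1) (logMap x)) := (upPsi_summable _ _).hasSum
  have h2 := h1.div_const (upPsi (R₀ + 1) (logMap x))
  rw [div_self (ne_of_gt (lt_of_lt_of_le one_pos (upPsi_ge_one hR₀ _)))] at h2
  have h3 : (fun u : (𝓞 F)ˣ ↦ upPhi (R₀ + 1) (mixedEmbedding F ((u : 𝓞 F) : F) * x))
      = fun u : (𝓞 F)ˣ => upTent (R₀ + 1) (upLog u + logMap x) / upPsi (R₀ + 1) (logMap x) := by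
    funext u
    rw [upPhi_of_norm_ne_zero _ (hnorm u), hlog, upG, upPsi_periodic]
  rw [h3]
  exact h2

theorem upPhi_smul (R : ℝ) {t : ℝ} (ht : t ≠ 0) (x : mixedSpace F) :
    upPhi R (t • x) = upPhi R x := by
  by_cases hx : mixedEmbedding.norm x = 0
  · have h1 : mixedEmbedding.norm (t • x) = 0 := by rw [mixedEmbedding.norm_smul, hx, mul_zero]
    rw [upPhi_of_norm_eq_zero R hx, upPhi_of_norm_eq_zero R h1]
  · have h1 : mixedEmbedding.norm (t • x) ≠ 0 := by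
      rw [mixedEmbedding.norm_smul]
      exact mul_ne_zero (pow_ne_zero _ (abs_ne_zero.mpr ht)) hx
    rw [upPhi_of_norm_ne_zero R hx, upPhi_of_norm_ne_zero R h1, logMap_real_smul hx ht]

/-- Homogeneity of `φ · norm ^ (-s)`. -/
theorem upF_smul (R s : ℝ) {t : ℝ} (ht : 0 < t) (x : mixedSpace F) :
    upPhi R (t • x) * mixedEmbedding.norm (t • x) ^ (-s)
      = t ^ (-((Module.finrank ℚ F : ℝ) * s)) * (upPhi R x * mixedEmbedding.norm x ^ (-s)) := by
  rw [upPhi_smul R ht.ne', mixedEmbedding.norm_smul, abs_of_pos ht,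
    Real.mul_rpow (pow_nonneg ht.le _) (mixedEmbedding.norm_nonneg x), ← Real.rpow_natCast,
    ← Real.rpow_mul ht.le]
  have : (Module.finrank ℚ F : ℝ) * -s = -((Module.finrank ℚ F : ℝ) * s) := by ring
  rw [this]
  ring

theorem up_normAtPlace_le_norm (w : InfinitePlace F) (x : mixedSpace F) :
    normAtPlace w x ≤ ‖x‖ := by
  rw [norm_eq_sup'_normAtPlace]
  exact Finset.le_sup' (fun w => normAtPlace w x) (Finset.mem_univ w)

theorem up_exists_normAtPlace_eq_norm (x : mixedSpace F) :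
    ∃ w : InfinitePlace F, ‖x‖ = normAtPlace w x := by
  rw [norm_eq_sup'_normAtPlace]
  obtain ⟨w, -, hw⟩ := Finset.exists_mem_eq_sup' Finset.univ_nonempty (fun w => normAtPlace w x)
  exact ⟨w, hw⟩

theorem up_abs_normAtPlace_sub (w : InfinitePlace F) (x y : mixedSpace F) :
    |normAtPlace w x - normAtPlace w y| ≤ ‖x - y‖ := by
  have h1 : normAtPlace w x ≤ normAtPlace w (x - y) + normAtPlace w y := by
    have := normAtPlace_add_le w (x - y) y
    rwa [sub_add_cancel] at this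
  have h2 : normAtPlace w y ≤ normAtPlace w (x - y) + normAtPlace w x := by
    have := normAtPlace_add_le w (y - x) x
    rwa [sub_add_cancel, ← neg_sub x y, normAtPlace_neg] at this
  have h3 := up_normAtPlace_le_norm w (x - y)
  rw [abs_le]
  constructor <;> linarith

/-- `log (norm x) = ∑ mult w * log (normAtPlace w x)` when the norm does not vanish. -/
theorem up_log_norm {x : mixedSpace F} (hx : mixedEmbedding.norm x ≠ 0) :
    Real.log (mixedEmbedding.norm x)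
      = ∑ w : InfinitePlace F, (mult w : ℝ) * Real.log (normAtPlace w x) := by
  rw [mixedEmbedding.norm_apply, Real.log_prod]
  · refine Finset.sum_congr rfl fun w _ => ?_
    rw [Real.log_pow]
  · intro w _
    exact pow_ne_zero _ (mixedEmbedding.norm_ne_zero_iff.mp hx w)

theorem up_sum_mult : (∑ w : InfinitePlace F, (mult w : ℝ)) = (Module.finrank ℚ F : ℝ) := by
  rw [← sum_mult_eq (K := F)]
  push_cast
  rfl

/-- On the support of `φ`, all the local norms are comparable to the sup norm. -/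
theorem upPhi_support (R₀ : ℝ) :
    ∃ c₀ : ℝ, 0 < c₀ ∧ c₀ ≤ 1 ∧ ∀ x : mixedSpace F, upPhi (R₀ + 1) x ≠ 0 →
      ∀ w : InfinitePlace F, c₀ * ‖x‖ ≤ normAtPlace w x := by
  by_cases hR₀0 : 0 ≤ R₀ + 1
  swap
  · refine ⟨1, one_pos, le_rfl, fun x hx => absurd ?_ hx⟩
    by_cases hN : mixedEmbedding.norm x = 0
    · exact upPhi_of_norm_eq_zero _ hN
    · rw [upPhi_of_norm_ne_zero _ hN, upG,
        upTent_eq_zero (le_trans (le_of_lt (not_le.mp hR₀0)) (norm_nonneg _)), zero_div]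
  set R := R₀ + 1 with hR
  set D : ℝ := (Fintype.card (InfinitePlace F) : ℝ) * R with hD
  have hcard : (1 : ℝ) ≤ Fintype.card (InfinitePlace F) := by exact_mod_cast Fintype.card_pos
  have hD0 : 0 ≤ D := by positivity
  have hRD : R ≤ D := by nlinarith
  refine ⟨Real.exp (-(2 * D)), Real.exp_pos _, ?_, ?_⟩
  · rw [Real.exp_le_one_iff]; linarith
  intro x hx w
  have hN : mixedEmbedding.norm x ≠ 0 := fun h => hx (upPhi_of_norm_eq_zero R h)
  rw [upPhi_of_norm_ne_zero R hN] at hx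
  have hlt : ‖logMap x‖ < R := by
    by_contra hcon
    apply hx
    unfold upG
    rw [upTent_eq_zero (not_lt.mp hcon), zero_div]
  have hpos : ∀ w, 0 < normAtPlace w x := fun w =>
    lt_of_le_of_ne (normAtPlace_nonneg w x) (Ne.symm (mixedEmbedding.norm_ne_zero_iff.mp hN w))
  set n : ℝ := (Module.finrank ℚ F : ℝ) with hn
  have hn0 : n ≠ 0 := Nat.cast_ne_zero.mpr (Module.finrank_pos).ne'
  set m : InfinitePlace F → ℝ := fun w =>
    Real.log (normAtPlace w x) - Real.log (mixedEmbedding.norm x) * n⁻¹ with hm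
  have hsum : ∑ w : InfinitePlace F, (mult w : ℝ) * m w = 0 := by
    simp only [hm, mul_sub, Finset.sum_sub_distrib, ← Finset.sum_mul]
    rw [← up_log_norm hN, up_sum_mult]
    field_simp
    ring
  have hcomp : ∀ w : {w : InfinitePlace F // w ≠ w₀}, |(mult w.1 : ℝ) * m w.1| ≤ R := by
    intro w
    have h1 := norm_le_pi_norm (logMap x) w
    rw [Real.norm_eq_abs, logMap_apply] at h1
    exact h1.trans hlt.le
  have hmult : ∀ w : InfinitePlace F, |(mult w : ℝ) * m w| ≤ D → |m w| ≤ D := by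
    intro w h1
    have h2 : (1 : ℝ) ≤ mult w := one_le_mult
    rw [abs_mul, abs_of_pos (by linarith : (0 : ℝ) < mult w)] at h1
    nlinarith [abs_nonneg (m w)]
  have hm_ne : ∀ w : InfinitePlace F, w ≠ w₀ → |m w| ≤ D := fun w hw =>
    hmult w ((hcomp ⟨w, hw⟩).trans hRD)
  have hm0 : |m w₀| ≤ D := by
    apply hmult
    have h1 : (mult (w₀ : InfinitePlace F) : ℝ) * m w₀
        = -∑ w : {w : InfinitePlace F // w ≠ w₀}, (mult w.1 : ℝ) * m w.1 := by
      rw [Fintype.sum_eq_add_sum_subtype_ne _ w₀] at hsum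
      linarith
    have h2 : |∑ w : {w : InfinitePlace F // w ≠ w₀}, (mult w.1 : ℝ) * m w.1|
        ≤ (Fintype.card {w : InfinitePlace F // w ≠ w₀}) * R := by
      refine (Finset.abs_sum_le_sum_abs _ _).trans ?_
      refine (Finset.sum_le_card_nsmul _ _ R (fun w _ => hcomp w)).trans ?_
      simp
    have h3 : (Fintype.card {w : InfinitePlace F // w ≠ w₀} : ℝ)
        ≤ Fintype.card (InfinitePlace F) := by
      exact_mod_cast Fintype.card_subtype_le _
    rw [h1, abs_neg]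
    exact h2.trans (mul_le_mul_of_nonneg_right h3 hR₀0)
  have hmall : ∀ w, |m w| ≤ D := by
    intro w
    by_cases hw : w = w₀
    · rw [hw]; exact hm0
    · exact hm_ne w hw
  obtain ⟨w', hw'⟩ := up_exists_normAtPlace_eq_norm x
  rw [hw']
  have h1 : Real.log (normAtPlace w' x) - 2 * D ≤ Real.log (normAtPlace w x) := by
    have e1 := abs_le.mp (hmall w)
    have e2 := abs_le.mp (hmall w')
    simp only [hm] at e1 e2
    linarith [e1.1, e2.2]
  have h2 := Real.exp_le_exp.mpr h1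
  rw [Real.exp_log (hpos w), Real.exp_sub, Real.exp_log (hpos w')] at h2
  rw [Real.exp_neg, inv_mul_eq_div]
  exact h2

theorem up_log_lipschitz {c a b : ℝ} (hc : 0 < c) (ha : c ≤ a) (hb : c ≤ b) :
    |Real.log a - Real.log b| ≤ |a - b| / c := by
  wlog hab : b ≤ a generalizing a b
  · have := this hb ha (le_of_not_ge hab)
    rwa [abs_sub_comm, abs_sub_comm b a] at this
  have ha0 : 0 < a := lt_of_lt_of_le hc ha
  have hb0 : 0 < b := lt_of_lt_of_le hc hb
  rw [abs_of_nonneg (sub_nonneg.mpr (Real.log_le_log hb0 hab)),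
    abs_of_nonneg (sub_nonneg.mpr hab)]
  have h1 : Real.log a - Real.log b = Real.log (a / b) := (Real.log_div ha0.ne' hb0.ne').symm
  have h2 : Real.log (a / b) ≤ a / b - 1 := Real.log_le_sub_one_of_pos (div_pos ha0 hb0)
  have h3 : a / b - 1 = (a - b) / b := by field_simp
  have h4 : (a - b) / b ≤ (a - b) / c :=
    div_le_div_of_nonneg_left (sub_nonneg.mpr hab) hc hb
  linarith

theorem up_exp_lipschitz {a b M : ℝ} (ha : a ≤ M) (hb : b ≤ M) :
    |Real.exp a - Real.exp b| ≤ Real.exp M * |a - b| := by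
  wlog hab : b ≤ a generalizing a b
  · have := this hb ha (le_of_not_ge hab)
    rwa [abs_sub_comm, abs_sub_comm b a] at this
  rw [abs_of_nonneg (sub_nonneg.mpr (Real.exp_le_exp.mpr hab)),
    abs_of_nonneg (sub_nonneg.mpr hab)]
  have h1 : Real.exp b = Real.exp a * Real.exp (b - a) := by
    rw [← Real.exp_add]
    congr 1
    ring
  have h2 : b - a + 1 ≤ Real.exp (b - a) := Real.add_one_le_exp _
  have h3 : Real.exp a ≤ Real.exp M := Real.exp_le_exp.mpr ha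
  have h4 : 0 < Real.exp a := Real.exp_pos _
  rw [h1]
  nlinarith [mul_le_mul_of_nonneg_left h2 h4.le,
    mul_le_mul_of_nonneg_right h3 (sub_nonneg.mpr hab)]

omit [NumberField F] in
theorem up_mult_le_two (w : InfinitePlace F) : (mult w : ℝ) ≤ 2 := by
  unfold mult
  split_ifs <;> norm_num

/-- The region where all local norms are at least `c` and the sup norm is at most `2`. -/
def upRegion (c : ℝ) : Set (mixedSpace F) :=
  {x | (∀ w : InfinitePlace F, c ≤ normAtPlace w x) ∧ ‖x‖ ≤ 2}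

theorem upF_region {R₀ : ℝ} (hR₀0 : 0 ≤ R₀)
    (hR₀ : ∀ v : logSpace F, ∃ u : (𝓞 F)ˣ, ‖upLog u + v‖ ≤ R₀) {c : ℝ} (hc : 0 < c)
    (hc1 : c ≤ 1) :
    ∃ L B : ℝ, 0 ≤ L ∧ 0 ≤ B ∧ ∀ s : ℝ, 1 ≤ s → s ≤ 2 → ∀ x y : mixedSpace F,
      x ∈ upRegion c → y ∈ upRegion c →
      |upPhi (R₀ + 1) x * mixedEmbedding.norm x ^ (-s)
          - upPhi (R₀ + 1) y * mixedEmbedding.norm y ^ (-s)| ≤ L * ‖x - y‖ ∧
        upPhi (R₀ + 1) x * mixedEmbedding.norm x ^ (-s) ≤ B := by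
  obtain ⟨Lg, hLg0, hLg⟩ := upG_lipschitz hR₀0 hR₀
  set n : ℝ := (Module.finrank ℚ F : ℝ) with hn
  have hn0 : 0 < n := Nat.cast_pos.mpr Module.finrank_pos
  have hsm : (∑ w : InfinitePlace F, (mult w : ℝ)) = n := up_sum_mult
  have hlogc : Real.log c ≤ 0 := Real.log_nonpos hc.le hc1
  set E : ℝ := Real.exp (-(2 * (n * Real.log c))) with hE
  have hE0 : 0 < E := Real.exp_pos _
  refine ⟨Lg * (4 / c) * E + (R₀ + 1) * (E * (2 * (n / c))), (R₀ + 1) * E, by positivity,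
    by positivity, ?_⟩
  intro s hs1 hs2 x y hx hy
  -- basic facts on the region
  have hpos : ∀ z : mixedSpace F, z ∈ upRegion c → ∀ w, 0 < normAtPlace w z := fun z hz w =>
    lt_of_lt_of_le hc (hz.1 w)
  have hN : ∀ z : mixedSpace F, z ∈ upRegion c → mixedEmbedding.norm z ≠ 0 := fun z hz =>
    mixedEmbedding.norm_ne_zero_iff.mpr fun w => (hpos z hz w).ne'
  have hNpos : ∀ z : mixedSpace F, z ∈ upRegion c → 0 < mixedEmbedding.norm z := fun z hz =>
    lt_of_le_of_ne (mixedEmbedding.norm_nonneg z) (Ne.symm (hN z hz))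
  have hlogN_ge : ∀ z : mixedSpace F, z ∈ upRegion c →
      n * Real.log c ≤ Real.log (mixedEmbedding.norm z) := by
    intro z hz
    rw [up_log_norm (hN z hz), ← hsm, Finset.sum_mul]
    refine Finset.sum_le_sum fun w _ => ?_
    exact mul_le_mul_of_nonneg_left (Real.log_le_log hc (hz.1 w)) (Nat.cast_nonneg _)
  have hexp_le : ∀ z : mixedSpace F, z ∈ upRegion c →
      Real.log (mixedEmbedding.norm z) * (-s) ≤ -(2 * (n * Real.log c)) := by
    intro z hz
    have h1 := hlogN_ge z hz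
    have h2 : n * Real.log c ≤ 0 := mul_nonpos_of_nonneg_of_nonpos hn0.le hlogc
    nlinarith
  have hrpow : ∀ z : mixedSpace F, z ∈ upRegion c →
      mixedEmbedding.norm z ^ (-s) = Real.exp (Real.log (mixedEmbedding.norm z) * (-s)) :=
    fun z hz => Real.rpow_def_of_pos (hNpos z hz) _
  have hrpow_le : ∀ z : mixedSpace F, z ∈ upRegion c → mixedEmbedding.norm z ^ (-s) ≤ E := by
    intro z hz
    rw [hrpow z hz]
    exact Real.exp_le_exp.mpr (hexp_le z hz)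
  have hrpow_nonneg : ∀ z : mixedSpace F, 0 ≤ mixedEmbedding.norm z ^ (-s) := fun z =>
    Real.rpow_nonneg (mixedEmbedding.norm_nonneg z) _
  have hd0 : 0 ≤ ‖x - y‖ / c := div_nonneg (norm_nonneg _) hc.le
  -- logarithms of local norms
  have hlogw : ∀ w : InfinitePlace F,
      |Real.log (normAtPlace w x) - Real.log (normAtPlace w y)| ≤ ‖x - y‖ / c := fun w =>
    (up_log_lipschitz hc (hx.1 w) (hy.1 w)).trans
      (div_le_div_of_nonneg_right (up_abs_normAtPlace_sub w x y) hc.le)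
  have hlogN : |Real.log (mixedEmbedding.norm x) - Real.log (mixedEmbedding.norm y)|
      ≤ n * (‖x - y‖ / c) := by
    rw [up_log_norm (hN x hx), up_log_norm (hN y hy), ← Finset.sum_sub_distrib, ← hsm,
      Finset.sum_mul]
    refine (Finset.abs_sum_le_sum_abs _ _).trans (Finset.sum_le_sum fun w _ => ?_)
    rw [← mul_sub, abs_mul, abs_of_nonneg (Nat.cast_nonneg _)]
    exact mul_le_mul_of_nonneg_left (hlogw w) (Nat.cast_nonneg _)
  have hlogMap : ‖logMap x - logMap y‖ ≤ 4 / c * ‖x - y‖ := by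
    rw [pi_norm_le_iff_of_nonneg (by positivity)]
    intro w
    rw [Pi.sub_apply, logMap_apply, logMap_apply, Real.norm_eq_abs, ← mul_sub, abs_mul,
      abs_of_nonneg (Nat.cast_nonneg _)]
    have h1 : |Real.log (normAtPlace w.1 x) - Real.log (mixedEmbedding.norm x) * n⁻¹
        - (Real.log (normAtPlace w.1 y) - Real.log (mixedEmbedding.norm y) * n⁻¹)|
        ≤ 2 * (‖x - y‖ / c) := by
      have e : Real.log (normAtPlace w.1 x) - Real.log (mixedEmbedding.norm x) * n⁻¹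
          - (Real.log (normAtPlace w.1 y) - Real.log (mixedEmbedding.norm y) * n⁻¹)
          = (Real.log (normAtPlace w.1 x) - Real.log (normAtPlace w.1 y))
            - (Real.log (mixedEmbedding.norm x) - Real.log (mixedEmbedding.norm y)) * n⁻¹ := by
        ring
      rw [e]
      refine (abs_sub _ _).trans ?_
      rw [abs_mul, abs_of_pos (inv_pos.mpr hn0)]
      have h2 : |Real.log (mixedEmbedding.norm x) - Real.log (mixedEmbedding.norm y)| * n⁻¹
          ≤ ‖x - y‖ / c := by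
        rw [← div_eq_mul_inv, div_le_iff₀ hn0]
        linarith
      linarith [hlogw w.1]
    have h3 : (mult w.1 : ℝ) ≤ 2 := up_mult_le_two w.1
    have h4 : (0 : ℝ) ≤ mult w.1 := Nat.cast_nonneg _
    have h5 : 4 / c * ‖x - y‖ = 2 * (2 * (‖x - y‖ / c)) := by ring
    rw [h5]
    exact mul_le_mul h3 h1 (abs_nonneg _) (by norm_num)
  have hφ : |upPhi (R₀ + 1) x - upPhi (R₀ + 1) y| ≤ Lg * (4 / c * ‖x - y‖) := by
    rw [upPhi_of_norm_ne_zero _ (hN x hx), upPhi_of_norm_ne_zero _ (hN y hy)]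
    exact (hLg _ _).trans (mul_le_mul_of_nonneg_left hlogMap hLg0)
  have hNdiff : |mixedEmbedding.norm x ^ (-s) - mixedEmbedding.norm y ^ (-s)|
      ≤ E * (2 * (n * (‖x - y‖ / c))) := by
    rw [hrpow x hx, hrpow y hy]
    refine (up_exp_lipschitz (hexp_le x hx) (hexp_le y hy)).trans ?_
    refine mul_le_mul_of_nonneg_left ?_ hE0.le
    rw [← sub_mul, abs_mul, abs_neg, abs_of_nonneg (by linarith : (0 : ℝ) ≤ s), mul_comm]
    exact mul_le_mul hs2 hlogN (abs_nonneg _) (by norm_num)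
  have hφy0 := upPhi_nonneg hR₀ y
  have hφy1 := upPhi_le hR₀0 hR₀ y
  have hφx0 := upPhi_nonneg hR₀ x
  have hφx1 := upPhi_le hR₀0 hR₀ x
  constructor
  · have e : upPhi (R₀ + 1) x * mixedEmbedding.norm x ^ (-s)
        - upPhi (R₀ + 1) y * mixedEmbedding.norm y ^ (-s)
        = (upPhi (R₀ + 1) x - upPhi (R₀ + 1) y) * mixedEmbedding.norm x ^ (-s)
          + upPhi (R₀ + 1) y
            * (mixedEmbedding.norm x ^ (-s) - mixedEmbedding.norm y ^ (-s)) := by ring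
    rw [e]
    refine (abs_add_le _ _).trans ?_
    rw [abs_mul, abs_mul, abs_of_nonneg (hrpow_nonneg x), abs_of_nonneg hφy0]
    have t1 : |upPhi (R₀ + 1) x - upPhi (R₀ + 1) y| * mixedEmbedding.norm x ^ (-s)
        ≤ Lg * (4 / c * ‖x - y‖) * E :=
      mul_le_mul hφ (hrpow_le x hx) (hrpow_nonneg x) (by positivity)
    have t2 : upPhi (R₀ + 1) y * |mixedEmbedding.norm x ^ (-s) - mixedEmbedding.norm y ^ (-s)|
        ≤ (R₀ + 1) * (E * (2 * (n * (‖x - y‖ / c)))) :=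
      mul_le_mul hφy1 hNdiff (abs_nonneg _) (by linarith)
    have e2 : (Lg * (4 / c) * E + (R₀ + 1) * (E * (2 * (n / c)))) * ‖x - y‖
        = Lg * (4 / c * ‖x - y‖) * E + (R₀ + 1) * (E * (2 * (n * (‖x - y‖ / c)))) := by ring
    rw [e2]
    exact add_le_add t1 t2
  · exact mul_le_mul hφx1 (hrpow_le x hx) (hrpow_nonneg x) (by linarith)

/-- `φ · norm ^ (-s)` is Lipschitz and bounded on the annulus `1/2 ≤ ‖x‖ ≤ 2`, uniformly in
`s ∈ [1, 2]`. -/
theorem upF_annulus {R₀ : ℝ} (hR₀0 : 0 ≤ R₀)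
    (hR₀ : ∀ v : logSpace F, ∃ u : (𝓞 F)ˣ, ‖upLog u + v‖ ≤ R₀) :
    ∃ L B : ℝ, 0 ≤ L ∧ 0 ≤ B ∧ ∀ s : ℝ, 1 ≤ s → s ≤ 2 → ∀ x y : mixedSpace F,
      1 / 2 ≤ ‖x‖ → ‖x‖ ≤ 2 → 1 / 2 ≤ ‖y‖ → ‖y‖ ≤ 2 →
      |upPhi (R₀ + 1) x * mixedEmbedding.norm x ^ (-s)
          - upPhi (R₀ + 1) y * mixedEmbedding.norm y ^ (-s)| ≤ L * ‖x - y‖ ∧
        upPhi (R₀ + 1) x * mixedEmbedding.norm x ^ (-s) ≤ B := by
  obtain ⟨c₀, hc₀, hc₀1, hsupp⟩ := upPhi_support (F := F) R₀
  obtain ⟨L, B, hL, hB, hreg⟩ := upF_region hR₀0 hR₀ (c := c₀ / 4) (by positivity) (by linarith)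
  refine ⟨max L (4 * B / c₀), B, le_max_of_le_left hL, hB, ?_⟩
  intro s hs1 hs2
  set Fs : mixedSpace F → ℝ := fun z => upPhi (R₀ + 1) z * mixedEmbedding.norm z ^ (-s) with hFs
  have hFnn : ∀ z, 0 ≤ Fs z := fun z =>
    mul_nonneg (upPhi_nonneg hR₀ z) (Real.rpow_nonneg (mixedEmbedding.norm_nonneg z) _)
  have hmem : ∀ z : mixedSpace F, 1 / 2 ≤ ‖z‖ → Fs z ≠ 0 →
      ∀ w, c₀ / 2 ≤ normAtPlace w z := by
    intro z hz1 hF w
    have h1 : upPhi (R₀ + 1) z ≠ 0 := left_ne_zero_of_mul hF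
    have h2 := hsupp z h1 w
    nlinarith
  have hzero : ∀ z : mixedSpace F, 1 / 2 ≤ ‖z‖ → ‖z‖ ≤ 2 → z ∉ upRegion (c₀ / 4) →
      Fs z = 0 := by
    intro z hz1 hz2 hz
    by_contra hF
    exact hz ⟨fun w => le_trans (by linarith) (hmem z hz1 hF w), hz2⟩
  have hle : ∀ z : mixedSpace F, 1 / 2 ≤ ‖z‖ → ‖z‖ ≤ 2 → Fs z ≤ B := by
    intro z hz1 hz2
    by_cases hz : z ∈ upRegion (c₀ / 4)
    · exact (hreg s hs1 hs2 z z hz hz).2
    · rw [hzero z hz1 hz2 hz]; exact hB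
  have hfar : ∀ z z' : mixedSpace F, 1 / 2 ≤ ‖z‖ → ‖z‖ ≤ 2 → ‖z'‖ ≤ 2 →
      z' ∉ upRegion (c₀ / 4) → Fs z ≤ max L (4 * B / c₀) * ‖z - z'‖ := by
    intro z z' hz1 hz2 hz'2 hz'
    have hmax : 0 ≤ max L (4 * B / c₀) := le_max_of_le_left hL
    by_cases hF : Fs z = 0
    · rw [hF]; exact mul_nonneg hmax (norm_nonneg _)
    · have h1 := hmem z hz1 hF
      have h2 : ∃ w, normAtPlace w z' < c₀ / 4 := by
        by_contra hcon
        push Not at hcon
        exact hz' ⟨hcon, hz'2⟩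
      obtain ⟨w, hw⟩ := h2
      have h3 := up_abs_normAtPlace_sub w z z'
      have h4 : c₀ / 4 ≤ ‖z - z'‖ := by
        have := (abs_le.mp h3).2
        linarith [h1 w]
      have h5 : Fs z ≤ 4 * B / c₀ * (c₀ / 4) := by
        have : 4 * B / c₀ * (c₀ / 4) = B := by field_simp
        rw [this]
        exact hle z hz1 hz2
      have h6 : 4 * B / c₀ * (c₀ / 4) ≤ max L (4 * B / c₀) * ‖z - z'‖ :=
        mul_le_mul (le_max_right _ _) h4 (by positivity) hmax
      linarith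
  intro x y hx1 hx2 hy1 hy2
  refine ⟨?_, hle x hx1 hx2⟩
  show |Fs x - Fs y| ≤ _
  by_cases hxr : x ∈ upRegion (c₀ / 4)
  · by_cases hyr : y ∈ upRegion (c₀ / 4)
    · exact (hreg s hs1 hs2 x y hxr hyr).1.trans
        (mul_le_mul_of_nonneg_right (le_max_left _ _) (norm_nonneg _))
    · rw [hzero y hy1 hy2 hyr, sub_zero, abs_of_nonneg (hFnn x)]
      exact hfar x y hx1 hx2 hy2 hyr
  · rw [hzero x hx1 hx2 hxr, zero_sub, abs_neg, abs_of_nonneg (hFnn y), ← norm_neg (x - y),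
      neg_sub]
    exact hfar y x hy1 hy2 hx2 hxr

end UnitPartition

open scoped Classical in
/-- AN1-φ: Lipschitz partition of unity for the unit action. -/
theorem exists_unit_partition (F : Type) [Field F] [NumberField F] :
    ∃ φ : mixedEmbedding.mixedSpace F → ℝ,
    (∀ x, 0 ≤ φ x) ∧ (∀ x, mixedEmbedding.norm x = 0 → φ x = 0) ∧
    (∀ x, mixedEmbedding.norm x ≠ 0 →
      HasSum (fun u : (𝓞 F)ˣ ↦ φ (mixedEmbedding F ((u : 𝓞 F) : F) * x)) 1) ∧
    ∃ C : ℝ, ∀ s : ℝ, 1 ≤ s → s ≤ 2 → ∀ (x y : mixedEmbedding.mixedSpace F) (r : ℝ), 1 ≤ r → r ≤ ‖x‖ →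
      r ≤ ‖y‖ →
      |φ x * mixedEmbedding.norm x ^ (-s) - φ y * mixedEmbedding.norm y ^ (-s)| ≤
        C * ‖x - y‖ * r ^ (-(Module.finrank ℚ F : ℝ) - 1) := by
  obtain ⟨R₀, hR₀0, hR₀⟩ := up_exists_unit_near (F := F)
  obtain ⟨L, B, hL, hB, hann⟩ := upF_annulus hR₀0 hR₀
  refine ⟨upPhi (R₀ + 1), upPhi_nonneg hR₀, fun x hx => upPhi_of_norm_eq_zero _ hx,
    fun x hx => upPhi_hasSum hR₀ x hx, max (4 * B) L, ?_⟩
  intro s hs1 hs2 x y r hr1 hrx hry
  set n : ℝ := (Module.finrank ℚ F : ℝ) with hn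
  have hn0 : 0 < n := Nat.cast_pos.mpr Module.finrank_pos
  have hr0 : 0 < r := by linarith
  set Fs : mixedSpace F → ℝ := fun z => upPhi (R₀ + 1) z * mixedEmbedding.norm z ^ (-s) with hFs
  have hFnn : ∀ z, 0 ≤ Fs z := fun z =>
    mul_nonneg (upPhi_nonneg hR₀ z) (Real.rpow_nonneg (mixedEmbedding.norm_nonneg z) _)
  have hmax : 0 ≤ max (4 * B) L := le_max_of_le_right hL
  -- scaling
  have hscale : ∀ z : mixedSpace F, ∀ ρ : ℝ, 0 < ρ →
      Fs z = ρ ^ (-(n * s)) * Fs (ρ⁻¹ • z) := by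
    intro z ρ hρ
    have e : z = ρ • (ρ⁻¹ • z) := by rw [smul_smul, mul_inv_cancel₀ hρ.ne', one_smul]
    have h1 := upF_smul (R₀ + 1) s hρ (ρ⁻¹ • z)
    rw [← e] at h1
    exact h1
  have hpow : ∀ ρ : ℝ, r ≤ ρ → ∀ a : ℝ, n ≤ a → ρ ^ (-a) ≤ r ^ (-n) := by
    intro ρ hρ a ha
    calc ρ ^ (-a) ≤ r ^ (-a) :=
          Real.rpow_le_rpow_of_nonpos hr0 hρ (by linarith)
      _ ≤ r ^ (-n) := Real.rpow_le_rpow_of_exponent_le hr1 (by linarith)
  have hns : n ≤ n * s := by nlinarith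
  have hbound : ∀ z : mixedSpace F, r ≤ ‖z‖ → Fs z ≤ B * r ^ (-n) := by
    intro z hz
    have hzpos : 0 < ‖z‖ := by linarith
    have hunit : ‖‖z‖⁻¹ • z‖ = 1 := by
      rw [_root_.norm_smul, norm_inv, norm_norm, inv_mul_cancel₀ hzpos.ne']
    rw [hscale z ‖z‖ hzpos, mul_comm]
    have h2 := (hann s hs1 hs2 (‖z‖⁻¹ • z) (‖z‖⁻¹ • z) (by rw [hunit]; norm_num)
      (by rw [hunit]; norm_num) (by rw [hunit]; norm_num) (by rw [hunit]; norm_num)).2
    exact mul_le_mul h2 (hpow ‖z‖ hz (n * s) hns) (Real.rpow_nonneg hzpos.le _) hB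
  have hrsplit : r ^ (-n) = r * r ^ (-n - 1) := by
    have h1 : -n = 1 + (-n - 1) := by ring
    conv_lhs => rw [h1]
    rw [Real.rpow_add hr0, Real.rpow_one]
  have hrp0 : 0 ≤ r ^ (-n - 1) := Real.rpow_nonneg hr0.le _
  have hxy0 : 0 ≤ ‖x - y‖ := norm_nonneg _
  show |Fs x - Fs y| ≤ _
  by_cases hfar : r / 2 ≤ ‖x - y‖
  · have h1 : |Fs x - Fs y| ≤ Fs x + Fs y := by
      rw [abs_le]
      constructor <;> linarith [hFnn x, hFnn y]
    have h2 := hbound x hrx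
    have h3 := hbound y hry
    have h4 : Fs x + Fs y ≤ 4 * B * (r / 2) * r ^ (-n - 1) := by
      rw [hrsplit] at h2 h3
      nlinarith
    have h5 : 4 * B * (r / 2) * r ^ (-n - 1) ≤ max (4 * B) L * ‖x - y‖ * r ^ (-n - 1) := by
      refine mul_le_mul_of_nonneg_right ?_ hrp0
      exact mul_le_mul (le_max_left _ _) hfar (by linarith) hmax
    linarith
  · rw [not_le] at hfar
    set ρ : ℝ := ‖x‖ with hρ
    have hρ0 : 0 < ρ := by linarith
    have hx' : ‖ρ⁻¹ • x‖ = 1 := by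
      rw [_root_.norm_smul, norm_inv, norm_norm, inv_mul_cancel₀ hρ0.ne']
    have hy' : ‖ρ⁻¹ • y‖ = ρ⁻¹ * ‖y‖ := by
      rw [_root_.norm_smul, norm_inv, norm_norm]
    have hyle : ‖y‖ ≤ ρ + ‖x - y‖ := by
      have := norm_le_norm_add_norm_sub' y x
      rw [norm_sub_rev] at this
      linarith
    have hyge : ρ - ‖x - y‖ ≤ ‖y‖ := by
      have := norm_le_norm_add_norm_sub' x y
      linarith
    have hy1 : 1 / 2 ≤ ‖ρ⁻¹ • y‖ := by
      rw [hy', inv_mul_eq_div, le_div_iff₀ hρ0]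
      linarith
    have hy2 : ‖ρ⁻¹ • y‖ ≤ 2 := by
      rw [hy', inv_mul_eq_div, div_le_iff₀ hρ0]
      linarith
    have h1 := (hann s hs1 hs2 (ρ⁻¹ • x) (ρ⁻¹ • y) (by rw [hx']; norm_num)
      (by rw [hx']; norm_num) hy1 hy2).1
    rw [hscale x ρ hρ0, hscale y ρ hρ0, ← mul_sub, abs_mul,
      abs_of_nonneg (Real.rpow_nonneg hρ0.le _)]
    have h2 : ‖ρ⁻¹ • x - ρ⁻¹ • y‖ = ρ⁻¹ * ‖x - y‖ := by
      rw [← smul_sub, _root_.norm_smul, norm_inv, norm_norm]
    rw [h2] at h1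
    have h3 : ρ ^ (-(n * s)) * (L * (ρ⁻¹ * ‖x - y‖)) = L * ‖x - y‖ * ρ ^ (-(n * s) - 1) := by
      rw [Real.rpow_sub_one hρ0.ne']
      field_simp
    have h4 : ρ ^ (-(n * s) - 1) ≤ r ^ (-n - 1) := by
      have h5 : -(n * s) - 1 = -(n * s + 1) := by ring
      have h6 : -n - 1 = -(n + 1) := by ring
      rw [h5, h6]
      calc ρ ^ (-(n * s + 1)) ≤ r ^ (-(n * s + 1)) :=
            Real.rpow_le_rpow_of_nonpos hr0 hrx (by nlinarith)
        _ ≤ r ^ (-(n + 1)) := Real.rpow_le_rpow_of_exponent_le hr1 (by linarith)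
    calc ρ ^ (-(n * s)) * |Fs (ρ⁻¹ • x) - Fs (ρ⁻¹ • y)|
        ≤ ρ ^ (-(n * s)) * (L * (ρ⁻¹ * ‖x - y‖)) :=
          mul_le_mul_of_nonneg_left h1 (Real.rpow_nonneg hρ0.le _)
      _ = L * ‖x - y‖ * ρ ^ (-(n * s) - 1) := h3
      _ ≤ L * ‖x - y‖ * r ^ (-n - 1) :=
          mul_le_mul_of_nonneg_left h4 (mul_nonneg hL hxy0)
      _ ≤ max (4 * B) L * ‖x - y‖ * r ^ (-n - 1) := by
          refine mul_le_mul_of_nonneg_right ?_ hrp0
          exact mul_le_mul_of_nonneg_right (le_max_right _ _) hxy0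

end Fermat.Agent.S14
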